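/-
Program O (S35), brick B5 supplier (helper16): the inputs of `NodeHyp29.int_of_comp` — equivalently
of `CompN16.comp_surj` — re-exported from the S3 layers `CompHyp16` / `CompGauss16` of Program N.

* `CompData π B Oj φ` : the bundle `(hφB, hker, B⁰/π normal domain, hF1, hsurj)`;
* `compData_of_data`  : from the elementary data of `CompHyp16.branchPrincipal_of_data`;
* `compData_gauss`    : from the hypotheses of `CompGauss16.branchPrincipal_gauss`;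
* `chartAlg`, `comp01/02/11/12` : the four instances in the shape of `CompInstB12.prin01/02/11/12`.
-/
import Mathlib
import Fermat.Agent.ES.N34.CompGauss16

set_option autoImplicit false
set_option linter.unusedSectionVars false

noncomputable section

open HahnSeries Polynomial IntermediateField

namespace Fermat.Agent.ES.N35.CompData16

open Fermat.Agent.RED.PUR.GaussGen8 Fermat.Agent.RED.PUR.KtGauss8 Fermat.Agent.RED.PUR.G1Package8
  Fermat.Agent.RED.PUR.ChartGeneric22 Fermat.Agent.RED.ModelAsm4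
  Fermat.Agent.ES.RED.FibreSurj17 Fermat.Agent.ES.N34.GaussEmb22
  Fermat.Agent.ES.N34.CompN16 Fermat.Agent.ES.N34.CompHyp16 Fermat.Agent.ES.N34.CompGauss16

/-- The inputs of `CompN16.comp_surj` / `NodeHyp29.int_of_comp` for the branch `O_j` of the chart `B`
and the level-`M'` chart `B⁰` mapped by `φ`. -/
structure CompData {R F : Type*} [CommRing R] [Field F] [Algebra R F] (π : R)
    (B : Subalgebra R F) (Oj : ValuationSubring F) {B0 : Type*} [CommRing B0] [Algebra R B0]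
    (φ : B0 →ₐ[R] F) : Prop where
  hφB : ∀ b : B0, φ b ∈ B
  hker : ∀ b : B0, (∃ c ∈ Oj, φ b = algebraMap R F π * c) →
    b ∈ Ideal.span {algebraMap R B0 π}
  dom : IsDomain (B0 ⧸ Ideal.span {algebraMap R B0 π})
  intcl : IsIntegrallyClosed (B0 ⧸ Ideal.span {algebraMap R B0 π})
  hF1 : ∀ x ∈ Oj, ∃ a b : B0, (¬ ∃ c ∈ Oj, φ b = algebraMap R F π * c) ∧
    ∃ c ∈ Oj, x * φ b - φ a = algebraMap R F π * c
  hsurj : ∀ y ∈ B, ∃ b : B0, ∃ c ∈ Oj, y - φ b = algebraMap R F π * c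

section Elementary

variable {R FM F : Type*} [CommRing R] [Field FM] [Field F] [Algebra R FM] [Algebra R F]

/-- `CompData` from the elementary data of `CompHyp16.branchPrincipal_of_data`. -/
theorem compData_of_data (π : R) (φ : FM →ₐ[R] F) (BM : Subalgebra R FM)
    (OvM : ValuationSubring FM) (B : Subalgebra R F) (Oj : ValuationSubring F)
    (leO : ∀ x ∈ B, x ∈ Oj) (pi_nonunit : (algebraMap R F π)⁻¹ ∉ Oj)
    (unif : ∀ x ∈ Oj, x⁻¹ ∉ Oj → ∃ c ∈ Oj, x = algebraMap R F π * c)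
    (hφB : ∀ b : ↥BM, chartHom φ BM b ∈ B)
    (hint : ∀ y ∈ B, ∃ P : Polynomial ↥BM, P.Monic ∧
      ∃ c ∈ Oj, P.eval₂ (chartHom φ BM : ↥BM →+* F) y = algebraMap R F π * c)
    (hcomap : ∀ z : FM, φ z ∈ Oj → z ∈ OvM) (hle : ∀ z ∈ OvM, φ z ∈ Oj)
    (hBMle : ∀ b ∈ BM, b ∈ OvM)
    (satM : ∀ b ∈ BM, ∀ c ∈ OvM, b = algebraMap R FM π * c → c ∈ BM)
    (hlocM : ∀ z ∈ OvM, ∃ a b : ↥BM, (b : FM) ≠ 0 ∧ (b : FM)⁻¹ ∈ OvM ∧ z * (b : FM) = (a : FM))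
    (hcomb : ∀ x ∈ Oj, ∃ z ∈ OvM, ∃ c ∈ Oj, x - φ z = algebraMap R F π * c)
    [hdom : IsDomain (↥BM ⧸ Ideal.span {algebraMap R ↥BM π})]
    [hic : IsIntegrallyClosed (↥BM ⧸ Ideal.span {algebraMap R ↥BM π})] :
    CompData π B Oj (chartHom φ BM) where
  hφB := hφB
  hker := hker_of_sat π φ BM OvM Oj hcomap satM
  dom := hdom
  intcl := hic
  hF1 := hF1_of_comb π φ BM OvM Oj hBMle hlocM pi_nonunit hle hcomb
  hsurj := surj_of_data π φ BM OvM B Oj leO pi_nonunit unif hφB hint hcomap hle hBMle satM hlocM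
    hcomb

end Elementary

section Gauss

variable {K : Type*} [Field K] [CharZero K] {O : ValuationSubring K} [IsDiscreteValuationRing ↥O]
  {π : ↥O} {EM : IntermediateField K (LaurentSeries K)}
  {F : Type*} [Field F] [Algebra K F] [Algebra ↥O F] [IsScalarTower ↥O K F]

/-- **`CompData`, Gauss level**: same hypotheses as `CompGauss16.branchPrincipal_gauss`. -/
theorem compData_gauss (hπ : Irreducible π) (hEM : EM ≤ fracField O)
    (tM : ↥EM) (htM : (tM : LaurentSeries K) ∈ gaussRing O)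
    (htrM : Transcendental (Res O) (gaussRed O ⟨(tM : LaurentSeries K), htM⟩))
    {n' : ℕ} (hn' : relfinrank (Kt O ⟨(tM : LaurentSeries K), htM⟩) EM ≠ 0)
    (hdegM : DegLe O EM ⟨(tM : LaurentSeries K), htM⟩ n')
    (hirrM : Irr O EM ⟨(tM : LaurentSeries K), htM⟩ n')
    (hsm : SmoothChart O EM π tM)
    (φ : ↥EM →ₐ[K] F) (t : F) {ι : F →ₐ[K] LaurentSeries K} {Oj : ValuationSubring F}
    (hOj : IsGaussPullback O ι Oj)
    (leO : ∀ x ∈ chart ↥O t, x ∈ Oj)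
    (hφO : ∀ z : ↥EM, φ z ∈ Oj ↔ z ∈ OvE O hπ EM hEM)
    (hy : φ tM ∈ chart ↥O t)
    (htw : ∃ w : ↥(chart ↥O tM), PiMul π Oj (t - φ (w : ↥EM)))
    (hcomb : ∀ x ∈ Oj, ∃ z ∈ OvE O hπ EM hEM, ∃ c ∈ Oj, x - φ z = algebraMap ↥O F π * c) :
    CompData π (chart ↥O t) Oj (chartHom (restrictO (O := O) φ) (chart ↥O tM)) := by
  have : IsScalarTower ↥O K ↥EM := Fermat.Agent.RED.NumInst4.isScalarTower_OE O EM
  have hpi : (algebraMap ↥O F π)⁻¹ ∉ Oj := by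
    rw [algebraMap_O_eq]; exact pi_inv_not_mem hOj hπ
  have hunif : ∀ x ∈ Oj, x⁻¹ ∉ Oj → ∃ c ∈ Oj, x = algebraMap ↥O F π * c := by
    intro x hx hxi
    rw [algebraMap_O_eq]; exact unif hOj hπ x hx hxi
  have hφB : ∀ b : ↥(chart ↥O tM), chartHom (restrictO (O := O) φ) (chart ↥O tM) b ∈ chart ↥O t :=
    hφB_of_chart (restrictO (O := O) φ) (chart ↥O tM) (chart ↥O t) tM t (fun _ hb => hb)
      (fun _ hy => hy) hy
  have hint := hint_of_chart (chartHom (restrictO (O := O) φ) (chart ↥O tM)) π Oj (chart ↥O t) leO t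
    (self_mem_chart t) (fun _ hy => hy) (fun b => leO _ (hφB b))
    (by obtain ⟨w, hw⟩ := htw; exact ⟨w, hw⟩)
  have hD := isDedekindDomain_quotient hπ hEM tM htM htrM hn' hdegM hirrM hsm
  have hprime := isPrime_span_pi hπ hEM tM htM htrM hdegM hirrM
  have hdom : IsDomain (↥(chart ↥O tM) ⧸
      (Ideal.span {algebraMap ↥O ↥(chart ↥O tM) π} : Ideal ↥(chart ↥O tM))) :=
    Ideal.Quotient.isDomain _
  have hic : IsIntegrallyClosed (↥(chart ↥O tM) ⧸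
      (Ideal.span {algebraMap ↥O ↥(chart ↥O tM) π} : Ideal ↥(chart ↥O tM))) :=
    inferInstance
  exact compData_of_data π (restrictO (O := O) φ) (chart ↥O tM) (OvE O hπ EM hEM)
    (chart ↥O t) Oj leO hpi hunif hφB hint (fun z hz => (hφO z).mp hz)
    (fun z hz => (hφO z).mpr hz) (levelM_le hπ hEM tM htM)
    (levelM_sat hπ hEM tM htM htrM hdegM hirrM) (levelM_loc hπ hEM tM htM htrM hdegM hirrM)
    hcomb

end Gauss

section TwoLevel

variable {K : Type*} [Field K] [CharZero K] {O : ValuationSubring K} [IsDiscreteValuationRing ↥O]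
  {π : ↥O} {EM E : IntermediateField K (LaurentSeries K)}

/-- The restriction of a `K`-embedding `E_M → E` to the level-`M'` chart `chart O s`, as a
homomorphism of `O`-algebras (the `φ` of `CompData` / `NodeHyp29.int_of_comp`). -/
def chartAlg (O : ValuationSubring K) {EM E : IntermediateField K (LaurentSeries K)}
    (φ : ↥EM →ₐ[K] ↥E) (s : ↥EM) : ↥(chart ↥O s) →ₐ[↥O] ↥E :=
  haveI : IsScalarTower ↥O K ↥E := Fermat.Agent.RED.NumInst4.isScalarTower_OE O E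
  chartHom (restrictO (O := O) φ) (chart ↥O s)

@[simp] theorem chartAlg_apply (φ : ↥EM →ₐ[K] ↥E) (s : ↥EM) (x : ↥(chart ↥O s)) :
    chartAlg O φ s x = φ (x : ↥EM) := rfl

/-- **`CompData`, Gauss level, `F := ↥E`**, with `htw` in the unfolded form of `hK0/hK1`. -/
theorem compData_of_gauss (hπ : Irreducible π) (hEM : EM ≤ fracField O)
    (s : ↥EM) (hs : (s : LaurentSeries K) ∈ gaussRing O)
    (htrs : Transcendental (Res O) (gaussRed O ⟨(s : LaurentSeries K), hs⟩))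
    {n' : ℕ} (hn' : relfinrank (Kt O ⟨(s : LaurentSeries K), hs⟩) EM ≠ 0)
    (hdegM : DegLe O EM ⟨(s : LaurentSeries K), hs⟩ n')
    (hirrM : Irr O EM ⟨(s : LaurentSeries K), hs⟩ n')
    (hsm : SmoothChart O EM π s)
    (φ : ↥EM →ₐ[K] ↥E) (t : ↥E) {ι : ↥E →ₐ[K] LaurentSeries K} {Oj : ValuationSubring ↥E}
    (hOj : IsGaussPullback O ι Oj)
    (leO : ∀ x ∈ chart ↥O t, x ∈ Oj)
    (hφO : ∀ z : ↥EM, φ z ∈ Oj ↔ z ∈ OvE O hπ EM hEM)
    (hy : φ s ∈ chart ↥O t)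
    (htw : ∃ w : ↥(chart ↥O s), ∃ o ∈ Oj, t - φ (w : ↥EM) = algebraMap ↥O ↥E π * o)
    (hcomb : ∀ x ∈ Oj, ∃ z ∈ OvE O hπ EM hEM, ∃ c ∈ Oj, x - φ z = algebraMap ↥O ↥E π * c) :
    CompData π (chart ↥O t) Oj (chartAlg O φ s) := by
  have : IsScalarTower ↥O K ↥E := Fermat.Agent.RED.NumInst4.isScalarTower_OE O E
  exact compData_gauss hπ hEM s hs htrs hn' hdegM hirrM hsm φ t hOj leO hφO hy
    (by obtain ⟨w, o, ho, hw⟩ := htw; exact ⟨w, o, ho, hw⟩) hcomb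

/-- chart `0`, branch `O1`, via `a`. -/
theorem comp01 (hπ : Irreducible π) (hEM : EM ≤ fracField O)
    (tM : ↥EM) (ht : (tM : LaurentSeries K) ∈ gaussRing O)
    (htr : Transcendental (Res O) (gaussRed O ⟨(tM : LaurentSeries K), ht⟩))
    {n' : ℕ} (hn' : relfinrank (Kt O ⟨(tM : LaurentSeries K), ht⟩) EM ≠ 0)
    (hdegM : DegLe O EM ⟨(tM : LaurentSeries K), ht⟩ n')
    (hirrM : Irr O EM ⟨(tM : LaurentSeries K), ht⟩ n')
    (hsm : SmoothChart O EM π tM)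
    (a : ↥EM →ₐ[K] ↥E) {ι : ↥E →ₐ[K] LaurentSeries K} {O1 : ValuationSubring ↥E}
    (hO1 : IsGaussPullback O ι O1)
    (leO : ∀ x ∈ chart ↥O (a tM), x ∈ O1)
    (haO : ∀ z : ↥EM, a z ∈ O1 ↔ z ∈ OvE O hπ EM hEM)
    (hcomb : ∀ x ∈ O1, ∃ z ∈ OvE O hπ EM hEM, ∃ c ∈ O1, x - a z = algebraMap ↥O ↥E π * c) :
    CompData π (chart ↥O (a tM)) O1 (chartAlg O a tM) := by
  refine compData_of_gauss hπ hEM tM ht htr hn' hdegM hirrM hsm a (a tM) hO1 leO haO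
    (self_mem_chart _) ?_ hcomb
  refine ⟨⟨tM, self_mem_chart _⟩, 0, O1.zero_mem, ?_⟩
  rw [sub_self, mul_zero]

/-- chart `0`, branch `O2`, via `b`. -/
theorem comp02 (hπ : Irreducible π) (hEM : EM ≤ fracField O)
    (tM : ↥EM) (ht : (tM : LaurentSeries K) ∈ gaussRing O)
    (htr : Transcendental (Res O) (gaussRed O ⟨(tM : LaurentSeries K), ht⟩))
    {n' : ℕ} (hn' : relfinrank (Kt O ⟨(tM : LaurentSeries K), ht⟩) EM ≠ 0)
    (hdegM : DegLe O EM ⟨(tM : LaurentSeries K), ht⟩ n')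
    (hirrM : Irr O EM ⟨(tM : LaurentSeries K), ht⟩ n')
    (hsm : SmoothChart O EM π tM)
    (a b : ↥EM →ₐ[K] ↥E) {ι : ↥E →ₐ[K] LaurentSeries K} {O2 : ValuationSubring ↥E}
    (hO2 : IsGaussPullback O ι O2)
    (leO : ∀ x ∈ chart ↥O (a tM), x ∈ O2)
    (hbO : ∀ z : ↥EM, b z ∈ O2 ↔ z ∈ OvE O hπ EM hEM)
    (hy0 : b tM ∈ chart ↥O (a tM))
    (hK0 : ∃ w : ↥(chart ↥O tM), ∃ o ∈ O2, a tM - b (w : ↥EM) = algebraMap ↥O ↥E π * o)
    (hcomb : ∀ x ∈ O2, ∃ z ∈ OvE O hπ EM hEM, ∃ c ∈ O2, x - b z = algebraMap ↥O ↥E π * c) :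
    CompData π (chart ↥O (a tM)) O2 (chartAlg O b tM) :=
  compData_of_gauss hπ hEM tM ht htr hn' hdegM hirrM hsm b (a tM) hO2 leO hbO hy0 hK0 hcomb

/-- chart `1`, branch `O1`, via `a`. -/
theorem comp11 (hπ : Irreducible π) (hEM : EM ≤ fracField O)
    (tM : ↥EM) (hti : ((tM⁻¹ : ↥EM) : LaurentSeries K) ∈ gaussRing O)
    (htri : Transcendental (Res O) (gaussRed O ⟨((tM⁻¹ : ↥EM) : LaurentSeries K), hti⟩))
    {n' : ℕ} (hn' : relfinrank (Kt O ⟨((tM⁻¹ : ↥EM) : LaurentSeries K), hti⟩) EM ≠ 0)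
    (hdegM : DegLe O EM ⟨((tM⁻¹ : ↥EM) : LaurentSeries K), hti⟩ n')
    (hirrM : Irr O EM ⟨((tM⁻¹ : ↥EM) : LaurentSeries K), hti⟩ n')
    (hsm : SmoothChart O EM π tM⁻¹)
    (a : ↥EM →ₐ[K] ↥E) {ι : ↥E →ₐ[K] LaurentSeries K} {O1 : ValuationSubring ↥E}
    (hO1 : IsGaussPullback O ι O1)
    (leO : ∀ x ∈ chart ↥O (a tM)⁻¹, x ∈ O1)
    (haO : ∀ z : ↥EM, a z ∈ O1 ↔ z ∈ OvE O hπ EM hEM)
    (hcomb : ∀ x ∈ O1, ∃ z ∈ OvE O hπ EM hEM, ∃ c ∈ O1, x - a z = algebraMap ↥O ↥E π * c) :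
    CompData π (chart ↥O (a tM)⁻¹) O1 (chartAlg O a tM⁻¹) := by
  refine compData_of_gauss hπ hEM tM⁻¹ hti htri hn' hdegM hirrM hsm a (a tM)⁻¹ hO1 leO haO
    ?_ ?_ hcomb
  · rw [map_inv₀]
    exact self_mem_chart _
  · refine ⟨⟨tM⁻¹, self_mem_chart _⟩, 0, O1.zero_mem, ?_⟩
    rw [map_inv₀, sub_self, mul_zero]

/-- chart `1`, branch `O2`, via `b`. -/
theorem comp12 (hπ : Irreducible π) (hEM : EM ≤ fracField O)
    (tM : ↥EM) (hti : ((tM⁻¹ : ↥EM) : LaurentSeries K) ∈ gaussRing O)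
    (htri : Transcendental (Res O) (gaussRed O ⟨((tM⁻¹ : ↥EM) : LaurentSeries K), hti⟩))
    {n' : ℕ} (hn' : relfinrank (Kt O ⟨((tM⁻¹ : ↥EM) : LaurentSeries K), hti⟩) EM ≠ 0)
    (hdegM : DegLe O EM ⟨((tM⁻¹ : ↥EM) : LaurentSeries K), hti⟩ n')
    (hirrM : Irr O EM ⟨((tM⁻¹ : ↥EM) : LaurentSeries K), hti⟩ n')
    (hsm : SmoothChart O EM π tM⁻¹)
    (a b : ↥EM →ₐ[K] ↥E) {ι : ↥E →ₐ[K] LaurentSeries K} {O2 : ValuationSubring ↥E}
    (hO2 : IsGaussPullback O ι O2)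
    (leO : ∀ x ∈ chart ↥O (a tM)⁻¹, x ∈ O2)
    (hbO : ∀ z : ↥EM, b z ∈ O2 ↔ z ∈ OvE O hπ EM hEM)
    (hy1 : (b tM)⁻¹ ∈ chart ↥O (a tM)⁻¹)
    (hK1 : ∃ w : ↥(chart ↥O tM⁻¹), ∃ o ∈ O2,
      (a tM)⁻¹ - b (w : ↥EM) = algebraMap ↥O ↥E π * o)
    (hcomb : ∀ x ∈ O2, ∃ z ∈ OvE O hπ EM hEM, ∃ c ∈ O2, x - b z = algebraMap ↥O ↥E π * c) :
    CompData π (chart ↥O (a tM)⁻¹) O2 (chartAlg O b tM⁻¹) := by
  refine compData_of_gauss hπ hEM tM⁻¹ hti htri hn' hdegM hirrM hsm b (a tM)⁻¹ hO2 leO hbO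
    ?_ hK1 hcomb
  rw [map_inv₀]
  exact hy1

end TwoLevel

end Fermat.Agent.ES.N35.CompData16
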