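/-
Program O (S35), brick B5 supplier (helper16): **`CompData`** (the inputs of
`NodeHyp29.int_of_comp` = of `CompN16.comp_surj`) at the `ModelDefs9` data, for both charts and both
branches, for all large normal number fields `K` and every uniformiser `π`.

Pure substitution into `CompData16.comp01/02/11/12`, with exactly the suppliers of
`PrinItems12.prinItems_at` (Program N): `LevelM20`, `GlueItems`, `ModEqItems`, `BranchInt5` + `IsoM25`,
`KronChart15.hK0/hK1`, `CombA26` + `CombW5`.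
-/
import Mathlib
import Fermat.Agent.ES.N34.ModelEnd4
import Fermat.Agent.ES.N35.CompData16

set_option autoImplicit false
set_option synthInstance.maxHeartbeats 400000
set_option linter.unusedSectionVars false

noncomputable section

open HahnSeries ModularCurve IntermediateField

namespace Fermat.Agent.ES.N35.CompItems16

open Fermat.Agent.RED.Interface4 Fermat.Agent.RED.PUR.GaussGen8 Fermat.Agent.RED.PUR.KtGauss8
  Fermat.Agent.RED.PUR.G1Package8 Fermat.Agent.RED.BASE.EtaQuot12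
  Fermat.Agent.RED.PUR.ChartGeneric22 Fermat.Agent.RED.ModelTargets4
  Fermat.Agent.ES.N34.ModelDefs9 Fermat.Agent.ES.N34.ModelN4 Fermat.Agent.ES.N34.ModelTop4
  Fermat.Agent.ES.N34.LevelM20 Fermat.Agent.ES.N34.PrinItems12
  Fermat.Agent.ES.N35.CompData16

variable (n e q M' : ℕ) [NeZero n] [NeZero M'] [NeZero q] (A : ValuationSubring Qbar)

/-- `CompData` ×4 at `K`. -/
def CompItems (K : IntermediateField ℚ Qbar) : Prop :=
  ∀ (ht : tq (↥K) n e ∈ FK M' K) (hE : FK (M' * q) K ≤ fracField (AK A K))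
    (π : ↥(AK A K)) (hπ : IsUnif (AK A K) π),
    CompData π (B0 A q ht) (O1 M' q hπ hE) (chartAlg (AK A K) (alpha K M' q) (tM ht)) ∧
    CompData π (B0 A q ht) (O2 M' q hπ hE) (chartAlg (AK A K) (beta K M' q) (tM ht)) ∧
    CompData π (B1 A q ht) (O1 M' q hπ hE) (chartAlg (AK A K) (alpha K M' q) (tM ht)⁻¹) ∧
    CompData π (B1 A q ht) (O2 M' q hπ hE) (chartAlg (AK A K) (beta K M' q) (tM ht)⁻¹)

variable {n e q M' A}

set_option maxHeartbeats 4000000 in
/-- **`CompData` ×4 at one `K`.** -/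
theorem compItems_at (hq : q.Prime) (hqM : ¬ q ∣ M') (hA : A.LiesOverPrime q)
    (K : IntermediateField ℚ Qbar) [Normal ℚ K] [FiniteDimensional ℚ K]
    (hL : LevelItems n e M' A K) (hG : GlueItems n e q M' A K) (hS2 : ModEqItems n e q M' A K)
    (hC : HcombItems n e q M' A K) : CompItems n e q M' A K := by
  intro ht hE π hπ
  have hdvr : IsDiscreteValuationRing ↥(AK A K) :=
    Fermat.Agent.RED.DESC.NumberFieldDVR27.isDiscreteValuationRing_AK A K hq.ne_zero hA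
  have hirr : Irreducible π := (IsDiscreteValuationRing.irreducible_iff_uniformizer π).mpr hπ.max_eq
  have : Fact q.Prime := ⟨hq⟩
  have : CharP (Res (AK A K)) q :=
    Fermat.Agent.RED.DESC.NumberFieldDVR27.charP_residueField_AK A K hq hA
  obtain ⟨_, _, hLM⟩ := hL
  obtain ⟨L0, L1⟩ := hLM π hirr
  have L0' : LevelM (AK A K) (FK M' K) π (tM ht) := L0
  have L1' : LevelM (AK A K) (FK M' K) π (tM ht)⁻¹ := L1
  obtain ⟨n0, hd0, hi0⟩ := L0'.deg_irr
  obtain ⟨n1, hd1, hi1⟩ := L1'.deg_irr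
  have glue := hG ht hE π hπ
  obtain ⟨hy0, hy1⟩ := hS2 ht
  -- the isometry
  have hiso : ∀ x : FK M' K, (x : LaurentSeries ↥K) ∈ gaussRing (AK A K) ↔
      ((Fermat.Agent.ES.N34.FrickeFK8.frickeFK M' K x : FK M' K) : LaurentSeries ↥K) ∈
        gaussRing (AK A K) :=
    fun x => Fermat.Agent.ES.N34.IsoM25.isoM A K M' q hirr hqM x
  -- `hφO`
  have haO : ∀ z : ↥(FK M' K), alpha K M' q z ∈ O1 M' q hπ hE ↔
      z ∈ OvE (AK A K) hirr (FK M' K) L0'.hEM := fun z =>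
    (Fermat.Agent.ES.N34.BranchInt5.alpha_mem_O1_iff M' q hπ hE z).trans
      (mem_OvE_iff (AK A K) hirr (FK M' K) L0'.hEM z).symm
  have hbO : ∀ z : ↥(FK M' K), beta K M' q z ∈ O2 M' q hπ hE ↔
      z ∈ OvE (AK A K) hirr (FK M' K) L0'.hEM := fun z =>
    (Fermat.Agent.ES.N34.BranchInt5.beta_mem_O2_iff M' q hπ hE hiso z).trans
      (mem_OvE_iff (AK A K) hirr (FK M' K) L0'.hEM z).symm
  -- `hcomb`
  have hc1' := hC ht hE π hπ
  have hc2' := Fermat.Agent.ES.N34.CombW5.hcomb_O2_of_O1 M' q hπ hE hiso hc1'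
  have hc1 : ∀ x ∈ O1 M' q hπ hE, ∃ z ∈ OvE (AK A K) hirr (FK M' K) L0'.hEM,
      ∃ c ∈ O1 M' q hπ hE,
        x - alpha K M' q z = algebraMap ↥(AK A K) ↥(FK (M' * q) K) π * c := by
    intro x hx
    obtain ⟨z, hz, c, hc, h⟩ := hc1' x hx
    exact ⟨z, (mem_OvE_iff (AK A K) hirr (FK M' K) L0'.hEM z).mpr hz, c, hc, h⟩
  have hc2 : ∀ x ∈ O2 M' q hπ hE, ∃ z ∈ OvE (AK A K) hirr (FK M' K) L0'.hEM,
      ∃ c ∈ O2 M' q hπ hE,
        x - beta K M' q z = algebraMap ↥(AK A K) ↥(FK (M' * q) K) π * c := by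
    intro x hx
    obtain ⟨z, hz, c, hc, h⟩ := hc2' x hx
    exact ⟨z, (mem_OvE_iff (AK A K) hirr (FK M' K) L0'.hEM z).mpr hz, c, hc, h⟩
  -- (K) at the single elements `tM`, `tM⁻¹`
  obtain ⟨ψ, hψO, hψ⟩ := Fermat.Agent.ES.N34.KronChart15.exists_frobInv A K q hq hA
  have hb0 : ((Fermat.Agent.ES.N34.FrickeFK8.frickeFK M' K (tM ht) : FK M' K) : LaurentSeries ↥K) ∈
      gaussRing (AK A K) := (hiso (tM ht)).mp L0'.htM
  have hb1 : ((Fermat.Agent.ES.N34.FrickeFK8.frickeFK M' K (tM ht)⁻¹ : FK M' K) :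
      LaurentSeries ↥K) ∈ gaussRing (AK A K) := (hiso (tM ht)⁻¹).mp L1'.htM
  have k0 := Fermat.Agent.ES.N34.KronChart15.hK0 M' q hπ hE ψ hψO hψ ht hb0
  have k1 := Fermat.Agent.ES.N34.KronChart15.hK1 M' q hπ hE ψ hψO hψ ht hb1
  -- Gauss pull-backs
  have hO1 := Fermat.Agent.ES.N34.ModelGlue22.isGaussPullback_O1 (A := A) (K := K) M' q hπ hE
  have hO2 := Fermat.Agent.ES.N34.ModelGlue22.isGaussPullback_O2 (A := A) (K := K) M' q hπ hE
  refine ⟨?_, ?_, ?_, ?_⟩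
  · exact comp01 hirr L0'.hEM (tM ht) L0'.htM L0'.htrM L0'.hn'
      hd0 hi0 L0'.hsm (alpha K M' q) hO1 glue.le_O1_0 haO hc1
  · exact comp02 hirr L0'.hEM (tM ht) L0'.htM L0'.htrM L0'.hn'
      hd0 hi0 L0'.hsm (alpha K M' q) (beta K M' q) hO2 glue.le_O2_0 hbO hy0 k0 hc2
  · exact comp11 hirr L0'.hEM (tM ht) L1'.htM L1'.htrM L1'.hn'
      hd1 hi1 L1'.hsm (alpha K M' q) hO1 glue.le_O1_1 haO hc1
  · exact comp12 hirr L0'.hEM (tM ht) L1'.htM L1'.htrM L1'.hn'
      hd1 hi1 L1'.hsm (alpha K M' q) (beta K M' q) hO2 glue.le_O2_1 hbO hy1 k1 hc2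

/-- **supplier theorem, abstract form.** -/
theorem compItems_of (hq : q.Prime) (hqM : ¬ q ∣ M') (hA : A.LiesOverPrime q)
    (hL : Large (LevelItems n e M' A)) (hG : Large (GlueItems n e q M' A))
    (hS2 : Large (ModEqItems n e q M' A)) (hC : Large (HcombItems n e q M' A)) :
    Large (CompItems n e q M' A) := by
  obtain ⟨K₀, hK₀, h⟩ := ((hL.and hG).and hS2).and hC
  refine ⟨K₀, hK₀, fun K _ hfd hle => ?_⟩
  obtain ⟨⟨⟨a1, a2⟩, a3⟩, a4⟩ := h K hfd hle
  have := hfd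
  exact compItems_at hq hqM hA K a1 a2 a3 a4

/-- **`q` odd** (`4 ∣ M'`, Hauptmodul `tq · 4 8`): no residual hypothesis. -/
theorem compItems_four (hq : q.Prime) (hqM : ¬ q ∣ M') (hq2 : q ≠ 2) (hM : 4 ∣ M')
    (hA : A.LiesOverPrime q) : Large (CompItems 4 8 q M' A) := by
  have hJ : JTarget 4 8 := Fermat.Agent.RED.ModelFinal4.jTarget
    (Fermat.Agent.RED.BASE.MainCusp12.base_four M' hM).1.genBase
  have hG : Large (GlueItems 4 8 q M' A) := Fermat.Agent.ES.N34.ModelEnd4.glueItems hq hqM hA hJ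
  exact compItems_of hq hqM hA (levelItems_four hq hqM hM hA) hG
    (Fermat.Agent.ES.N34.ItemsAd6.modEqItems_four hq hq2 hqM hA (chartItems_four hM hq hA) hG)
    (Fermat.Agent.ES.N34.CombA26.hcomb_four hq hqM hM hA)

/-- **`q = 2`** (`9 ∣ M'`, Hauptmodul `tq · 9 3`): no residual hypothesis. -/
theorem compItems_nine [NeZero 2] (hqM : ¬ 2 ∣ M') (hM : 9 ∣ M') (hA : A.LiesOverPrime 2) :
    Large (CompItems 9 3 2 M' A) := by
  have hJ : JTarget 9 3 := Fermat.Agent.RED.ModelFinal4.jTarget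
    (Fermat.Agent.RED.BASE.MainCusp12.base_nine M' hM).1.genBase
  have hG : Large (GlueItems 9 3 2 M' A) :=
    Fermat.Agent.ES.N34.ModelEnd4.glueItems Nat.prime_two hqM hA hJ
  exact compItems_of Nat.prime_two hqM hA (levelItems_nine Nat.prime_two hqM hM hA) hG
    (Fermat.Agent.ES.N34.ItemsAd6.modEqItems_nine hqM hA (chartItems_nine hM Nat.prime_two hA) hG)
    (Fermat.Agent.ES.N34.CombA26.hcomb_nine Nat.prime_two hqM hM hA)

end Fermat.Agent.ES.N35.CompItems16
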