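/-
S35 scoping (helper26): **weak approximation / CRT for two rank-one valuation rings with a common
uniformiser**, in the elementwise vocabulary of `NodalCore13.NodalTwoChartModel`
(`pi_nonunit_j`, `unif_j`, `arch_j`) — the hypothesis `hCRT` of `ThirdDiffCL29.third_diff_root`.

`O1 ≠ O2` valuation subrings of a field `F`, `p ∈ F` with `p ∈ O_j`, `p⁻¹ ∉ O_j`, every non-unit of `O_j`
is a multiple of `p` (`unif_j`), and `∀ x, ∃ k, p ^ k * x ∈ O_j` (`arch_j`).  Then for all `a b ≠ 0` there is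
`T` with `T / a ∈ 1 + p O1` and `T / b ∈ 1 + p O2`.  Mathlib only.
-/
import Mathlib

set_option autoImplicit false

namespace Fermat.Agent.ES.N35.CrtTwo26

variable {F : Type*} [Field F]

section One

variable {p : F} {O : ValuationSubring F}

/-- `1 + p c` is a unit of `O`. -/
theorem inv_one_add_mem (hp : p ∈ O) (hp' : p⁻¹ ∉ O)
    (unif : ∀ x ∈ O, x⁻¹ ∉ O → ∃ c ∈ O, x = p * c) {c : F} (hc : c ∈ O) :
    (1 + p * c)⁻¹ ∈ O := by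
  by_contra h
  have hmem : 1 + p * c ∈ O := O.add_mem _ _ O.one_mem (O.mul_mem _ _ hp hc)
  obtain ⟨d, hd, e⟩ := unif _ hmem h
  apply hp'
  have hp0 : p ≠ 0 := by
    rintro rfl
    simp at e
  have : p⁻¹ = d - c := inv_eq_of_mul_eq_one_right (by linear_combination -e)
  rw [this]
  exact sub_mem hd hc

/-- powers: `(p c)^k = p^k c^k`. -/
theorem pow_mul_mem {c : F} (hc : c ∈ O) (k : ℕ) : ∃ d ∈ O, (p * c) ^ k = p ^ k * d :=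
  ⟨c ^ k, pow_mem hc k, mul_pow p c k⟩

end One

section Two

variable {p : F} {O1 O2 : ValuationSubring F}

/-- Two distinct rank-one valuation rings with common uniformiser are incomparable:
there is `w` with `w ∈ p O1` and `w⁻¹ ∈ p O2`. -/
theorem exists_separator
    (hp2' : p⁻¹ ∉ O2) (hp1' : p⁻¹ ∉ O1)
    (unif1 : ∀ x ∈ O1, x⁻¹ ∉ O1 → ∃ c ∈ O1, x = p * c)
    (unif2 : ∀ x ∈ O2, x⁻¹ ∉ O2 → ∃ c ∈ O2, x = p * c)
    (h12 : O1 ≠ O2) :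
    ∃ w : F, w ≠ 0 ∧ (∃ c ∈ O1, w = p * c) ∧ (∃ c ∈ O2, w⁻¹ = p * c) := by
  -- `x ∈ O1 ∖ O2`
  have hx : ∃ x, x ∈ O1 ∧ x ∉ O2 := by
    by_contra hcon
    push Not at hcon
    -- `O1 ≤ O2`, then `O2 ≤ O1`
    apply h12
    apply le_antisymm hcon
    intro y hy
    by_contra hy1
    have hy0 : y ≠ 0 := by
      rintro rfl
      exact hy1 O1.zero_mem
    have hyinv : y⁻¹ ∈ O1 := (O1.mem_or_inv_mem y).resolve_left hy1
    obtain ⟨c, hc, e⟩ := unif1 _ hyinv (by rwa [inv_inv])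
    apply hp2'
    have hp0 : p ≠ 0 := by
      rintro rfl
      rw [zero_mul] at e
      exact inv_ne_zero hy0 e
    have : p⁻¹ = c * y := inv_eq_of_mul_eq_one_right (by
      rw [← mul_assoc, ← e, inv_mul_cancel₀ hy0])
    rw [this]
    exact O2.mul_mem _ _ (hcon c hc) hy
  have hy : ∃ y, y ∈ O2 ∧ y ∉ O1 := by
    by_contra hcon
    push Not at hcon
    apply h12
    refine le_antisymm ?_ hcon
    intro y hy
    by_contra hy2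
    have hy0 : y ≠ 0 := by
      rintro rfl
      exact hy2 O2.zero_mem
    have hyinv : y⁻¹ ∈ O2 := (O2.mem_or_inv_mem y).resolve_left hy2
    obtain ⟨c, hc, e⟩ := unif2 _ hyinv (by rwa [inv_inv])
    apply hp1'
    have hp0 : p ≠ 0 := by
      rintro rfl
      rw [zero_mul] at e
      exact inv_ne_zero hy0 e
    have : p⁻¹ = c * y := inv_eq_of_mul_eq_one_right (by
      rw [← mul_assoc, ← e, inv_mul_cancel₀ hy0])
    rw [this]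
    exact O1.mul_mem _ _ (hcon c hc) hy
  obtain ⟨x, hx1, hx2⟩ := hx
  obtain ⟨y, hy2, hy1⟩ := hy
  have hx0 : x ≠ 0 := by
    rintro rfl
    exact hx2 O2.zero_mem
  have hy0 : y ≠ 0 := by
    rintro rfl
    exact hy1 O1.zero_mem
  have hyinv : y⁻¹ ∈ O1 := (O1.mem_or_inv_mem y).resolve_left hy1
  have hxinv : x⁻¹ ∈ O2 := (O2.mem_or_inv_mem x).resolve_left hx2
  obtain ⟨c1, hc1, e1⟩ := unif1 _ hyinv (by rwa [inv_inv])
  obtain ⟨c2, hc2, e2⟩ := unif2 _ hxinv (by rwa [inv_inv])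
  refine ⟨x * y⁻¹, mul_ne_zero hx0 (inv_ne_zero hy0), ⟨x * c1, O1.mul_mem _ _ hx1 hc1, ?_⟩,
    ⟨y * c2, O2.mul_mem _ _ hy2 hc2, ?_⟩⟩
  · rw [e1]; ring
  · rw [mul_inv, inv_inv, e2]; ring

/-- **Idempotent-like elements**: for every `k` there is `θ` with `θ - 1 ∈ p^k O1`, `θ ∈ p^k O2`. -/
theorem exists_theta
    (hp1 : p ∈ O1) (hp2 : p ∈ O2) (hp1' : p⁻¹ ∉ O1) (hp2' : p⁻¹ ∉ O2)
    (unif1 : ∀ x ∈ O1, x⁻¹ ∉ O1 → ∃ c ∈ O1, x = p * c)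
    (unif2 : ∀ x ∈ O2, x⁻¹ ∉ O2 → ∃ c ∈ O2, x = p * c)
    (h12 : O1 ≠ O2) (k : ℕ) :
    ∃ θ : F, (∃ c ∈ O1, θ - 1 = p ^ k * c) ∧ (∃ c ∈ O2, θ = p ^ k * c) := by
  obtain ⟨w, hw0, ⟨c1, hc1, e1⟩, ⟨c2, hc2, e2⟩⟩ :=
    exists_separator hp2' hp1' unif1 unif2 h12
  rcases Nat.eq_zero_or_pos k with rfl | hk
  · exact ⟨1, ⟨0, O1.zero_mem, by simp⟩, ⟨1, O2.one_mem, by simp⟩⟩
  obtain ⟨k', rfl⟩ : ∃ k', k = k' + 1 := ⟨k - 1, by omega⟩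
  -- `w^k = p (p^k' c1^k)`, so `1 + w^k` is a unit of `O1`; same for `w⁻¹` in `O2`
  have hu1 : (1 + w ^ (k' + 1))⁻¹ ∈ O1 := by
    have : w ^ (k' + 1) = p * (p ^ k' * c1 ^ (k' + 1)) := by rw [e1, mul_pow, pow_succ]; ring
    rw [this]
    exact inv_one_add_mem hp1 hp1' unif1
      (O1.mul_mem _ _ (pow_mem hp1 _) (pow_mem hc1 _))
  have hu2 : (1 + w⁻¹ ^ (k' + 1))⁻¹ ∈ O2 := by
    have : w⁻¹ ^ (k' + 1) = p * (p ^ k' * c2 ^ (k' + 1)) := by rw [e2, mul_pow, pow_succ]; ring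
    rw [this]
    exact inv_one_add_mem hp2 hp2' unif2
      (O2.mul_mem _ _ (pow_mem hp2 _) (pow_mem hc2 _))
  have hwk0 : w ^ (k' + 1) ≠ 0 := pow_ne_zero _ hw0
  have hW1 : w ^ (k' + 1) = p ^ (k' + 1) * c1 ^ (k' + 1) := by rw [e1, mul_pow]
  have hW2 : (w ^ (k' + 1))⁻¹ = p ^ (k' + 1) * c2 ^ (k' + 1) := by rw [← inv_pow, e2, mul_pow]
  have h1ne : 1 + w ^ (k' + 1) ≠ 0 := by
    intro h0
    have : w ^ (k' + 1) = p * (p ^ k' * c1 ^ (k' + 1)) := by rw [e1, mul_pow, pow_succ]; ring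
    apply hp1'
    have h2 : p⁻¹ = -(p ^ k' * c1 ^ (k' + 1)) :=
      inv_eq_of_mul_eq_one_right (by linear_combination -h0 + this)
    rw [h2]
    exact O1.neg_mem _ (O1.mul_mem _ _ (pow_mem hp1 _) (pow_mem hc1 _))
  -- the two descriptions of `θ = (1 + W)⁻¹`
  have hθ1 : (1 + w ^ (k' + 1))⁻¹ - 1 = -(w ^ (k' + 1)) * (1 + w ^ (k' + 1))⁻¹ := by
    field_simp
    ring
  have key : 1 + (w ^ (k' + 1))⁻¹ = (1 + w ^ (k' + 1)) * (w ^ (k' + 1))⁻¹ := by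
    rw [add_mul, one_mul, mul_inv_cancel₀ hwk0, add_comm]
  have hθ2 : (1 + w ^ (k' + 1))⁻¹ = (w ^ (k' + 1))⁻¹ * (1 + (w ^ (k' + 1))⁻¹)⁻¹ := by
    rw [key, mul_inv, inv_inv, mul_comm ((1 + w ^ (k' + 1))⁻¹) (w ^ (k' + 1)), ← mul_assoc,
      inv_mul_cancel₀ hwk0, one_mul]
  rw [inv_pow] at hu2
  refine ⟨(1 + w ^ (k' + 1))⁻¹, ⟨-(c1 ^ (k' + 1)) * (1 + w ^ (k' + 1))⁻¹, ?_, ?_⟩,
    ⟨c2 ^ (k' + 1) * (1 + (w ^ (k' + 1))⁻¹)⁻¹, ?_, ?_⟩⟩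
  · exact O1.mul_mem _ _ (O1.neg_mem _ (pow_mem hc1 _)) hu1
  · rw [hθ1, hW1]; ring
  · exact O2.mul_mem _ _ (pow_mem hc2 _) hu2
  · rw [hθ2, hW2]; ring

end Two

section Crt

variable {p : F} {O1 O2 : ValuationSubring F}

/-- **CRT / weak approximation**: `T ≡ a` multiplicatively mod `p O1` and `T ≡ b` mod `p O2`. -/
theorem exists_crt
    (hp1 : p ∈ O1) (hp2 : p ∈ O2) (hp1' : p⁻¹ ∉ O1) (hp2' : p⁻¹ ∉ O2)
    (unif1 : ∀ x ∈ O1, x⁻¹ ∉ O1 → ∃ c ∈ O1, x = p * c)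
    (unif2 : ∀ x ∈ O2, x⁻¹ ∉ O2 → ∃ c ∈ O2, x = p * c)
    (arch1 : ∀ x : F, ∃ k : ℕ, p ^ k * x ∈ O1) (arch2 : ∀ x : F, ∃ k : ℕ, p ^ k * x ∈ O2)
    (h12 : O1 ≠ O2) (a b : F) (ha : a ≠ 0) (hb : b ≠ 0) :
    ∃ T : F, (∃ c ∈ O1, T / a - 1 = p * c) ∧ (∃ c ∈ O2, T / b - 1 = p * c) := by
  obtain ⟨k1, hk1⟩ := arch1 (1 - b / a)
  obtain ⟨k2, hk2⟩ := arch2 (a / b - 1)
  obtain ⟨θ, ⟨c1, hc1, e1⟩, ⟨c2, hc2, e2⟩⟩ :=
    exists_theta hp1 hp2 hp1' hp2' unif1 unif2 h12 (k1 + k2 + 1)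
  refine ⟨a * θ + b * (1 - θ), ⟨c1 * p ^ k2 * (p ^ k1 * (1 - b / a)), ?_, ?_⟩,
    ⟨c2 * p ^ k1 * (p ^ k2 * (a / b - 1)), ?_, ?_⟩⟩
  · exact O1.mul_mem _ _ (O1.mul_mem _ _ hc1 (pow_mem hp1 _)) hk1
  · have h : (a * θ + b * (1 - θ)) / a - 1 = (θ - 1) * (1 - b / a) := by
      field_simp
      ring
    rw [h, e1]
    ring
  · exact O2.mul_mem _ _ (O2.mul_mem _ _ hc2 (pow_mem hp2 _)) hk2
  · have h : (a * θ + b * (1 - θ)) / b - 1 = θ * (a / b - 1) := by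
      field_simp
      ring
    rw [h, e2]
    ring

end Crt

end Fermat.Agent.ES.N35.CrtTwo26
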