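/-
Program O (S35), helper26: the hypothesis `hCRT` of `ThirdDiffCL29.third_diff_root` (helper29), discharged
* from the nodal two-chart model `M : NodalCore13.NodalTwoChartModel R F π t B0 B1 O1 O2` (its fields
  `pi_nonunit_j`, `unif_j`, `arch_j`) + `π ∈ O_j` + `O1 ≠ O2`  (`crt_of_model`), and
* at the `ModelDefs9` data (`O1 M' q hπ hE ≠ O2 M' q hπ hE` is `OneNeTwo3.o1_ne_o2`, on main)
  (`crt_modelDefs`).
Conclusion in the unfolded form `∃ c ∈ O_j, T / a - 1 = π * c` (literally `MulCong29.MC π O_j T a`, by `Iff.rfl`).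
-/
import Mathlib
import Fermat.Agent.ES.N34.NodalCore13
import Fermat.Agent.ES.N34.OneNeTwo3
import Fermat.Agent.ES.N35.CrtTwo26

set_option autoImplicit false
set_option linter.unusedSectionVars false

noncomputable section

namespace Fermat.Agent.ES.N35.CrtModel26

open Fermat.Agent.ES.N34.NodalCore13

section Abstract

variable {R F : Type*} [CommRing R] [Field F] [Algebra R F]

/-- `hCRT` from the nodal two-chart model. -/
theorem crt_of_model {π : R} {t : F} {B0 B1 : Subalgebra R F} {O1 O2 : ValuationSubring F}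
    (M : NodalTwoChartModel R F π t B0 B1 O1 O2)
    (hp1 : algebraMap R F π ∈ O1) (hp2 : algebraMap R F π ∈ O2) (h12 : O1 ≠ O2)
    (a b : F) (ha : a ≠ 0) (hb : b ≠ 0) :
    ∃ T : F, (∃ c ∈ O1, T / a - 1 = algebraMap R F π * c) ∧
      (∃ c ∈ O2, T / b - 1 = algebraMap R F π * c) :=
  CrtTwo26.exists_crt hp1 hp2 M.pi_nonunit1 M.pi_nonunit2 M.unif1 M.unif2 M.arch1 M.arch2 h12
    a b ha hb

/-- `hCRT` in the literal quantifier shape of `third_diff_root` (`α β : F₀ →+* F`). -/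
theorem hCRT_of_model {F₀ : Type*} [Field F₀] {π : R} {t : F} {B0 B1 : Subalgebra R F}
    {O1 O2 : ValuationSubring F} (M : NodalTwoChartModel R F π t B0 B1 O1 O2)
    (hp1 : algebraMap R F π ∈ O1) (hp2 : algebraMap R F π ∈ O2) (h12 : O1 ≠ O2)
    (α β : F₀ →+* F) (z₁ z₂ : F₀) (h1 : z₁ ≠ 0) (h2 : z₂ ≠ 0) :
    ∃ T : F, (∃ c ∈ O1, T / α z₁ - 1 = algebraMap R F π * c) ∧
      (∃ c ∈ O2, T / β z₂ - 1 = algebraMap R F π * c) :=
  crt_of_model M hp1 hp2 h12 _ _ ((map_ne_zero α).mpr h1) ((map_ne_zero β).mpr h2)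

/-- `π ∈ O1` from the model (`R → B0 ⊆ O1`). -/
theorem pi_mem_O1 {π : R} {t : F} {B0 B1 : Subalgebra R F} {O1 O2 : ValuationSubring F}
    (M : NodalTwoChartModel R F π t B0 B1 O1 O2) : algebraMap R F π ∈ O1 :=
  M.le_O1_0 _ (B0.algebraMap_mem π)

/-- `π ∈ O2` from the model. -/
theorem pi_mem_O2 {π : R} {t : F} {B0 B1 : Subalgebra R F} {O1 O2 : ValuationSubring F}
    (M : NodalTwoChartModel R F π t B0 B1 O1 O2) : algebraMap R F π ∈ O2 :=
  M.le_O2_0 _ (B0.algebraMap_mem π)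

/-- `hCRT` from the model and `O1 ≠ O2` alone. -/
theorem hCRT_of_model' {F₀ : Type*} [Field F₀] {π : R} {t : F} {B0 B1 : Subalgebra R F}
    {O1 O2 : ValuationSubring F} (M : NodalTwoChartModel R F π t B0 B1 O1 O2) (h12 : O1 ≠ O2)
    (α β : F₀ →+* F) (z₁ z₂ : F₀) (h1 : z₁ ≠ 0) (h2 : z₂ ≠ 0) :
    ∃ T : F, (∃ c ∈ O1, T / α z₁ - 1 = algebraMap R F π * c) ∧
      (∃ c ∈ O2, T / β z₂ - 1 = algebraMap R F π * c) :=
  hCRT_of_model M (pi_mem_O1 M) (pi_mem_O2 M) h12 α β z₁ z₂ h1 h2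

end Abstract

section Concrete

open Fermat.Agent.RED.Interface4 Fermat.Agent.RED.PUR.GaussGen8 Fermat.Agent.ES.N34.ModelDefs9

variable {A : ValuationSubring Qbar} {K : IntermediateField ℚ Qbar} (M' q : ℕ) [NeZero M'] [NeZero q]

/-- **`hCRT` at the `ModelDefs9` data** (`O1 ≠ O2` is `OneNeTwo3.o1_ne_o2`). -/
theorem hCRT_modelDefs [Fact q.Prime] [CharP (Res (AK A K)) q] {π : ↥(AK A K)}
    (hπ : IsUnif (AK A K) π) (hE : FK (M' * q) K ≤ fracField (AK A K))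
    {t : ↥(FK (M' * q) K)} {B0 B1 : Subalgebra ↥(AK A K) ↥(FK (M' * q) K)}
    (M : NodalTwoChartModel ↥(AK A K) ↥(FK (M' * q) K) π t B0 B1 (O1 M' q hπ hE) (O2 M' q hπ hE))
    (z₁ z₂ : ↥(FK M' K)) (h1 : z₁ ≠ 0) (h2 : z₂ ≠ 0) :
    ∃ T : ↥(FK (M' * q) K),
      (∃ c ∈ O1 M' q hπ hE, T / alpha K M' q z₁ - 1
        = algebraMap ↥(AK A K) ↥(FK (M' * q) K) π * c) ∧
      (∃ c ∈ O2 M' q hπ hE, T / beta K M' q z₂ - 1
        = algebraMap ↥(AK A K) ↥(FK (M' * q) K) π * c) :=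
  hCRT_of_model' M (Fermat.Agent.ES.N34.OneNeTwo3.o1_ne_o2 M' q hπ hE)
    (alpha K M' q : ↥(FK M' K) →+* ↥(FK (M' * q) K)) (beta K M' q : ↥(FK M' K) →+* ↥(FK (M' * q) K))
    z₁ z₂ h1 h2

end Concrete

end Fermat.Agent.ES.N35.CrtModel26
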