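/-
Program O (S35: Frobenius at `q ∥ M` has trace `±(q + 1)`), interface brick — helper13 (twin of
`ES/N34/IfaceN4`).

Literal cross-chapter contracts for helper29's "third difference" route (`S35_NOTE29.md`):

  (C″)  ⇐(TOP-O)  `∀ FBar q M' A`  ⇐(DESC-O)  `FNumLarge q M' A`  ⇐(NUM-O)  CORE-nodal + MODEL + GAL-Frobenius
                                                                              + (N̄)/(K̄) + nodes

Field form everywhere.  Level `N' = M' * q` (`q ∤ M'`), degeneracy maps `α, β : F_{M'} → F_{N'}`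
(the Prelude's `heckeAlphaBar`, `heckeBetaBar`).

* `normAlong φ x` = `ES.HECKE.BaseChange19.normAlong` (on main): the norm along a field embedding
  (`Algebra.norm` for `algebraAlong φ`; this is the norm in `Divisor.PushforwardNormFormula`; equal by `rfl` to
  `ES.HECKE.PointFormula28.normAlong`).
* `Dl s x = s (s x) / x` (`Δ_{σ²}`), `Nb s q x = s (s x) / x ^ (q ^ 2)` (`∇_{σ²}`); `third s q f = ∇ Δ Δ f`
  is the Kummer generator of `(σ² - q²)(σ² - 1)² w` when `f` is the Kummer generator of `w`.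
* `FBar q M' A` : over `ℚ̄`; for a Frobenius lift `σ` at `q`, `f` with all orders divisible by `m` (`q ∤ m`)
  and `q`-new in Kummer form (`N_α f`, `N_β f` are constants times `m`-th powers), `∇ Δ Δ f` is an `m`-th power.
* `FNum q M' A K` : the same over a finite normal `K ⊂ ℚ̄`, up to a constant of `K`, `K`-rational support.
-/
import Mathlib
import Fermat.Agent.ES.N34.IfaceN4
import Fermat.Agent.ES.N34.ModelDefs9
import Fermat.Prelude.Def_AlgebraicCurve_Correspondence
import Fermat.Prelude.Def_ModularCurve_HeckeOperator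
import Fermat.Prelude.Def_EllipticCurve_FrobeniusTrace
import Fermat.Agent.ES.HECKE.BaseChange19

set_option autoImplicit false
set_option synthInstance.maxHeartbeats 400000

open HahnSeries AlgebraicCurve ModularCurve

noncomputable section

namespace Fermat.Agent.ES.N35.IfaceO13

open Fermat.Agent.RED.Interface4 Fermat.Agent.ES.N34.IfaceN4
open Fermat.Agent.ES.HECKE.BaseChange19 (normAlong)

section Generic

variable {K F₀ F : Type*} [Field K] [Field F₀] [Field F] [Algebra K F₀] [Algebra K F]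

/-- `Δ_{s²} x = s² x / x`. -/
def Dl (s : F ≃+* F) (x : F) : F := s (s x) / x

/-- `∇_{s²} x = s² x / x ^ (q²)`. -/
def Nb (s : F ≃+* F) (q : ℕ) (x : F) : F := s (s x) / x ^ (q ^ 2)

/-- The third difference `∇ Δ Δ f`. -/
def third (s : F ≃+* F) (q : ℕ) (f : F) : F := Nb s q (Dl s (Dl s f))

end Generic

/-- **(C″) over `ℚ̄` at level `M' * q`, Kummer form.** -/
def FBar (q M' : ℕ) [NeZero M'] [NeZero q] (A : ValuationSubring Qbar) : Prop :=
  ∀ σ : Qbar ≃ₐ[ℚ] Qbar, A.IsFrobeniusAt σ q → ∀ m : ℕ, ¬ q ∣ m →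
    ∀ f : Fbar (M' * q), f ≠ 0 →
    (∀ v : Place Qbar (Fbar (M' * q)), (m : ℤ) ∣ v.ord f) →
    (∃ (c : Qbar) (g : Fbar M'), c ≠ 0 ∧ g ≠ 0 ∧
      normAlong (heckeAlphaBar Qbar M' q) f = c • g ^ m) →
    (∃ (c : Qbar) (g : Fbar M'), c ≠ 0 ∧ g ≠ 0 ∧
      normAlong (heckeBetaBar Qbar M' q) f = c • g ^ m) →
    ∃ S : Fbar (M' * q), S ≠ 0 ∧ S ^ m = third (gB (M' * q) σ) q f

/-- **(C″) over a finite normal `K ⊂ ℚ̄`**, conclusion up to a nonzero constant of `K`; the support of
`div f` consists of `K`-rational places. -/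
def FNum (q M' : ℕ) [NeZero M'] [NeZero q] (A : ValuationSubring Qbar)
    (K : IntermediateField ℚ Qbar) [Normal ℚ K] : Prop :=
  ∀ σ : Qbar ≃ₐ[ℚ] Qbar, A.IsFrobeniusAt σ q → ∀ m : ℕ, ¬ q ∣ m →
    ∀ f : FK (M' * q) K, f ≠ 0 →
    (∀ v : Place K (FK (M' * q) K), (m : ℤ) ∣ v.ord f) →
    (∀ v : Place K (FK (M' * q) K), v.ord f ≠ 0 →
      Function.Surjective (algebraMap K v.ResidueField)) →
    (∃ (c : K) (g : FK M' K), c ≠ 0 ∧ g ≠ 0 ∧
      normAlong (Fermat.Agent.ES.N34.ModelDefs9.alpha K M' q) f = c • g ^ m) →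
    (∃ (c : K) (g : FK M' K), c ≠ 0 ∧ g ≠ 0 ∧
      normAlong (Fermat.Agent.ES.N34.ModelDefs9.beta K M' q) f = c • g ^ m) →
    ∃ (c : K) (S : FK (M' * q) K), c ≠ 0 ∧ S ≠ 0 ∧
      S ^ m = c • third (gK (M' * q) K (σ.restrictNormal K)) q f

/-- `FNum` over all sufficiently large finite normal subfields of `ℚ̄`. -/
def FNumLarge (q M' : ℕ) [NeZero M'] [NeZero q] (A : ValuationSubring Qbar) : Prop :=
  ∃ K₀ : IntermediateField ℚ Qbar, FiniteDimensional ℚ K₀ ∧
    ∀ (K : IntermediateField ℚ Qbar) [Normal ℚ K], FiniteDimensional ℚ K → K₀ ≤ K → FNum q M' A K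

/-- **Chapter DESC-O** (descent to number fields, incl. (RAT) and the descent of the newness data). -/
def DescStepO (q M' : ℕ) [NeZero M'] [NeZero q] (A : ValuationSubring Qbar) : Prop :=
  FNumLarge q M' A → FBar q M' A

/-- **Chapter NUM-O** at the levels `M' * q`, `q ∤ M'`, `M'` divisible by the auxiliary base level. -/
def NumStepO : Prop :=
  ∀ (q M' : ℕ) [NeZero M'] [NeZero q] (A : ValuationSubring Qbar), q.Prime → ¬ q ∣ M' →
    (if q = 2 then 9 ∣ M' else 4 ∣ M') → A.LiesOverPrime q → FNumLarge q M' A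

/-- **(C″) at all auxiliary levels**, the input of TOP-O. -/
def FBarAll : Prop :=
  ∀ (q M' : ℕ) [NeZero M'] [NeZero q] (A : ValuationSubring Qbar), q.Prime → ¬ q ∣ M' →
    (if q = 2 then 9 ∣ M' else 4 ∣ M') → A.LiesOverPrime q → FBar q M' A

/-- **The chain** (NUM-O + DESC-O ⇒ the input of TOP-O). -/
theorem fBarAll_of_chain
    (hdesc : ∀ (q M' : ℕ) [NeZero M'] [NeZero q] (A : ValuationSubring Qbar), q.Prime → ¬ q ∣ M' →
      (if q = 2 then 9 ∣ M' else 4 ∣ M') → A.LiesOverPrime q → DescStepO q M' A)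
    (hnum : NumStepO) : FBarAll :=
  fun q M' _ _ A hq hqM hc hA => hdesc q M' A hq hqM hc hA (hnum q M' A hq hqM hc hA)

end Fermat.Agent.ES.N35.IfaceO13
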