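/-
Program O (S35), chapter DESC-O, helper1: **norms along the degeneracy maps commute with the base
change of constants `K → ℚ̄`**.

`K ⊂ ℚ̄` any intermediate field, `q` prime, `q ∤ M'`, `α, β : L·F_{M'} → L·F_{M' q}` the Prelude's
`heckeAlphaBar L M' q`, `heckeBetaBar L M' q` (`L = K` and `L = ℚ̄`), `bc = PlaceExtend27.baseChangeHom`:

* `baseChangeHom_alpha`, `baseChangeHom_beta` : `bc ∘ α_K = α_ℚ̄ ∘ bc`, `bc ∘ β_K = β_ℚ̄ ∘ bc`;
* `top_le_span_baseChange` : `ℚ̄·F_N` is spanned over (the image under ANY finite `ℚ̄`-embedding of)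
  `ℚ̄·F_M` by `bc (K·F_N)`;
* **`baseChangeHom_normAlong_alpha`, `baseChangeHom_normAlong_beta`** :
  `normAlong α_ℚ̄ (bc x) = bc (normAlong α_K x)` and the `β` twin, with `normAlong` =
  `PointFormula28.normAlong` (`Algebra.norm` for the Prelude's `algebraAlong`; by `rfl` also
  `PointFormula28.normAlong` and `IfaceO27.nA/nB`).
  Proof: `NormCompat12.norm_map_of_finrank_eq` (common basis) with both degrees `= q + 1`
  (`AlongDegree25.finrankAlong_alpha/_beta` over `K` and over `ℚ̄`).
-/
import Mathlib
import Fermat.Agent.ES.HECKE.NormCompat12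
import Fermat.Agent.ES.HECKE.PointFormula28
import Fermat.Agent.ES.HECKE.AlongDegree25
import Fermat.Agent.RED.DESC.PlaceExtend27
import Fermat.Agent.X0.CuspGood

set_option autoImplicit false
set_option linter.unusedSectionVars false
set_option linter.style.haveILetI false

noncomputable section

namespace Fermat.Agent.ES.N35.NormBC1

open AlgebraicCurve ModularCurve HahnSeries IntermediateField
open Fermat.Agent.RED.Interface4 Fermat.Agent.RED.DESC Fermat.Agent.ES.HECKE

/-! ### abstract: a finite-dimensional span of a subring containing generators is everything -/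

section Abstract

variable {G G₁ : Type*} [Field G] [Field G₁] [Algebra G G₁] [FiniteDimensional G G₁]

/-- if a subring `R` of `G₁` generates `G₁` as a field over `G`, its `G`-span is everything. -/
theorem top_le_span_of_adjoin_eq_top (R : Subring G₁)
    (h : IntermediateField.adjoin G (R : Set G₁) = ⊤) :
    ⊤ ≤ Submodule.span G (R : Set G₁) := by
  have halg : ∀ x ∈ (R : Set G₁), IsAlgebraic G x := fun x _ =>
    (Algebra.IsIntegral.isIntegral (R := G) x).isAlgebraic
  have h1 : (IntermediateField.adjoin G (R : Set G₁)).toSubalgebra = Algebra.adjoin G (R : Set G₁) :=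
    IntermediateField.adjoin_toSubalgebra_of_isAlgebraic halg
  have h2 : Algebra.adjoin G (R : Set G₁) = ⊤ := by
    rw [← h1, h, IntermediateField.top_toSubalgebra]
  intro y _
  have hy : y ∈ Algebra.adjoin G (R : Set G₁) := by
    rw [h2]
    exact Algebra.mem_top
  rw [← Subalgebra.mem_toSubmodule, Algebra.adjoin_eq_span] at hy
  refine Submodule.span_mono ?_ hy
  intro z hz
  have : Submonoid.closure (R : Set G₁) = R.toSubmonoid := Submonoid.closure_eq R.toSubmonoid
  rw [this] at hz
  exact hz

end Abstract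

/-! ### generation of `L·F₁` -/

section Generation

variable {L : Type*} [Field L] [Algebra ℚ L] {F₁ : IntermediateField ℚ (LaurentSeries ℚ)}

/-- a subfield of `L·F₁` containing the constants and the coefficient embeddings of `F₁` is `⊤`. -/
theorem subfield_eq_top (T : Subfield ↥(laurentBaseChange L F₁))
    (hconst : ∀ a : L, algebraMap L ↥(laurentBaseChange L F₁) a ∈ T)
    (hemb : ∀ (z : LaurentSeries ℚ) (hz : z ∈ F₁),
      (⟨coeffEmb L z, coeffEmb_mem_laurentBaseChange L hz⟩ : ↥(laurentBaseChange L F₁)) ∈ T) :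
    T = ⊤ := by
  let f : ↥(laurentBaseChange L F₁) →+* LaurentSeries L := (laurentBaseChange L F₁).val.toRingHom
  have hle : Subfield.closure (Set.range (algebraMap L (LaurentSeries L)) ∪
      (⇑(coeffEmb L) '' (F₁ : Set (LaurentSeries ℚ)))) ≤ T.map f := by
    rw [Subfield.closure_le]
    rintro y (⟨a, rfl⟩ | ⟨z, hz, rfl⟩)
    · exact ⟨_, hconst a, rfl⟩
    · exact ⟨_, hemb z hz, rfl⟩
  rw [eq_top_iff]
  rintro ⟨x, hx⟩ -
  obtain ⟨y, hy, hyx⟩ := hle (mem_laurentBaseChange_iff.mp hx)
  have : y = ⟨x, hx⟩ := Subtype.ext hyx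
  rw [← this]
  exact hy

end Generation

/-! ### the concrete case: `K·F_N ⊂ ℚ̄·F_N` -/

section Concrete

variable (M N : ℕ) (K : IntermediateField ℚ Qbar)

/-- the coefficient embedding of `F_N` into `ℚ̄·F_N` comes from `K·F_N`. -/
theorem coeffEmb_eq_baseChangeHom (z : LaurentSeries ℚ) (hz : z ∈ modularFunctionFieldFull N) :
    (⟨coeffEmb Qbar z, coeffEmb_mem_laurentBaseChange Qbar hz⟩ : Fbar N) =
      PlaceExtend27.baseChangeHom N K ⟨coeffEmb K z, coeffEmb_mem_laurentBaseChange K hz⟩ := by
  apply Subtype.ext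
  rw [PlaceExtend27.coe_baseChangeHom]
  exact (CoeffDescent1.coeffMap_coeffEmb_of_algHom (algebraMap K Qbar) z).symm

/-- **`ℚ̄·F_N` is spanned over (the image of) `ℚ̄·F_M` by the base change of `K·F_N`**, for any
finite `ℚ̄`-embedding `a' : ℚ̄·F_M → ℚ̄·F_N`. -/
theorem top_le_span_baseChange (a' : Fbar M →ₐ[Qbar] Fbar N) (hfin : FiniteAlong Qbar a') :
    letI := algebraAlong a'
    ⊤ ≤ Submodule.span (Fbar M) (Set.range (PlaceExtend27.baseChangeHom N K)) := by
  letI := algebraAlong a'
  haveI : FiniteDimensional (Fbar M) (Fbar N) := hfin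
  have h := top_le_span_of_adjoin_eq_top (G := Fbar M) (PlaceExtend27.baseChangeHom N K).range ?_
  · exact h
  · apply IntermediateField.toSubfield_injective
    rw [IntermediateField.top_toSubfield]
    refine subfield_eq_top _ (fun a => ?_) (fun z hz => ?_)
    · have : algebraMap Qbar (Fbar N) a = algebraMap (Fbar M) (Fbar N) (algebraMap Qbar (Fbar M) a) :=
        (a'.commutes a).symm
      rw [this]
      exact IntermediateField.algebraMap_mem _ _
    · rw [coeffEmb_eq_baseChangeHom N K z hz]
      exact IntermediateField.subset_adjoin _ _ ⟨_, rfl⟩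

/-! ### norms along the degeneracy maps commute with base change -/

variable (M' q : ℕ) [NeZero M'] [NeZero q]

/-- base change commutes with `α`. -/
theorem baseChangeHom_alpha (x : FK M' K) :
    PlaceExtend27.baseChangeHom (M' * q) K (heckeAlphaBar K M' q x) =
      heckeAlphaBar Qbar M' q (PlaceExtend27.baseChangeHom M' K x) := by
  apply Subtype.ext
  rw [PlaceExtend27.coe_baseChangeHom, coe_heckeAlphaBar, coe_heckeAlphaBar,
    PlaceExtend27.coe_baseChangeHom]

/-- base change commutes with `β`. -/
theorem baseChangeHom_beta (x : FK M' K) :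
    PlaceExtend27.baseChangeHom (M' * q) K (heckeBetaBar K M' q x) =
      heckeBetaBar Qbar M' q (PlaceExtend27.baseChangeHom M' K x) := by
  apply Subtype.ext
  rw [PlaceExtend27.coe_baseChangeHom, coe_heckeBetaBar, coe_heckeBetaBar,
    PlaceExtend27.coe_baseChangeHom]
  exact Fermat.Agent.X0.CuspGood.coeffMap_qExpand _ q _

/-- **the norm along `α` commutes with base change `K → ℚ̄`.** -/
theorem baseChangeHom_normAlong_alpha (hq : q.Prime) (hqM : ¬ q ∣ M') (x : FK (M' * q) K) :
    PointFormula28.normAlong (heckeAlphaBar Qbar M' q) (PlaceExtend27.baseChangeHom (M' * q) K x) =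
      PlaceExtend27.baseChangeHom M' K (PointFormula28.normAlong (heckeAlphaBar K M' q) x) := by
  letI := algebraAlong (heckeAlphaBar K M' q)
  letI := algebraAlong (heckeAlphaBar Qbar M' q)
  haveI : FiniteDimensional (FK M' K) (FK (M' * q) K) := AlongDegree25.finiteAlong_alpha K M' q hq hqM
  refine NormCompat12.norm_map_of_finrank_eq (PlaceExtend27.baseChangeHom M' K)
    (PlaceExtend27.baseChangeHom (M' * q) K) (fun y => baseChangeHom_alpha K M' q y) ?_ ?_ x
  · exact (AlongDegree25.finrankAlong_alpha K M' q hq hqM).trans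
      (AlongDegree25.finrankAlong_alpha Qbar M' q hq hqM).symm
  · exact top_le_span_baseChange M' (M' * q) K _ (AlongDegree25.finiteAlong_alpha Qbar M' q hq hqM)

/-- **the norm along `β` commutes with base change `K → ℚ̄`.** -/
theorem baseChangeHom_normAlong_beta (hq : q.Prime) (hqM : ¬ q ∣ M') (x : FK (M' * q) K) :
    PointFormula28.normAlong (heckeBetaBar Qbar M' q) (PlaceExtend27.baseChangeHom (M' * q) K x) =
      PlaceExtend27.baseChangeHom M' K (PointFormula28.normAlong (heckeBetaBar K M' q) x) := by
  letI := algebraAlong (heckeBetaBar K M' q)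
  letI := algebraAlong (heckeBetaBar Qbar M' q)
  haveI : FiniteDimensional (FK M' K) (FK (M' * q) K) := AlongDegree25.finiteAlong_beta K M' q hq hqM
  refine NormCompat12.norm_map_of_finrank_eq (PlaceExtend27.baseChangeHom M' K)
    (PlaceExtend27.baseChangeHom (M' * q) K) (fun y => baseChangeHom_beta K M' q y) ?_ ?_ x
  · exact (AlongDegree25.finrankAlong_beta K M' q hq hqM).trans
      (AlongDegree25.finrankAlong_beta Qbar M' q hq hqM).symm
  · exact top_le_span_baseChange M' (M' * q) K _ (AlongDegree25.finiteAlong_beta Qbar M' q hq hqM)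

end Concrete

end Fermat.Agent.ES.N35.NormBC1
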