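/-
Program O (S35), brick DESC-O, helper1: **`IfaceO13.DescStepO q M' A`** — (C″) over `ℚ̄` from (C″) over all
large finite normal number fields — the literal contract of `O_PLAN27.md` / `IfaceO13`.

`FNumLarge q M' A → FBar q M' A` (`q` prime, `q ∤ M'`): given a Frobenius lift `σ`, `m`, `f ∈ ℚ̄·F_{M'q}`
with `m ∣ ord_v f` everywhere and the two newness relations `N_α f = c_α • g_α^m`, `N_β f = c_β • g_β^m`:
* `g_α, g_β ∈ ℚ̄·F_{M'}` descend to a number field `K₁ ⊇ K₀` (`DescMain27.exists_common_descent`);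
  adjoin `c_α, c_β`;
* the descent package `GalDescent1.exists_rational_descent` (level `M' q`) gives a finite NORMAL
  `K ⊇ K₁(c_α, c_β)` with `f = bc f_K`, `m ∣ ord_w f_K` at all places, rational support;
* the newness relations hold over `K` because `bc` is injective and commutes with the norms
  (`NormBC1.baseChangeHom_normAlong_alpha/_beta`);
* `FNum` gives `s^m = c • ∇ΔΔ f_K` over `K`; `bc` commutes with the Galois action
  (`GalDescent1.baseChangeHom_smul`), hence with `Δ`, `∇`; `c` is an `m`-th power in `ℚ̄`.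
-/
import Mathlib
import Fermat.Agent.ES.N35.IfaceO13
import Fermat.Agent.ES.N35.NormBC1
import Fermat.Agent.ES.N34.GalDescent1

set_option autoImplicit false
set_option linter.unusedSectionVars false

noncomputable section

namespace Fermat.Agent.ES.N35.DescO1

open AlgebraicCurve ModularCurve HahnSeries IntermediateField
open Fermat.Agent.RED.Interface4 Fermat.Agent.RED.DESC
open Fermat.Agent.ES.N34.IfaceN4 Fermat.Agent.ES.N34.GalRational1 Fermat.Agent.ES.N34.GalDescent1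
open Fermat.Agent.ES.N35.IfaceO13 Fermat.Agent.ES.HECKE


/-- a constant of `ℚ̄` lying in `K`, as a scalar: `bc (c • x) = c • bc x`. -/
theorem baseChangeHom_smul_const (N : ℕ) (K : IntermediateField ℚ Qbar) (c : K) (x : FK N K) :
    PlaceExtend27.baseChangeHom N K (c • x) = ((c : K) : Qbar) • PlaceExtend27.baseChangeHom N K x := by
  rw [Algebra.smul_def, Algebra.smul_def, map_mul, PlaceExtend27.baseChangeHom_algebraMap]

/-- ring homomorphisms intertwining `s` and `s'` commute with the third difference `∇ Δ Δ`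
(stated on the unfolded expression, so that it applies to `IfaceO13.third` by definitional
unfolding). -/
theorem map_third_expr {F F' : Type*} [Field F] [Field F'] (ι : F →+* F') (s : F ≃+* F)
    (s' : F' ≃+* F') (h : ∀ x : F, ι (s x) = s' (ι x)) (q : ℕ) (x : F) :
    ι (s (s (s (s (s (s x) / x)) / (s (s x) / x))) / (s (s (s (s x) / x)) / (s (s x) / x)) ^ (q ^ 2)) =
      s' (s' (s' (s' (s' (s' (ι x)) / ι x)) / (s' (s' (ι x)) / ι x))) /
        (s' (s' (s' (s' (ι x)) / ι x)) / (s' (s' (ι x)) / ι x)) ^ (q ^ 2) := by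
  simp only [map_div₀, map_pow, h]

theorem map_third {F F' : Type*} [Field F] [Field F'] (ι : F →+* F') (s : F ≃+* F) (s' : F' ≃+* F')
    (h : ∀ x : F, ι (s x) = s' (ι x)) (q : ℕ) (x : F) : ι (third s q x) = third s' q (ι x) :=
  map_third_expr ι s s' h q x

/-- **DESC-O.** -/
theorem descStep (q M' : ℕ) [NeZero M'] [NeZero q] (A : ValuationSubring Qbar) (hq : q.Prime)
    (hqM : ¬ q ∣ M') : IfaceO13.DescStepO q M' A := by
  classical
  rintro ⟨K₀, hK₀, hnum⟩
  intro σ hσ m hm f hf hord ⟨cA, gA, hcA, hgA, hA⟩ ⟨cB, gB', hcB, hgB, hB⟩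
  have hm0 : 0 < m := Nat.pos_of_ne_zero (fun h => hm (h ▸ dvd_zero q))
  have := hK₀
  have halgQ : Algebra.IsAlgebraic ℚ Qbar := NumberFieldDVR27.isAlgebraic_Qbar
  have hintQ : Algebra.IsIntegral ℚ Qbar := Fermat.Agent.Lib.FrobeniusExists.isIntegral_Qbar
  -- descent of `g_α`, `g_β`
  obtain ⟨K₁, hK₀K₁, hfin₁, hdesc₁⟩ := DescMain27.exists_common_descent M' K₀
    ({(gA : LaurentSeries Qbar), (gB' : LaurentSeries Qbar)} : Finset (LaurentSeries Qbar))
    (by
      intro x hx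
      simp only [Finset.mem_insert, Finset.mem_singleton] at hx
      rcases hx with rfl | rfl
      · exact gA.2
      · exact gB'.2)
  have := hfin₁
  -- adjoin the constants
  have hfA : FiniteDimensional ℚ ℚ⟮cA⟯ :=
    adjoin.finiteDimensional (Algebra.IsIntegral.isIntegral cA)
  have hfB : FiniteDimensional ℚ ℚ⟮cB⟯ :=
    adjoin.finiteDimensional (Algebra.IsIntegral.isIntegral cB)
  let K₂ : IntermediateField ℚ Qbar := K₁ ⊔ ℚ⟮cA⟯ ⊔ ℚ⟮cB⟯
  have hfin₂ : FiniteDimensional ℚ K₂ := inferInstance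
  have hK₁K₂ : K₁ ≤ K₂ := le_sup_left.trans le_sup_left
  have hcA₂ : cA ∈ K₂ :=
    (le_sup_left : K₁ ⊔ ℚ⟮cA⟯ ≤ K₂) ((le_sup_right : ℚ⟮cA⟯ ≤ K₁ ⊔ ℚ⟮cA⟯) (mem_adjoin_simple_self ℚ cA))
  have hcB₂ : cB ∈ K₂ := (le_sup_right : ℚ⟮cB⟯ ≤ K₂) (mem_adjoin_simple_self ℚ cB)
  -- the descent package at level `M' q`
  have : NeZero (M' * q) := ⟨mul_ne_zero (NeZero.ne M') (NeZero.ne q)⟩
  obtain ⟨K, hfinK, hnorK, hK₂K, fK, hbf, hfK0, hdiv, hrat⟩ :=
    exists_rational_descent (M' * q) K₂ hf m hord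
  have hK₀K : K₀ ≤ K := (hK₀K₁.trans hK₁K₂).trans hK₂K
  -- `g_α`, `g_β`, `c_α`, `c_β` over `K`
  have hlift : ∀ g : Fbar M', (g : LaurentSeries Qbar) ∈
      ({(gA : LaurentSeries Qbar), (gB' : LaurentSeries Qbar)} : Finset (LaurentSeries Qbar)) →
      ∃ gK : FK M' K, PlaceExtend27.baseChangeHom M' K gK = g := by
    intro g hg
    obtain ⟨x₁, hx₁, hxx₁⟩ := hdesc₁ _ hg
    obtain ⟨x₂, hx₂, hxx₂⟩ := CoeffDescent1.exists_lift_of_le (hK₁K₂.trans hK₂K) hx₁
    exact ⟨⟨x₂, hx₂⟩, Subtype.ext (hxx₂.trans hxx₁)⟩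
  obtain ⟨gAK, hgAK⟩ := hlift gA (by simp)
  obtain ⟨gBK, hgBK⟩ := hlift gB' (by simp)
  let cAK : K := ⟨cA, hK₂K hcA₂⟩
  let cBK : K := ⟨cB, hK₂K hcB₂⟩
  have hcAK : cAK ≠ 0 := fun h => hcA (congrArg Subtype.val h)
  have hcBK : cBK ≠ 0 := fun h => hcB (congrArg Subtype.val h)
  have hgAK0 : gAK ≠ 0 := by
    rintro rfl
    rw [map_zero] at hgAK
    exact hgA hgAK.symm
  have hgBK0 : gBK ≠ 0 := by
    rintro rfl
    rw [map_zero] at hgBK
    exact hgB hgBK.symm
  have hinj : Function.Injective (PlaceExtend27.baseChangeHom M' K) :=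
    PlaceExtend27.baseChangeHom_injective M' K
  have hAK : BaseChange19.normAlong (Fermat.Agent.ES.N34.ModelDefs9.alpha K M' q) fK =
      cAK • gAK ^ m := by
    apply hinj
    rw [baseChangeHom_smul_const, map_pow, hgAK]
    show PlaceExtend27.baseChangeHom M' K (PointFormula28.normAlong (heckeAlphaBar K M' q) fK) = _
    rw [← NormBC1.baseChangeHom_normAlong_alpha K M' q hq hqM fK, hbf]
    exact hA
  have hBK : BaseChange19.normAlong (Fermat.Agent.ES.N34.ModelDefs9.beta K M' q) fK =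
      cBK • gBK ^ m := by
    apply hinj
    rw [baseChangeHom_smul_const, map_pow, hgBK]
    show PlaceExtend27.baseChangeHom M' K (PointFormula28.normAlong (heckeBetaBar K M' q) fK) = _
    rw [← NormBC1.baseChangeHom_normAlong_beta K M' q hq hqM fK, hbf]
    exact hB
  -- (C″) over `K`
  obtain ⟨c, s, hc, hs0, hs⟩ := hnum K hfinK hK₀K σ hσ m hm fK hfK0 hdiv hrat
    ⟨cAK, gAK, hcAK, hgAK0, hAK⟩ ⟨cBK, gBK, hcBK, hgBK0, hBK⟩
  -- an `m`-th root of the constant
  have hcQ : ((c : K) : Qbar) ≠ 0 := fun h => hc (Subtype.ext h)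
  obtain ⟨d, hd⟩ := IsAlgClosed.exists_pow_nat_eq (((c : K) : Qbar)) hm0
  have hd0 : d ≠ 0 := by
    rintro rfl
    rw [zero_pow hm0.ne'] at hd
    exact hcQ hd.symm
  have hdF : algebraMap Qbar (Fbar (M' * q)) d ≠ 0 := (map_ne_zero _).mpr hd0
  have hg : ∀ x : FK (M' * q) K,
      PlaceExtend27.baseChangeHom (M' * q) K (gK (M' * q) K (σ.restrictNormal K) x) =
        gB (M' * q) σ (PlaceExtend27.baseChangeHom (M' * q) K x) :=
    fun x => baseChangeHom_smul (M' * q) K σ x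
  have h5 := congrArg (PlaceExtend27.baseChangeHom (M' * q) K) hs
  rw [map_pow, baseChangeHom_smul_const,
    map_third (PlaceExtend27.baseChangeHom (M' * q) K) _ (gB (M' * q) σ) hg, hbf, ← hd,
    Algebra.smul_def, map_pow] at h5
  refine ⟨(algebraMap Qbar (Fbar (M' * q)) d)⁻¹ * PlaceExtend27.baseChangeHom (M' * q) K s,
    mul_ne_zero (inv_ne_zero hdF) ((map_ne_zero _).mpr hs0), ?_⟩
  rw [mul_pow, inv_pow, h5, ← mul_assoc, inv_mul_cancel₀ (pow_ne_zero m hdF), one_mul]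

/-- **DESC-O in the literal shape consumed by `IfaceO13.fBarAll_of_chain`.** -/
theorem descStep_chain (q M' : ℕ) [NeZero M'] [NeZero q] (A : ValuationSubring Qbar)
    (hq : q.Prime) (hqM : ¬ q ∣ M') (_hc : if q = 2 then 9 ∣ M' else 4 ∣ M')
    (_hA : A.LiesOverPrime q) : IfaceO13.DescStepO q M' A :=
  descStep q M' A hq hqM

end Fermat.Agent.ES.N35.DescO1
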