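/-
Program O (S35), chapter TOP-O, brick T6-core (helper8): **S35 from ONE contract** (`EigenLatticeNew`).

`EigenLatticeNew` = the contract `S30Skeleton8.EigenLattice` of Program J (a nonzero finite free
`𝒪'`-lattice `Λ` with an adically continuous `G_ℚ`-action `ρ`, unramified outside `Np`, satisfying
the Eichler–Shimura relation at the Frobenius lifts of the good primes) with ONE more clause:
for every prime `q ∥ N`, `q ≠ p`, and every Frobenius lift `σ` at `q` there is a NONZERO `v ∈ Λ`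
killed by `(X - q²)(X - 1)²` evaluated at `X = (ρ σ)²` (written additively, in the literal shape of
`FrobTors`).

* `sq_eq_of_frob_poly` : pure algebra. `P + q P⁻¹ = a` and `(P² - q²)(P² - 1)² v = 0`, `v ≠ 0`
  ⇒ `a² = (q + 1)²` (identity `(P² - 1)(P² - q²) = (a² - (q+1)²) P²`).
* `exists_rep_of_eigenLatticeNew` : the rank-two `ρ'` of `S30Skeleton8.exists_rep_of_eigenLattice`
  with, in addition, `charpoly ρ'(σ) = X² ∓ (q + 1) X + q` at Frobenius lifts at `q ∥ N`, `q ≠ p`.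
* `s35_of_eigenLatticeNew` : the literal frozen statement S35 (with `O'' := O'`) from the contract
  for `χ := iota ∘ chig.rangeRestrict`.
-/
import Mathlib
import Fermat.Prelude.Def_CuspForm_HeckeGaloisRepDatum
import Fermat.Prelude.Def_CuspForm_Newforms
import Fermat.Prelude.Def_GaloisRep_LocalConditions
import Fermat.Agent.ES.J.S30Skeleton8

set_option autoImplicit false

open Polynomial

noncomputable section

namespace Fermat.Agent.ES.N35.EigenNew8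

open Fermat.Agent.ES.ALG.RelDense9 Fermat.Agent.ES.ALG.RankTwo9 Fermat.Agent.ES.J.CycloChar8
  Fermat.Agent.ES.J.S30Skeleton8

local notation "Qb" => AlgebraicClosure ℚ
local notation "GQ" => (AlgebraicClosure ℚ ≃ₐ[ℚ] AlgebraicClosure ℚ)

/-! ### The algebra -/

section Algebra

variable {𝒪 Λ : Type*} [CommRing 𝒪] [AddCommGroup Λ] [Module 𝒪 Λ]

/-- the polynomial identity behind `sq_eq_of_frob_poly` (constants kept atomic). -/
theorem frob_poly_identity (a q c1 c2 c3 cc : 𝒪) (h1 : c1 = 1 + 2 * q ^ 2) (h2 : c2 = 2 + q ^ 2)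
    (h3 : c3 = q ^ 2) (hcc : cc = a ^ 2 - (q + 1) ^ 2) :
    ∃ A B : 𝒪[X], C (cc ^ 2) * X ^ 4 =
      A * (X ^ 6 + C c1 * X ^ 2 - (C c2 * X ^ 4 + C c3)) - B * (X ^ 2 - C a * X + C q) := by
  refine ⟨X ^ 2 - C c3, 2 * C cc * X ^ 2 * (X ^ 2 + C a * X + C q) +
    (X ^ 2 - C a * X + C q) * (X ^ 2 + C a * X + C q) ^ 2, ?_⟩
  subst h1 h2 h3 hcc
  simp only [C_pow, C_sub, C_add, C_mul, C_1, C_ofNat]
  ring

/-- **The algebra of the `q`-clause.**  `P` invertible with `P + q P⁻¹ = a`; a nonzero vector killed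
by `(X - q²)(X - 1)²` at `X = P²` forces `a² = (q + 1)²`. -/
theorem sq_eq_of_frob_poly [IsDomain 𝒪] [Module.IsTorsionFree 𝒪 Λ]
    (P P' : Module.End 𝒪 Λ) (hPP' : P * P' = 1) (hP'P : P' * P = 1) (a q : 𝒪)
    (hrel : P + q • P' = a • (1 : Module.End 𝒪 Λ)) (v : Λ) (hv0 : v ≠ 0)
    (hv : (P ^ 6) v + (1 + 2 * q ^ 2) • (P ^ 2) v = (2 + q ^ 2) • (P ^ 4) v + q ^ 2 • v) :
    a ^ 2 = (q + 1) ^ 2 := by
  -- the quadratic relation
  have hquad : P ^ 2 - a • P + q • (1 : Module.End 𝒪 Λ) = 0 := by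
    have h1 := congrArg (fun x => x * P) hrel
    simp only [add_mul, smul_mul_assoc, hP'P, one_mul] at h1
    rw [pow_two, ← h1]
    abel
  have hm : aeval P (X ^ 2 - C a * X + C q : 𝒪[X]) = 0 := by
    rw [map_add, map_sub, map_mul, map_pow, aeval_X, aeval_C, aeval_C,
      Algebra.algebraMap_eq_smul_one, Algebra.algebraMap_eq_smul_one, smul_mul_assoc, one_mul]
    exact hquad
  obtain ⟨c1, hc1⟩ : ∃ c1 : 𝒪, c1 = 1 + 2 * q ^ 2 := ⟨_, rfl⟩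
  obtain ⟨c2, hc2⟩ : ∃ c2 : 𝒪, c2 = 2 + q ^ 2 := ⟨_, rfl⟩
  obtain ⟨c3, hc3⟩ : ∃ c3 : 𝒪, c3 = q ^ 2 := ⟨_, rfl⟩
  obtain ⟨cc, hcc⟩ : ∃ cc : 𝒪, cc = a ^ 2 - (q + 1) ^ 2 := ⟨_, rfl⟩
  rw [← hc1, ← hc2, ← hc3] at hv
  have hG : aeval P (X ^ 6 + C c1 * X ^ 2 - (C c2 * X ^ 4 + C c3) : 𝒪[X]) v = 0 := by
    rw [map_sub, map_add, map_add, map_mul, map_mul, map_pow, map_pow, map_pow, aeval_X, aeval_C,
      aeval_C, aeval_C, Algebra.algebraMap_eq_smul_one, Algebra.algebraMap_eq_smul_one,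
      Algebra.algebraMap_eq_smul_one, smul_mul_assoc, smul_mul_assoc, one_mul, one_mul,
      LinearMap.sub_apply, LinearMap.add_apply, LinearMap.add_apply, LinearMap.smul_apply,
      LinearMap.smul_apply, LinearMap.smul_apply, Module.End.one_apply, hv, sub_self]
  obtain ⟨A, B, hAB⟩ := frob_poly_identity a q c1 c2 c3 cc hc1 hc2 hc3 hcc
  have hid := congrArg (fun f => aeval P f v) hAB
  beta_reduce at hid
  have hR : aeval P (A * (X ^ 6 + C c1 * X ^ 2 - (C c2 * X ^ 4 + C c3)) -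
      B * (X ^ 2 - C a * X + C q)) v = 0 := by
    rw [map_sub, map_mul, map_mul, hm, mul_zero, sub_zero, Module.End.mul_apply, hG, map_zero]
  rw [hR, map_mul, aeval_C, Algebra.algebraMap_eq_smul_one, map_pow, aeval_X, smul_mul_assoc,
    one_mul, LinearMap.smul_apply] at hid
  have hP4 : (P ^ 4) v ≠ 0 := by
    intro h0
    have h1 : (P' ^ 4 * P ^ 4) v = 0 := by rw [Module.End.mul_apply, h0, map_zero]
    have h2 : P' ^ 4 * P ^ 4 = 1 := by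
      have hc : Commute P' P := by
        show P' * P = P * P'
        rw [hP'P, hPP']
      rw [← hc.mul_pow, hP'P, one_pow]
    rw [h2, Module.End.one_apply] at h1
    exact hv0 h1
  rcases smul_eq_zero.mp hid with h | h
  · have h3 : cc = 0 := (pow_eq_zero_iff (two_ne_zero)).mp h
    rw [hcc] at h3
    exact sub_eq_zero.mp h3
  · exact absurd h hP4

end Algebra

/-! ### The contract -/

/-- **The contract of Program O**: an eigen-lattice for `χ` (as in Program J) which, at every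
`q ∥ N`, `q ≠ p`, and every Frobenius lift `σ` at `q`, contains a nonzero vector killed by
`(X - q²)(X - 1)²` at `X = (ρ σ)²`. -/
def EigenLatticeNew (p : ℕ) (N : ℕ) [NeZero N] (S : Finset ℕ)
    (𝒪' : Type) [CommRing 𝒪'] [IsLocalRing 𝒪']
    (χ : CuspForm.heckeAlgebra N 2 (↑S : Set ℕ) →+* 𝒪') : Prop :=
  ∃ (Λ : Type) (_ : AddCommGroup Λ) (_ : Module 𝒪' Λ) (_ : Module.Free 𝒪' Λ)
    (_ : Module.Finite 𝒪' Λ) (_ : Nontrivial Λ) (ρ : GQ →* Module.End 𝒪' Λ),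
    (∀ n : ℕ, ∃ L : IntermediateField ℚ Qb, FiniteDimensional ℚ L ∧
      ∀ σ : GQ, (∀ x ∈ L, σ x = x) → EndCongr (IsLocalRing.maximalIdeal 𝒪' ^ n) (ρ σ) 1) ∧
    (∀ q : ℕ, q.Prime → ¬ q ∣ N → q ≠ p → ∀ A : ValuationSubring Qb, A.LiesOverPrime q →
      ∀ τ ∈ A.inertiaSubgroupIn ℚ, ρ τ = 1) ∧
    (∀ (ℓ : ℕ) (hℓ : ℓ.Prime) (hℓN : ¬ ℓ ∣ N) (hℓS : ℓ ∉ (↑S : Set ℕ)),
      ∀ A : ValuationSubring Qb, A.LiesOverPrime ℓ → ∀ σ : GQ, A.IsFrobeniusAt σ ℓ →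
        ρ σ * ρ σ - χ (CuspForm.heckeAlgebra.T hℓ hℓN hℓS) • ρ σ +
          (ℓ : 𝒪') • (1 : Module.End 𝒪' Λ) = 0) ∧
    (∀ q : ℕ, q.Prime → q ≠ p → q ∣ N → ¬ q ^ 2 ∣ N →
      ∀ A : ValuationSubring Qb, A.LiesOverPrime q → ∀ σ : GQ, A.IsFrobeniusAt σ q →
        ∃ v : Λ, v ≠ 0 ∧
          (ρ σ ^ 6) v + (1 + 2 * (q : 𝒪') ^ 2) • (ρ σ ^ 2) v =
            (2 + (q : 𝒪') ^ 2) • (ρ σ ^ 4) v + ((q : 𝒪') ^ 2) • v)

/-- the new contract contains the old one. -/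
theorem EigenLatticeNew.toEigenLattice {p : ℕ} {N : ℕ} [NeZero N] {S : Finset ℕ}
    {𝒪' : Type} [CommRing 𝒪'] [IsLocalRing 𝒪']
    {χ : CuspForm.heckeAlgebra N 2 (↑S : Set ℕ) →+* 𝒪'} (h : EigenLatticeNew p N S 𝒪' χ) :
    EigenLattice p N S 𝒪' χ := by
  obtain ⟨Λ, i1, i2, i3, i4, i5, ρ, h1, h2, h3, _⟩ := h
  exact ⟨Λ, i1, i2, i3, i4, i5, ρ, h1, h2, h3⟩

section Core

variable {p : ℕ} [Fact p.Prime] {N : ℕ} [NeZero N] {S : Finset ℕ}
  {𝒪' : Type} [CommRing 𝒪'] [IsDomain 𝒪'] [IsDiscreteValuationRing 𝒪']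
  [IsAdicComplete (IsLocalRing.maximalIdeal 𝒪') 𝒪'] [CharZero 𝒪']

/-- **The core of S35**: the rank-two representation of Program J, with the characteristic
polynomials `X² ∓ (q + 1) X + q` at Frobenius lifts at the primes `q ∥ N`, `q ≠ p`. -/
theorem exists_rep_of_eigenLatticeNew (hpS : p ∈ S) (hNS : ∀ q : ℕ, q.Prime → q ∣ N → q ∈ S)
    (hp𝒪' : (p : 𝒪') ∈ IsLocalRing.maximalIdeal 𝒪')
    (χ : CuspForm.heckeAlgebra N 2 (↑S : Set ℕ) →+* 𝒪') (h : EigenLatticeNew p N S 𝒪' χ) :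
    ∃ ρ : GaloisRepAdic 𝒪',
      (∀ (ℓ : ℕ) (hℓ : ℓ.Prime) (hℓN : ¬ ℓ ∣ N) (hℓS : ℓ ∉ (↑S : Set ℕ)),
        ∀ A : ValuationSubring Qb, A.LiesOverPrime ℓ → ∀ σ : GQ, A.IsFrobeniusAt σ ℓ →
          LinearMap.charpoly (ρ.ρ σ) =
            X ^ 2 - C (χ (CuspForm.heckeAlgebra.T hℓ hℓN hℓS)) * X + C ((ℓ : 𝒪'))) ∧
      (∀ q : ℕ, q.Prime → ¬ q ∣ N → q ≠ p → ρ.IsUnramifiedAt q) ∧
      (∀ q : ℕ, q.Prime → q ≠ p → q ∣ N → ¬ q ^ 2 ∣ N →
        ∀ A : ValuationSubring Qb, A.LiesOverPrime q → ∀ σ : GQ, A.IsFrobeniusAt σ q →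
          LinearMap.charpoly (ρ.ρ σ) = X ^ 2 - C ((q : 𝒪') + 1) * X + C ((q : 𝒪')) ∨
          LinearMap.charpoly (ρ.ρ σ) = X ^ 2 + C ((q : 𝒪') + 1) * X + C ((q : 𝒪'))) := by
  classical
  obtain ⟨Λ, _, _, _, _, _, ρ, hcont, hunr, hes, hnew⟩ := h
  have hpprime : p.Prime := Fact.out
  set 𝔪 := IsLocalRing.maximalIdeal 𝒪' with h𝔪
  set d : GQ →* 𝒪'ˣ := cycloO p hp𝒪' with hd
  -- the set of Frobenius lifts at the good primes
  let Φ : Set GQ := {σ | ∃ (ℓ : ℕ) (hℓ : ℓ.Prime) (hℓN : ¬ ℓ ∣ N) (hℓS : ℓ ∉ (↑S : Set ℕ))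
    (A : ValuationSubring Qb), A.LiesOverPrime ℓ ∧ A.IsFrobeniusAt σ ℓ}
  let aΦ : GQ → 𝒪' := fun σ => if hσ : σ ∈ Φ then
    χ (CuspForm.heckeAlgebra.T hσ.choose_spec.choose hσ.choose_spec.choose_spec.choose
      hσ.choose_spec.choose_spec.choose_spec.choose) else 0
  have hne_p : ∀ ℓ : ℕ, ℓ ∉ (↑S : Set ℕ) → ℓ ≠ p := fun ℓ hℓS h => hℓS (h ▸ hpS)
  have hΦ : ∀ σ ∈ Φ, ρ σ * ρ σ - aΦ σ • ρ σ + ((d σ : 𝒪'ˣ) : 𝒪') • (1 : Module.End 𝒪' Λ) = 0 := by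
    intro σ hσ
    have hσ' := hσ
    obtain ⟨A, hA, hFr⟩ := hσ.choose_spec.choose_spec.choose_spec.choose_spec
    have e1 : aΦ σ = χ (CuspForm.heckeAlgebra.T hσ.choose_spec.choose
        hσ.choose_spec.choose_spec.choose hσ.choose_spec.choose_spec.choose_spec.choose) :=
      dif_pos hσ'
    rw [e1, hd, cycloO_of_isFrobeniusAt p hp𝒪' hσ.choose_spec.choose
      (hne_p _ hσ.choose_spec.choose_spec.choose_spec.choose) A hA hFr]
    exact hes _ _ _ _ A hA σ hFr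
  have hdense : ∀ (n : ℕ) (g : GQ), ∃ σ ∈ Φ, ∃ j : ℕ, EndCongr (𝔪 ^ n) (ρ g) (ρ σ ^ j) ∧
      ((d g : 𝒪'ˣ) : 𝒪') - ((d σ : 𝒪'ˣ) : 𝒪') ^ j ∈ 𝔪 ^ n := by
    intro n g
    obtain ⟨L₁, hL₁, h1⟩ := hcont n
    obtain ⟨L₂, hL₂, h2⟩ := cycloO_sub_one_mem p hp𝒪' n
    have := hL₁
    have := hL₂
    obtain ⟨ℓ, A, φ, j, hℓ, hℓS, hA, hφ, hj⟩ :=
      Fermat.Agent.ES.GAL.ChebQbar23.exists_frobenius_pow_eq_on (L₁ ⊔ L₂) g S
    have hℓS' : ℓ ∉ (↑S : Set ℕ) := by simpa using hℓS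
    have hℓN : ¬ ℓ ∣ N := fun hdvd => hℓS (hNS ℓ hℓ hdvd)
    refine ⟨φ, ⟨ℓ, hℓ, hℓN, hℓS', A, hA, hφ⟩, j, ?_, ?_⟩
    all_goals
      set τ : GQ := g⁻¹ * φ ^ j with hτ
      have hτfix : ∀ x ∈ L₁ ⊔ L₂, τ x = x := by
        intro x hx
        rw [hτ, AlgEquiv.mul_apply, hj x hx]
        exact g.symm_apply_apply x
      have hφj : φ ^ j = g * τ := by rw [hτ, mul_inv_cancel_left]
    · have hc := h1 τ (fun x hx => hτfix x (le_sup_left (a := L₁) (b := L₂) hx))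
      have e : ρ φ ^ j = ρ g * ρ τ := by rw [← map_pow, hφj, map_mul]
      rw [e]
      have := (hc.mul_left (ρ g)).symm
      rwa [mul_one] at this
    · have hc := h2 τ (fun x hx => hτfix x (le_sup_right (a := L₁) (b := L₂) hx))
      have e : ((d φ : 𝒪'ˣ) : 𝒪') ^ j = ((d g : 𝒪'ˣ) : 𝒪') * ((d τ : 𝒪'ˣ) : 𝒪') := by
        rw [← Units.val_pow_eq_pow_val, ← map_pow, hφj, map_mul, Units.val_mul]
      rw [e]
      have e2 : ((d g : 𝒪'ˣ) : 𝒪') - ((d g : 𝒪'ˣ) : 𝒪') * ((d τ : 𝒪'ˣ) : 𝒪') =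
          -(((d g : 𝒪'ˣ) : 𝒪') * (((d τ : 𝒪'ˣ) : 𝒪') - 1)) := by ring
      rw [e2]
      exact neg_mem (Ideal.mul_mem_left _ _ hc)
  obtain ⟨a, ha, haΦ⟩ := exists_trace_fun_of_dense ρ d (fun n => 𝔪 ^ n)
    eq_zero_of_forall_mem_pow Φ aΦ hΦ hdense
  have h2 : (2 : 𝒪') ≠ 0 := two_ne_zero
  obtain ⟨Λ', _, _, _, _, ρ', hrk, hchar, hcongr⟩ :=
    exists_rankTwo (c := complexConjugation) h2 ha complexConjugation_mul_self
      (cycloO_complexConjugation p hp𝒪')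
  -- adic continuity
  have hcont' : GaloisActionIsAdicContinuous 𝒪' ρ' := by
    intro n
    obtain ⟨L₁, hL₁, h1⟩ := hcont n
    obtain ⟨L₂, hL₂, h2⟩ := cycloO_sub_one_mem p hp𝒪' n
    have := hL₁
    have := hL₂
    refine ⟨L₁ ⊔ L₂, inferInstance, fun σ hσ v => ?_⟩
    exact hcongr (𝔪 ^ n) σ (h1 σ fun x hx => hσ x (le_sup_left (a := L₁) (b := L₂) hx))
      (h2 σ fun x hx => hσ x (le_sup_right (a := L₁) (b := L₂) hx)) v
  refine ⟨{ V := Λ', finrank_eq := hrk, ρ := ρ', isAdicContinuous := hcont' }, ?_, ?_, ?_⟩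
  · -- characteristic polynomials at Frobenius lifts
    intro ℓ hℓ hℓN hℓS A hA σ hσ
    change (ρ' σ).charpoly = _
    rw [hchar σ]
    have hdσ : ((d σ : 𝒪'ˣ) : 𝒪') = (ℓ : 𝒪') :=
      cycloO_of_isFrobeniusAt p hp𝒪' hℓ (hne_p ℓ hℓS) A hA hσ
    have haσ : a σ = χ (CuspForm.heckeAlgebra.T hℓ hℓN hℓS) := by
      have e1 := rel_of_quadratic (rho_mul_inv ρ σ) (δ := (ℓ : 𝒪'))
        (a := χ (CuspForm.heckeAlgebra.T hℓ hℓN hℓS)) (hes ℓ hℓ hℓN hℓS A hA σ hσ)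
      have e2 := ha σ
      rw [hdσ, e1] at e2
      have hpos : 0 < Module.finrank 𝒪' Λ := Module.finrank_pos
      exact (smul_one_injective_of_finrank_pos hpos e2).symm
    rw [haσ, hdσ]
  · -- unramified outside `Np`
    intro q hq hqN hqp P hP τ hτ
    have h1 : EndCongr (⊥ : Ideal 𝒪') (ρ τ) 1 := by
      rw [hunr q hq hqN hqp P hP τ hτ]
      exact EndCongr.refl _ _
    have h2 : ((d τ : 𝒪'ˣ) : 𝒪') - 1 ∈ (⊥ : Ideal 𝒪') := by
      rw [hd, cycloO_of_mem_inertia p hp𝒪' hq hqp P hP hτ, Units.val_one, sub_self]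
      exact Ideal.zero_mem _
    have h3 := hcongr ⊥ τ h1 h2
    change ρ' τ = 1
    apply LinearMap.ext
    intro v
    have := h3 v
    rw [Submodule.bot_smul, Submodule.mem_bot, sub_eq_zero] at this
    exact this
  · -- the `q`-clause
    intro q hq hqp hqN hq2 A hA σ hσ
    have hdσ : ((d σ : 𝒪'ˣ) : 𝒪') = (q : 𝒪') :=
      cycloO_of_isFrobeniusAt p hp𝒪' hq hqp A hA hσ
    obtain ⟨v, hv0, hv⟩ := hnew q hq hqp hqN hq2 A hA σ hσ
    have hrel := ha σ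
    rw [hdσ] at hrel
    have key : a σ ^ 2 = ((q : 𝒪') + 1) ^ 2 :=
      sq_eq_of_frob_poly (ρ σ) (ρ σ⁻¹) (rho_mul_inv ρ σ) (rho_inv_mul ρ σ) (a σ) (q : 𝒪')
        hrel v hv0 hv
    change (ρ' σ).charpoly = _ ∨ (ρ' σ).charpoly = _
    rw [hchar σ, hdσ]
    have hfac : (a σ - ((q : 𝒪') + 1)) * (a σ + ((q : 𝒪') + 1)) = 0 := by
      linear_combination key
    rcases mul_eq_zero.mp hfac with h | h
    · left
      rw [sub_eq_zero.mp h]
    · right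
      have e : a σ = -((q : 𝒪') + 1) := eq_neg_of_add_eq_zero_left h
      rw [e, C_neg]
      ring

end Core

/-- **S35 from the contract**, in the literal frozen shape (`O'' := O'`). -/
theorem s35_of_eigenLatticeNew
    {M : ℕ} [NeZero M] {g : CuspForm (CongruenceSubgroup.Gamma0 M) 2} (_hg : g.IsNewform)
    (lam : ℕ) [Fact lam.Prime]
    (S : Finset ℕ)
    (O' : Type) [CommRing O'] [IsDomain O'] [IsDiscreteValuationRing O']
    [IsAdicComplete (IsLocalRing.maximalIdeal O') O'] [Finite (IsLocalRing.ResidueField O')]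
    [CharZero O'] (hlamO' : (lam : O') ∈ IsLocalRing.maximalIdeal O')
    (chig : CuspForm.heckeAlgebra M 2 (↑S : Set ℕ) →+* ℂ)
    (iota : chig.range →+* O')
    (hlamS : lam ∈ S) (hMS : ∀ q : ℕ, q.Prime → q ∣ M → q ∈ S)
    (H : EigenLatticeNew lam M S O' (iota.comp chig.rangeRestrict)) :
    ∃ (O'' : Type) (_ : CommRing O'') (_ : IsDomain O'') (_ : IsDiscreteValuationRing O'')
      (_ : IsAdicComplete (IsLocalRing.maximalIdeal O'') O'') (_ : Finite (IsLocalRing.ResidueField O''))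
      (_ : CharZero O'') (_ : Algebra O' O'') (_ : Module.Finite O' O'') (_ : IsLocalHom (algebraMap O' O'')),
      Function.Injective (algebraMap O' O'') ∧
      ∃ ρ : GaloisRepAdic O'',
        (∀ (ℓ : ℕ) (hℓ : ℓ.Prime) (hℓM : ¬ ℓ ∣ M) (hℓS : ℓ ∉ (↑S : Set ℕ)),
          ∀ A : ValuationSubring (AlgebraicClosure ℚ), A.LiesOverPrime ℓ →
            ∀ σ : AlgebraicClosure ℚ ≃ₐ[ℚ] AlgebraicClosure ℚ, A.IsFrobeniusAt σ ℓ →
              LinearMap.charpoly (ρ.ρ σ) =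
                X ^ 2 - C (algebraMap O' O'' ((iota.comp chig.rangeRestrict) (CuspForm.heckeAlgebra.T hℓ hℓM hℓS))) * X
                  + C ((ℓ : O''))) ∧
        (∀ q : ℕ, q.Prime → q ≠ lam → q ∣ M → ¬ q ^ 2 ∣ M →
          ∀ A : ValuationSubring (AlgebraicClosure ℚ), A.LiesOverPrime q →
            ∀ σ : AlgebraicClosure ℚ ≃ₐ[ℚ] AlgebraicClosure ℚ, A.IsFrobeniusAt σ q →
              LinearMap.charpoly (ρ.ρ σ) = X ^ 2 - C ((q : O'') + 1) * X + C ((q : O'')) ∨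
              LinearMap.charpoly (ρ.ρ σ) = X ^ 2 + C ((q : O'') + 1) * X + C ((q : O''))) := by
  obtain ⟨ρ, h1, _, h3⟩ :=
    exists_rep_of_eigenLatticeNew hlamS hMS hlamO' (iota.comp chig.rangeRestrict) H
  exact ⟨O', inferInstance, inferInstance, inferInstance, inferInstance, inferInstance,
    inferInstance, Algebra.id O', Module.Finite.self O', ⟨fun _ h => h⟩, Function.injective_id,
    ρ, h1, h3⟩

end Fermat.Agent.ES.N35.EigenNew8
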