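/-
Program O (S35), chapter TOP-O (helper8): **the contract `EigenNew8.EigenLatticeNew` from a
`χ`-eigenvector `w ∈ 𝒪' ⊗ T_p J₀(N)` and an operator `u` on `T_p J₀(N)` with `(u ⊗ 1) w ≠ 0` whose image
is killed by the Frobenius polynomial** (twin of `EigenLatticeOf8.eigenLattice_of`).

* `exists_eigenSubRep_new`, `exists_eigenRep_new` : twins of `BaseChangeRep8.exists_eigenSubRep`,
  `exists_eigenRep` with a fourth output: a relation
  `(ρ g)⁶ ∘ u + n₁ (ρ g)² ∘ u = n₂ (ρ g)⁴ ∘ u + n₃ u` on `T` (`u` commuting with the operators `t i`)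
  yields, for every eigenvector `w₁` with `(u ⊗ 1) w₁ ≠ 0`, a NONZERO vector `v` of the eigen-lattice
  with `(ρ' g)⁶ v + n₁ (ρ' g)² v = n₂ (ρ' g)⁴ v + n₃ v` (namely `v = (u ⊗ 1) w₁`).
* `eigenLatticeNew_of` : `EigenLatticeNew p N S 𝒪' χ` from (K1), `w`, and for every `q` a `u` as above.
-/
import Mathlib
import Fermat.Agent.ES.J.EigenLatticeOf8
import Fermat.Agent.ES.N35.EigenNew8

set_option autoImplicit false
set_option linter.unusedSectionVars false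
set_option synthInstance.maxHeartbeats 400000

open TensorProduct AlgebraicCurve ModularCurve

noncomputable section

namespace Fermat.Agent.ES.N35.EigenNewOf8

open Fermat.Agent.ES.ALG.RelDense9 Fermat.Agent.ES.ALG.RankTwo9 Fermat.Agent.ES.J.S30Skeleton8
  Fermat.Agent.ES.J.TateJZero13 Fermat.Agent.ES.J.BaseChangeRep8 Fermat.Agent.ES.N35.EigenNew8

local notation "Qb" => AlgebraicClosure ℚ
local notation "GQ" => (AlgebraicClosure ℚ ≃ₐ[ℚ] AlgebraicClosure ℚ)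

section Eigen

variable {𝒪 : Type} [CommRing 𝒪] [IsDomain 𝒪] [IsPrincipalIdealRing 𝒪]
variable {Λ : Type} [AddCommGroup Λ] [Module 𝒪 Λ] [Module.Free 𝒪 Λ] [Module.Finite 𝒪 Λ]
variable {G : Type*} [Group G] {ι : Type*}

/-- powers of the restricted representation. -/
theorem coe_restrictRep_pow_apply (ρ : G →* Module.End 𝒪 Λ) (M : Submodule 𝒪 Λ) (hM : Stable ρ M)
    (g : G) (k : ℕ) (v : M) : (((restrictRep ρ M hM g ^ k) v : M) : Λ) = (ρ g ^ k) (v : Λ) := by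
  rw [← map_pow, ← map_pow, coe_restrictRep_apply]

/-- twin of `BaseChangeRep8.exists_eigenSubRep` with the fourth output. -/
theorem exists_eigenSubRep_new (ρ : G →* Module.End 𝒪 Λ) (t : ι → Module.End 𝒪 Λ) (c : ι → 𝒪)
    (hcomm : ∀ g i, Commute (ρ g) (t i)) (w : Λ) (hw0 : w ≠ 0) (hw : ∀ i, t i w = c i • w) :
    ∃ (Λ' : Type) (_ : AddCommGroup Λ') (_ : Module 𝒪 Λ') (_ : Module.Free 𝒪 Λ')
      (_ : Module.Finite 𝒪 Λ') (_ : Nontrivial Λ') (ρ' : G →* Module.End 𝒪 Λ'),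
      (∀ (I : Ideal 𝒪) (g : G), EndCongr I (ρ g) 1 → EndCongr I (ρ' g) 1) ∧
      (∀ g, ρ g = 1 → ρ' g = 1) ∧
      (∀ (g : G) (i : ι) (n : 𝒪), ρ g * ρ g - t i * ρ g + n • (1 : Module.End 𝒪 Λ) = 0 →
        ρ' g * ρ' g - c i • ρ' g + n • (1 : Module.End 𝒪 Λ') = 0) ∧
      (∀ (g : G) (n₁ n₂ n₃ : 𝒪) (w' : Λ), w' ≠ 0 → (∀ i, t i w' = c i • w') →
        (ρ g ^ 6) w' + n₁ • (ρ g ^ 2) w' = n₂ • (ρ g ^ 4) w' + n₃ • w' →
        ∃ v : Λ', v ≠ 0 ∧ (ρ' g ^ 6) v + n₁ • (ρ' g ^ 2) v = n₂ • (ρ' g ^ 4) v + n₃ • v) := by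
  have hsat := saturated_eigenSub t c
  have hst := stable_eigenSub ρ t c hcomm
  have hwmem : w ∈ eigenSub t c := mem_eigenSub.mpr hw
  have hnt : Nontrivial (eigenSub t c) :=
    ⟨⟨⟨w, hwmem⟩, 0, fun h => hw0 (congrArg Subtype.val h)⟩⟩
  refine ⟨eigenSub t c, inferInstance, inferInstance, inferInstance, inferInstance, hnt,
    restrictRep ρ (eigenSub t c) hst, ?_, ?_, ?_, ?_⟩
  · intro I g h
    exact endCongr_restrictRep hsat hst I g h
  · intro g hg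
    ext v
    simp [hg]
  · intro g i n h
    ext v
    have hv := mem_eigenSub.mp v.2
    have hρv : ρ g (v : Λ) ∈ eigenSub t c := hst g v v.2
    have h1 := congrArg (fun F : Module.End 𝒪 Λ => F (v : Λ)) h
    simp only [LinearMap.add_apply, LinearMap.sub_apply, Module.End.mul_apply,
      LinearMap.smul_apply, Module.End.one_apply, LinearMap.zero_apply] at h1
    rw [mem_eigenSub.mp hρv i] at h1
    simpa using h1
  · intro g n₁ n₂ n₃ w' hw'0 hw' hrel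
    refine ⟨⟨w', mem_eigenSub.mpr hw'⟩, fun h => hw'0 (congrArg Subtype.val h), ?_⟩
    apply Subtype.ext
    rw [Submodule.coe_add, Submodule.coe_add, Submodule.coe_smul, Submodule.coe_smul,
      Submodule.coe_smul, coe_restrictRep_pow_apply, coe_restrictRep_pow_apply,
      coe_restrictRep_pow_apply]
    exact hrel

end Eigen

section Main

variable {R : Type} [CommRing R] {𝒪 : Type} [CommRing 𝒪] [IsDomain 𝒪] [IsPrincipalIdealRing 𝒪]
  [Algebra R 𝒪]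
variable {T : Type} [AddCommGroup T] [Module R T] [Module.Free R T] [Module.Finite R T]
variable {G : Type*} [Group G] {ι : Type*}

/-- twin of `BaseChangeRep8.exists_eigenRep` with the fourth output. -/
theorem exists_eigenRep_new (ρ : G →* Module.End R T) (t : ι → Module.End R T)
    (hcomm : ∀ g i, Commute (ρ g) (t i)) (c : ι → 𝒪) (w : 𝒪 ⊗[R] T) (hw0 : w ≠ 0)
    (hw : ∀ i, (t i).baseChange 𝒪 w = c i • w) :
    ∃ (Λ' : Type) (_ : AddCommGroup Λ') (_ : Module 𝒪 Λ') (_ : Module.Free 𝒪 Λ')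
      (_ : Module.Finite 𝒪 Λ') (_ : Nontrivial Λ') (ρ' : G →* Module.End 𝒪 Λ'),
      (∀ (I : Ideal 𝒪) (g : G) (r : R), algebraMap R 𝒪 r ∈ I → (∀ x, ∃ y, ρ g x - x = r • y) →
        EndCongr I (ρ' g) 1) ∧
      (∀ g, ρ g = 1 → ρ' g = 1) ∧
      (∀ (g : G) (i : ι) (n : R), ρ g * ρ g - t i * ρ g + n • (1 : Module.End R T) = 0 →
        ρ' g * ρ' g - c i • ρ' g + algebraMap R 𝒪 n • (1 : Module.End 𝒪 Λ') = 0) ∧
      (∀ (g : G) (u : Module.End R T) (n₁ n₂ n₃ : R), (∀ i, Commute u (t i)) →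
        (∀ x : T, (ρ g ^ 6) (u x) + n₁ • (ρ g ^ 2) (u x) = n₂ • (ρ g ^ 4) (u x) + n₃ • u x) →
        ∀ w₁ : 𝒪 ⊗[R] T, (∀ i, (t i).baseChange 𝒪 w₁ = c i • w₁) → u.baseChange 𝒪 w₁ ≠ 0 →
        ∃ v : Λ', v ≠ 0 ∧ (ρ' g ^ 6) v + algebraMap R 𝒪 n₁ • (ρ' g ^ 2) v =
          algebraMap R 𝒪 n₂ • (ρ' g ^ 4) v + algebraMap R 𝒪 n₃ • v) := by
  have hcomm' : ∀ g i, Commute (bcRep (𝒪 := 𝒪) ρ g) ((t i).baseChange 𝒪) := by
    intro g i
    have := (hcomm g i).map (Module.End.baseChangeHom R 𝒪 T)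
    exact this
  obtain ⟨Λ', i1, i2, i3, i4, i5, ρ', h1, h2, h3, h4⟩ :=
    exists_eigenSubRep_new (bcRep (𝒪 := 𝒪) ρ) (fun i => (t i).baseChange 𝒪) c hcomm' w hw0 hw
  refine ⟨Λ', i1, i2, i3, i4, i5, ρ', ?_, ?_, ?_, ?_⟩
  · intro I g r hr hf
    exact h1 I g (endCongr_baseChange I (ρ g) r hr hf)
  · intro g hg
    apply h2
    rw [bcRep_apply, hg, LinearMap.baseChange_one]
  · intro g i n h
    apply h3 g i (algebraMap R 𝒪 n)
    have := congrArg (fun F : Module.End R T => F.baseChange 𝒪) h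
    simp only [LinearMap.baseChange_add, LinearMap.baseChange_sub, LinearMap.baseChange_mul,
      LinearMap.baseChange_smul, LinearMap.baseChange_one, LinearMap.baseChange_zero] at this
    rw [bcRep_apply, algebraMap_smul]
    exact this
  · intro g u n₁ n₂ n₃ hu hrel w₁ hw₁ hne
    -- the relation as an identity of endomorphisms of `T`
    have hE : ρ g ^ 6 * u + n₁ • (ρ g ^ 2 * u) = n₂ • (ρ g ^ 4 * u) + n₃ • u := by
      apply LinearMap.ext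
      intro x
      simp only [LinearMap.add_apply, LinearMap.smul_apply, Module.End.mul_apply]
      exact hrel x
    have hE' := congrArg (fun F : Module.End R T => F.baseChange 𝒪) hE
    simp only [LinearMap.baseChange_add, LinearMap.baseChange_mul, LinearMap.baseChange_smul,
      LinearMap.baseChange_pow] at hE'
    refine h4 g (algebraMap R 𝒪 n₁) (algebraMap R 𝒪 n₂) (algebraMap R 𝒪 n₃)
      (u.baseChange 𝒪 w₁) hne ?_ ?_
    · intro i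
      have hc : Commute (u.baseChange 𝒪) ((t i).baseChange 𝒪) :=
        (hu i).map (Module.End.baseChangeHom R 𝒪 T)
      have := congrArg (fun F : Module.End 𝒪 (𝒪 ⊗[R] T) => F w₁) hc.eq
      simp only [Module.End.mul_apply] at this
      rw [← this, hw₁ i, map_smul]
    · have := congrArg (fun F : Module.End 𝒪 (𝒪 ⊗[R] T) => F w₁) hE'
      simp only [LinearMap.add_apply, LinearMap.smul_apply, Module.End.mul_apply] at this
      rw [bcRep_apply]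
      simp only [algebraMap_smul]
      exact this

end Main

/-! ### The contract of Program O -/

variable {p : ℕ} [Fact p.Prime] {N : ℕ} [NeZero N] {S : Finset ℕ}
  {𝒪' : Type} [CommRing 𝒪'] [IsDomain 𝒪'] [IsDiscreteValuationRing 𝒪'] [Algebra ℤ_[p] 𝒪']

/-- **`EigenLatticeNew` from (K1), a nonzero `χ`-eigenvector `w` and, for every `q ∥ N`, `q ≠ p`, an
operator `u` on `T_p J₀(N)`** commuting with the good Hecke operators, with `(u ⊗ 1) w ≠ 0`, whose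
image is killed by `(X - q²)(X - 1)²` at `X = ρ_T(σ)²` for every Frobenius lift `σ` at `q`
(constants as casts of naturals: the literal shape of `TateFrob12.tate_frob`). -/
theorem eigenLatticeNew_of (hpS : p ∈ S)
    (hp𝒪' : (p : 𝒪') ∈ IsLocalRing.maximalIdeal 𝒪')
    (hfin : {y : JZero N | p • y = 0}.Finite)
    (χ : CuspForm.heckeAlgebra N 2 (↑S : Set ℕ) →+* 𝒪')
    (w : 𝒪' ⊗[ℤ_[p]] TJ p N) (hw0 : w ≠ 0)
    (hw : ∀ (ℓ : ℕ) (hℓ : ℓ.Prime) (hℓN : ¬ ℓ ∣ N) (hℓS : ℓ ∉ (↑S : Set ℕ)),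
      (tT p N ⟨ℓ, hℓ⟩).baseChange 𝒪' w = χ (CuspForm.heckeAlgebra.T hℓ hℓN hℓS) • w)
    (hnew : ∀ q : ℕ, q.Prime → q ≠ p → q ∣ N → ¬ q ^ 2 ∣ N →
      ∃ u : Module.End ℤ_[p] (TJ p N),
        (∀ (ℓ : ℕ) (hℓ : ℓ.Prime), ¬ ℓ ∣ N → ℓ ∉ (↑S : Set ℕ) → Commute u (tT p N ⟨ℓ, hℓ⟩)) ∧
        u.baseChange 𝒪' w ≠ 0 ∧
        ∀ A : ValuationSubring Qb, A.LiesOverPrime q → ∀ σ : GQ, A.IsFrobeniusAt σ q →
          ∀ x : TJ p N,
            (rhoT p N σ ^ 6) (u x) + ((1 + 2 * q ^ 2 : ℕ) : ℤ_[p]) • (rhoT p N σ ^ 2) (u x) =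
              ((2 + q ^ 2 : ℕ) : ℤ_[p]) • (rhoT p N σ ^ 4) (u x) + ((q ^ 2 : ℕ) : ℤ_[p]) • u x) :
    EigenLatticeNew p N S 𝒪' χ := by
  classical
  obtain ⟨hfinT, hfreeT⟩ := finite_free (p := p) (N := N) hfin
  let ι : Type := {ℓ : ℕ // ℓ.Prime ∧ ¬ ℓ ∣ N ∧ ℓ ∉ (↑S : Set ℕ)}
  let t : ι → Module.End ℤ_[p] (TJ p N) := fun i => tT p N ⟨i.1, i.2.1⟩
  let c : ι → 𝒪' := fun i => χ (CuspForm.heckeAlgebra.T i.2.1 i.2.2.1 i.2.2.2)
  obtain ⟨Λ, i1, i2, i3, i4, i5, ρ, h1, h2, h3, h4⟩ :=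
    exists_eigenRep_new (𝒪 := 𝒪') (rhoT p N) t (fun g i => commute_rhoT_tT g _) c w hw0
      (fun i => hw i.1 i.2.1 i.2.2.1 i.2.2.2)
  refine ⟨Λ, i1, i2, i3, i4, i5, ρ, ?_, ?_, ?_, ?_⟩
  · intro n
    obtain ⟨L, hL, H⟩ := rhoT_continuous (p := p) (N := N) hfin n
    refine ⟨L, hL, fun σ hσ => ?_⟩
    refine h1 _ σ ((p : ℤ_[p]) ^ n) ?_ (H σ hσ)
    rw [map_pow, map_natCast]
    exact Ideal.pow_mem_pow hp𝒪' n
  · intro q hq hqN hqp A hA τ hτ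
    exact h2 τ (rhoT_inertia hq hqN hqp hA hτ)
  · intro ℓ hℓ hℓN hℓS A hA σ hσ
    have hℓp : ℓ ≠ p := fun h => hℓS (h ▸ hpS)
    have := h3 σ ⟨ℓ, hℓ, hℓN, hℓS⟩ (ℓ : ℤ_[p]) (rhoT_frobenius hℓ hℓN hℓp hA hσ)
    rw [map_natCast] at this
    exact this
  · intro q hq hqp hqN hq2 A hA σ hσ
    obtain ⟨u, hu, huw, hkill⟩ := hnew q hq hqp hqN hq2
    obtain ⟨v, hv0, hv⟩ := h4 σ u ((1 + 2 * q ^ 2 : ℕ) : ℤ_[p]) ((2 + q ^ 2 : ℕ) : ℤ_[p])
      ((q ^ 2 : ℕ) : ℤ_[p]) (fun i => hu i.1 i.2.1 i.2.2.1 i.2.2.2)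
      (hkill A hA σ hσ) w (fun i => hw i.1 i.2.1 i.2.2.1 i.2.2.2) huw
    refine ⟨v, hv0, ?_⟩
    simpa only [map_natCast, Nat.cast_add, Nat.cast_mul, Nat.cast_pow, Nat.cast_one,
      Nat.cast_ofNat, map_add, map_mul, map_pow, map_one, map_ofNat] using hv

end Fermat.Agent.ES.N35.EigenNewOf8
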