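/-
Program O (S35), chapter TOP-O (helper8): **final adapter** — the contract
`EigenNew8.EigenLatticeNew p N S 𝒪' χ` from, for every `q ∥ N`, `q ≠ p`, ONE element `x₀` of the
`S`-anemic Hecke algebra with `χ x₀ ≠ 0` whose image on `T_p J₀(N)` (through `HeckeTate26.evJ`) is
killed by `(X - q²)(X - 1)²` at `X = ρ_T(σ)²` for all Frobenius lifts `σ` at `q`.

Everything else is unconditional: (K1) `S30Final8.k1`, (K2) `HeckeTate26.iotaJ`, FAITH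
`FaithFinal26.heckeLam_injective`, (EIG) `EigenNonzero9`.  The `χ`-eigenvector `w ∈ 𝒪' ⊗ T_p J₀(N)`
of Program J is an eigenvector of EVERY element of the Hecke algebra, so `(x₀ ⊗ 1) w = χ(x₀) w ≠ 0`.
-/
import Mathlib
import Fermat.Agent.ES.J.S30Final8
import Fermat.Agent.ES.J.PadicAlg8
import Fermat.Agent.ES.K.HeckeTate26
import Fermat.Agent.ES.N35.EigenNewOf8
import Fermat.Prelude.Def_CuspForm_Newforms
import Fermat.Prelude.Def_GaloisRep_LocalConditions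

set_option autoImplicit false
set_option linter.unusedSectionVars false
set_option linter.overlappingInstances false
set_option synthInstance.maxHeartbeats 400000

open TensorProduct AlgebraicCurve ModularCurve

noncomputable section

namespace Fermat.Agent.ES.N35.EigenNewHecke8

open Fermat.Agent.ES.J.S30Skeleton8 Fermat.Agent.ES.J.TateJZero13
  Fermat.Agent.ES.HEQ.FaithInst26 Fermat.Agent.ES.HEQ.FaithFinal26
  Fermat.Agent.ES.K.HeckeTate26 Fermat.Agent.ES.N35.EigenNew8 Fermat.Agent.ES.N35.EigenNewOf8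

local notation "Qb" => AlgebraicClosure ℚ
local notation "GQ" => (AlgebraicClosure ℚ ≃ₐ[ℚ] AlgebraicClosure ℚ)

variable {p : ℕ} [Fact p.Prime] {N : ℕ} [NeZero N] {S : Finset ℕ}
  {𝒪' : Type} [CommRing 𝒪'] [IsDomain 𝒪'] [IsDiscreteValuationRing 𝒪']
  [IsAdicComplete (IsLocalRing.maximalIdeal 𝒪') 𝒪'] [CharZero 𝒪']

/-- **`EigenLatticeNew` from Hecke elements killing the non-toric part.** -/
theorem eigenLatticeNew_of_hecke (hpS : p ∈ S)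
    (hS : ∀ q : ℕ, q.Prime → q ∣ N → q ∈ (↑S : Set ℕ))
    (hp𝒪' : (p : 𝒪') ∈ IsLocalRing.maximalIdeal 𝒪')
    (χ : CuspForm.heckeAlgebra N 2 (↑S : Set ℕ) →+* 𝒪')
    (hnew : ∀ q : ℕ, q.Prime → q ≠ p → q ∣ N → ¬ q ^ 2 ∣ N →
      ∃ x₀ : ↥(CuspForm.heckeAlgebra N 2 (↑S : Set ℕ)), χ x₀ ≠ 0 ∧
        ∀ A : ValuationSubring Qb, A.LiesOverPrime q → ∀ σ : GQ, A.IsFrobeniusAt σ q →
          ∀ x : TJ p N,
            (rhoT p N σ ^ 6) (evJ (p := p) (↑S : Set ℕ) hS (1 ⊗ₜ[ℤ] x₀) x) +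
                ((1 + 2 * q ^ 2 : ℕ) : ℤ_[p]) •
                  (rhoT p N σ ^ 2) (evJ (p := p) (↑S : Set ℕ) hS (1 ⊗ₜ[ℤ] x₀) x) =
              ((2 + q ^ 2 : ℕ) : ℤ_[p]) •
                  (rhoT p N σ ^ 4) (evJ (p := p) (↑S : Set ℕ) hS (1 ⊗ₜ[ℤ] x₀) x) +
                ((q ^ 2 : ℕ) : ℤ_[p]) • evJ (p := p) (↑S : Set ℕ) hS (1 ⊗ₜ[ℤ] x₀) x) :
    EigenLatticeNew p N S 𝒪' χ := by
  classical
  let _ : Algebra ℤ_[p] 𝒪' := (Fermat.Agent.ES.J.PadicAlg8.padicToLocal p hp𝒪').toAlgebra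
  have hfin := Fermat.Agent.ES.J.S30Final8.k1 p N
  obtain ⟨hfinT, hfreeT⟩ := finite_free (p := p) (N := N) hfin
  -- the eigenvector of Program J, with its eigen-property for ALL Hecke elements
  have hι₀ : IsBaseChange ℤ_[p] (iotaJ p N) := isBaseChange_iotaJ p N
  let g : TJ p N →ₗ[ℤ_[p]] 𝒪' ⊗[ℤ_[p]] TJ p N := TensorProduct.mk ℤ_[p] 𝒪' (TJ p N) 1
  have hg : IsBaseChange 𝒪' g := TensorProduct.isBaseChange ℤ_[p] (TJ p N) 𝒪'
  have hι : IsBaseChange 𝒪' ((g.restrictScalars ℤ).comp (iotaJ p N)) := IsBaseChange.comp hι₀ hg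
  obtain ⟨w, hw0, hw⟩ :=
    Fermat.Agent.ES.ALG.EigenNonzero9.exists_eigenvector_of_isBaseChange
      ((g.restrictScalars ℤ).comp (iotaJ p N)) hι
      ((heckeLam (N := N) (↑S : Set ℕ) hS : _ →ₐ[ℤ] _) : _ →+* _)
      (heckeLam_injective (↑S : Set ℕ) hS) χ
  have hwE : ∀ x₀ : ↥(CuspForm.heckeAlgebra N 2 (↑S : Set ℕ)),
      (evJ (p := p) (↑S : Set ℕ) hS (1 ⊗ₜ[ℤ] x₀)).baseChange 𝒪' w = χ x₀ • w := by
    intro x₀
    refine hw x₀ _ fun l => ?_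
    show (evJ (p := p) (↑S : Set ℕ) hS (1 ⊗ₜ[ℤ] x₀)).baseChange 𝒪'
        ((1 : 𝒪') ⊗ₜ[ℤ_[p]] iotaJ p N l) =
      (1 : 𝒪') ⊗ₜ[ℤ_[p]] iotaJ p N (heckeLam (↑S : Set ℕ) hS x₀ l)
    rw [LinearMap.baseChange_tmul]
    congr 1
    unfold evJ
    rw [evT_tmul_apply, one_smul]
  refine eigenLatticeNew_of hpS hp𝒪' hfin χ w hw0 (fun ℓ hℓ hℓN hℓS => ?_) ?_
  · rw [← evJ_T (p := p) (↑S : Set ℕ) hS ℓ hℓ hℓN hℓS]
    exact hwE _
  · intro q hq hqp hqN hq2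
    obtain ⟨x₀, hx₀, hk⟩ := hnew q hq hqp hqN hq2
    refine ⟨evJ (p := p) (↑S : Set ℕ) hS (1 ⊗ₜ[ℤ] x₀), fun ℓ hℓ hℓN hℓS => ?_, ?_, hk⟩
    · rw [← evJ_T (p := p) (↑S : Set ℕ) hS ℓ hℓ hℓN hℓS]
      exact (Commute.all _ _).map (evJ (p := p) (↑S : Set ℕ) hS)
    · rw [hwE x₀]
      exact smul_ne_zero hx₀ hw0

open Polynomial in
/-- **S35 from Hecke elements killing the non-toric part**, in the literal frozen shape
(`O'' := O'`): the only input is, for every `q ∥ M`, `q ≠ lam`, an element `x₀` of the `S`-anemic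
Hecke algebra of level `M` with `iota (chig x₀) ≠ 0` whose image on `T_lam J₀(M)` is killed by the
Frobenius polynomial. -/
theorem s35_of_hecke
    {M : ℕ} [NeZero M] {g : CuspForm (CongruenceSubgroup.Gamma0 M) 2} (hg : g.IsNewform)
    (lam : ℕ) [Fact lam.Prime]
    (S : Finset ℕ)
    (O' : Type) [CommRing O'] [IsDomain O'] [IsDiscreteValuationRing O']
    [IsAdicComplete (IsLocalRing.maximalIdeal O') O'] [Finite (IsLocalRing.ResidueField O')]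
    [CharZero O'] (hlamO' : (lam : O') ∈ IsLocalRing.maximalIdeal O')
    (chig : CuspForm.heckeAlgebra M 2 (↑S : Set ℕ) →+* ℂ)
    (iota : chig.range →+* O')
    (hlamS : lam ∈ S) (hMS : ∀ q : ℕ, q.Prime → q ∣ M → q ∈ S)
    (hS : ∀ q : ℕ, q.Prime → q ∣ M → q ∈ (↑S : Set ℕ))
    (hnew : ∀ q : ℕ, q.Prime → q ≠ lam → q ∣ M → ¬ q ^ 2 ∣ M →
      ∃ x₀ : ↥(CuspForm.heckeAlgebra M 2 (↑S : Set ℕ)),
        (iota.comp chig.rangeRestrict) x₀ ≠ 0 ∧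
        ∀ A : ValuationSubring Qb, A.LiesOverPrime q → ∀ σ : GQ, A.IsFrobeniusAt σ q →
          ∀ x : TJ lam M,
            (rhoT lam M σ ^ 6) (evJ (p := lam) (↑S : Set ℕ) hS (1 ⊗ₜ[ℤ] x₀) x) +
                ((1 + 2 * q ^ 2 : ℕ) : ℤ_[lam]) •
                  (rhoT lam M σ ^ 2) (evJ (p := lam) (↑S : Set ℕ) hS (1 ⊗ₜ[ℤ] x₀) x) =
              ((2 + q ^ 2 : ℕ) : ℤ_[lam]) •
                  (rhoT lam M σ ^ 4) (evJ (p := lam) (↑S : Set ℕ) hS (1 ⊗ₜ[ℤ] x₀) x) +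
                ((q ^ 2 : ℕ) : ℤ_[lam]) • evJ (p := lam) (↑S : Set ℕ) hS (1 ⊗ₜ[ℤ] x₀) x) :
    ∃ (O'' : Type) (_ : CommRing O'') (_ : IsDomain O'') (_ : IsDiscreteValuationRing O'')
      (_ : IsAdicComplete (IsLocalRing.maximalIdeal O'') O'') (_ : Finite (IsLocalRing.ResidueField O''))
      (_ : CharZero O'') (_ : Algebra O' O'') (_ : Module.Finite O' O'') (_ : IsLocalHom (algebraMap O' O'')),
      Function.Injective (algebraMap O' O'') ∧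
      ∃ ρ : GaloisRepAdic O'',
        (∀ (ℓ : ℕ) (hℓ : ℓ.Prime) (hℓM : ¬ ℓ ∣ M) (hℓS : ℓ ∉ (↑S : Set ℕ)),
          ∀ A : ValuationSubring (AlgebraicClosure ℚ), A.LiesOverPrime ℓ →
            ∀ σ : AlgebraicClosure ℚ ≃ₐ[ℚ] AlgebraicClosure ℚ, A.IsFrobeniusAt σ ℓ →
              LinearMap.charpoly (ρ.ρ σ) =
                X ^ 2 - C (algebraMap O' O'' ((iota.comp chig.rangeRestrict) (CuspForm.heckeAlgebra.T hℓ hℓM hℓS))) * X
                  + C ((ℓ : O''))) ∧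
        (∀ q : ℕ, q.Prime → q ≠ lam → q ∣ M → ¬ q ^ 2 ∣ M →
          ∀ A : ValuationSubring (AlgebraicClosure ℚ), A.LiesOverPrime q →
            ∀ σ : AlgebraicClosure ℚ ≃ₐ[ℚ] AlgebraicClosure ℚ, A.IsFrobeniusAt σ q →
              LinearMap.charpoly (ρ.ρ σ) = X ^ 2 - C ((q : O'') + 1) * X + C ((q : O'')) ∨
              LinearMap.charpoly (ρ.ρ σ) = X ^ 2 + C ((q : O'') + 1) * X + C ((q : O''))) :=
  s35_of_eigenLatticeNew hg lam S O' hlamO' chig iota hlamS hMS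
    (eigenLatticeNew_of_hecke hlamS hS hlamO' (iota.comp chig.rangeRestrict) hnew)

end Fermat.Agent.ES.N35.EigenNewHecke8
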