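/-
Program O (S35), helper29: multiplicative congruences `x ≡ y mod^× π O` for a valuation subring `O` of a
field `F`:  `One1 π O z  :⇔  z - 1 ∈ π O`.  `One1` is a subgroup of `F^×` (as a predicate), stable under
every ring automorphism that maps `π O` into itself.  Pure algebra.
-/
import Mathlib

set_option autoImplicit false

namespace Fermat.Agent.ES.N35.MulCong29

variable {F : Type*} [Field F]

/-- `z ∈ 1 + p O`. -/
def One1 (p : F) (O : ValuationSubring F) (z : F) : Prop :=
  ∃ c ∈ O, z - 1 = p * c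

variable {p : F} {O : ValuationSubring F}

theorem one1_one : One1 p O 1 := ⟨0, O.zero_mem, by simp⟩

theorem One1.mem (hp : p ∈ O) {z : F} (h : One1 p O z) : z ∈ O := by
  obtain ⟨c, hc, e⟩ := h
  have : z = 1 + p * c := by rw [← e]; ring
  rw [this]
  exact O.add_mem _ _ O.one_mem (O.mul_mem _ _ hp hc)

theorem One1.ne_zero (hp : p⁻¹ ∉ O) {z : F} (h : One1 p O z) : z ≠ 0 := by
  rintro rfl
  obtain ⟨c, hc, e⟩ := h
  apply hp
  have hp0 : p ≠ 0 := by
    rintro rfl
    simp at e
  have : p⁻¹ = -c := by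
    field_simp
    linear_combination -e
  rw [this]
  exact O.neg_mem _ hc

theorem One1.mul (hp : p ∈ O) {z w : F} (hz : One1 p O z) (hw : One1 p O w) : One1 p O (z * w) := by
  obtain ⟨c, hc, e⟩ := hz
  obtain ⟨d, hd, e'⟩ := hw
  refine ⟨c + d + p * c * d, ?_, ?_⟩
  · exact O.add_mem _ _ (O.add_mem _ _ hc hd) (O.mul_mem _ _ (O.mul_mem _ _ hp hc) hd)
  · have hz : z = 1 + p * c := by rw [← e]; ring
    have hw : w = 1 + p * d := by rw [← e']; ring
    rw [hz, hw]; ring

/-- a unit of `O` congruent to 1 has inverse congruent to 1 -/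
theorem One1.inv (hp : p ∈ O) (hp' : p⁻¹ ∉ O) {z : F} (hz : One1 p O z) : One1 p O z⁻¹ := by
  have hz0 : z ≠ 0 := hz.ne_zero hp'
  have hzO : z ∈ O := hz.mem hp
  obtain ⟨c, hc, e⟩ := hz
  -- `z⁻¹ ∈ O`: otherwise `z` is in the maximal ideal, and `1 = z - p c` too, so `p⁻¹ ∈ O`...
  have hzinv : z⁻¹ ∈ O := by
    by_contra hcon
    -- `z⁻¹ ∉ O` ⇒ `z * p⁻¹ ... ` use: `1 = z - p c`; divide by `z`... `z⁻¹ = 1 - p c z⁻¹`
    -- valuation argument
    have hv : O.valuation z < 1 := by
      have h1 : O.valuation z ≤ 1 := (O.valuation_le_one_iff z).mpr hzO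
      rcases lt_or_eq_of_le h1 with h | h
      · exact h
      · exfalso
        apply hcon
        rw [← O.valuation_le_one_iff, map_inv₀, h, inv_one]
    have hvp : O.valuation p < 1 := by
      have h1 : O.valuation p ≤ 1 := (O.valuation_le_one_iff p).mpr hp
      rcases lt_or_eq_of_le h1 with h | h
      · exact h
      · exfalso
        apply hp'
        rw [← O.valuation_le_one_iff, map_inv₀, h, inv_one]
    have hvc : O.valuation c ≤ 1 := (O.valuation_le_one_iff c).mpr hc
    have h1 : (1 : F) = z - p * c := by rw [← e]; ring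
    have : O.valuation (1 : F) < 1 := by
      rw [h1]
      refine lt_of_le_of_lt (Valuation.map_sub _ _ _) (max_lt hv ?_)
      rw [map_mul]
      calc O.valuation p * O.valuation c ≤ O.valuation p * 1 := by gcongr
        _ = O.valuation p := mul_one _
        _ < 1 := hvp
    rw [map_one] at this
    exact lt_irrefl _ this
  refine ⟨-(c * z⁻¹), O.neg_mem _ (O.mul_mem _ _ hc hzinv), ?_⟩
  have h1 : z⁻¹ - 1 = (1 - z) * z⁻¹ := by field_simp
  have h2 : 1 - z = -(p * c) := by linear_combination -e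
  rw [h1, h2]; ring

theorem One1.div (hp : p ∈ O) (hp' : p⁻¹ ∉ O) {z w : F} (hz : One1 p O z) (hw : One1 p O w) :
    One1 p O (z / w) := by
  rw [div_eq_mul_inv]
  exact hz.mul hp (hw.inv hp hp')

theorem One1.pow (hp : p ∈ O) {z : F} (hz : One1 p O z) (n : ℕ) : One1 p O (z ^ n) := by
  induction n with
  | zero => simpa using one1_one
  | succ n ih => rw [pow_succ]; exact ih.mul hp hz

/-- Multiplicative congruence. -/
def MC (p : F) (O : ValuationSubring F) (x y : F) : Prop := One1 p O (x / y)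

theorem MC.refl {x : F} (hx : x ≠ 0) : MC p O x x := by
  unfold MC; rw [div_self hx]; exact one1_one

theorem MC.symm (hp : p ∈ O) (hp' : p⁻¹ ∉ O) {x y : F} (h : MC p O x y) : MC p O y x := by
  unfold MC at *
  have := h.inv hp hp'
  rwa [inv_div] at this

theorem MC.right_ne_zero (hp' : p⁻¹ ∉ O) {x y : F} (h : MC p O x y) : y ≠ 0 := by
  rintro rfl
  unfold MC at h
  rw [div_zero] at h
  exact h.ne_zero hp' rfl

theorem MC.left_ne_zero (hp' : p⁻¹ ∉ O) {x y : F} (h : MC p O x y) : x ≠ 0 := by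
  rintro rfl
  unfold MC at h
  rw [zero_div] at h
  exact h.ne_zero hp' rfl

theorem MC.trans (hp : p ∈ O) (hp' : p⁻¹ ∉ O) {x y z : F} (h : MC p O x y) (h' : MC p O y z) :
    MC p O x z := by
  have hy := h.right_ne_zero hp'
  unfold MC at *
  have := h.mul hp h'
  rwa [div_mul_div_cancel₀ hy] at this

theorem MC.mul (hp : p ∈ O) {x y x' y' : F} (h : MC p O x y) (h' : MC p O x' y') :
    MC p O (x * x') (y * y') := by
  unfold MC at *
  have := h.mul hp h'
  rwa [div_mul_div_comm] at this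

theorem MC.div (hp : p ∈ O) (hp' : p⁻¹ ∉ O) {x y x' y' : F} (h : MC p O x y) (h' : MC p O x' y') :
    MC p O (x / x') (y / y') := by
  unfold MC at *
  have := h.div hp hp' h'
  rwa [div_div_div_comm] at this

theorem MC.pow (hp : p ∈ O) {x y : F} (h : MC p O x y) (n : ℕ) : MC p O (x ^ n) (y ^ n) := by
  unfold MC at *
  have := h.pow hp n
  rwa [div_pow] at this

theorem MC.inv (hp : p ∈ O) (hp' : p⁻¹ ∉ O) {x y : F} (h : MC p O x y) : MC p O x⁻¹ y⁻¹ := by
  unfold MC at *
  have := h.inv hp hp'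
  rwa [inv_div, ← inv_div_inv] at this

/-- transport along a ring hom mapping `p O` into `p' O'` -/
theorem One1.map {F' : Type*} [Field F'] {p' : F'} {O' : ValuationSubring F'} (φ : F →+* F')
    (hφ : ∀ c ∈ O, ∃ c' ∈ O', φ (p * c) = p' * c') {z : F} (hz : One1 p O z) : One1 p' O' (φ z) := by
  obtain ⟨c, hc, e⟩ := hz
  obtain ⟨c', hc', e'⟩ := hφ c hc
  refine ⟨c', hc', ?_⟩
  rw [← e', ← e, map_sub, map_one]

theorem MC.map {F' : Type*} [Field F'] {p' : F'} {O' : ValuationSubring F'} (φ : F →+* F')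
    (hφ : ∀ c ∈ O, ∃ c' ∈ O', φ (p * c) = p' * c') {x y : F} (h : MC p O x y) :
    MC p' O' (φ x) (φ y) := by
  unfold MC at *
  have := h.map φ hφ
  rwa [map_div₀] at this

end Fermat.Agent.ES.N35.MulCong29
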