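/-
Program O (S35), helper29: the ABSTRACT SPINE of (C″), `S35_NOTE29.md` §3 — Steps 1–3, (U1) and (U3).

Data: `F₀ ⊂ F` twice (`α β : F₀ →ₐ[R] F`, the two degeneracy embeddings), the Gauss valuation ring `O` of
`F₀` and the two Gauss valuation rings `O1 O2` of `F`, a Frobenius lift `s` on `F` and `s₀` on `F₀`
commuting with `α`, `β`.  Multiplicative congruences `MC p Oj x y :⇔ x / y ∈ 1 + p Oj`.

For `h` (in the application `h = σ² f / f`) with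
* norm/reduction data `(N̄)`: `h ~₁ α x₁`, `h^q ~₂ α x₂`, `nα ~ x₁ x₂`; `h^q ~₁ β y₁`, `h ~₂ β y₂`,
  `nβ ~ y₁ y₂` (`nα = N_α h`, `nβ = N_β h`),
* residue Kronecker `(K̄)`: `β (s₀ x) ~₁ (α x)^q`, `α (s₀ x) ~₂ (β x)^q` for units `x` of `O`,
we get
* Step 2 (`step_two`): `Δ h ~₁ α (s₀ nβ / nα)`, `Δ h ~₂ β (s₀ nα / nβ)`;
* Step 3 (`step_three`), with newness `(E)`: `nα = rα · Gα ^ m`, `nβ = rβ · Gβ ^ m`, `rα rβ ∈ R^×`:
  `∇ Δ h ~₁ (α (∇₀ S₁)) ^ m`, `∇ Δ h ~₂ (β (∇₀ S₂)) ^ m`, `S₁ = s₀ Gβ / Gα`, `S₂ = s₀ Gα / Gβ`;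
* (U1) (`u_one`): for `T ~₁ α (∇₀ S₁)`, `T ~₂ β (∇₀ S₂)`: `u := ∇ Δ h / T ^ m ≡ 1 mod π (O1 ⊓ O2)`;
* (U3) (`node_datum`): `NodalCL13.NodeDatum π B O1 O2 m u 𝔪` at a closed point `𝔪` with `s²`-Frobenius
  residue action, a local generator `G`, integrally closed branches and transversal gluing.
-/
import Mathlib
import Fermat.Agent.ES.N34.NodalCL13
import Fermat.Agent.ES.N35.MulCong29

set_option autoImplicit false

namespace Fermat.Agent.ES.N35.ThirdDiff29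

open Fermat.Agent.ES.N35.MulCong29
open Fermat.Agent.ES.N34.NodalCore13 Fermat.Agent.ES.N34.NodalCL13

section Defs

variable {F : Type*} [Field F]

/-- `Δ x = s² x / x`. -/
def Dl (s : F ≃+* F) (x : F) : F := s (s x) / x

/-- `∇ x = s² x / x ^ (q²)`. -/
def Nb (s : F ≃+* F) (q : ℕ) (x : F) : F := s (s x) / x ^ (q ^ 2)

variable (s : F ≃+* F) (q : ℕ)

theorem Dl_mul (x y : F) : Dl s (x * y) = Dl s x * Dl s y := by
  unfold Dl; rw [map_mul, map_mul, div_mul_div_comm]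

theorem Dl_pow (x : F) (n : ℕ) : Dl s (x ^ n) = Dl s x ^ n := by
  unfold Dl; rw [map_pow, map_pow, div_pow]

theorem Dl_div (x y : F) : Dl s (x / y) = Dl s x / Dl s y := by
  unfold Dl; rw [map_div₀, map_div₀, div_div_div_comm]

theorem Nb_mul (x y : F) : Nb s q (x * y) = Nb s q x * Nb s q y := by
  unfold Nb; rw [map_mul, map_mul, mul_pow, div_mul_div_comm]

theorem Nb_pow (x : F) (n : ℕ) : Nb s q (x ^ n) = Nb s q x ^ n := by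
  unfold Nb; rw [map_pow, map_pow, div_pow, ← pow_mul, ← pow_mul, mul_comm]

theorem Nb_div (x y : F) : Nb s q (x / y) = Nb s q x / Nb s q y := by
  unfold Nb; rw [map_div₀, map_div₀, div_pow, div_div_div_comm]

theorem Nb_map_self (x : F) : Nb s q (s x) = s (Nb s q x) := by
  unfold Nb; rw [map_div₀, map_pow]

theorem Dl_ne_zero {x : F} (hx : x ≠ 0) : Dl s x ≠ 0 := by
  unfold Dl
  exact div_ne_zero (by simpa using hx) hx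

theorem Nb_ne_zero {x : F} (hx : x ≠ 0) : Nb s q x ≠ 0 := by
  unfold Nb
  exact div_ne_zero (by simpa using hx) (pow_ne_zero _ hx)

variable {p : F} {O : ValuationSubring F}

theorem MC.apply (hs : ∀ c ∈ O, ∃ c' ∈ O, s (p * c) = p * c') {x y : F} (h : MC p O x y) :
    MC p O (s x) (s y) :=
  h.map (s : F →+* F) hs

theorem MC.Dl (hp : p ∈ O) (hp' : p⁻¹ ∉ O) (hs : ∀ c ∈ O, ∃ c' ∈ O, s (p * c) = p * c')
    {x y : F} (h : MC p O x y) : MC p O (Dl s x) (Dl s y) :=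
  MulCong29.MC.div hp hp' (MC.apply s hs (MC.apply s hs h)) h

theorem MC.Nb (hp : p ∈ O) (hp' : p⁻¹ ∉ O) (hs : ∀ c ∈ O, ∃ c' ∈ O, s (p * c) = p * c')
    {x y : F} (h : MC p O x y) : MC p O (Nb s q x) (Nb s q y) :=
  MulCong29.MC.div hp hp' (MC.apply s hs (MC.apply s hs h)) (h.pow hp _)

end Defs

section Transport

variable {F₀ F : Type*} [Field F₀] [Field F]

theorem map_Dl (α : F₀ →+* F) (s₀ : F₀ ≃+* F₀) (s : F ≃+* F) (hαs : ∀ x, α (s₀ x) = s (α x))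
    (x : F₀) : α (Dl s₀ x) = Dl s (α x) := by
  unfold Dl; rw [map_div₀, hαs, hαs]

theorem map_Nb (α : F₀ →+* F) (s₀ : F₀ ≃+* F₀) (s : F ≃+* F) (hαs : ∀ x, α (s₀ x) = s (α x))
    (q : ℕ) (x : F₀) : α (Nb s₀ q x) = Nb s q (α x) := by
  unfold Nb; rw [map_div₀, hαs, hαs, map_pow]

end Transport

section Spine

variable {R F₀ F : Type*} [CommRing R] [Field F₀] [Field F] [Algebra R F₀] [Algebra R F]

/-- **Step 2.** -/
theorem step_two (π : R) (O1 O2 : ValuationSubring F) (O : ValuationSubring F₀)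
    (hp1 : algebraMap R F π ∈ O1) (hp1' : (algebraMap R F π)⁻¹ ∉ O1)
    (hp2 : algebraMap R F π ∈ O2) (hp2' : (algebraMap R F π)⁻¹ ∉ O2)
    (hp0 : algebraMap R F₀ π ∈ O) (hp0' : (algebraMap R F₀ π)⁻¹ ∉ O)
    (α β : F₀ →+* F) (s : F ≃+* F) (s₀ : F₀ ≃+* F₀)
    (hαs : ∀ x, α (s₀ x) = s (α x)) (hβs : ∀ x, β (s₀ x) = s (β x))
    (hs1 : ∀ c ∈ O1, ∃ c' ∈ O1, s (algebraMap R F π * c) = algebraMap R F π * c')
    (hs2 : ∀ c ∈ O2, ∃ c' ∈ O2, s (algebraMap R F π * c) = algebraMap R F π * c')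
    (hs0 : ∀ c ∈ O, ∃ c' ∈ O, s₀ (algebraMap R F₀ π * c) = algebraMap R F₀ π * c')
    (hα1 : ∀ c ∈ O, ∃ c' ∈ O1, α (algebraMap R F₀ π * c) = algebraMap R F π * c')
    (hβ2 : ∀ c ∈ O, ∃ c' ∈ O2, β (algebraMap R F₀ π * c) = algebraMap R F π * c')
    (hα2r : ∀ z : F₀, One1 (algebraMap R F π) O2 (α z) → One1 (algebraMap R F₀ π) O z)
    (hβ1r : ∀ z : F₀, One1 (algebraMap R F π) O1 (β z) → One1 (algebraMap R F₀ π) O z)
    (q : ℕ)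
    (h : F) (nα nβ x₁ x₂ y₁ y₂ : F₀)
    (hK1 : MC (algebraMap R F π) O1 (β (s₀ x₁)) (α x₁ ^ q))
    (hK2 : MC (algebraMap R F π) O2 (α (s₀ y₂)) (β y₂ ^ q))
    (h1α : MC (algebraMap R F π) O1 h (α x₁)) (h2α : MC (algebraMap R F π) O2 (h ^ q) (α x₂))
    (hnα : MC (algebraMap R F₀ π) O nα (x₁ * x₂))
    (h1β : MC (algebraMap R F π) O1 (h ^ q) (β y₁)) (h2β : MC (algebraMap R F π) O2 h (β y₂))
    (hnβ : MC (algebraMap R F₀ π) O nβ (y₁ * y₂)) :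
    MC (algebraMap R F π) O1 (Dl s h) (α (s₀ nβ / nα)) ∧
      MC (algebraMap R F π) O2 (Dl s h) (β (s₀ nα / nβ)) := by
  -- nonvanishing
  have hx₁0 : x₁ ≠ 0 := fun h0 => by
    have := h1α.right_ne_zero hp1'; rw [h0, map_zero] at this; exact this rfl
  have hy₂0 : y₂ ≠ 0 := fun h0 => by
    have := h2β.right_ne_zero hp2'; rw [h0, map_zero] at this; exact this rfl
  have hsy₂0 : s₀ y₂ ≠ 0 := by simpa using hy₂0
  have hsx₁0 : s₀ x₁ ≠ 0 := by simpa using hx₁0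
  -- (i) `x₂ ~ s₀ y₂`
  have hi : MC (algebraMap R F₀ π) O x₂ (s₀ y₂) := by
    have e1 : MC (algebraMap R F π) O2 (α x₂) (h ^ q) := h2α.symm hp2 hp2'
    have e2 : MC (algebraMap R F π) O2 (h ^ q) (β y₂ ^ q) := h2β.pow hp2 q
    have e3 : MC (algebraMap R F π) O2 (β y₂ ^ q) (α (s₀ y₂)) := hK2.symm hp2 hp2'
    have e4 := (e1.trans hp2 hp2' e2).trans hp2 hp2' e3
    unfold MC at e4 ⊢
    rw [← map_div₀] at e4
    exact hα2r _ e4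
  -- (ii) `y₁ ~ s₀ x₁`
  have hii : MC (algebraMap R F₀ π) O y₁ (s₀ x₁) := by
    have e1 : MC (algebraMap R F π) O1 (β y₁) (h ^ q) := h1β.symm hp1 hp1'
    have e2 : MC (algebraMap R F π) O1 (h ^ q) (α x₁ ^ q) := h1α.pow hp1 q
    have e3 : MC (algebraMap R F π) O1 (α x₁ ^ q) (β (s₀ x₁)) := hK1.symm hp1 hp1'
    have e4 := (e1.trans hp1 hp1' e2).trans hp1 hp1' e3
    unfold MC at e4 ⊢
    rw [← map_div₀] at e4
    exact hβ1r _ e4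
  -- (iii)
  have hiiiα : MC (algebraMap R F₀ π) O nα (x₁ * s₀ y₂) :=
    hnα.trans hp0 hp0' ((MC.refl hx₁0).mul hp0 hi)
  have hiiiβ : MC (algebraMap R F₀ π) O nβ (s₀ x₁ * y₂) :=
    hnβ.trans hp0 hp0' (hii.mul hp0 (MC.refl hy₂0))
  -- (iv)
  have hivβ : MC (algebraMap R F₀ π) O (s₀ nβ) (s₀ (s₀ x₁) * s₀ y₂) := by
    have := MC.apply s₀ hs0 hiiiβ
    rwa [map_mul] at this
  have hivα : MC (algebraMap R F₀ π) O (s₀ nα) (s₀ x₁ * s₀ (s₀ y₂)) := by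
    have := MC.apply s₀ hs0 hiiiα
    rwa [map_mul] at this
  have hA1 : MC (algebraMap R F₀ π) O (s₀ nβ / nα) (Dl s₀ x₁) := by
    have := MulCong29.MC.div hp0 hp0' hivβ hiiiα
    have e : s₀ (s₀ x₁) * s₀ y₂ / (x₁ * s₀ y₂) = Dl s₀ x₁ := by
      unfold Dl; field_simp
    rwa [e] at this
  have hA2 : MC (algebraMap R F₀ π) O (s₀ nα / nβ) (Dl s₀ y₂) := by
    have := MulCong29.MC.div hp0 hp0' hivα hiiiβ
    have e : s₀ x₁ * s₀ (s₀ y₂) / (s₀ x₁ * y₂) = Dl s₀ y₂ := by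
      unfold Dl; field_simp
    rwa [e] at this
  constructor
  · -- on `O1`
    have e1 : MC (algebraMap R F π) O1 (Dl s h) (Dl s (α x₁)) := MC.Dl s hp1 hp1' hs1 h1α
    rw [← map_Dl α s₀ s hαs] at e1
    exact e1.trans hp1 hp1' ((hA1.symm hp0 hp0').map α hα1)
  · have e1 : MC (algebraMap R F π) O2 (Dl s h) (Dl s (β y₂)) := MC.Dl s hp2 hp2' hs2 h2β
    rw [← map_Dl β s₀ s hβs] at e1
    exact e1.trans hp2 hp2' ((hA2.symm hp0 hp0').map β hβ2)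

/-- **Step 3.** -/
theorem step_three (π : R) (O1 O2 : ValuationSubring F) (O : ValuationSubring F₀)
    (hp1 : algebraMap R F π ∈ O1) (hp1' : (algebraMap R F π)⁻¹ ∉ O1)
    (hp2 : algebraMap R F π ∈ O2) (hp2' : (algebraMap R F π)⁻¹ ∉ O2)
    (hp0 : algebraMap R F₀ π ∈ O) (hp0' : (algebraMap R F₀ π)⁻¹ ∉ O)
    (α β : F₀ →+* F) (s : F ≃+* F) (s₀ : F₀ ≃+* F₀)
    (hαs : ∀ x, α (s₀ x) = s (α x)) (hβs : ∀ x, β (s₀ x) = s (β x))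
    (hs1 : ∀ c ∈ O1, ∃ c' ∈ O1, s (algebraMap R F π * c) = algebraMap R F π * c')
    (hs2 : ∀ c ∈ O2, ∃ c' ∈ O2, s (algebraMap R F π * c) = algebraMap R F π * c')
    (hs0 : ∀ c ∈ O, ∃ c' ∈ O, s₀ (algebraMap R F₀ π * c) = algebraMap R F₀ π * c')
    (hα1 : ∀ c ∈ O, ∃ c' ∈ O1, α (algebraMap R F₀ π * c) = algebraMap R F π * c')
    (hβ2 : ∀ c ∈ O, ∃ c' ∈ O2, β (algebraMap R F₀ π * c) = algebraMap R F π * c')
    (q m : ℕ) (h' : F) (nα nβ cα cβ Gα Gβ : F₀)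
    (hA1 : MC (algebraMap R F π) O1 h' (α (s₀ nβ / nα)))
    (hA2 : MC (algebraMap R F π) O2 h' (β (s₀ nα / nβ)))
    (hGα : Gα ≠ 0) (hGβ : Gβ ≠ 0)
    (hEα : nα = cα * Gα ^ m) (hEβ : nβ = cβ * Gβ ^ m)
    (hFα : One1 (algebraMap R F₀ π) O (Nb s₀ q cα))
    (hFβ : One1 (algebraMap R F₀ π) O (Nb s₀ q cβ)) :
    MC (algebraMap R F π) O1 (Nb s q h') (α (Nb s₀ q (s₀ Gβ / Gα)) ^ m) ∧
      MC (algebraMap R F π) O2 (Nb s q h') (β (Nb s₀ q (s₀ Gα / Gβ)) ^ m) := by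
  have key : ∀ (c d G H : F₀), G ≠ 0 → H ≠ 0 → One1 (algebraMap R F₀ π) O (Nb s₀ q c) →
      One1 (algebraMap R F₀ π) O (Nb s₀ q d) →
      MC (algebraMap R F₀ π) O (Nb s₀ q (s₀ (d * H ^ m) / (c * G ^ m)))
        (Nb s₀ q (s₀ H / G) ^ m) := by
    intro c d G H hG hH hc hd
    have hS : Nb s₀ q (s₀ H / G) ≠ 0 :=
      Nb_ne_zero s₀ q (div_ne_zero (by simpa using hH) hG)
    have e : Nb s₀ q (s₀ (d * H ^ m) / (c * G ^ m)) =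
        (s₀ (Nb s₀ q d) / Nb s₀ q c) * Nb s₀ q (s₀ H / G) ^ m := by
      rw [← Nb_map_self, ← Nb_div, ← Nb_pow, ← Nb_mul]
      congr 1
      rw [map_mul, map_pow, div_pow, div_mul_div_comm]
    unfold MC
    rw [e, mul_div_assoc, div_self (pow_ne_zero _ hS), mul_one]
    exact (hd.map (s₀ : F₀ →+* F₀) hs0).div hp0 hp0' hc
  constructor
  · have e1 : MC (algebraMap R F π) O1 (Nb s q h') (Nb s q (α (s₀ nβ / nα))) :=
      MC.Nb s q hp1 hp1' hs1 hA1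
    rw [← map_Nb α s₀ s hαs, hEα, hEβ] at e1
    have e2 := (key cα cβ Gα Gβ hGα hGβ hFα hFβ).map α hα1
    rw [map_pow] at e2
    exact e1.trans hp1 hp1' e2
  · have e1 : MC (algebraMap R F π) O2 (Nb s q h') (Nb s q (β (s₀ nα / nβ))) :=
      MC.Nb s q hp2 hp2' hs2 hA2
    rw [← map_Nb β s₀ s hβs, hEα, hEβ] at e1
    have e2 := (key cβ cα Gβ Gα hGβ hGα hFβ hFα).map β hβ2
    rw [map_pow] at e2
    exact e1.trans hp2 hp2' e2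

/-- two congruences mod `π O1` and `π O2` give one mod `π (O1 ⊓ O2)` -/
theorem piO_of_one1 (π : R) (O1 O2 : ValuationSubring F) (hπ : algebraMap R F π ≠ 0) {z : F}
    (h1 : One1 (algebraMap R F π) O1 z) (h2 : One1 (algebraMap R F π) O2 z) :
    PiO π O1 O2 (z - 1) := by
  obtain ⟨c1, hc1, e1⟩ := h1
  obtain ⟨c2, hc2, e2⟩ := h2
  have : c1 = c2 := mul_left_cancel₀ hπ (e1.symm.trans e2)
  subst this
  exact ⟨c1, hc1, hc2, e1⟩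

/-- **(U1).** -/
theorem u_one (π : R) (O1 O2 : ValuationSubring F)
    (hp1 : algebraMap R F π ∈ O1) (hp1' : (algebraMap R F π)⁻¹ ∉ O1)
    (hp2 : algebraMap R F π ∈ O2) (hp2' : (algebraMap R F π)⁻¹ ∉ O2)
    (hπ : algebraMap R F π ≠ 0)
    (m : ℕ) (w T z₁ z₂ : F)
    (h1 : MC (algebraMap R F π) O1 w (z₁ ^ m)) (h2 : MC (algebraMap R F π) O2 w (z₂ ^ m))
    (hT1 : MC (algebraMap R F π) O1 T z₁) (hT2 : MC (algebraMap R F π) O2 T z₂) :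
    PiO π O1 O2 (w / T ^ m - 1) :=
  piO_of_one1 π O1 O2 hπ (h1.trans hp1 hp1' ((hT1.pow hp1 m).symm hp1 hp1'))
    (h2.trans hp2 hp2' ((hT2.pow hp2 m).symm hp2 hp2'))

end Spine

section Node

variable {R F : Type*} [CommRing R] [Field F] [Algebra R F]

/-- unit of the local ring `B_𝔪` -/
def LocUnit (B : Subalgebra R F) (𝔪 : Ideal B) (x : F) : Prop :=
  ∃ a b : B, a ∉ 𝔪 ∧ b ∉ 𝔪 ∧ x * (b : F) = (a : F)

/-- element of `1 + 𝔪 B_𝔪` -/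
def LocOne (B : Subalgebra R F) (𝔪 : Ideal B) (x : F) : Prop :=
  ∃ a b : B, b ∉ 𝔪 ∧ a - b ∈ 𝔪 ∧ x * (b : F) = (a : F)

variable {B : Subalgebra R F} {𝔪 : Ideal B}

theorem coe_ne_zero_of_not_mem {b : B} (hb : b ∉ 𝔪) : (b : F) ≠ 0 := by
  intro h0
  apply hb
  have : b = 0 := Subtype.ext h0
  rw [this]
  exact 𝔪.zero_mem

theorem LocOne.locUnit {x : F} (h : LocOne B 𝔪 x) : LocUnit B 𝔪 x := by
  obtain ⟨a, b, hb, hab, e⟩ := h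
  refine ⟨a, b, fun ha => hb ?_, hb, e⟩
  have : b = a - (a - b) := by ring
  rw [this]
  exact 𝔪.sub_mem ha hab

theorem LocUnit.ne_zero {x : F} (h : LocUnit B 𝔪 x) : x ≠ 0 := by
  obtain ⟨a, b, ha, hb, e⟩ := h
  rintro rfl
  rw [zero_mul] at e
  exact coe_ne_zero_of_not_mem ha e.symm

variable [h𝔪 : 𝔪.IsPrime]

theorem LocUnit.mul {x y : F} (hx : LocUnit B 𝔪 x) (hy : LocUnit B 𝔪 y) : LocUnit B 𝔪 (x * y) := by
  obtain ⟨a, b, ha, hb, e⟩ := hx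
  obtain ⟨a', b', ha', hb', e'⟩ := hy
  refine ⟨a * a', b * b', fun h => (h𝔪.mem_or_mem h).elim ha ha',
    fun h => (h𝔪.mem_or_mem h).elim hb hb', ?_⟩
  push_cast
  rw [← e, ← e']; ring

omit h𝔪 in
theorem LocUnit.inv {x : F} (hx : LocUnit B 𝔪 x) : LocUnit B 𝔪 x⁻¹ := by
  have hx0 := hx.ne_zero
  obtain ⟨a, b, ha, hb, e⟩ := hx
  refine ⟨b, a, hb, ha, ?_⟩
  rw [← e]; field_simp

theorem LocUnit.div {x y : F} (hx : LocUnit B 𝔪 x) (hy : LocUnit B 𝔪 y) : LocUnit B 𝔪 (x / y) := by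
  rw [div_eq_mul_inv]; exact hx.mul hy.inv

theorem locUnit_one : LocUnit B 𝔪 1 :=
  ⟨1, 1, fun h => h𝔪.ne_top ((Ideal.eq_top_iff_one 𝔪).2 h),
    fun h => h𝔪.ne_top ((Ideal.eq_top_iff_one 𝔪).2 h), by simp⟩

theorem LocUnit.pow {x : F} (hx : LocUnit B 𝔪 x) (n : ℕ) : LocUnit B 𝔪 (x ^ n) := by
  induction n with
  | zero => simpa using locUnit_one
  | succ n ih => rw [pow_succ]; exact ih.mul hx

/-- `∇` of a local unit is `≡ 1 mod 𝔪`, if `s²` is the `q²`-Frobenius on `B / 𝔪`. -/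
theorem LocUnit.Nb_locOne (s : F ≃+* F) (q : ℕ)
    (hFrob : ∀ b : B, ∃ b' : B, (b' : F) = s (s (b : F)) ∧ b' - b ^ (q ^ 2) ∈ 𝔪)
    {x : F} (hx : LocUnit B 𝔪 x) : LocOne B 𝔪 (Nb s q x) := by
  have hx0 := hx.ne_zero
  obtain ⟨a, b, ha, hb, e⟩ := hx
  obtain ⟨a', ea', ha'⟩ := hFrob a
  obtain ⟨b', eb', hb'⟩ := hFrob b
  have hb0 := coe_ne_zero_of_not_mem (𝔪 := 𝔪) hb
  have ha0 := coe_ne_zero_of_not_mem (𝔪 := 𝔪) ha
  have hb'𝔪 : b' ∉ 𝔪 := by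
    intro h
    have : b ^ (q ^ 2) ∈ 𝔪 := by
      have := 𝔪.sub_mem h hb'
      simpa using this
    exact hb (h𝔪.mem_of_pow_mem _ this)
  -- `∇ x = (a' b^{q²}) / (b' a^{q²})`
  refine ⟨a' * b ^ (q ^ 2), b' * a ^ (q ^ 2),
    fun h => (h𝔪.mem_or_mem h).elim hb'𝔪 (fun h' => ha (h𝔪.mem_of_pow_mem _ h')), ?_, ?_⟩
  · have : a' * b ^ (q ^ 2) - b' * a ^ (q ^ 2) =
        (a' - a ^ (q ^ 2)) * b ^ (q ^ 2) - (b' - b ^ (q ^ 2)) * a ^ (q ^ 2) := by ring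
    rw [this]
    exact 𝔪.sub_mem (𝔪.mul_mem_right _ ha') (𝔪.mul_mem_right _ hb')
  · have hx : x = (a : F) / (b : F) := by rw [← e]; field_simp
    unfold Nb
    push_cast
    rw [ea', eb', hx, map_div₀, map_div₀, div_pow]
    have h1 : s (s (b : F)) ≠ 0 := by simpa using hb0
    field_simp

/-- **(U3).**  In the application `h' = ΔΔ f`, `G' = ΔΔ Ξ`, `Z₁ = α S₁`, `Z₂ = β S₂`, `C_j` constants. -/
theorem node_datum (π : R) (B : Subalgebra R F) (O1 O2 : ValuationSubring F) (𝔪 : Ideal B)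
    [h𝔪 : 𝔪.IsPrime]
    (hp1 : algebraMap R F π ∈ O1) (hp1' : (algebraMap R F π)⁻¹ ∉ O1)
    (hp2 : algebraMap R F π ∈ O2) (hp2' : (algebraMap R F π)⁻¹ ∉ O2)
    (hπ : algebraMap R F π ≠ 0)
    (s : F ≃+* F) (q m : ℕ) (hm : 0 < m)
    (hs1 : ∀ c ∈ O1, ∃ c' ∈ O1, s (algebraMap R F π * c) = algebraMap R F π * c')
    (hs2 : ∀ c ∈ O2, ∃ c' ∈ O2, s (algebraMap R F π * c) = algebraMap R F π * c')
    (hFrob : ∀ b : B, ∃ b' : B, (b' : F) = s (s (b : F)) ∧ b' - b ^ (q ^ 2) ∈ 𝔪)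
    (hint1 : ∀ x : F, (∃ e, LocUnit B 𝔪 e ∧ MC (algebraMap R F π) O1 (x ^ m) e) →
      ∃ b, LocUnit B 𝔪 b ∧ MC (algebraMap R F π) O1 x b)
    (hint2 : ∀ x : F, (∃ e, LocUnit B 𝔪 e ∧ MC (algebraMap R F π) O2 (x ^ m) e) →
      ∃ b, LocUnit B 𝔪 b ∧ MC (algebraMap R F π) O2 x b)
    (hglue : ∀ ρ₁ ρ₂ : F, LocOne B 𝔪 ρ₁ → LocOne B 𝔪 ρ₂ →
      ∃ ρ, LocUnit B 𝔪 ρ ∧ MC (algebraMap R F π) O1 ρ ρ₁ ∧ MC (algebraMap R F π) O2 ρ ρ₂)
    (h' G' C₁ C₂ Z₁ Z₂ T : F) (hG' : G' ≠ 0)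
    (hε : LocUnit B 𝔪 (h' / G' ^ m)) (hC₁ : LocUnit B 𝔪 C₁) (hC₂ : LocUnit B 𝔪 C₂)
    (h1 : MC (algebraMap R F π) O1 h' (C₁ * Z₁ ^ m))
    (h2 : MC (algebraMap R F π) O2 h' (C₂ * Z₂ ^ m))
    (hT1 : MC (algebraMap R F π) O1 T (Nb s q Z₁))
    (hT2 : MC (algebraMap R F π) O2 T (Nb s q Z₂)) :
    NodeDatum π B O1 O2 m (Nb s q h' / T ^ m) 𝔪 := by
  -- branch data
  have branch : ∀ (Oj : ValuationSubring F) (hp : algebraMap R F π ∈ Oj)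
      (hp' : (algebraMap R F π)⁻¹ ∉ Oj)
      (hs : ∀ c ∈ Oj, ∃ c' ∈ Oj, s (algebraMap R F π * c) = algebraMap R F π * c')
      (hint : ∀ x : F, (∃ e, LocUnit B 𝔪 e ∧ MC (algebraMap R F π) Oj (x ^ m) e) →
        ∃ b, LocUnit B 𝔪 b ∧ MC (algebraMap R F π) Oj x b)
      (C Z : F) (hC : LocUnit B 𝔪 C) (hh : MC (algebraMap R F π) Oj h' (C * Z ^ m)),
      ∃ ρj, LocOne B 𝔪 ρj ∧ MC (algebraMap R F π) Oj (ρj * Nb s q G') (Nb s q Z) := by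
    intro Oj hp hp' hs hint C Z hC hh
    have hC0 := hC.ne_zero
    have hCZ0 := hh.right_ne_zero hp'
    have hZ0 : Z ≠ 0 := by
      intro h0
      apply hCZ0
      rw [h0, zero_pow hm.ne', mul_zero]
    -- `(Z / G')^m ~ (h' / G'^m) / C`
    have e1 : MC (algebraMap R F π) Oj ((Z / G') ^ m) (h' / G' ^ m / C) := by
      have := (MulCong29.MC.div hp hp' (MulCong29.MC.div hp hp' hh (MC.refl hC0))
        (MC.refl (pow_ne_zero m hG'))).symm hp hp'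
      have e : C * Z ^ m / C / G' ^ m = (Z / G') ^ m := by
        rw [div_pow]; field_simp
      have e' : h' / C / G' ^ m = h' / G' ^ m / C := by
        field_simp
      rwa [e, e'] at this
    obtain ⟨b, hb, hbZ⟩ := hint (Z / G') ⟨_, hε.div hC, e1⟩
    refine ⟨Nb s q b, hb.Nb_locOne s q hFrob, ?_⟩
    have e2 : MC (algebraMap R F π) Oj (Nb s q b) (Nb s q (Z / G')) :=
      MC.Nb s q hp hp' hs (hbZ.symm hp hp')
    rw [Nb_div] at e2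
    have := e2.mul hp (MC.refl (Nb_ne_zero s q hG'))
    rwa [div_mul_cancel₀ _ (Nb_ne_zero s q hG')] at this
  obtain ⟨ρ₁, hρ₁, e₁⟩ := branch O1 hp1 hp1' hs1 hint1 C₁ Z₁ hC₁ h1
  obtain ⟨ρ₂, hρ₂, e₂⟩ := branch O2 hp2 hp2' hs2 hint2 C₂ Z₂ hC₂ h2
  obtain ⟨ρ, hρ, hρ1, hρ2⟩ := hglue ρ₁ ρ₂ hρ₁ hρ₂
  have hρ0 := hρ.ne_zero
  have hG''0 : Nb s q G' ≠ 0 := Nb_ne_zero s q hG'
  have hT0 : T ≠ 0 := hT1.left_ne_zero hp1'
  refine ⟨T / (ρ * Nb s q G'), ?_, 0, ?_⟩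
  · -- `g ≡ 1`
    apply piO_of_one1 π O1 O2 hπ
    · exact hT1.trans hp1 hp1'
        (((hρ1.mul hp1 (MC.refl hG''0)).trans hp1 hp1' e₁).symm hp1 hp1')
    · exact hT2.trans hp2 hp2'
        (((hρ2.mul hp2 (MC.refl hG''0)).trans hp2 hp2' e₂).symm hp2 hp2')
  · -- `g ^ m * u = ∇ ε' / ρ ^ m`
    have hloc : LocUnit B 𝔪 (Nb s q (h' / G' ^ m) / ρ ^ m) :=
      (hε.Nb_locOne s q hFrob).locUnit.div (hρ.pow m)
    obtain ⟨a, b, ha, hb, e⟩ := hloc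
    refine ⟨a, b, hb, ?_⟩
    rw [pow_zero, one_mul, ← e, Nb_div, Nb_pow, div_pow]
    have hT0' : T ^ m ≠ 0 := pow_ne_zero _ hT0
    have hρ0' : ρ ^ m ≠ 0 := pow_ne_zero _ hρ0
    have hG0' : Nb s q G' ^ m ≠ 0 := pow_ne_zero _ hG''0
    rw [mul_pow]
    field_simp

end Node

end Fermat.Agent.ES.N35.ThirdDiff29
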