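/-
Program O (S35), helper29: ASSEMBLY of (C″) on the abstract level — the third difference `∇ Δ h` is
`c⁻¹ · S ^ m`:  `ThirdDiff29.step_two` + `step_three` + a CRT lift `T` + `u_one` + `node_datum` at every
two-branch point + `NodalCL13.cl_nodal`.

In the application `h = Δ f = σ² f / f` (so `∇ Δ h = ∇ Δ Δ f` is the Kummer generator of
`(σ² − q²)(σ² − 1)² w`), `nα = N_α h`, `nβ = N_β h`, `G' = Δ Δ Ξ` (Ξ = Program N's Lemma-A product).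
-/
import Mathlib
import Fermat.Agent.ES.N35.ThirdDiff29

set_option autoImplicit false

namespace Fermat.Agent.ES.N35.ThirdDiffCL29

open Fermat.Agent.ES.N35.MulCong29 Fermat.Agent.ES.N35.ThirdDiff29
open Fermat.Agent.ES.N34.NodalCore13 Fermat.Agent.ES.N34.NodalCL13

variable {R K F₀ F : Type*} [CommRing R] [Field K] [Field F₀] [Field F] [Algebra R K] [Algebra K F]
  [Algebra R F] [IsScalarTower R K F] [Algebra R F₀]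

/-- The local hypotheses of `ThirdDiff29.node_datum` at a closed point `𝔪` of the chart `B`,
for the second difference `h'` with constants `C₁ C₂`. -/
structure NodeHyp (π : R) (B : Subalgebra R F) (O1 O2 : ValuationSubring F) (𝔪 : Ideal B)
    (s : F ≃+* F) (q m : ℕ) (h' C₁ C₂ : F) : Prop where
  frob : ∀ b : B, ∃ b' : B, (b' : F) = s (s (b : F)) ∧ b' - b ^ (q ^ 2) ∈ 𝔪
  int1 : ∀ x : F, (∃ e, LocUnit B 𝔪 e ∧ MC (algebraMap R F π) O1 (x ^ m) e) →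
    ∃ b, LocUnit B 𝔪 b ∧ MC (algebraMap R F π) O1 x b
  int2 : ∀ x : F, (∃ e, LocUnit B 𝔪 e ∧ MC (algebraMap R F π) O2 (x ^ m) e) →
    ∃ b, LocUnit B 𝔪 b ∧ MC (algebraMap R F π) O2 x b
  glue : ∀ ρ₁ ρ₂ : F, LocOne B 𝔪 ρ₁ → LocOne B 𝔪 ρ₂ →
    ∃ ρ, LocUnit B 𝔪 ρ ∧ MC (algebraMap R F π) O1 ρ ρ₁ ∧ MC (algebraMap R F π) O2 ρ ρ₂
  gen : ∃ G' : F, G' ≠ 0 ∧ LocUnit B 𝔪 (h' / G' ^ m)
  const1 : LocUnit B 𝔪 C₁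
  const2 : LocUnit B 𝔪 C₂

/-- **(C″), abstract form.** -/
theorem third_diff_root (π : R) (t : F) (B0 B1 : Subalgebra R F) (O1 O2 : ValuationSubring F)
    (M : NodalTwoChartModel R F π t B0 B1 O1 O2)
    (noeth0 : IsNoetherianRing B0) (noeth1 : IsNoetherianRing B1)
    (frac0 : ∀ x : F, ∃ a ∈ B0, ∃ b ∈ B0, b ≠ 0 ∧ x * b = a)
    (frac1 : ∀ x : F, ∃ a ∈ B1, ∃ b ∈ B1, b ≠ 0 ∧ x * b = a)
    (fracR : IsFractionRing R K)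
    (dvrR : ∀ r : R, r ≠ 0 → ∃ (k : ℕ) (v : Rˣ), r = π ^ k * v)
    (hM2_0 : ∀ 𝔪 : Ideal B0, 𝔪.IsMaximal → algebraMap R B0 π ∈ 𝔪 →
      OffBranch π B0 O1 𝔪 ∨ OffBranch π B0 O2 𝔪 → SmoothAt π B0 𝔪)
    (hM2_1 : ∀ 𝔪 : Ideal B1, 𝔪.IsMaximal → algebraMap R B1 π ∈ 𝔪 →
      OffBranch π B1 O1 𝔪 ∨ OffBranch π B1 O2 𝔪 → SmoothAt π B1 𝔪)
    (m : ℕ) (hm : 0 < m) (minv : R) (hminv : (m : R) * minv = 1)
    (hKF : ∀ y : F, IsAlgebraic K y → ∃ c : K, algebraMap K F c = y)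
    -- level `M'`
    (O : ValuationSubring F₀)
    (hp1 : algebraMap R F π ∈ O1) (hp2 : algebraMap R F π ∈ O2)
    (hp0 : algebraMap R F₀ π ∈ O) (hp0' : (algebraMap R F₀ π)⁻¹ ∉ O)
    (α β : F₀ →+* F) (s : F ≃+* F) (s₀ : F₀ ≃+* F₀)
    (hαs : ∀ x, α (s₀ x) = s (α x)) (hβs : ∀ x, β (s₀ x) = s (β x))
    (hs1 : ∀ c ∈ O1, ∃ c' ∈ O1, s (algebraMap R F π * c) = algebraMap R F π * c')
    (hs2 : ∀ c ∈ O2, ∃ c' ∈ O2, s (algebraMap R F π * c) = algebraMap R F π * c')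
    (hs0 : ∀ c ∈ O, ∃ c' ∈ O, s₀ (algebraMap R F₀ π * c) = algebraMap R F₀ π * c')
    (hα1 : ∀ c ∈ O, ∃ c' ∈ O1, α (algebraMap R F₀ π * c) = algebraMap R F π * c')
    (hβ2 : ∀ c ∈ O, ∃ c' ∈ O2, β (algebraMap R F₀ π * c) = algebraMap R F π * c')
    (hα2r : ∀ z : F₀, One1 (algebraMap R F π) O2 (α z) → One1 (algebraMap R F₀ π) O z)
    (hβ1r : ∀ z : F₀, One1 (algebraMap R F π) O1 (β z) → One1 (algebraMap R F₀ π) O z)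
    (q : ℕ)
    -- CRT in `O1 ⊓ O2`
    (hCRT : ∀ z₁ z₂ : F₀, z₁ ≠ 0 → z₂ ≠ 0 → ∃ T : F,
      MC (algebraMap R F π) O1 T (α z₁) ∧ MC (algebraMap R F π) O2 T (β z₂))
    -- the first difference `h` and its norm/reduction data
    (h : F) (nα nβ x₁ x₂ y₁ y₂ : F₀)
    (hK1 : MC (algebraMap R F π) O1 (β (s₀ x₁)) (α x₁ ^ q))
    (hK2 : MC (algebraMap R F π) O2 (α (s₀ y₂)) (β y₂ ^ q))
    (h1α : MC (algebraMap R F π) O1 h (α x₁)) (h2α : MC (algebraMap R F π) O2 (h ^ q) (α x₂))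
    (hnα : MC (algebraMap R F₀ π) O nα (x₁ * x₂))
    (h1β : MC (algebraMap R F π) O1 (h ^ q) (β y₁)) (h2β : MC (algebraMap R F π) O2 h (β y₂))
    (hnβ : MC (algebraMap R F₀ π) O nβ (y₁ * y₂))
    -- newness
    (cα cβ Gα Gβ : F₀) (hGα : Gα ≠ 0) (hGβ : Gβ ≠ 0)
    (hEα : nα = cα * Gα ^ m) (hEβ : nβ = cβ * Gβ ^ m)
    (hFα : One1 (algebraMap R F₀ π) O (Nb s₀ q cα))
    (hFβ : One1 (algebraMap R F₀ π) O (Nb s₀ q cβ))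
    -- (U2)
    (hu2 : ∀ (T : F), T ≠ 0 → ∀ v : AlgebraicCurve.Place K F,
      (m : ℤ) ∣ v.ord (Nb s q (Dl s h) / T ^ m))
    -- nodes
    (hnode0 : ∀ 𝔪 : Ideal B0, 𝔪.IsMaximal → algebraMap R B0 π ∈ 𝔪 →
      ¬ OffBranch π B0 O1 𝔪 → ¬ OffBranch π B0 O2 𝔪 →
      NodeHyp π B0 O1 O2 𝔪 s q m (Dl s h) (α (s₀ cβ / cα)) (β (s₀ cα / cβ)))
    (hnode1 : ∀ 𝔪 : Ideal B1, 𝔪.IsMaximal → algebraMap R B1 π ∈ 𝔪 →
      ¬ OffBranch π B1 O1 𝔪 → ¬ OffBranch π B1 O2 𝔪 →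
      NodeHyp π B1 O1 O2 𝔪 s q m (Dl s h) (α (s₀ cβ / cα)) (β (s₀ cα / cβ))) :
    ∃ S : F, S ≠ 0 ∧ ∃ c : K, c ≠ 0 ∧ S ^ m = algebraMap K F c * Nb s q (Dl s h) := by
  have hp1' := M.pi_nonunit1
  have hp2' := M.pi_nonunit2
  have hπ := M.pi_ne
  -- Step 2
  obtain ⟨hA1, hA2⟩ := step_two π O1 O2 O hp1 hp1' hp2 hp2' hp0 hp0' α β s s₀ hαs hβs hs1 hs2 hs0
    hα1 hβ2 hα2r hβ1r q h nα nβ x₁ x₂ y₁ y₂ hK1 hK2 h1α h2α hnα h1β h2β hnβ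
  -- Step 3
  obtain ⟨hB1, hB2⟩ := step_three π O1 O2 O hp1 hp1' hp2 hp2' hp0 hp0' α β s s₀ hαs hβs hs1 hs2
    hs0 hα1 hβ2 q m (Dl s h) nα nβ cα cβ Gα Gβ hA1 hA2 hGα hGβ hEα hEβ hFα hFβ
  set S₁ : F₀ := s₀ Gβ / Gα with hS₁
  set S₂ : F₀ := s₀ Gα / Gβ with hS₂
  have hS₁0 : S₁ ≠ 0 := div_ne_zero (by simpa using hGβ) hGα
  have hS₂0 : S₂ ≠ 0 := div_ne_zero (by simpa using hGα) hGβ
  -- CRT
  obtain ⟨T, hT1, hT2⟩ := hCRT (Nb s₀ q S₁) (Nb s₀ q S₂) (Nb_ne_zero s₀ q hS₁0)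
    (Nb_ne_zero s₀ q hS₂0)
  have hT0 : T ≠ 0 := hT1.left_ne_zero hp1'
  -- the shapes `h' ~ C_j * Z_j ^ m`
  have hnα0 : nα ≠ 0 := hnα.left_ne_zero hp0'
  have hnβ0 : nβ ≠ 0 := hnβ.left_ne_zero hp0'
  have hcα0 : cα ≠ 0 := by
    intro h0; apply hnα0; rw [hEα, h0, zero_mul]
  have hcβ0 : cβ ≠ 0 := by
    intro h0; apply hnβ0; rw [hEβ, h0, zero_mul]
  have eA1 : α (s₀ nβ / nα) = α (s₀ cβ / cα) * α S₁ ^ m := by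
    rw [← map_pow, ← map_mul, hEα, hEβ, hS₁, map_mul, map_pow, div_pow, div_mul_div_comm]
  have eA2 : β (s₀ nα / nβ) = β (s₀ cα / cβ) * β S₂ ^ m := by
    rw [← map_pow, ← map_mul, hEα, hEβ, hS₂, map_mul, map_pow, div_pow, div_mul_div_comm]
  rw [eA1] at hA1
  rw [eA2] at hA2
  have hT1' : MC (algebraMap R F π) O1 T (Nb s q (α S₁)) := by
    rw [← map_Nb α s₀ s hαs]; exact hT1
  have hT2' : MC (algebraMap R F π) O2 T (Nb s q (β S₂)) := by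
    rw [← map_Nb β s₀ s hβs]; exact hT2
  -- (U1)
  have hu1 : PiO π O1 O2 (Nb s q (Dl s h) / T ^ m - 1) :=
    u_one π O1 O2 hp1 hp1' hp2 hp2' hπ m _ T _ _ hB1 hB2 hT1 hT2
  -- (U3)
  have hU3 : ∀ (B : Subalgebra R F) (𝔪 : Ideal B), 𝔪.IsMaximal →
      NodeHyp π B O1 O2 𝔪 s q m (Dl s h) (α (s₀ cβ / cα)) (β (s₀ cα / cβ)) →
      NodeDatum π B O1 O2 m (Nb s q (Dl s h) / T ^ m) 𝔪 := by
    intro B 𝔪 h𝔪 H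
    have := h𝔪.isPrime
    obtain ⟨G', hG'0, hε⟩ := H.gen
    exact node_datum π B O1 O2 𝔪 hp1 hp1' hp2 hp2' hπ s q m hm hs1 hs2 H.frob H.int1 H.int2 H.glue
      (Dl s h) G' _ _ (α S₁) (β S₂) T hG'0 hε H.const1 H.const2 hA1 hA2 hT1' hT2'
  obtain ⟨S, hS0, c, hc0, hSc⟩ := cl_nodal (K := K) π t B0 B1 O1 O2 M noeth0 noeth1 frac0 frac1
    fracR dvrR hM2_0 hM2_1 m hm minv hminv (Nb s q (Dl s h) / T ^ m) hu1 (hu2 T hT0)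
    (fun 𝔪 h𝔪 hπ𝔪 h1 h2 => hU3 B0 𝔪 h𝔪 (hnode0 𝔪 h𝔪 hπ𝔪 h1 h2))
    (fun 𝔪 h𝔪 hπ𝔪 h1 h2 => hU3 B1 𝔪 h𝔪 (hnode1 𝔪 h𝔪 hπ𝔪 h1 h2)) hKF
  refine ⟨S * T, mul_ne_zero hS0 hT0, c, hc0, ?_⟩
  rw [mul_pow, hSc]
  have : T ^ m ≠ 0 := pow_ne_zero _ hT0
  field_simp

end Fermat.Agent.ES.N35.ThirdDiffCL29
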