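/-
Program O (S35), brick CORE-O (helper13), part 1: **abstract NUM-O** — the consumer of helper29's
`ThirdDiffCL29.third_diff_root`.

`R` a DVR with uniformiser `π`, `K = Frac R`, `F / K` the function field of level `N' = M' q` with its
nodal two-chart model (`NumData13.NodalNumData`, the SAME deliverable of MODEL as in Program N),
`F₀` the function field of level `M'` with its Gauss valuation ring `Ov`, `α β : F₀ → F` the two
degeneracy maps, `g` a `K`-semilinear automorphism of `F` (a Frobenius lift) and `s₀` its twin on `F₀`.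

`FrobData` bundles the per-model supplier contracts (B1 = GAL-Frobenius, B2 = (N̄)/(K̄)/CRT) in the
literal shapes of `third_diff_root`, quantified over the elements they are applied to:
 * B1: `hαs hβs` (α∘s₀ = s∘α, …), `dec1 dec2 dec0 : IsDecomp …` (s preserves `O1`, `O2`, s₀ preserves `Ov`),
   `Nα_s Nβ_s` (norms commute with the lift), `constU` (`Δ c ∈ R^×` for `c ∈ K^×`), `frobK`
   (`∇ Δ c ∈ 1 + π Ov`), `s0R` (s₀ maps units of `R` to units of `R`), `αR βR`;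
 * B2: `hα1 hβ2 hα2r hβ1r hCRT` (literal), `hK1 hK2` ((K̄) for units of `Ov`),
   `normBar` = (N̄): for a unit `h ≠ 0` of `O1 ⊓ O2` (NB `0⁻¹ = 0`) there are units `x₁ y₂` of `Ov` with `h ~₁ α x₁`,
   `h ~₂ β y₂`, `N_α h ~ x₁ · s₀ y₂`, `N_β h ~ s₀ x₁ · y₂`   (blueprint §1: `x₂ := s₀ y₂`, `y₁ := s₀ x₁`;
   `h2α`, `h1β` are wired here from `hK2`, `hK1` and `MC.pow`).
For `f ∈ F^×` with `m ∣ ord_v f` everywhere which is `q`-new in Kummer form (`N_α f = c g^m`,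
`N_β f = c' g'^m`) and with the node hypotheses (B5: `NodeHyp` for `Δ Δ f` and ALL constants `C₁ C₂` which
are local units) the third difference `∇ Δ Δ f` is a constant times an `m`-th power (`fnum_abs`).  The
constants `α (s₀ cβ / cα)`, `β (s₀ cα / cβ)` are units of `R` (`FrobData.const_unit`), so `const1/2` are
discharged here.

(U2) is proved here from `GalPlaces1.ord_smul_eq`.
-/
import Mathlib
import Fermat.Prelude.Def_AlgebraicCurve_BaseChangeGalois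
import Fermat.Agent.ES.N34.NumData13
import Fermat.Agent.ES.N34.GalGauss21
import Fermat.Agent.ES.N34.GalPlaces1
import Fermat.Agent.ES.N35.ThirdDiffCL29

set_option autoImplicit false

namespace Fermat.Agent.ES.N35.FrobAbs13

open AlgebraicCurve
open Fermat.Agent.ES.N34.NodalCore13 Fermat.Agent.ES.N34.NodalCL13 Fermat.Agent.ES.N34.NumData13
  Fermat.Agent.ES.N34.GalGauss21 Fermat.Agent.ES.N34.GalPlaces1
  Fermat.Agent.ES.N35.MulCong29 Fermat.Agent.ES.N35.ThirdDiff29 Fermat.Agent.ES.N35.ThirdDiffCL29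

/-! ### Automorphisms preserving a discrete valuation subring -/

section Decomp

variable {F : Type*} [Field F] (O : ValuationSubring F) (p : F)

/-- `g` preserves the discrete valuation subring `O` with uniformiser `p` ("`g` lies in the
decomposition group"): `IsInertial` without the congruence. -/
structure IsDecomp (g : F ≃+* F) : Prop where
  map_mem : ∀ x ∈ O, g x ∈ O
  symm_mem : ∀ x ∈ O, g.symm x ∈ O
  map_p : ∃ ε : F, ε ∈ O ∧ ε⁻¹ ∈ O ∧ g p = p * ε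

variable {O p}

theorem IsDecomp.map_inv_mem {g : F ≃+* F} (hg : IsDecomp O p g) {x : F} (hx : x⁻¹ ∈ O) :
    (g x)⁻¹ ∈ O := by
  rw [← map_inv₀]
  exact hg.map_mem _ hx

/-- `g (p c) = p c'`. -/
theorem IsDecomp.map_pmul {g : F ≃+* F} (hg : IsDecomp O p g) :
    ∀ c ∈ O, ∃ c' ∈ O, g (p * c) = p * c' := by
  intro c hc
  obtain ⟨ε, hε, -, hgp⟩ := hg.map_p
  exact ⟨ε * g c, O.mul_mem _ _ hε (hg.map_mem c hc), by rw [map_mul, hgp, mul_assoc]⟩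

/-- `g f / f` is a unit of `O`. -/
theorem IsDecomp.ratio_mem {g : F ≃+* F} (hg : IsDecomp O p g) (hp0 : p ≠ 0)
    (unif : ∀ x ∈ O, x⁻¹ ∉ O → ∃ c ∈ O, x = p * c)
    (arch : ∀ x : F, ∃ k : ℕ, p ^ k * x ∈ O) {f : F} (hf : f ≠ 0) :
    g f / f ∈ O ∧ (g f / f)⁻¹ ∈ O := by
  obtain ⟨a, f', hf', hf'inv, rfl⟩ := exists_zpow_mul_unit O p hp0 unif arch hf
  obtain ⟨ε, hε, hεinv, hgp⟩ := hg.map_p
  have hf'0 : f' ≠ 0 := right_ne_zero_of_mul hf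
  have hε0 : ε ≠ 0 := by
    rintro rfl
    rw [mul_zero] at hgp
    exact hp0 ((map_eq_zero_iff g g.injective).mp hgp)
  have e : g (p ^ a * f') / (p ^ a * f') = ε ^ a * (g f' * f'⁻¹) := by
    rw [map_mul, map_zpow₀, hgp, mul_zpow]
    have : p ^ a ≠ 0 := zpow_ne_zero a hp0
    field_simp
  have hεa : ∀ a : ℤ, ε ^ a ∈ O := by
    intro a
    rcases Int.eq_nat_or_neg a with ⟨n, rfl | rfl⟩
    · rw [zpow_natCast]; exact pow_mem hε n
    · rw [zpow_neg, zpow_natCast, ← inv_pow]; exact pow_mem hεinv n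
  rw [e]
  constructor
  · exact O.mul_mem _ _ (hεa a) (O.mul_mem _ _ (hg.map_mem _ hf') hf'inv)
  · rw [mul_inv, mul_inv, inv_inv, ← zpow_neg]
    exact O.mul_mem _ _ (hεa (-a)) (O.mul_mem _ _ (hg.map_inv_mem hf'inv) hf')

/-- `Δ f = g (g f) / f` is a unit of `O`. -/
theorem IsDecomp.dl_mem {g : F ≃+* F} (hg : IsDecomp O p g) (hp0 : p ≠ 0)
    (unif : ∀ x ∈ O, x⁻¹ ∉ O → ∃ c ∈ O, x = p * c)
    (arch : ∀ x : F, ∃ k : ℕ, p ^ k * x ∈ O) {f : F} (hf : f ≠ 0) :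
    Dl g f ∈ O ∧ (Dl g f)⁻¹ ∈ O := by
  have hgf : g f ≠ 0 := (map_ne_zero_iff g g.injective).mpr hf
  obtain ⟨h1, h1'⟩ := hg.ratio_mem hp0 unif arch hf
  obtain ⟨h2, h2'⟩ := hg.ratio_mem hp0 unif arch hgf
  have e : Dl g f = (g (g f) / g f) * (g f / f) := by
    unfold Dl
    field_simp
  rw [e]
  exact ⟨O.mul_mem _ _ h2 h1, by rw [mul_inv]; exact O.mul_mem _ _ h2' h1'⟩

end Decomp

/-! ### (U2) for the third difference -/

section U2

variable {K F : Type*} [Field K] [Field F] [Algebra K F]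

/-- nonzero with all orders divisible by `m`. -/
def OrdDvd (K : Type*) {F : Type*} [Field K] [Field F] [Algebra K F] (m : ℤ) (x : F) : Prop :=
  x ≠ 0 ∧ ∀ v : Place K F, m ∣ v.ord x

variable {m : ℤ}

theorem OrdDvd.mul {x y : F} (hx : OrdDvd K m x) (hy : OrdDvd K m y) : OrdDvd K m (x * y) :=
  ⟨mul_ne_zero hx.1 hy.1, fun v => by
    rw [v.ord_mul hx.1 hy.1]; exact dvd_add (hx.2 v) (hy.2 v)⟩

theorem OrdDvd.inv {x : F} (hx : OrdDvd K m x) : OrdDvd K m x⁻¹ :=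
  ⟨inv_ne_zero hx.1, fun v => by rw [v.ord_inv]; exact (dvd_neg).mpr (hx.2 v)⟩

theorem OrdDvd.div {x y : F} (hx : OrdDvd K m x) (hy : OrdDvd K m y) : OrdDvd K m (x / y) := by
  rw [div_eq_mul_inv]; exact hx.mul hy.inv

theorem OrdDvd.pow {x : F} (hx : OrdDvd K m x) (n : ℕ) : OrdDvd K m (x ^ n) := by
  induction n with
  | zero => exact ⟨by simp, fun v => by rw [pow_zero, v.ord_one]; exact dvd_zero m⟩
  | succ n ih => rw [pow_succ]; exact ih.mul hx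

theorem OrdDvd.smul (g : SemilinearAut K F) {x : F} (hx : OrdDvd K m x) :
    OrdDvd K m (SemilinearAut.toRingAut g x) :=
  ⟨(map_ne_zero_iff _ (SemilinearAut.toRingAut g).injective).mpr hx.1, fun v => by
    have := ord_smul_eq g v x
    rw [SemilinearAut.smul_def] at this
    rw [this]; exact hx.2 _⟩

theorem OrdDvd.dl (g : SemilinearAut K F) {x : F} (hx : OrdDvd K m x) :
    OrdDvd K m (Dl (SemilinearAut.toRingAut g) x) :=
  ((hx.smul g).smul g).div hx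

theorem OrdDvd.nb (g : SemilinearAut K F) (q : ℕ) {x : F} (hx : OrdDvd K m x) :
    OrdDvd K m (Nb (SemilinearAut.toRingAut g) q x) :=
  ((hx.smul g).smul g).div (hx.pow _)

/-- an `m`-th power has all orders divisible by `m`. -/
theorem ordDvd_pow (m : ℕ) {T : F} (hT : T ≠ 0) : OrdDvd K (m : ℤ) (T ^ m) :=
  ⟨pow_ne_zero _ hT, fun v => by
    rw [← zpow_natCast, v.ord_zpow]; exact dvd_mul_right _ _⟩

end U2

/-! ### The per-model supplier contracts -/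

section Abs

variable {R K F₀ F : Type*} [CommRing R] [Field K] [Field F₀] [Field F] [Algebra R K] [Algebra K F]
  [Algebra R F] [IsScalarTower R K F] [Algebra R F₀] [Algebra K F₀]

/-- **The Frobenius package at one model** (B1 + B2 of `S35_NOTE29` / `O_BLUEPRINT29` §1): everything
`third_diff_root` needs which does not depend on the function `f`. -/
structure FrobData (π : R) (O1 O2 : ValuationSubring F) (Ov : ValuationSubring F₀)
    (α β : F₀ →+* F) (s : F ≃+* F) (s₀ : F₀ ≃+* F₀) (q : ℕ) (Nα Nβ : F →* F₀) : Prop where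
  /-- `π` is a non-unit of `Ov` -/
  hp0 : algebraMap R F₀ π ∈ Ov
  hp0' : (algebraMap R F₀ π)⁻¹ ∉ Ov
  /-- B1(a): the Frobenius lift commutes with the degeneracy maps -/
  hαs : ∀ x, α (s₀ x) = s (α x)
  hβs : ∀ x, β (s₀ x) = s (β x)
  /-- B1(b): the Frobenius lift preserves the three valuation rings -/
  dec1 : IsDecomp O1 (algebraMap R F π) s
  dec2 : IsDecomp O2 (algebraMap R F π) s
  dec0 : IsDecomp Ov (algebraMap R F₀ π) s₀
  /-- B1: norms commute with the Frobenius lift -/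
  Nα_s : ∀ x, Nα (s x) = s₀ (Nα x)
  Nβ_s : ∀ x, Nβ (s x) = s₀ (Nβ x)
  /-- B1(d): `Δ c` is a unit of `R` for a constant `c ∈ K^×` -/
  constU : ∀ c : K, c ≠ 0 → ∃ u v : R, u * v = 1 ∧ Dl s₀ (algebraMap K F₀ c) = algebraMap R F₀ u
  /-- B1(d): `σ² c ≡ c ^ (q²)` for units, applied to the unit `σ² c / c`, `c ∈ K^×` -/
  frobK : ∀ c : K, c ≠ 0 → One1 (algebraMap R F₀ π) Ov (Nb s₀ q (Dl s₀ (algebraMap K F₀ c)))
  /-- B1: the Frobenius lift maps units of `R` to units of `R` -/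
  s0R : ∀ u v : R, u * v = 1 → ∃ u' v' : R, u' * v' = 1 ∧
    s₀ (algebraMap R F₀ u) = algebraMap R F₀ u'
  /-- the degeneracy maps are `R`-linear -/
  αR : ∀ r : R, α (algebraMap R F₀ r) = algebraMap R F r
  βR : ∀ r : R, β (algebraMap R F₀ r) = algebraMap R F r
  /-- B2: the degeneracy maps and the valuation rings -/
  hα1 : ∀ c ∈ Ov, ∃ c' ∈ O1, α (algebraMap R F₀ π * c) = algebraMap R F π * c'
  hβ2 : ∀ c ∈ Ov, ∃ c' ∈ O2, β (algebraMap R F₀ π * c) = algebraMap R F π * c'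
  hα2r : ∀ z : F₀, One1 (algebraMap R F π) O2 (α z) → One1 (algebraMap R F₀ π) Ov z
  hβ1r : ∀ z : F₀, One1 (algebraMap R F π) O1 (β z) → One1 (algebraMap R F₀ π) Ov z
  /-- B2: CRT in `O1 ⊓ O2` -/
  hCRT : ∀ z₁ z₂ : F₀, z₁ ≠ 0 → z₂ ≠ 0 → ∃ T : F,
    MC (algebraMap R F π) O1 T (α z₁) ∧ MC (algebraMap R F π) O2 T (β z₂)
  /-- (K̄): the Kronecker congruences for the Frobenius lift, for units of `Ov` -/
  hK1 : ∀ x : F₀, x ≠ 0 → x ∈ Ov → x⁻¹ ∈ Ov →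
    MC (algebraMap R F π) O1 (β (s₀ x)) (α x ^ q)
  hK2 : ∀ y : F₀, y ≠ 0 → y ∈ Ov → y⁻¹ ∈ Ov →
    MC (algebraMap R F π) O2 (α (s₀ y)) (β y ^ q)
  /-- B2 = (N̄): residues of a unit `h` of `O1 ⊓ O2` on the two branches, and the reductions of its
  two norms -/
  normBar : ∀ h : F, h ≠ 0 → h ∈ O1 → h⁻¹ ∈ O1 → h ∈ O2 → h⁻¹ ∈ O2 → ∃ x₁ y₂ : F₀,
    x₁ ∈ Ov ∧ x₁⁻¹ ∈ Ov ∧ y₂ ∈ Ov ∧ y₂⁻¹ ∈ Ov ∧
    MC (algebraMap R F π) O1 h (α x₁) ∧ MC (algebraMap R F π) O2 h (β y₂) ∧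
    MC (algebraMap R F₀ π) Ov (Nα h) (x₁ * s₀ y₂) ∧
    MC (algebraMap R F₀ π) Ov (Nβ h) (s₀ x₁ * y₂)

/-- `Dl` commutes with a multiplicative map intertwining `s` and `s₀`. -/
theorem map_Dl_monoidHom (N : F →* F₀) (s : F ≃+* F) (s₀ : F₀ ≃+* F₀)
    (hN : ∀ x, N (s x) = s₀ (N x)) {x : F} (hx : x ≠ 0) : N (Dl s x) = Dl s₀ (N x) := by
  unfold Dl
  have h : N (s (s x) / x) * N x = N (s (s x)) := by
    rw [← map_mul, div_mul_cancel₀ _ hx]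
  by_cases hNx : N x = 0
  · -- then `N (s (s x)) = 0` too
    have h' : N (s (s x)) = 0 := by rw [hN, hN, hNx, map_zero, map_zero]
    have : N (s (s x) / x) = 0 := by
      have e : s (s x) / x = s (s x) * x⁻¹ := div_eq_mul_inv _ _
      rw [e, map_mul, h', zero_mul]
    rw [this, hNx, map_zero, map_zero, div_zero]
  · rw [eq_div_iff hNx, h, hN, hN]

/-- the image of a unit of `R` is a unit of every localisation of a chart. -/
theorem locUnit_algebraMap (B : Subalgebra R F) (𝔪 : Ideal B) (h𝔪 : 𝔪 ≠ ⊤) {u v : R}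
    (huv : u * v = 1) : LocUnit B 𝔪 (algebraMap R F u) := by
  refine ⟨algebraMap R B u, 1, fun hu => h𝔪 ?_, fun h1 => h𝔪 ((Ideal.eq_top_iff_one 𝔪).mpr h1), ?_⟩
  · rw [Ideal.eq_top_iff_one]
    have : (1 : B) = algebraMap R B u * algebraMap R B v := by rw [← map_mul, huv, map_one]
    rw [this]
    exact 𝔪.mul_mem_right _ hu
  · rw [OneMemClass.coe_one, mul_one]
    rfl

variable {π : R} {O1 O2 : ValuationSubring F} {Ov : ValuationSubring F₀} {α β : F₀ →+* F}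
  {s : F ≃+* F} {s₀ : F₀ ≃+* F₀} {q : ℕ} {Nα Nβ : F →* F₀}

omit [Algebra R K] [Algebra K F] [IsScalarTower R K F] in
/-- `s₀ (Δ c') / Δ c` is (the image of) a unit of `R`, for constants `c, c' ∈ K^×`. -/
theorem FrobData.const_unit (H : FrobData (K := K) π O1 O2 Ov α β s s₀ q Nα Nβ) {c c' : K}
    (hc : c ≠ 0) (hc' : c' ≠ 0) : ∃ u v : R, u * v = 1 ∧
      s₀ (Dl s₀ (algebraMap K F₀ c')) / Dl s₀ (algebraMap K F₀ c) = algebraMap R F₀ u := by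
  obtain ⟨u, v, huv, hu⟩ := H.constU c hc
  obtain ⟨u', v', huv', hu'⟩ := H.constU c' hc'
  obtain ⟨u'', v'', huv'', hu''⟩ := H.s0R u' v' huv'
  refine ⟨u'' * v, v'' * u, ?_, ?_⟩
  · calc u'' * v * (v'' * u) = (u'' * v'') * (u * v) := by ring
      _ = 1 := by rw [huv'', huv, mul_one]
  · rw [hu, hu', hu'', map_mul]
    have h1 : algebraMap R F₀ u * algebraMap R F₀ v = 1 := by rw [← map_mul, huv, map_one]
    have hu0 : algebraMap R F₀ u ≠ 0 := left_ne_zero_of_mul_eq_one h1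
    rw [div_eq_iff hu0, mul_assoc, mul_comm (algebraMap R F₀ v), h1, mul_one]

/-- **Abstract NUM-O.** -/
theorem fnum_abs {π : R} {t : F} {B0 B1 : Subalgebra R F} {O1 O2 : ValuationSubring F}
    (D : NodalNumData R K F π t B0 B1 O1 O2) (g : SemilinearAut K F)
    (Ov : ValuationSubring F₀) (α β : F₀ →+* F) (s₀ : F₀ ≃+* F₀) (q : ℕ) (Nα Nβ : F →* F₀)
    (H : FrobData (K := K) π O1 O2 Ov α β (SemilinearAut.toRingAut g) s₀ q Nα Nβ)
    (m : ℕ) (hm : 0 < m) (minv : R) (hminv : (m : R) * minv = 1) (f : F) (hf : f ≠ 0)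
    (hord : ∀ v : Place K F, (m : ℤ) ∣ v.ord f)
    (hEα : ∃ (c : K) (G : F₀), c ≠ 0 ∧ G ≠ 0 ∧ Nα f = algebraMap K F₀ c * G ^ m)
    (hEβ : ∃ (c : K) (G : F₀), c ≠ 0 ∧ G ≠ 0 ∧ Nβ f = algebraMap K F₀ c * G ^ m)
    (hnode0 : ∀ 𝔪 : Ideal B0, 𝔪.IsMaximal → algebraMap R B0 π ∈ 𝔪 →
      ¬ OffBranch π B0 O1 𝔪 → ¬ OffBranch π B0 O2 𝔪 →
      ∀ C₁ C₂ : F, LocUnit B0 𝔪 C₁ → LocUnit B0 𝔪 C₂ →
      NodeHyp π B0 O1 O2 𝔪 (SemilinearAut.toRingAut g) q m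
        (Dl (SemilinearAut.toRingAut g) (Dl (SemilinearAut.toRingAut g) f)) C₁ C₂)
    (hnode1 : ∀ 𝔪 : Ideal B1, 𝔪.IsMaximal → algebraMap R B1 π ∈ 𝔪 →
      ¬ OffBranch π B1 O1 𝔪 → ¬ OffBranch π B1 O2 𝔪 →
      ∀ C₁ C₂ : F, LocUnit B1 𝔪 C₁ → LocUnit B1 𝔪 C₂ →
      NodeHyp π B1 O1 O2 𝔪 (SemilinearAut.toRingAut g) q m
        (Dl (SemilinearAut.toRingAut g) (Dl (SemilinearAut.toRingAut g) f)) C₁ C₂) :
    ∃ (c : K) (S : F), c ≠ 0 ∧ S ≠ 0 ∧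
      S ^ m = c • Nb (SemilinearAut.toRingAut g) q
        (Dl (SemilinearAut.toRingAut g) (Dl (SemilinearAut.toRingAut g) f)) := by
  set s := SemilinearAut.toRingAut g with hs
  have M := D.model
  have hπ0 : algebraMap R F π ≠ 0 := M.pi_ne
  have hp1 : algebraMap R F π ∈ O1 := M.le_O1_0 _ (B0.algebraMap_mem π)
  have hp2 : algebraMap R F π ∈ O2 := M.le_O2_0 _ (B0.algebraMap_mem π)
  have hp1' := M.pi_nonunit1
  have hp2' := M.pi_nonunit2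
  -- the first difference `h := Δ f`, a unit of `O1 ⊓ O2`
  set h : F := Dl s f with hh
  have hh0 : h ≠ 0 := Dl_ne_zero s hf
  obtain ⟨h1, h1'⟩ := H.dec1.dl_mem hπ0 M.unif1 M.arch1 hf
  obtain ⟨h2, h2'⟩ := H.dec2.dl_mem hπ0 M.unif2 M.arch2 hf
  -- (N̄) + (K̄)
  obtain ⟨x₁, y₂, hx₁, hx₁', hy₂, hy₂', h1α, h2β, hnα, hnβ⟩ := H.normBar h hh0 h1 h1' h2 h2'
  have hx₁0 : x₁ ≠ 0 := by
    rintro rfl
    exact h1α.right_ne_zero hp1' (map_zero α)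
  have hy₂0 : y₂ ≠ 0 := by
    rintro rfl
    exact h2β.right_ne_zero hp2' (map_zero β)
  have hK1 := H.hK1 x₁ hx₁0 hx₁ hx₁'
  have hK2 := H.hK2 y₂ hy₂0 hy₂ hy₂'
  have h2α : MC (algebraMap R F π) O2 (h ^ q) (α (s₀ y₂)) :=
    (h2β.pow hp2 q).trans hp2 hp2' (hK2.symm hp2 hp2')
  have h1β : MC (algebraMap R F π) O1 (h ^ q) (β (s₀ x₁)) :=
    (h1α.pow hp1 q).trans hp1 hp1' (hK1.symm hp1 hp1')
  -- (E) for `h`
  obtain ⟨ca, Ga, hca, hGa, hNa⟩ := hEα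
  obtain ⟨cb, Gb, hcb, hGb, hNb⟩ := hEβ
  have hEα' : Nα h = Dl s₀ (algebraMap K F₀ ca) * (Dl s₀ Ga) ^ m := by
    rw [hh, map_Dl_monoidHom Nα s s₀ H.Nα_s hf, hNa, Dl_mul, Dl_pow]
  have hEβ' : Nβ h = Dl s₀ (algebraMap K F₀ cb) * (Dl s₀ Gb) ^ m := by
    rw [hh, map_Dl_monoidHom Nβ s s₀ H.Nβ_s hf, hNb, Dl_mul, Dl_pow]
  -- the constants `C₁ = α (s₀ cβ / cα)`, `C₂ = β (s₀ cα / cβ)` are units of `R`
  obtain ⟨w₁, w₁', hw₁, hC₁⟩ := H.const_unit hca hcb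
  obtain ⟨w₂, w₂', hw₂, hC₂⟩ := H.const_unit hcb hca
  -- (U2)
  have hP : OrdDvd K (m : ℤ) f := ⟨hf, hord⟩
  have hu2 : ∀ T : F, T ≠ 0 → ∀ v : Place K F, (m : ℤ) ∣ v.ord (Nb s q (Dl s h) / T ^ m) :=
    fun T hT v => ((((hP.dl g).dl g).nb g q).div (ordDvd_pow m hT)).2 v
  obtain ⟨S, hS0, c, hc0, hSc⟩ := third_diff_root (K := K) π t B0 B1 O1 O2 M D.noeth0 D.noeth1
    D.frac0 D.frac1 D.fracR D.dvrR D.smooth0 D.smooth1 m hm minv hminv D.algClosed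
    Ov hp1 hp2 H.hp0 H.hp0' α β s s₀ H.hαs H.hβs H.dec1.map_pmul H.dec2.map_pmul H.dec0.map_pmul
    H.hα1 H.hβ2 H.hα2r H.hβ1r q H.hCRT h (Nα h) (Nβ h) x₁ (s₀ y₂) (s₀ x₁) y₂ hK1 hK2 h1α h2α hnα
    h1β h2β hnβ
    (Dl s₀ (algebraMap K F₀ ca)) (Dl s₀ (algebraMap K F₀ cb)) (Dl s₀ Ga) (Dl s₀ Gb)
    (Dl_ne_zero s₀ hGa) (Dl_ne_zero s₀ hGb) hEα' hEβ' (H.frobK ca hca) (H.frobK cb hcb) hu2
    (fun 𝔪 h𝔪 hπ𝔪 hb1 hb2 => hnode0 𝔪 h𝔪 hπ𝔪 hb1 hb2 _ _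
      (by rw [hC₁, H.αR]; exact locUnit_algebraMap B0 𝔪 h𝔪.ne_top hw₁)
      (by rw [hC₂, H.βR]; exact locUnit_algebraMap B0 𝔪 h𝔪.ne_top hw₂))
    (fun 𝔪 h𝔪 hπ𝔪 hb1 hb2 => hnode1 𝔪 h𝔪 hπ𝔪 hb1 hb2 _ _
      (by rw [hC₁, H.αR]; exact locUnit_algebraMap B1 𝔪 h𝔪.ne_top hw₁)
      (by rw [hC₂, H.βR]; exact locUnit_algebraMap B1 𝔪 h𝔪.ne_top hw₂))
  exact ⟨c, S, hc0, hS0, by rw [hSc, Algebra.smul_def]⟩

end Abs

end Fermat.Agent.ES.N35.FrobAbs13
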