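/-
Program O (S35), brick B1b, ABSTRACT half (helper22): **Frobenius at the two-branch points**
(`ThirdDiffCL29.NodeHyp.frob`, literally) from the two Kronecker congruences.

Data: `R`, `π : R`, fields `F₀` (good level), `F` (bad level), a chart `B : Subalgebra R F`, the good-level
chart `BM ⊂ F₀`, the two branch valuation rings `O1 O2` of `F`, a point `𝔪 : Ideal B` lying on both
branches, the two degeneracy maps `α β : F₀ →+* F`, the Frobenius lift `s` on `F` and `s₀` on `F₀`.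

Hypotheses (all elementwise): `α ∘ s₀ = s ∘ α`; `s` stabilises `B` and `π O1`; `s₀` stabilises `BM`;
`α BM ⊆ B`, `β BM ⊆ B`; `B ⊆ α BM + π O1` (surjectivity of the reduction of `α` on the first branch);
(K1) `β (s₀ c) ≡ (α c)^q mod π O1`, (K2) `α (s₀ c) ≡ (β c)^q mod π O2` for `c ∈ BM`;
`B ∩ π O_j ⊆ 𝔪` (`𝔪` lies on both branches).

Conclusion: `∀ b : B, ∃ b' : B, b' = s (s b) ∧ b' - b ^ (q ^ 2) ∈ 𝔪`.

Proof: `b = α c + π e`, so `s² b ≡ s² (α c) = α (s₀² c) ≡ (β (s₀ c))^q ≡ ((α c)^q)^q = (α c)^(q²) ≡ b^(q²)`,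
the congruences being modulo `B ∩ π O1`, `B ∩ π O2`, `B ∩ π O1`, `B ∩ π O1`, all contained in `𝔪`.
-/
import Mathlib
import Fermat.Agent.ES.N34.NodalCore13

set_option autoImplicit false

namespace Fermat.Agent.ES.N35.FrobAbsNode22

open Fermat.Agent.ES.N34.NodalCore13

variable {R F F₀ : Type*} [CommRing R] [Field F] [Field F₀] [Algebra R F]

/-- **Frobenius at a two-branch point**, `BM` any subset of `F₀`. -/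
theorem frob_of_kron_set (π : R) (B : Subalgebra R F) (BM : Set F₀) (O1 O2 : ValuationSubring F)
    (𝔪 : Ideal B) (α β : F₀ →+* F) (s : F ≃+* F) (s₀ : F₀ ≃+* F₀) (q : ℕ)
    (hαs : ∀ x, α (s₀ x) = s (α x))
    (hsB : ∀ b ∈ B, s b ∈ B)
    (hs1 : ∀ c ∈ O1, ∃ c' ∈ O1, s (algebraMap R F π * c) = algebraMap R F π * c')
    (hs₀B : ∀ c ∈ BM, s₀ c ∈ BM)
    (hαB : ∀ c ∈ BM, α c ∈ B) (hβB : ∀ c ∈ BM, β c ∈ B)
    (surj : ∀ y ∈ B, ∃ c ∈ BM, ∃ e ∈ O1, y - α c = algebraMap R F π * e)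
    (kron1 : ∀ c ∈ BM, ∃ e ∈ O1, β (s₀ c) - (α c) ^ q = algebraMap R F π * e)
    (kron2 : ∀ c ∈ BM, ∃ e ∈ O2, α (s₀ c) - (β c) ^ q = algebraMap R F π * e)
    (on1 : ∀ b : B, (∃ c ∈ O1, (b : F) = algebraMap R F π * c) → b ∈ 𝔪)
    (on2 : ∀ b : B, (∃ c ∈ O2, (b : F) = algebraMap R F π * c) → b ∈ 𝔪) :
    ∀ b : B, ∃ b' : B, (b' : F) = s (s (b : F)) ∧ b' - b ^ (q ^ 2) ∈ 𝔪 := by
  intro b
  obtain ⟨c, hc, e₀, he₀, hy⟩ := surj (b : F) b.2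
  have hc1 : s₀ c ∈ BM := hs₀B c hc
  have hc2 : s₀ (s₀ c) ∈ BM := hs₀B _ hc1
  let aB : B := ⟨α c, hαB c hc⟩
  let bB : B := ⟨β (s₀ c), hβB _ hc1⟩
  let a2B : B := ⟨α (s₀ (s₀ c)), hαB _ hc2⟩
  let b' : B := ⟨s (s (b : F)), hsB _ (hsB _ b.2)⟩
  refine ⟨b', rfl, ?_⟩
  -- the four congruences modulo `𝔪`
  have h4 : b - aB ∈ 𝔪 := on1 _ ⟨e₀, he₀, hy⟩
  have h3 : bB - aB ^ q ∈ 𝔪 := by
    obtain ⟨e₁, he₁, h⟩ := kron1 c hc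
    exact on1 _ ⟨e₁, he₁, h⟩
  have h2 : a2B - bB ^ q ∈ 𝔪 := by
    obtain ⟨e₂, he₂, h⟩ := kron2 (s₀ c) hc1
    exact on2 _ ⟨e₂, he₂, h⟩
  have h1 : b' - a2B ∈ 𝔪 := by
    obtain ⟨e', he', h'⟩ := hs1 e₀ he₀
    obtain ⟨e'', he'', h''⟩ := hs1 e' he'
    refine on1 _ ⟨e'', he'', ?_⟩
    show s (s (b : F)) - α (s₀ (s₀ c)) = algebraMap R F π * e''
    rw [hαs, hαs, ← map_sub, ← map_sub, hy, h', h'']
  -- computation in `B ⧸ 𝔪`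
  rw [← Ideal.Quotient.eq] at h1 h2 h3 h4 ⊢
  calc Ideal.Quotient.mk 𝔪 b' = Ideal.Quotient.mk 𝔪 a2B := h1
    _ = Ideal.Quotient.mk 𝔪 (bB ^ q) := h2
    _ = (Ideal.Quotient.mk 𝔪 bB) ^ q := map_pow _ _ _
    _ = (Ideal.Quotient.mk 𝔪 (aB ^ q)) ^ q := by rw [h3]
    _ = ((Ideal.Quotient.mk 𝔪 aB) ^ q) ^ q := by rw [map_pow]
    _ = ((Ideal.Quotient.mk 𝔪 b) ^ q) ^ q := by rw [h4]
    _ = Ideal.Quotient.mk 𝔪 (b ^ (q ^ 2)) := by rw [← pow_mul, ← sq, map_pow]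

variable [Algebra R F₀]

/-- **Frobenius at a two-branch point** (`NodeHyp.frob`), `BM : Subalgebra R F₀`, surjectivity in the
subtype form of `SurjModel15.SurjItems`, `𝔪` on both branches in the `on`-form. -/
theorem frob_of_kron (π : R) (B : Subalgebra R F) (BM : Subalgebra R F₀)
    (O1 O2 : ValuationSubring F) (𝔪 : Ideal B) (α β : F₀ →+* F) (s : F ≃+* F) (s₀ : F₀ ≃+* F₀)
    (q : ℕ)
    (hαs : ∀ x, α (s₀ x) = s (α x))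
    (hsB : ∀ b ∈ B, s b ∈ B)
    (hs1 : ∀ c ∈ O1, ∃ c' ∈ O1, s (algebraMap R F π * c) = algebraMap R F π * c')
    (hs₀B : ∀ c ∈ BM, s₀ c ∈ BM)
    (hαB : ∀ c ∈ BM, α c ∈ B) (hβB : ∀ c ∈ BM, β c ∈ B)
    (surj : ∀ y ∈ B, ∃ c : ↥BM, ∃ e ∈ O1, y - α (c : F₀) = algebraMap R F π * e)
    (kron1 : ∀ c ∈ BM, ∃ e ∈ O1, β (s₀ c) - (α c) ^ q = algebraMap R F π * e)
    (kron2 : ∀ c ∈ BM, ∃ e ∈ O2, α (s₀ c) - (β c) ^ q = algebraMap R F π * e)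
    (on1 : ∀ b : B, (∃ c ∈ O1, (b : F) = algebraMap R F π * c) → b ∈ 𝔪)
    (on2 : ∀ b : B, (∃ c ∈ O2, (b : F) = algebraMap R F π * c) → b ∈ 𝔪) :
    ∀ b : B, ∃ b' : B, (b' : F) = s (s (b : F)) ∧ b' - b ^ (q ^ 2) ∈ 𝔪 :=
  frob_of_kron_set π B (BM : Set F₀) O1 O2 𝔪 α β s s₀ q hαs hsB hs1 hs₀B hαB hβB
    (fun y hy => by
      obtain ⟨c, e, he, h⟩ := surj y hy
      exact ⟨c, c.2, e, he, h⟩)
    kron1 kron2 on1 on2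

/-- The same with `𝔪` on both branches stated as `¬ OffBranch` (the hypotheses of
`ThirdDiffCL29.third_diff_root`'s `hnode0`, `hnode1`). -/
theorem frob_of_kron_offBranch (π : R) (B : Subalgebra R F) (BM : Subalgebra R F₀)
    (O1 O2 : ValuationSubring F) (𝔪 : Ideal B) (α β : F₀ →+* F) (s : F ≃+* F) (s₀ : F₀ ≃+* F₀)
    (q : ℕ)
    (hαs : ∀ x, α (s₀ x) = s (α x))
    (hsB : ∀ b ∈ B, s b ∈ B)
    (hs1 : ∀ c ∈ O1, ∃ c' ∈ O1, s (algebraMap R F π * c) = algebraMap R F π * c')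
    (hs₀B : ∀ c ∈ BM, s₀ c ∈ BM)
    (hαB : ∀ c ∈ BM, α c ∈ B) (hβB : ∀ c ∈ BM, β c ∈ B)
    (surj : ∀ y ∈ B, ∃ c : ↥BM, ∃ e ∈ O1, y - α (c : F₀) = algebraMap R F π * e)
    (kron1 : ∀ c ∈ BM, ∃ e ∈ O1, β (s₀ c) - (α c) ^ q = algebraMap R F π * e)
    (kron2 : ∀ c ∈ BM, ∃ e ∈ O2, α (s₀ c) - (β c) ^ q = algebraMap R F π * e)
    (h1 : ¬ OffBranch π B O1 𝔪) (h2 : ¬ OffBranch π B O2 𝔪) :
    ∀ b : B, ∃ b' : B, (b' : F) = s (s (b : F)) ∧ b' - b ^ (q ^ 2) ∈ 𝔪 :=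
  frob_of_kron π B BM O1 O2 𝔪 α β s s₀ q hαs hsB hs1 hs₀B hαB hβB surj kron1 kron2
    (fun b hb => by
      by_contra hb𝔪
      exact h1 ⟨b, hb𝔪, hb⟩)
    (fun b hb => by
      by_contra hb𝔪
      exact h2 ⟨b, hb𝔪, hb⟩)

end Fermat.Agent.ES.N35.FrobAbsNode22
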