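/-
Program O (S35), brick B1 = GAL chapter, Frobenius side (helper21): **decomposition-type automorphisms and the Gauss ring.**

`O : ValuationSubring K`, `s : K ≃+* K` with `s O = O` (both inclusions: an element of the
decomposition group; NOT assumed to be `≡ id mod π`).  Then

* `s` induces `sO : O ≃+* O` and `sRes : Res O ≃+* Res O` (`res0_sO`);
* the coefficientwise action of `s` on `K((q))` preserves the Gauss ring `GaussGen8.gaussRing O`
  (`coeffMap_mem_gaussRing`, `coeffMap_mem_gaussRing_iff`);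
* on residues it is the coefficientwise action of `sRes` (`gaussRed_coeffMap`):
  `gaussRed (s f) = sRes (gaussRed f)`; in particular `gaussRed (s f) = 0 ↔ gaussRed f = 0`;
* expansion form (`mem_of_expansion`, `red_of_expansion`): for a valuation ring `Oj` of a field `F`
  cut out by an expansion map `ι : F →+* K((q))` and `g : F ≃+* F` acting coefficientwise through
  `ι`, `g Oj = Oj`.

This is the `IsInertialBase` layer of `GalGaussInst21` without the hypothesis `s ≡ id mod π`.
-/
import Mathlib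
import Fermat.Agent.RED.PUR.GaussGen8
import Fermat.Agent.X0.CuspGood

set_option autoImplicit false
set_option linter.unusedSectionVars false

noncomputable section

open HahnSeries ModularCurve

namespace Fermat.Agent.ES.N35.FrobGauss21

open Fermat.Agent.RED.PUR.GaussGen8

section Base

variable {K : Type*} [Field K] (O : ValuationSubring K)

/-- an automorphism of `K` with `s O = O`. -/
structure IsDecompBase (s : K ≃+* K) : Prop where
  map_mem : ∀ a ∈ O, s a ∈ O
  symm_mem : ∀ a ∈ O, s.symm a ∈ O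

variable {O} {s : K ≃+* K}

theorem IsDecompBase.symm (hs : IsDecompBase O s) : IsDecompBase O s.symm :=
  ⟨hs.symm_mem, fun a ha => by rw [RingEquiv.symm_symm]; exact hs.map_mem a ha⟩

/-- the induced automorphism of `O`. -/
def IsDecompBase.sO (hs : IsDecompBase O s) : ↥O ≃+* ↥O where
  toFun a := ⟨s (a : K), hs.map_mem _ a.2⟩
  invFun a := ⟨s.symm (a : K), hs.symm_mem _ a.2⟩
  left_inv _ := Subtype.ext (s.symm_apply_apply _)
  right_inv _ := Subtype.ext (s.apply_symm_apply _)
  map_mul' _ _ := Subtype.ext (map_mul s _ _)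
  map_add' _ _ := Subtype.ext (map_add s _ _)

@[simp] theorem IsDecompBase.coe_sO (hs : IsDecompBase O s) (a : ↥O) :
    ((hs.sO a : ↥O) : K) = s (a : K) := rfl

@[simp] theorem IsDecompBase.coe_sO_symm (hs : IsDecompBase O s) (a : ↥O) :
    ((hs.sO.symm a : ↥O) : K) = s.symm (a : K) := rfl

/-- the induced automorphism of the residue field. -/
def IsDecompBase.sRes (hs : IsDecompBase O s) : Res O ≃+* Res O :=
  IsLocalRing.ResidueField.mapEquiv hs.sO

theorem IsDecompBase.res0_sO (hs : IsDecompBase O s) (a : ↥O) :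
    res0 O (hs.sO a) = hs.sRes (res0 O a) := rfl

theorem IsDecompBase.res_comp_sO (hs : IsDecompBase O s) :
    (res0 O).comp (hs.sO : ↥O →+* ↥O) = (hs.sRes : Res O →+* Res O).comp (res0 O) :=
  RingHom.ext fun _ => rfl

theorem IsDecompBase.subtype_comp_sO (hs : IsDecompBase O s) :
    O.subtype.comp (hs.sO : ↥O →+* ↥O) = (s : K →+* K).comp O.subtype :=
  RingHom.ext fun _ => rfl

theorem IsDecompBase.embK_coeffMap (hs : IsDecompBase O s) (a : LaurentSeries ↥O) :
    embK O (coeffMap (hs.sO : ↥O →+* ↥O) a) = coeffMap (s : K →+* K) (embK O a) := by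
  unfold embK
  rw [coeffMap_coeffMap, coeffMap_coeffMap, hs.subtype_comp_sO]

theorem IsDecompBase.redL_coeffMap (hs : IsDecompBase O s) (a : LaurentSeries ↥O) :
    redL O (coeffMap (hs.sO : ↥O →+* ↥O) a) =
      coeffMap (hs.sRes : Res O →+* Res O) (redL O a) := by
  unfold redL
  rw [coeffMap_coeffMap, coeffMap_coeffMap, hs.res_comp_sO]

theorem IsDecompBase.coeffMap_sRes_injective (hs : IsDecompBase O s) :
    Function.Injective (coeffMap (hs.sRes : Res O →+* Res O)) :=
  Fermat.Agent.X0.CuspGood.coeffMap_injective _ hs.sRes.injective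

/-- the representation of `s f`. -/
theorem IsDecompBase.isRep (hs : IsDecompBase O s) {f : LaurentSeries K}
    {a S : LaurentSeries ↥O} (h : IsRep O f a S) :
    IsRep O (coeffMap (s : K →+* K) f) (coeffMap (hs.sO : ↥O →+* ↥O) a)
      (coeffMap (hs.sO : ↥O →+* ↥O) S) := by
  refine ⟨?_, ?_⟩
  · rw [hs.redL_coeffMap]
    intro h0
    apply h.1
    apply hs.coeffMap_sRes_injective
    rw [h0, map_zero]
  · rw [hs.embK_coeffMap, hs.embK_coeffMap, ← map_mul, h.2]

/-- **`s` preserves the Gauss ring.** -/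
theorem IsDecompBase.coeffMap_mem_gaussRing (hs : IsDecompBase O s)
    {f : LaurentSeries K} (hf : f ∈ gaussRing O) : coeffMap (s : K →+* K) f ∈ gaussRing O := by
  obtain ⟨a, S, h⟩ := hf
  exact ⟨_, _, hs.isRep h⟩

theorem coeffMap_symm_coeffMap (s : K ≃+* K) (f : LaurentSeries K) :
    coeffMap (s.symm : K →+* K) (coeffMap (s : K →+* K) f) = f := by
  rw [coeffMap_coeffMap]
  have : (s.symm : K →+* K).comp (s : K →+* K) = RingHom.id K :=
    RingHom.ext fun x => s.symm_apply_apply x
  rw [this, coeffMap_id]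

theorem IsDecompBase.coeffMap_mem_gaussRing_iff (hs : IsDecompBase O s)
    (f : LaurentSeries K) : coeffMap (s : K →+* K) f ∈ gaussRing O ↔ f ∈ gaussRing O := by
  refine ⟨fun h => ?_, hs.coeffMap_mem_gaussRing⟩
  have := hs.symm.coeffMap_mem_gaussRing h
  rwa [coeffMap_symm_coeffMap] at this

/-- **the action on residues is coefficientwise `sRes`.** -/
theorem IsDecompBase.gaussRed_coeffMap (hs : IsDecompBase O s) {f : LaurentSeries K}
    (hf : f ∈ gaussRing O) :
    gaussRed O ⟨coeffMap (s : K →+* K) f, hs.coeffMap_mem_gaussRing hf⟩ =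
      coeffMap (hs.sRes : Res O →+* Res O) (gaussRed O ⟨f, hf⟩) := by
  obtain ⟨a, S, h⟩ := hf
  rw [gaussRed_eq O (f := ⟨coeffMap (s : K →+* K) f, _⟩) (hs.isRep h),
    gaussRed_eq O (f := ⟨f, _⟩) h, hs.redL_coeffMap, hs.redL_coeffMap, map_div₀]

theorem IsDecompBase.gaussRed_coeffMap_eq_zero_iff (hs : IsDecompBase O s) {f : LaurentSeries K}
    (hf : f ∈ gaussRing O) :
    gaussRed O ⟨coeffMap (s : K →+* K) f, hs.coeffMap_mem_gaussRing hf⟩ = 0 ↔
      gaussRed O ⟨f, hf⟩ = 0 := by
  rw [hs.gaussRed_coeffMap hf]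
  exact map_eq_zero_iff _ hs.coeffMap_sRes_injective

end Base

section Expansion

variable {K F : Type*} [Field K] [Field F] {O : ValuationSubring K} {s : K ≃+* K}

/-- `g Oj ⊆ Oj` for a valuation ring cut out by an expansion map through which `g` acts
coefficientwise. -/
theorem mem_of_expansion (hs : IsDecompBase O s) (ι : F →+* LaurentSeries K) (g : F ≃+* F)
    (hι : ∀ x : F, ι (g x) = coeffMap (s : K →+* K) (ι x))
    (Oj : ValuationSubring F) (hOj : ∀ x : F, x ∈ Oj ↔ ι x ∈ gaussRing O) (x : F) :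
    g x ∈ Oj ↔ x ∈ Oj := by
  rw [hOj, hOj, hι, hs.coeffMap_mem_gaussRing_iff]

theorem symm_mem_of_expansion (hs : IsDecompBase O s) (ι : F →+* LaurentSeries K) (g : F ≃+* F)
    (hι : ∀ x : F, ι (g x) = coeffMap (s : K →+* K) (ι x))
    (Oj : ValuationSubring F) (hOj : ∀ x : F, x ∈ Oj ↔ ι x ∈ gaussRing O) (x : F) :
    g.symm x ∈ Oj ↔ x ∈ Oj := by
  rw [← mem_of_expansion hs ι g hι Oj hOj (g.symm x), g.apply_symm_apply]

/-- the residue of `g x` along `ι` is `sRes` applied coefficientwise to the residue of `x`. -/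
theorem red_of_expansion (hs : IsDecompBase O s) (ι : F →+* LaurentSeries K) (g : F ≃+* F)
    (hι : ∀ x : F, ι (g x) = coeffMap (s : K →+* K) (ι x)) {x : F} (hx : ι x ∈ gaussRing O)
    (hgx : ι (g x) ∈ gaussRing O) :
    gaussRed O ⟨ι (g x), hgx⟩ = coeffMap (hs.sRes : Res O →+* Res O) (gaussRed O ⟨ι x, hx⟩) := by
  rw [← hs.gaussRed_coeffMap hx]
  congr 1
  exact Subtype.ext (hι x)

end Expansion

end Fermat.Agent.ES.N35.FrobGauss21
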