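/-
Program O (S35), brick B1 = GAL chapter, Frobenius side, at the `ModelDefs9` data (helper21).

`K ⊂ ℚ̄` normal, `σ ∈ Gal(ℚ̄/ℚ)`, **`s_N := IfaceN4.gK N K (σ.restrictNormal K)`** the coefficientwise
action of `σ|_K` on `F_K = FK N K`.  `R = AK A K`, `F₀ = FK M' K`, `F = FK (M' * q) K`.

(a) any `σ`: `gK_alpha`, `gK_beta`, `gK_wN`, `gK_tM`, `gK_tN`, `gK_yN`, `gK_gK` (`s_σ ∘ s_τ = s_{στ}`);
(b) `σ ∈ D_A`: `gK_mem_gaussVS_iff`, `gK_mem_O1_iff`, `gK_mem_O2_iff`; `exists_resK_pi` (`σ π = π u`);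
    `hs_gaussVS`, `hs1`, `hs2`: `s (π c) = π c'` in the literal shape of `ThirdDiffCL29.third_diff_root`;
    residues: `gaussRed_gK`;
(c) `σ ∈ D_A`: chart stability `gK_mem_chart`, `gK_mem_B0`, `gK_mem_B1`, `gK_mem_B0M`, `gK_mem_B1M`;
(d) `A.IsFrobeniusAt σ q`: `res0_resK_frob` (`res (σ x) = (res x) ^ q` on `A ∩ K`), `frob_unit`
    (`σ² u - u ^ (q²) ∈ π R` for `u ∈ R`), `psiK_inv_res_pow` (the hypothesis `hψ` of
    `KronN14.kron_gauss` / `KronChart15.kron_one` for `ψ := σ⁻¹|_K`, for THE GIVEN `σ`).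
-/
import Mathlib
import Fermat.Prelude.Def_EllipticCurve_FrobeniusTrace
import Fermat.Agent.ES.RED.GaloisRed21
import Fermat.Agent.X0.CuspGood
import Fermat.Agent.ES.N34.GalBase21
import Fermat.Agent.ES.N34.GalChart21
import Fermat.Agent.ES.N34.ModelDefs9
import Fermat.Agent.ES.N34.IfaceN4
import Fermat.Agent.ES.N34.KronN14
import Fermat.Agent.ES.N35.FrobGauss21

set_option autoImplicit false
set_option linter.unusedSectionVars false
set_option synthInstance.maxHeartbeats 400000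

noncomputable section

open HahnSeries AlgebraicCurve ModularCurve

namespace Fermat.Agent.ES.N35.FrobModel21

open Fermat.Agent.RED.Interface4 Fermat.Agent.RED.DESC Fermat.Agent.RED.PUR.GaussGen8
  Fermat.Agent.RED.PUR.ChartGeneric22 Fermat.Agent.RED.BASE.EtaQuot12
  Fermat.Agent.ES.RED.GaloisRed21 Fermat.Agent.ES.N34.GalBase21 Fermat.Agent.ES.N34.ModelDefs9
  Fermat.Agent.ES.N34.FrickeFK8 Fermat.Agent.ES.N34.IfaceN4 Fermat.Agent.ES.N35.FrobGauss21

variable (A : ValuationSubring Qbar) (K : IntermediateField ℚ Qbar) [Normal ℚ K]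

/-! ### (a) any `σ` -/

section AnySigma

variable (N : ℕ) (σ : Qbar ≃ₐ[ℚ] Qbar)

theorem coe_gK (x : ↥(FK N K)) :
    ((gK N K (σ.restrictNormal K) x : ↥(FK N K)) : LaurentSeries K) =
      coeffMap ((resK K σ).toRingEquiv : K →+* K) (x : LaurentSeries K) := rfl

theorem gK_gK (τ : Qbar ≃ₐ[ℚ] Qbar) (x : ↥(FK N K)) :
    gK N K (σ.restrictNormal K) (gK N K (τ.restrictNormal K) x) =
      gK N K ((σ * τ).restrictNormal K) x := by
  apply Subtype.ext
  rw [coe_gK, coe_gK, coe_gK, coeffMap_coeffMap]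
  refine coeffMap_congr (RingHom.ext fun a => ?_) _
  show resK K σ (resK K τ a) = resK K (σ * τ) a
  rw [resK_mul]
  rfl

theorem gK_symm :
    (gK N K (σ.restrictNormal K)).symm = gK N K (σ⁻¹.restrictNormal K) := by
  refine RingEquiv.ext fun x => ?_
  rw [RingEquiv.symm_apply_eq, gK_gK, mul_inv_cancel]
  apply Subtype.ext
  rw [coe_gK]
  have : ((resK K 1).toRingEquiv : K →+* K) = RingHom.id K := by
    rw [resK_one]; rfl
  rw [this, coeffMap_id]

theorem gK_algebraMap (a : K) :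
    gK N K (σ.restrictNormal K) (algebraMap K ↥(FK N K) a) =
      algebraMap K ↥(FK N K) (resK K σ a) :=
  arithmeticRingAut_algebraMap (modularFunctionFieldFull N) (resK K σ) a

theorem gK_frickeFK [NeZero N] (x : ↥(FK N K)) :
    gK N K (σ.restrictNormal K) (frickeFK N K x) =
      frickeFK N K (gK N K (σ.restrictNormal K) x) :=
  (frickeFK_arithmeticRingAut N K (resK K σ) x).symm

/-- an element whose expansion is an eta quotient `tq` (rational coefficients) is fixed. -/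
theorem gK_of_coe_tq (n e : ℕ) [NeZero n] (t : ↥(FK N K))
    (ht : (t : LaurentSeries K) = tq K n e) : gK N K (σ.restrictNormal K) t = t := by
  apply Subtype.ext
  rw [coe_gK, ht]
  exact coeffMap_tq K _ n e

variable (M' q : ℕ) [NeZero M'] [NeZero q]

/-- `hαs` of `third_diff_root`. -/
theorem gK_alpha (x : ↥(FK M' K)) :
    alpha K M' q (gK M' K (σ.restrictNormal K) x) =
      gK (M' * q) K (σ.restrictNormal K) (alpha K M' q x) := by
  apply Subtype.ext
  rw [coe_gK, coe_alpha, coe_alpha, coe_gK]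

/-- `hβs` of `third_diff_root`. -/
theorem gK_beta (x : ↥(FK M' K)) :
    beta K M' q (gK M' K (σ.restrictNormal K) x) =
      gK (M' * q) K (σ.restrictNormal K) (beta K M' q x) := by
  apply Subtype.ext
  rw [coe_gK, coe_beta, coe_beta, coe_gK]
  exact (Fermat.Agent.X0.CuspGood.coeffMap_qExpand _ q _).symm

theorem gK_wN (x : ↥(FK (M' * q) K)) :
    gK (M' * q) K (σ.restrictNormal K) (wN K M' q x) =
      wN K M' q (gK (M' * q) K (σ.restrictNormal K) x) :=
  gK_frickeFK K (M' * q) σ x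

variable {M'} {n e : ℕ} [NeZero n]

theorem gK_tM (ht : tq (↥K) n e ∈ FK M' K) :
    gK M' K (σ.restrictNormal K) (tM ht) = tM ht :=
  gK_of_coe_tq K M' σ n e _ (coe_tM ht)

theorem gK_tN (ht : tq (↥K) n e ∈ FK M' K) :
    gK (M' * q) K (σ.restrictNormal K) (tN q ht) = tN q ht :=
  gK_of_coe_tq K (M' * q) σ n e _ (coe_tN q ht)

theorem gK_yN (ht : tq (↥K) n e ∈ FK M' K) :
    gK (M' * q) K (σ.restrictNormal K) (yN q ht) = yN q ht := by
  rw [yN, ← gK_beta, gK_tM]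

end AnySigma

/-! ### (b) `σ` in the decomposition group: valuation rings -/

section Decomp

variable {A} {σ : Qbar ≃ₐ[ℚ] Qbar} (hσ : σ ∈ A.decompositionSubgroup ℚ)

include hσ in
/-- `σ|_K` preserves `A ∩ K` in both directions. -/
theorem isDecompBase_resK : IsDecompBase (AK A K) (resK K σ).toRingEquiv := by
  refine ⟨fun a ha => resK_mem_AK A K hσ ha, fun a ha => ?_⟩
  have h := resK_mem_AK A K (inv_mem hσ) ha
  rw [resK_inv] at h
  exact h

variable (N : ℕ)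

include hσ in
/-- `s` preserves the Gauss ring, expansion form. -/
theorem coe_gK_mem_gaussRing_iff (x : ↥(FK N K)) :
    ((gK N K (σ.restrictNormal K) x : ↥(FK N K)) : LaurentSeries K) ∈ gaussRing (AK A K) ↔
      (x : LaurentSeries K) ∈ gaussRing (AK A K) := by
  rw [coe_gK]
  exact (isDecompBase_resK K hσ).coeffMap_mem_gaussRing_iff _

include hσ in
/-- **`s` preserves the Gauss valuation ring of `F_K`** (so `O = Ov_{M'}` and `O1`). -/
theorem gK_mem_gaussVS_iff {π : ↥(AK A K)} (hπ : IsUnif (AK A K) π)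
    (hE : FK N K ≤ fracField (AK A K)) (x : ↥(FK N K)) :
    gK N K (σ.restrictNormal K) x ∈ gaussVS hπ (FK N K) hE ↔ x ∈ gaussVS hπ (FK N K) hE := by
  rw [mem_gaussVS_iff, mem_gaussVS_iff]
  exact coe_gK_mem_gaussRing_iff K hσ N x

include hσ in
/-- the action on residues: coefficientwise `σ̄`. -/
theorem gaussRed_gK (x : ↥(FK N K)) (hx : (x : LaurentSeries K) ∈ gaussRing (AK A K)) :
    gaussRed (AK A K) ⟨((gK N K (σ.restrictNormal K) x : ↥(FK N K)) : LaurentSeries K),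
        (coe_gK_mem_gaussRing_iff K hσ N x).mpr hx⟩ =
      coeffMap ((isDecompBase_resK K hσ).sRes : Res (AK A K) →+* Res (AK A K))
        (gaussRed (AK A K) ⟨(x : LaurentSeries K), hx⟩) :=
  (isDecompBase_resK K hσ).gaussRed_coeffMap hx

include hσ in
/-- `σ π = π u` with `u ∈ A ∩ K`. -/
theorem exists_resK_pi {π : ↥(AK A K)} (hπ : IsUnif (AK A K) π) :
    ∃ u : ↥(AK A K), resK K σ (π : K) = (π : K) * (u : K) := by
  have hs := isDecompBase_resK K hσ
  have h1 : hs.sO π ∈ IsLocalRing.maximalIdeal ↥(AK A K) := by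
    rw [IsLocalRing.mem_maximalIdeal, mem_nonunits_iff]
    intro hu
    have h2 : IsUnit (hs.sO.symm (hs.sO π)) := hu.map hs.sO.symm
    rw [RingEquiv.symm_apply_apply] at h2
    have h3 : π ∈ IsLocalRing.maximalIdeal ↥(AK A K) := by
      rw [hπ.max_eq]; exact Ideal.mem_span_singleton_self π
    exact (IsLocalRing.mem_maximalIdeal _).mp h3 h2
  rw [hπ.max_eq, Ideal.mem_span_singleton] at h1
  obtain ⟨u, hu⟩ := h1
  exact ⟨u, congrArg Subtype.val hu⟩

omit [Normal ℚ K] in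
/-- constants of `A ∩ K` lie in the Gauss ring. -/
theorem coe_algebraMap_AK_mem (c : ↥(AK A K)) :
    ((algebraMap ↥(AK A K) ↥(FK N K) c : ↥(FK N K)) : LaurentSeries K) ∈ gaussRing (AK A K) := by
  have : ((algebraMap ↥(AK A K) ↥(FK N K) c : ↥(FK N K)) : LaurentSeries K) =
      HahnSeries.C ((c : ↥(AK A K)) : K) := by
    show algebraMap K (LaurentSeries K) (c : K) = _
    rw [algebraMap_eq_C]
  rw [this]
  exact C_mem (AK A K) c

include hσ in
/-- **`s (π c) = π c'`** on the Gauss valuation ring of `F_K` (`hs0`, and `hs1` for `O1`). -/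
theorem hs_gaussVS {π : ↥(AK A K)} (hπ : IsUnif (AK A K) π)
    (hE : FK N K ≤ fracField (AK A K)) :
    ∀ c ∈ gaussVS hπ (FK N K) hE, ∃ c' ∈ gaussVS hπ (FK N K) hE,
      gK N K (σ.restrictNormal K) (algebraMap ↥(AK A K) ↥(FK N K) π * c) =
        algebraMap ↥(AK A K) ↥(FK N K) π * c' := by
  intro c hc
  obtain ⟨u, hu⟩ := exists_resK_pi K hσ hπ
  refine ⟨algebraMap ↥(AK A K) ↥(FK N K) u * gK N K (σ.restrictNormal K) c, ?_, ?_⟩
  · refine (gaussVS hπ (FK N K) hE).mul_mem _ _ ?_ ((gK_mem_gaussVS_iff K hσ N hπ hE c).mpr hc)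
    rw [mem_gaussVS_iff]
    exact coe_algebraMap_AK_mem K N u
  · rw [map_mul, ← mul_assoc]
    congr 1
    have h1 : gK N K (σ.restrictNormal K) (algebraMap ↥(AK A K) ↥(FK N K) π) =
        algebraMap K ↥(FK N K) (resK K σ (π : K)) := gK_algebraMap K N σ (π : K)
    rw [h1, hu, map_mul]
    rfl

variable (M' q : ℕ) [NeZero M'] [NeZero q]

include hσ in
theorem gK_mem_O1_iff {π : ↥(AK A K)} (hπ : IsUnif (AK A K) π)
    (hE : FK (M' * q) K ≤ fracField (AK A K)) (x : ↥(FK (M' * q) K)) :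
    gK (M' * q) K (σ.restrictNormal K) x ∈ O1 M' q hπ hE ↔ x ∈ O1 M' q hπ hE :=
  gK_mem_gaussVS_iff K hσ (M' * q) hπ hE x

include hσ in
theorem gK_mem_O2_iff {π : ↥(AK A K)} (hπ : IsUnif (AK A K) π)
    (hE : FK (M' * q) K ≤ fracField (AK A K)) (x : ↥(FK (M' * q) K)) :
    gK (M' * q) K (σ.restrictNormal K) x ∈ O2 M' q hπ hE ↔ x ∈ O2 M' q hπ hE := by
  rw [mem_O2_iff_wN_mem_O1, mem_O2_iff_wN_mem_O1, ← gK_wN, gK_mem_O1_iff K hσ]

include hσ in
/-- **`hs1`** of `third_diff_root`. -/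
theorem hs1 {π : ↥(AK A K)} (hπ : IsUnif (AK A K) π)
    (hE : FK (M' * q) K ≤ fracField (AK A K)) :
    ∀ c ∈ O1 M' q hπ hE, ∃ c' ∈ O1 M' q hπ hE,
      gK (M' * q) K (σ.restrictNormal K) (algebraMap ↥(AK A K) ↥(FK (M' * q) K) π * c) =
        algebraMap ↥(AK A K) ↥(FK (M' * q) K) π * c' :=
  hs_gaussVS K hσ (M' * q) hπ hE

include hσ in
/-- **`hs2`** of `third_diff_root`. -/
theorem hs2 {π : ↥(AK A K)} (hπ : IsUnif (AK A K) π)
    (hE : FK (M' * q) K ≤ fracField (AK A K)) :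
    ∀ c ∈ O2 M' q hπ hE, ∃ c' ∈ O2 M' q hπ hE,
      gK (M' * q) K (σ.restrictNormal K) (algebraMap ↥(AK A K) ↥(FK (M' * q) K) π * c) =
        algebraMap ↥(AK A K) ↥(FK (M' * q) K) π * c' := by
  intro c hc
  obtain ⟨u, hu⟩ := exists_resK_pi K hσ hπ
  refine ⟨algebraMap ↥(AK A K) ↥(FK (M' * q) K) u * gK (M' * q) K (σ.restrictNormal K) c, ?_, ?_⟩
  · refine (O2 M' q hπ hE).mul_mem _ _ ?_ ((gK_mem_O2_iff K hσ M' q hπ hE c).mpr hc)
    rw [mem_O2_iff_wN_mem_O1]
    have : wN K M' q (algebraMap ↥(AK A K) ↥(FK (M' * q) K) u) =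
        algebraMap ↥(AK A K) ↥(FK (M' * q) K) u := (wN K M' q).commutes ((u : ↥(AK A K)) : K)
    rw [this, mem_O1_iff]
    exact coe_algebraMap_AK_mem K (M' * q) u
  · rw [map_mul, ← mul_assoc]
    congr 1
    have h1 : gK (M' * q) K (σ.restrictNormal K) (algebraMap ↥(AK A K) ↥(FK (M' * q) K) π) =
        algebraMap K ↥(FK (M' * q) K) (resK K σ (π : K)) := gK_algebraMap K (M' * q) σ (π : K)
    rw [h1, hu, map_mul]
    rfl

/-! ### (c) charts -/

include hσ in
/-- semilinearity over `R = A ∩ K`. -/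
theorem gK_semilin (r : ↥(AK A K)) :
    ∃ r' : ↥(AK A K), gK N K (σ.restrictNormal K) (algebraMap ↥(AK A K) ↥(FK N K) r) =
      algebraMap ↥(AK A K) ↥(FK N K) r' :=
  ⟨⟨resK K σ (r : K), resK_mem_AK A K hσ r.2⟩, gK_algebraMap K N σ (r : K)⟩

include hσ in
/-- **chart stability**: `s (chart R t) ⊆ chart R t` when `s t = t`. -/
theorem gK_mem_chart {t : ↥(FK N K)} (ht : gK N K (σ.restrictNormal K) t = t) {x : ↥(FK N K)}
    (hx : x ∈ chart ↥(AK A K) t) : gK N K (σ.restrictNormal K) x ∈ chart ↥(AK A K) t :=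
  Fermat.Agent.ES.N34.GalChart21.map_mem_chart (chart ↥(AK A K) t) (self_mem_chart t)
    (chart_intcl t) (fun _ hx => hx) _ (gK_semilin K hσ N) ht hx

include hσ in
theorem gK_mem_chart_iff {t : ↥(FK N K)} (ht : gK N K (σ.restrictNormal K) t = t)
    (x : ↥(FK N K)) :
    gK N K (σ.restrictNormal K) x ∈ chart ↥(AK A K) t ↔ x ∈ chart ↥(AK A K) t := by
  refine ⟨fun hx => ?_, gK_mem_chart K hσ N ht⟩
  have ht' : gK N K (σ⁻¹.restrictNormal K) t = t := by
    rw [← gK_symm, RingEquiv.symm_apply_eq, ht]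
  have := gK_mem_chart K (inv_mem hσ) N ht' hx
  rwa [← gK_symm, RingEquiv.symm_apply_apply] at this

variable {M'} {n e : ℕ} [NeZero n]

include hσ in
theorem gK_mem_B0_iff (ht : tq (↥K) n e ∈ FK M' K) (x : ↥(FK (M' * q) K)) :
    gK (M' * q) K (σ.restrictNormal K) x ∈ B0 A q ht ↔ x ∈ B0 A q ht :=
  gK_mem_chart_iff K hσ (M' * q) (gK_tN K σ q ht) x

include hσ in
theorem gK_mem_B1_iff (ht : tq (↥K) n e ∈ FK M' K) (x : ↥(FK (M' * q) K)) :
    gK (M' * q) K (σ.restrictNormal K) x ∈ B1 A q ht ↔ x ∈ B1 A q ht :=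
  gK_mem_chart_iff K hσ (M' * q) (by rw [map_inv₀, gK_tN]) x

include hσ in
theorem gK_mem_B0M_iff (ht : tq (↥K) n e ∈ FK M' K) (x : ↥(FK M' K)) :
    gK M' K (σ.restrictNormal K) x ∈ B0M A ht ↔ x ∈ B0M A ht :=
  gK_mem_chart_iff K hσ M' (gK_tM K σ ht) x

include hσ in
theorem gK_mem_B1M_iff (ht : tq (↥K) n e ∈ FK M' K) (x : ↥(FK M' K)) :
    gK M' K (σ.restrictNormal K) x ∈ B1M A ht ↔ x ∈ B1M A ht :=
  gK_mem_chart_iff K hσ M' (by rw [map_inv₀, gK_tM]) x

end Decomp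

/-! ### (d) Frobenius elements -/

section Frob

variable {A} {σ : Qbar ≃ₐ[ℚ] Qbar} {q : ℕ} (hσ : A.IsFrobeniusAt σ q)

include hσ in
/-- **`res (σ x) = (res x) ^ q` on `A ∩ K`.** -/
theorem res0_resK_frob (x : ↥(AK A K)) :
    res0 (AK A K) ((isDecompBase_resK K hσ.mem_decompositionSubgroup).sO x) =
      res0 (AK A K) x ^ q := by
  rw [← map_pow, NumberFieldDVR27.residue_eq_iff, map_pow]
  set g : A.decompositionSubgroup ℚ := ⟨σ, hσ.mem_decompositionSubgroup⟩ with hg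
  have hab : sigmaA A g (NumberFieldDVR27.incl A K x) =
      NumberFieldDVR27.incl A K ((isDecompBase_resK K hσ.mem_decompositionSubgroup).sO x) := by
    apply Subtype.ext
    rw [coe_sigmaA, NumberFieldDVR27.coe_incl, NumberFieldDVR27.coe_incl]
    exact (coe_resK K σ (x : K)).symm
  have h1 := psiRes_residue A g (NumberFieldDVR27.incl A K x)
  rw [hab, psiRes_of_isFrobeniusAt A hσ] at h1
  rw [map_pow]
  exact h1.symm

include hσ in
/-- the induced automorphism of the residue field is the `q`-power map. -/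
theorem sRes_frob (y : Res (AK A K)) :
    (isDecompBase_resK K hσ.mem_decompositionSubgroup).sRes y = y ^ q := by
  obtain ⟨x, rfl⟩ := IsLocalRing.residue_surjective y
  exact res0_resK_frob K hσ x

include hσ in
/-- **`σ² u ≡ u ^ (q²) mod π`** on `A ∩ K`. -/
theorem frob_sq {π : ↥(AK A K)} (hπ : IsUnif (AK A K) π) (u : ↥(AK A K)) :
    ∃ r : ↥(AK A K), resK K σ (resK K σ (u : K)) - (u : K) ^ (q ^ 2) = (π : K) * (r : K) := by
  have hs := isDecompBase_resK K hσ.mem_decompositionSubgroup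
  have h1 : res0 (AK A K) (hs.sO (hs.sO u) - u ^ (q ^ 2)) = 0 := by
    rw [map_sub, res0_resK_frob K hσ, res0_resK_frob K hσ, map_pow, ← pow_mul, ← pow_two, sub_self]
  obtain ⟨r, hr⟩ := (res0_eq_zero_iff hπ _).mp h1
  exact ⟨r, congrArg Subtype.val hr⟩

include hσ in
/-- **`hψ` of `KronN14.kron_gauss`** for `ψ := σ⁻¹|_K`, for the given Frobenius element `σ`. -/
theorem psiK_inv_res_pow
    (hψO : ∀ x ∈ AK A K, ((resK K σ⁻¹ : K ≃ₐ[ℚ] K) : K →+* K) x ∈ AK A K) (x : ↥(AK A K)) :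
    res0 (AK A K) (Fermat.Agent.ES.N34.KronN14.restrictO (AK A K)
      ((resK K σ⁻¹ : K ≃ₐ[ℚ] K) : K →+* K) hψO x) ^ q = res0 (AK A K) x := by
  rw [← res0_resK_frob K hσ]
  congr 1
  apply Subtype.ext
  show resK K σ (resK K σ⁻¹ (x : K)) = (x : K)
  rw [resK_inv]
  exact (resK K σ).apply_symm_apply _

end Frob

end Fermat.Agent.ES.N35.FrobModel21
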