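/-
Program O (S35), brick B1 = GAL chapter, Frobenius side (helper21): **constants, uniformiser, norms.**

Same vocabulary as `FrobModel21`: `s_N := IfaceN4.gK N K (σ.restrictNormal K)`, `R = AK A K`.

* `exists_resK_pi_unit` : `σ π = π u`, `u ∈ R^×` (`σ ∈ D_A`);
* `map_p_gaussVS`, `map_p_O2` : the field `map_p` of `FrobAbs13.IsDecomp` for `O = gaussVS` (so `Ov`, `O1`)
  and for `O2`; together with `FrobModel21.gK_mem_gaussVS_iff / gK_mem_O2_iff` (+ `gK_symm`) these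
  are the three `IsDecomp` fields `dec0`, `dec1`, `dec2` of `FrobAbs13.FrobData`:
  `isDecomp_gaussVS`, `isDecomp_O1`, `isDecomp_O2` are stated unfolded (three conjuncts);
* `resK_div_mem` : `σ c / c ∈ R^×` for `c ∈ K^×` (`R` a DVR), `gK_const`, `Dl_const`;
* `one1_Nb_const`, `frobK` : `∇ u ≡ 1 mod π Ov` for units `u` of `R`, and for `u = Δ c`, `c ∈ K^×`
  (`hFα`, `hFβ` of `third_diff_root`, field `frobK` of `FrobData`), for a Frobenius element `σ`;
* `normAlong_equiv`, `normAlong_gK_alpha`, `normAlong_gK_beta` : `N_α (s x) = s₀ (N_α x)`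
  (fields `Nα_s`, `Nβ_s`).
-/
import Mathlib
import Fermat.Agent.ES.HECKE.PointFormula28
import Fermat.Agent.ES.N35.MulCong29
import Fermat.Agent.ES.N35.ThirdDiff29
import Fermat.Agent.ES.N35.FrobModel21

set_option autoImplicit false
set_option linter.unusedSectionVars false
set_option synthInstance.maxHeartbeats 400000

noncomputable section

open HahnSeries AlgebraicCurve ModularCurve

namespace Fermat.Agent.ES.N35.FrobConst21

open Fermat.Agent.RED.Interface4 Fermat.Agent.RED.DESC Fermat.Agent.RED.PUR.GaussGen8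
  Fermat.Agent.ES.N34.GalBase21 Fermat.Agent.ES.N34.ModelDefs9
  Fermat.Agent.ES.N34.IfaceN4 Fermat.Agent.ES.N35.FrobGauss21 Fermat.Agent.ES.N35.FrobModel21
  Fermat.Agent.ES.N35.MulCong29 Fermat.Agent.ES.N35.ThirdDiff29

/-! ### Norms commute with equivariant automorphisms (generic) -/

section Norm

variable {K F F' : Type*} [Field K] [Field F] [Field F'] [Algebra K F] [Algebra K F']

/-- `N_ψ (s y) = s₀ (N_ψ y)` when `ψ ∘ s₀ = s ∘ ψ`. -/
theorem normAlong_equiv (ψ : F →ₐ[K] F') (s₀ : F ≃+* F) (s : F' ≃+* F')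
    (h : ∀ x, ψ (s₀ x) = s (ψ x)) (y : F') :
    Fermat.Agent.ES.HECKE.PointFormula28.normAlong ψ (s y) =
      s₀ (Fermat.Agent.ES.HECKE.PointFormula28.normAlong ψ y) := by
  unfold Fermat.Agent.ES.HECKE.PointFormula28.normAlong
  let _ := algebraAlong ψ
  have he : RingHom.comp (algebraMap F F') (s₀ : F →+* F) =
      RingHom.comp (s : F' →+* F') (algebraMap F F') := RingHom.ext h
  have := Algebra.norm_eq_of_equiv_equiv s₀ s he y
  rw [this, RingEquiv.apply_symm_apply]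

end Norm

variable {A : ValuationSubring Qbar} (K : IntermediateField ℚ Qbar) [Normal ℚ K]

section Decomp

variable {σ : Qbar ≃ₐ[ℚ] Qbar} (hσ : σ ∈ A.decompositionSubgroup ℚ)

include hσ in
/-- `σ π = π u` with `u` a unit of `A ∩ K`. -/
theorem exists_resK_pi_unit {π : ↥(AK A K)} (hπ : IsUnif (AK A K) π) :
    ∃ u : ↥(AK A K), IsUnit u ∧ resK K σ (π : K) = (π : K) * (u : K) := by
  obtain ⟨u, hu⟩ := exists_resK_pi K hσ hπ
  obtain ⟨u', hu'⟩ := exists_resK_pi K (inv_mem hσ) hπ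
  have hπ0 : (π : K) ≠ 0 := fun h => hπ.ne_zero (Subtype.ext h)
  refine ⟨u, ?_, hu⟩
  -- `π = σ (σ⁻¹ π) = σ π · σ u' = π · u · σ u'`
  have h1 : resK K σ (resK K σ⁻¹ (π : K)) = (π : K) := by
    rw [resK_inv]; exact (resK K σ).apply_symm_apply _
  rw [hu', map_mul, hu, mul_assoc] at h1
  have h2 : (u : K) * resK K σ (u' : K) = 1 := by
    apply mul_left_cancel₀ hπ0
    rw [h1, mul_one]
  refine isUnit_iff_exists_inv.mpr ⟨⟨resK K σ (u' : K), resK_mem_AK A K hσ u'.2⟩, ?_⟩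
  exact Subtype.ext h2

variable (N : ℕ)

include hσ in
/-- `map_p` of `IsDecomp` for the Gauss valuation ring of `F_K` (`Ov`, `O1`). -/
theorem map_p_gaussVS {π : ↥(AK A K)} (hπ : IsUnif (AK A K) π)
    (hE : FK N K ≤ fracField (AK A K)) :
    ∃ ε : ↥(FK N K), ε ∈ gaussVS hπ (FK N K) hE ∧ ε⁻¹ ∈ gaussVS hπ (FK N K) hE ∧
      gK N K (σ.restrictNormal K) (algebraMap ↥(AK A K) ↥(FK N K) π) =
        algebraMap ↥(AK A K) ↥(FK N K) π * ε := by
  obtain ⟨u, huu, hu⟩ := exists_resK_pi_unit K hσ hπ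
  obtain ⟨v, hv⟩ := isUnit_iff_exists_inv.mp huu
  refine ⟨algebraMap ↥(AK A K) ↥(FK N K) u, ?_, ?_, ?_⟩
  · rw [mem_gaussVS_iff]; exact coe_algebraMap_AK_mem K N u
  · have : (algebraMap ↥(AK A K) ↥(FK N K) u)⁻¹ = algebraMap ↥(AK A K) ↥(FK N K) v := by
      apply inv_eq_of_mul_eq_one_right
      rw [← map_mul, hv, map_one]
    rw [this, mem_gaussVS_iff]; exact coe_algebraMap_AK_mem K N v
  · have h1 : gK N K (σ.restrictNormal K) (algebraMap ↥(AK A K) ↥(FK N K) π) =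
        algebraMap K ↥(FK N K) (resK K σ (π : K)) := gK_algebraMap K N σ (π : K)
    rw [h1, hu, map_mul]
    rfl

variable (M' q : ℕ) [NeZero M'] [NeZero q]

include hσ in
/-- `map_p` of `IsDecomp` for `O2`. -/
theorem map_p_O2 {π : ↥(AK A K)} (hπ : IsUnif (AK A K) π)
    (hE : FK (M' * q) K ≤ fracField (AK A K)) :
    ∃ ε : ↥(FK (M' * q) K), ε ∈ O2 M' q hπ hE ∧ ε⁻¹ ∈ O2 M' q hπ hE ∧
      gK (M' * q) K (σ.restrictNormal K) (algebraMap ↥(AK A K) ↥(FK (M' * q) K) π) =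
        algebraMap ↥(AK A K) ↥(FK (M' * q) K) π * ε := by
  obtain ⟨ε, h1, h2, h3⟩ := map_p_gaussVS K hσ (M' * q) hπ hE
  obtain ⟨u, huu, hu⟩ := exists_resK_pi_unit K hσ hπ
  obtain ⟨v, hv⟩ := isUnit_iff_exists_inv.mp huu
  have hconst : ∀ w : ↥(AK A K), algebraMap ↥(AK A K) ↥(FK (M' * q) K) w ∈ O2 M' q hπ hE := by
    intro w
    rw [mem_O2_iff_wN_mem_O1]
    have : wN K M' q (algebraMap ↥(AK A K) ↥(FK (M' * q) K) w) =
        algebraMap ↥(AK A K) ↥(FK (M' * q) K) w := (wN K M' q).commutes ((w : ↥(AK A K)) : K)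
    rw [this, mem_O1_iff]
    exact coe_algebraMap_AK_mem K (M' * q) w
  refine ⟨algebraMap ↥(AK A K) ↥(FK (M' * q) K) u, hconst u, ?_, ?_⟩
  · have : (algebraMap ↥(AK A K) ↥(FK (M' * q) K) u)⁻¹ =
        algebraMap ↥(AK A K) ↥(FK (M' * q) K) v := by
      apply inv_eq_of_mul_eq_one_right
      rw [← map_mul, hv, map_one]
    rw [this]; exact hconst v
  · have h1 : gK (M' * q) K (σ.restrictNormal K)
        (algebraMap ↥(AK A K) ↥(FK (M' * q) K) π) =
        algebraMap K ↥(FK (M' * q) K) (resK K σ (π : K)) := gK_algebraMap K (M' * q) σ (π : K)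
    rw [h1, hu, map_mul]
    rfl

/-! ### Constants -/

include hσ in
/-- `s` maps unit constants to unit constants. -/
theorem gK_const (u : ↥(AK A K)) (hu : IsUnit u) :
    ∃ u' : ↥(AK A K), IsUnit u' ∧
      gK N K (σ.restrictNormal K) (algebraMap ↥(AK A K) ↥(FK N K) u) =
        algebraMap ↥(AK A K) ↥(FK N K) u' := by
  have hs := isDecompBase_resK K hσ
  exact ⟨hs.sO u, hu.map hs.sO, gK_algebraMap K N σ (u : K)⟩

include hσ in
/-- `σ c / c` is a unit of `A ∩ K` (a DVR) for every `c ∈ K^×`. -/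
theorem resK_div_mem [IsDiscreteValuationRing ↥(AK A K)] (c : K) (hc : c ≠ 0) :
    ∃ u : ↥(AK A K), IsUnit u ∧ resK K σ c = c * (u : K) := by
  obtain ⟨π, hπirr⟩ := IsDiscreteValuationRing.exists_irreducible ↥(AK A K)
  have hπ : IsUnif (AK A K) π := isUnif_of_irreducible (AK A K) hπirr
  obtain ⟨w, hw, hwπ⟩ := exists_resK_pi_unit K hσ hπ
  have hs := isDecompBase_resK K hσ
  obtain ⟨n, v, hcv⟩ := IsDiscreteValuationRing.exists_units_eq_smul_zpow_of_irreducible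
    (K := K) hπirr hc
  have hcv' : c = ((v : ↥(AK A K)) : K) * (π : K) ^ n := by
    rw [hcv, Units.smul_def, Algebra.smul_def]; rfl
  have hπ0 : (π : K) ≠ 0 := fun h => hπ.ne_zero (Subtype.ext h)
  have hv0 : ((v : ↥(AK A K)) : K) ≠ 0 := fun h => v.ne_zero (Subtype.ext h)
  have hw0 : ((w : ↥(AK A K)) : K) ≠ 0 := fun h => hw.ne_zero (Subtype.ext h)
  -- the unit `σ v / v * w ^ n`
  obtain ⟨wu, rfl⟩ := hw
  set u : (↥(AK A K))ˣ := (Units.map (hs.sO : ↥(AK A K) →* ↥(AK A K)) v) * v⁻¹ * wu ^ n with hu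
  refine ⟨(u : ↥(AK A K)), u.isUnit, ?_⟩
  have hucoe : ((u : ↥(AK A K)) : K) =
      resK K σ ((v : ↥(AK A K)) : K) * ((v : ↥(AK A K)) : K)⁻¹ * ((wu : ↥(AK A K)) : K) ^ n := by
    rw [hu]
    push_cast
    have h1 : (((v⁻¹ : (↥(AK A K))ˣ) : ↥(AK A K)) : K) = ((v : ↥(AK A K)) : K)⁻¹ := by
      apply eq_inv_of_mul_eq_one_left
      have : ((v⁻¹ : (↥(AK A K))ˣ) : ↥(AK A K)) * (v : ↥(AK A K)) = 1 := by
        rw [← Units.val_mul, inv_mul_cancel, Units.val_one]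
      exact congrArg Subtype.val this
    have h2 : ((((wu ^ n : (↥(AK A K))ˣ)) : ↥(AK A K)) : K) = ((wu : ↥(AK A K)) : K) ^ n := by
      rcases Int.eq_nat_or_neg n with ⟨k, rfl | rfl⟩
      · rw [zpow_natCast, zpow_natCast, Units.val_pow_eq_pow_val]; rfl
      · rw [zpow_neg, zpow_neg, zpow_natCast, zpow_natCast]
        apply eq_inv_of_mul_eq_one_left
        have : (((wu ^ k)⁻¹ : (↥(AK A K))ˣ) : ↥(AK A K)) * ((wu : ↥(AK A K)) ^ k) = 1 := by
          rw [← Units.val_pow_eq_pow_val, ← Units.val_mul, inv_mul_cancel, Units.val_one]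
        exact congrArg Subtype.val this
    rw [h1, h2]
    rfl
  rw [hucoe, hcv', map_mul, map_zpow₀, hwπ, mul_zpow]
  field_simp

include hσ in
/-- `Δ c = σ² c / c` is a unit constant. -/
theorem Dl_const [IsDiscreteValuationRing ↥(AK A K)] (c : K) (hc : c ≠ 0) :
    ∃ u : ↥(AK A K), IsUnit u ∧
      Dl (gK N K (σ.restrictNormal K)) (algebraMap K ↥(FK N K) c) =
        algebraMap ↥(AK A K) ↥(FK N K) u := by
  obtain ⟨u₁, hu₁, h₁⟩ := resK_div_mem K hσ c hc
  have hσc : resK K σ c ≠ 0 := (map_ne_zero_iff _ (resK K σ).injective).mpr hc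
  obtain ⟨u₂, hu₂, h₂⟩ := resK_div_mem K hσ (resK K σ c) hσc
  refine ⟨u₂ * u₁, hu₂.mul hu₁, ?_⟩
  unfold Dl
  rw [gK_algebraMap, gK_algebraMap, h₂, h₁]
  have hc0 : algebraMap K ↥(FK N K) c ≠ 0 :=
    (map_ne_zero_iff _ (algebraMap K ↥(FK N K)).injective).mpr hc
  rw [div_eq_iff hc0]
  show algebraMap K ↥(FK N K) (c * (u₁ : K) * (u₂ : K)) =
    algebraMap K ↥(FK N K) (((u₂ * u₁ : ↥(AK A K)) : ↥(AK A K)) : K) * algebraMap K ↥(FK N K) c
  rw [← map_mul]
  congr 1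
  push_cast
  ring

end Decomp

/-! ### Frobenius elements: `∇ (unit constant) ≡ 1` -/

section Frob

variable {σ : Qbar ≃ₐ[ℚ] Qbar} {q : ℕ} (hσ : A.IsFrobeniusAt σ q) (N : ℕ)

include hσ in
/-- `∇ u ≡ 1 mod π Ov` for a unit constant `u`. -/
theorem one1_Nb_const {π : ↥(AK A K)} (hπ : IsUnif (AK A K) π)
    (hE : FK N K ≤ fracField (AK A K)) (u : ↥(AK A K)) (hu : IsUnit u) :
    One1 (algebraMap ↥(AK A K) ↥(FK N K) π) (gaussVS hπ (FK N K) hE)
      (Nb (gK N K (σ.restrictNormal K)) q (algebraMap ↥(AK A K) ↥(FK N K) u)) := by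
  obtain ⟨r, hr⟩ := frob_sq K hσ hπ u
  obtain ⟨v, hv⟩ := isUnit_iff_exists_inv.mp hu
  have hu0 : algebraMap ↥(AK A K) ↥(FK N K) u ≠ 0 := by
    intro h0
    have h1 : algebraMap ↥(AK A K) ↥(FK N K) (u * v) = 0 := by rw [map_mul, h0, zero_mul]
    rw [hv, map_one] at h1
    exact one_ne_zero h1
  refine ⟨algebraMap ↥(AK A K) ↥(FK N K) r * algebraMap ↥(AK A K) ↥(FK N K) (v ^ (q ^ 2)), ?_, ?_⟩
  · refine (gaussVS hπ (FK N K) hE).mul_mem _ _ ?_ ?_
    · rw [mem_gaussVS_iff]; exact coe_algebraMap_AK_mem K N r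
    · rw [mem_gaussVS_iff]; exact coe_algebraMap_AK_mem K N _
  · unfold Nb
    have h1 : gK N K (σ.restrictNormal K) (gK N K (σ.restrictNormal K)
        (algebraMap ↥(AK A K) ↥(FK N K) u)) =
        algebraMap K ↥(FK N K) (resK K σ (resK K σ (u : K))) := by
      have e1 : gK N K (σ.restrictNormal K) (algebraMap ↥(AK A K) ↥(FK N K) u) =
          algebraMap K ↥(FK N K) (resK K σ (u : K)) := gK_algebraMap K N σ (u : K)
      rw [e1, gK_algebraMap]
    have h2 : resK K σ (resK K σ (u : K)) = (u : K) ^ (q ^ 2) + (π : K) * (r : K) := by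
      rw [← hr]; ring
    rw [h1, h2]
    have h3 : algebraMap K ↥(FK N K) ((u : K) ^ (q ^ 2) + (π : K) * (r : K)) =
        algebraMap ↥(AK A K) ↥(FK N K) u ^ (q ^ 2) +
          algebraMap ↥(AK A K) ↥(FK N K) π * algebraMap ↥(AK A K) ↥(FK N K) r := by
      rw [map_add, map_mul, map_pow]; rfl
    have h4 : algebraMap ↥(AK A K) ↥(FK N K) (v ^ (q ^ 2)) =
        (algebraMap ↥(AK A K) ↥(FK N K) u ^ (q ^ 2))⁻¹ := by
      apply eq_inv_of_mul_eq_one_left
      rw [← map_pow, ← map_mul, ← mul_pow, mul_comm, hv, one_pow, map_one]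
    rw [h3, h4]
    have hup : algebraMap ↥(AK A K) ↥(FK N K) u ^ (q ^ 2) ≠ 0 := pow_ne_zero _ hu0
    field_simp
    ring

include hσ in
/-- **`frobK`** of `FrobAbs13.FrobData` (`hFα`, `hFβ` of `third_diff_root`). -/
theorem frobK [IsDiscreteValuationRing ↥(AK A K)] {π : ↥(AK A K)} (hπ : IsUnif (AK A K) π)
    (hE : FK N K ≤ fracField (AK A K)) (c : K) (hc : c ≠ 0) :
    One1 (algebraMap ↥(AK A K) ↥(FK N K) π) (gaussVS hπ (FK N K) hE)
      (Nb (gK N K (σ.restrictNormal K)) q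
        (Dl (gK N K (σ.restrictNormal K)) (algebraMap K ↥(FK N K) c))) := by
  obtain ⟨u, hu, hDl⟩ := Dl_const K hσ.mem_decompositionSubgroup N c hc
  rw [hDl]
  exact one1_Nb_const K hσ N hπ hE u hu

end Frob

/-! ### Norms along `alpha`, `beta` commute with the action -/

section NormModel

variable (σ : Qbar ≃ₐ[ℚ] Qbar) (M' q : ℕ) [NeZero M'] [NeZero q]

/-- **`Nα_s`** of `FrobData`. -/
theorem normAlong_gK_alpha (x : ↥(FK (M' * q) K)) :
    Fermat.Agent.ES.HECKE.PointFormula28.normAlong (alpha K M' q)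
        (gK (M' * q) K (σ.restrictNormal K) x) =
      gK M' K (σ.restrictNormal K)
        (Fermat.Agent.ES.HECKE.PointFormula28.normAlong (alpha K M' q) x) :=
  normAlong_equiv (alpha K M' q) _ _ (gK_alpha K σ M' q) x

/-- **`Nβ_s`** of `FrobData`. -/
theorem normAlong_gK_beta (x : ↥(FK (M' * q) K)) :
    Fermat.Agent.ES.HECKE.PointFormula28.normAlong (beta K M' q)
        (gK (M' * q) K (σ.restrictNormal K) x) =
      gK M' K (σ.restrictNormal K)
        (Fermat.Agent.ES.HECKE.PointFormula28.normAlong (beta K M' q) x) :=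
  normAlong_equiv (beta K M' q) _ _ (gK_beta K σ M' q) x

end NormModel

end Fermat.Agent.ES.N35.FrobConst21
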