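/-
Program O (S35), brick CORE-O (helper13), part 2: **`FNum` from MODEL + the Frobenius package + the
node package** (twin of `ES/N34/NumReady13` + `NumN13`).

Generic layer (typeclass search at the concrete number-field types is slow, so everything is stated
for an arbitrary field `Kt`, a valuation subring `O` of `Kt` and subfields `E₀, E ⊂ Kt((q))`):

* `normHom φ` : the norm along a field embedding as a monoid homomorphism
  (`normHom φ x = BaseChange19.normAlong φ x` by `rfl`);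
* `FStmt E₀ E q g Nα Nβ` : the statement (C″) for ONE semilinear automorphism `g` of `E`;
* `NodeSupplyAt O E π B0 B1 O1 O2 s q` : the node package (B5): `ThirdDiffCL29.NodeHyp` for `Δ Δ f` at
  every two-branch closed point of both charts, for all constants which are local units;
* `fStmt_of_data` : `NodalDataAt` (MODEL, as in Program N) + `FrobAbs13.FrobData` (B1 + B2) +
  `NodeSupplyAt` (B5) + (`q ∤ m` ⇒ `m ∈ O^×`) ⇒ `FStmt`   (via `FrobAbs13.fnum_abs`).

Concrete layer, in `ModelDefs9`'s vocabulary: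

* `FrobItems q M' A K` : `FrobData` at the ModelDefs9 data for every Frobenius lift `σ` at `q`;
* `NodeItems n e q M' A K` : `NodeSupplyAt` at the ModelDefs9 data for every Frobenius lift `σ`;
* `fnumLarge_of_model` : `ModelInput13.ModelInput n e q M' A` + `Large FrobItems` + `Large NodeItems`
  ⇒ `IfaceO13.FNumLarge q M' A`.
-/
import Mathlib
import Fermat.Agent.ES.N35.IfaceO13
import Fermat.Agent.ES.N35.FrobAbs13
import Fermat.Agent.ES.N34.ModelInput13
import Fermat.Agent.ES.N34.ModelN4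
import Fermat.Agent.ES.N34.GalBase21
import Fermat.Agent.RED.NumInst4
import Fermat.Agent.RED.DESC.NumberFieldDVR27

set_option autoImplicit false
set_option synthInstance.maxHeartbeats 400000

open HahnSeries AlgebraicCurve ModularCurve

noncomputable section

namespace Fermat.Agent.ES.N35.FrobReady13

open Fermat.Agent.ES.N34.NodalCore13 Fermat.Agent.ES.N34.NodalCL13 Fermat.Agent.ES.N34.NumData13
  Fermat.Agent.ES.N34.ModelInput13
  Fermat.Agent.ES.N35.MulCong29 Fermat.Agent.ES.N35.ThirdDiff29 Fermat.Agent.ES.N35.ThirdDiffCL29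
  Fermat.Agent.ES.N35.FrobAbs13

/-! ### The norm along an embedding, as a monoid homomorphism -/

section Norm

variable {K F₀ F : Type*} [Field K] [Field F₀] [Field F] [Algebra K F₀] [Algebra K F]

/-- the norm along `φ : F₀ → F` as a monoid homomorphism `F →* F₀`. -/
def normHom (φ : F₀ →ₐ[K] F) : F →* F₀ :=
  letI := algebraAlong φ
  Algebra.norm F₀

theorem normHom_apply (φ : F₀ →ₐ[K] F) (x : F) :
    normHom φ x = Fermat.Agent.ES.HECKE.BaseChange19.normAlong φ x := rfl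

end Norm

section Generic

variable {Kt : Type*} [Field Kt]

/-- **(C″)** over `(Kt, E₀, E)` for one semilinear automorphism `g` of `E`; conclusion up to a
nonzero constant of `Kt`; the support of `div f` consists of rational places. -/
def FStmt (E₀ E : IntermediateField Kt (LaurentSeries Kt)) (q : ℕ) (g : SemilinearAut Kt E)
    (Nα Nβ : E →* E₀) : Prop :=
  ∀ m : ℕ, ¬ q ∣ m → ∀ f : E, f ≠ 0 →
    (∀ v : Place Kt E, (m : ℤ) ∣ v.ord f) →
    (∀ v : Place Kt E, v.ord f ≠ 0 → Function.Surjective (algebraMap Kt v.ResidueField)) →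
    (∃ (c : Kt) (G : E₀), c ≠ 0 ∧ G ≠ 0 ∧ Nα f = c • G ^ m) →
    (∃ (c : Kt) (G : E₀), c ≠ 0 ∧ G ≠ 0 ∧ Nβ f = c • G ^ m) →
    ∃ (c : Kt) (S : E), c ≠ 0 ∧ S ≠ 0 ∧
      S ^ m = c • Nb (SemilinearAut.toRingAut g) q
        (Dl (SemilinearAut.toRingAut g) (Dl (SemilinearAut.toRingAut g) f))

/-- **The node package (B5)** over `(O, E)`: for every `f` with all orders divisible by `m` and
rational support, `NodeHyp` for `Δ Δ f` at every two-branch closed point of both charts and all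
constants `C₁ C₂` which are local units. -/
def NodeSupplyAt (O : ValuationSubring Kt) (E : IntermediateField Kt (LaurentSeries Kt))
    (π : O) (B0 B1 : Subalgebra ↥O ↥E) (O1 O2 : ValuationSubring ↥E) (s : ↥E ≃+* ↥E) (q : ℕ) :
    Prop :=
  ∀ m : ℕ, ¬ q ∣ m → ∀ f : E, f ≠ 0 →
    (∀ v : Place Kt E, (m : ℤ) ∣ v.ord f) →
    (∀ v : Place Kt E, v.ord f ≠ 0 → Function.Surjective (algebraMap Kt v.ResidueField)) →
    (∀ 𝔪 : Ideal B0, 𝔪.IsMaximal → algebraMap ↥O ↥B0 π ∈ 𝔪 →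
      ¬ OffBranch π B0 O1 𝔪 → ¬ OffBranch π B0 O2 𝔪 →
      ∀ C₁ C₂ : E, LocUnit B0 𝔪 C₁ → LocUnit B0 𝔪 C₂ →
      NodeHyp π B0 O1 O2 𝔪 s q m (Dl s (Dl s f)) C₁ C₂) ∧
    (∀ 𝔪 : Ideal B1, 𝔪.IsMaximal → algebraMap ↥O ↥B1 π ∈ 𝔪 →
      ¬ OffBranch π B1 O1 𝔪 → ¬ OffBranch π B1 O2 𝔪 →
      ∀ C₁ C₂ : E, LocUnit B1 𝔪 C₁ → LocUnit B1 𝔪 C₂ →
      NodeHyp π B1 O1 O2 𝔪 s q m (Dl s (Dl s f)) C₁ C₂)

variable {O : ValuationSubring Kt} {E₀ E : IntermediateField Kt (LaurentSeries Kt)}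

/-- **(C″) from the three packages.** -/
theorem fStmt_of_data {q : ℕ} (hinv : ∀ m : ℕ, ¬ q ∣ m → ∃ minv : O, (m : O) * minv = 1)
    {π : O} {t : E} {B0 B1 : Subalgebra ↥O ↥E} {O1 O2 : ValuationSubring ↥E}
    (D : NodalDataAt O E π t B0 B1 O1 O2) (g : SemilinearAut Kt E)
    (Ov : ValuationSubring ↥E₀) (α β : ↥E₀ →+* ↥E) (s₀ : ↥E₀ ≃+* ↥E₀) (Nα Nβ : ↥E →* ↥E₀)
    (H : FrobData (K := Kt) π O1 O2 Ov α β (SemilinearAut.toRingAut g) s₀ q Nα Nβ)
    (hN : NodeSupplyAt O E π B0 B1 O1 O2 (SemilinearAut.toRingAut g) q) :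
    FStmt E₀ E q g Nα Nβ := by
  intro m hm f hf hord hrat hEα hEβ
  have hm0 : 0 < m := Nat.pos_of_ne_zero fun h => hm (h ▸ dvd_zero q)
  obtain ⟨minv, hminv⟩ := hinv m hm
  have := Fermat.Agent.RED.NumInst4.isScalarTower_OE O E
  obtain ⟨hn0, hn1⟩ := hN m hm f hf hord hrat
  refine fnum_abs (K := Kt) D g Ov α β s₀ q Nα Nβ H m hm0 minv hminv f hf hord ?_ ?_ hn0 hn1
  · obtain ⟨c, G, hc, hG, h⟩ := hEα
    exact ⟨c, G, hc, hG, by rw [h, Algebra.smul_def]⟩
  · obtain ⟨c, G, hc, hG, h⟩ := hEβ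
    exact ⟨c, G, hc, hG, by rw [h, Algebra.smul_def]⟩

end Generic

section Concrete

open Fermat.Agent.RED.Interface4 Fermat.Agent.RED.DESC Fermat.Agent.RED.PUR.GaussGen8
  Fermat.Agent.RED.BASE.EtaQuot12
  Fermat.Agent.ES.N34.IfaceN4 Fermat.Agent.ES.N34.GalBase21 Fermat.Agent.ES.N34.ModelDefs9
  Fermat.Agent.ES.N34.ModelN4 Fermat.Agent.ES.N35.IfaceO13

theorem toRingAut_galK (N : ℕ) (K : IntermediateField ℚ Qbar) [Normal ℚ K]
    (τ : Qbar ≃ₐ[ℚ] Qbar) :
    SemilinearAut.toRingAut (galK K N τ) = gK N K (τ.restrictNormal K) := rfl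

/-- `FNum` from `FStmt` for `(K, K·F_{M'}, K·F_{M' q})` and every Frobenius lift at `q`. -/
theorem fnum_of_fStmt (q M' : ℕ) [NeZero M'] [NeZero q] (A : ValuationSubring Qbar)
    (K : IntermediateField ℚ Qbar) [Normal ℚ K]
    (h : ∀ σ : Qbar ≃ₐ[ℚ] Qbar, A.IsFrobeniusAt σ q →
      FStmt (FK M' K) (FK (M' * q) K) q (galK K (M' * q) σ)
        (normHom (alpha K M' q)) (normHom (beta K M' q))) : FNum q M' A K := by
  intro σ hσ m hm f hf hord hrat hEα hEβ
  exact h σ hσ m hm f hf hord hrat hEα hEβ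

variable (n e q M' : ℕ) [NeZero n] [NeZero M'] [NeZero q] (A : ValuationSubring Qbar)
  (K : IntermediateField ℚ Qbar)

/-- **B1 + B2 at `K`**: the Frobenius package `FrobAbs13.FrobData` at the ModelDefs9 data, for every
Frobenius lift `σ` at `q`; `s = gK (M' q) K σ|K`, `s₀ = gK M' K σ|K`, `Ov` the Gauss valuation ring
of `K·F_{M'}`, `Nα Nβ` the norms along `alpha`, `beta`. -/
def FrobItems : Prop :=
  ∀ [Normal ℚ K] (hE : FK (M' * q) K ≤ fracField (AK A K)) (hE₀ : FK M' K ≤ fracField (AK A K))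
    (π : ↥(AK A K)) (hπ : IsUnif (AK A K) π) (σ : Qbar ≃ₐ[ℚ] Qbar), A.IsFrobeniusAt σ q →
    FrobData (K := ↥K) π (O1 M' q hπ hE) (O2 M' q hπ hE) (gaussVS hπ (FK M' K) hE₀)
      (alpha K M' q : ↥(FK M' K) →+* ↥(FK (M' * q) K)) (beta K M' q : ↥(FK M' K) →+* ↥(FK (M' * q) K))
      (gK (M' * q) K (σ.restrictNormal K)) (gK M' K (σ.restrictNormal K)) q
      (normHom (alpha K M' q)) (normHom (beta K M' q))

/-- **B5 at `K`**: the node package at the ModelDefs9 data, for every Frobenius lift `σ` at `q`. -/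
def NodeItems : Prop :=
  ∀ [Normal ℚ K] (ht : tq (↥K) n e ∈ FK M' K) (hE : FK (M' * q) K ≤ fracField (AK A K))
    (π : ↥(AK A K)) (hπ : IsUnif (AK A K) π) (σ : Qbar ≃ₐ[ℚ] Qbar), A.IsFrobeniusAt σ q →
    NodeSupplyAt (AK A K) (FK (M' * q) K) π (B0 A q ht) (B1 A q ht) (O1 M' q hπ hE) (O2 M' q hπ hE)
      (gK (M' * q) K (σ.restrictNormal K)) q

variable {n e q M' A}

/-- **`FNumLarge` at level `M' * q` from MODEL, the Frobenius package and the node package.** -/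
theorem fnumLarge_of_model (hq : q.Prime) (hA : A.LiesOverPrime q)
    (hmodel : ModelInput n e q M' A) (hfrob : Large (FrobItems q M' A))
    (hnode : Large (NodeItems n e q M' A)) : FNumLarge q M' A := by
  obtain ⟨K₁, hK₁, h1⟩ := hmodel
  obtain ⟨K₂, hK₂, h23⟩ := hfrob.and hnode
  refine ⟨K₁ ⊔ K₂, inferInstance, fun K _ hfd hle => ?_⟩
  obtain ⟨ht, hE, hD⟩ := h1 K hfd (le_trans le_sup_left hle)
  obtain ⟨h2, h3⟩ := h23 K hfd (le_trans le_sup_right hle)
  have hdvr : IsDiscreteValuationRing ↥(AK A K) :=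
    NumberFieldDVR27.isDiscreteValuationRing_AK A K hq.ne_zero hA
  obtain ⟨ϖ, hϖ⟩ := IsDiscreteValuationRing.exists_irreducible ↥(AK A K)
  have hπ : IsUnif (AK A K) ϖ := isUnif_of_irreducible (AK A K) hϖ
  have hE₀ : FK M' K ≤ fracField (AK A K) :=
    Fermat.Agent.RED.PUR.GaussBridge10.FK_le_fracField A K M'
  refine fnum_of_fStmt q M' A K fun σ hσ => ?_
  exact fStmt_of_data (Fermat.Agent.RED.NumInst4.exists_inv_of_not_dvd hq hA K) (hD ϖ hπ)
    (galK K (M' * q) σ) (gaussVS hπ (FK M' K) hE₀) _ _ _ _ _ (h2 hE hE₀ ϖ hπ σ hσ)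
    (h3 ht hE ϖ hπ σ hσ)

end Concrete

end Fermat.Agent.ES.N35.FrobReady13
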