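/-
Program O (S35), brick B1, Frobenius side of KRON (helper15): the residue form (K̄) of the Kronecker
congruences for a GIVEN Frobenius lift `σ` (`A.IsFrobeniusAt σ q`), in the multiplicative-congruence
form consumed by `ThirdDiffCL29.third_diff_root` (`hK1`, `hK2`, `hα1`, `hβ2`).

Vocabulary: `R = AK A K`, `F₀ = FK M' K`, `F = FK (M' * q) K`, `s₀ = gK M' K (σ.restrictNormal K)` (the
coefficientwise action of `σ|K`), `α = alpha K M' q`, `β = beta K M' q`, `O1`, `O2` of `ModelDefs9`.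
`MC p O x y :⇔ ∃ c ∈ O, x / y - 1 = p * c` is `MulCong29.MC` (stated literally).

* `frobInv_of hσ`   : `ψ := resK K σ⁻¹` satisfies the hypotheses `hψO`, `hψ` of `KronN14.kron_gauss`;
* `gpsi_gK`         : `gψ (s₀ x) = x`;
* `gK_mem_gaussRing`: `s₀` preserves the Gauss ring (for a Frobenius lift);
* `kbar_one` (`hK1`): `β (s₀ x) ≡ (α x) ^ q  mod^× π O1` for every unit `x` of the Gauss ring of `F₀`;
* `kbar_two` (`hK2`): `α (s₀ y) ≡ (β y) ^ q  mod^× π O2`;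
* `halpha1`, `hbeta2`: `α (π O) ⊆ π O1`, `β (π O) ⊆ π O2`.
-/
import Mathlib
import Fermat.Agent.ES.N34.KronChart15
import Fermat.Agent.ES.N34.IsoM25
import Fermat.Agent.ES.N34.BranchInt5
import Fermat.Agent.ES.N34.IfaceN4
import Fermat.Agent.ES.N35.MulCong29

set_option autoImplicit false
set_option linter.unusedSectionVars false
set_option synthInstance.maxHeartbeats 400000

noncomputable section

open HahnSeries ModularCurve

namespace Fermat.Agent.ES.N35.KronMC15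

open Fermat.Agent.RED.Interface4 Fermat.Agent.RED.PUR.GaussGen8
  Fermat.Agent.ES.N34.FrickeFK8 Fermat.Agent.ES.N34.ModelDefs9 Fermat.Agent.ES.N34.KronN14
  Fermat.Agent.ES.N34.KronChart15 Fermat.Agent.ES.N34.IfaceN4 Fermat.Agent.ES.N34.GalBase21
  Fermat.Agent.RED.DESC Fermat.Agent.ES.RED.GaloisRed21 Fermat.Agent.ES.N35.MulCong29

variable (A : ValuationSubring Qbar) (K : IntermediateField ℚ Qbar) [Normal ℚ K]

/-- **The inverse of a GIVEN Frobenius lift, restricted to `K`**, satisfies the hypotheses `hψO`, `hψ`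
of `KronN14.kron_gauss` (given-`σ` version of `KronChart15.exists_frobInv`). -/
theorem frobInv_of {q : ℕ} {σ : Qbar ≃ₐ[ℚ] Qbar} (hσ : A.IsFrobeniusAt σ q) :
    ∃ (hψO : ∀ x ∈ AK A K, ((resK K σ⁻¹ : K ≃ₐ[ℚ] K) : K →+* K) x ∈ AK A K),
      ∀ x : ↥(AK A K),
        res0 (AK A K) (restrictO (AK A K) ((resK K σ⁻¹ : K ≃ₐ[ℚ] K) : K →+* K) hψO x) ^ q =
          res0 (AK A K) x := by
  have hD : σ ∈ A.decompositionSubgroup ℚ := hσ.mem_decompositionSubgroup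
  have hD' : σ⁻¹ ∈ A.decompositionSubgroup ℚ := inv_mem hD
  have hψO : ∀ x ∈ AK A K, ((resK K σ⁻¹ : K ≃ₐ[ℚ] K) : K →+* K) x ∈ AK A K :=
    fun x hx => resK_mem_AK A K hD' hx
  refine ⟨hψO, fun x => ?_⟩
  set y : ↥(AK A K) := restrictO (AK A K) ((resK K σ⁻¹ : K ≃ₐ[ℚ] K) : K →+* K) hψO x with hy
  apply NumberFieldDVR27.resMap_injective A K
  rw [map_pow, NumberFieldDVR27.resMap_residue, NumberFieldDVR27.resMap_residue]
  have h1 := psiRes_of_isFrobeniusAt A hσ (IsLocalRing.residue ↥A (NumberFieldDVR27.incl A K y))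
  rw [psiRes_residue] at h1
  rw [← h1]
  congr 1
  apply Subtype.ext
  rw [coe_sigmaA, NumberFieldDVR27.coe_incl, NumberFieldDVR27.coe_incl]
  have h2 : (((y : ↥(AK A K)) : K) : Qbar) = σ⁻¹ (((x : ↥(AK A K)) : K) : Qbar) :=
    coe_resK K σ⁻¹ (x : K)
  rw [h2]
  exact AlgEquiv.apply_symm_apply σ _

/-- `ψ ∘ σ|K = id` on `K` (`ψ := resK K σ⁻¹`). -/
theorem psi_comp_sigma (σ : Qbar ≃ₐ[ℚ] Qbar) :
    ((resK K σ⁻¹ : K ≃ₐ[ℚ] K) : K →+* K).comp ((σ.restrictNormal K : K ≃ₐ[ℚ] K) : K →+* K) =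
      RingHom.id K := by
  ext a
  have h : resK K σ⁻¹ * resK K σ = 1 := by rw [← resK_mul, inv_mul_cancel, resK_one]
  have h1 := congrArg (fun g : K ≃ₐ[ℚ] K => g a) h
  simp only [AlgEquiv.mul_apply, AlgEquiv.one_apply] at h1
  rw [RingHom.id_apply]
  exact congrArg _ h1

/-- `gψ (s₀ x) = x`: the coefficientwise actions of `σ|K` and of `ψ` are inverse to each other. -/
theorem gpsi_gK (σ : Qbar ≃ₐ[ℚ] Qbar) (N : ℕ) [NeZero N] (x : FK N K) :
    arithmeticRingAut (modularFunctionFieldFull N) (resK K σ⁻¹)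
      (gK N K (σ.restrictNormal K) x) = x := by
  apply Subtype.ext
  rw [coe_arithmeticRingAut_apply, coe_arithmeticRingAut_apply, coeffMap_coeffMap,
    psi_comp_sigma, coeffMap_id]

variable {A K}

/-- the coefficientwise action of a Frobenius lift preserves Gauss representations. -/
theorem isRep_coeffMap_frob {q : ℕ} [hq : Fact q.Prime] [CharP (Res (AK A K)) q]
    {σ : Qbar ≃ₐ[ℚ] Qbar} (hσ : A.IsFrobeniusAt σ q)
    (hσO : ∀ x ∈ AK A K, ((σ.restrictNormal K : K ≃ₐ[ℚ] K) : K →+* K) x ∈ AK A K)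
    {f : LaurentSeries K} {a s : LaurentSeries ↥(AK A K)} (h : IsRep (AK A K) f a s) :
    IsRep (AK A K) (coeffMap ((σ.restrictNormal K : K ≃ₐ[ℚ] K) : K →+* K) f)
      (coeffMap (restrictO (AK A K) _ hσO) a) (coeffMap (restrictO (AK A K) _ hσO) s) := by
  obtain ⟨hψO, hψ⟩ := frobInv_of A K hσ
  refine ⟨?_, ?_⟩
  · intro h0
    have h1 := redL_coeffMap_pow q _ hψO hψ (coeffMap (restrictO (AK A K) _ hσO) s)
    have hcomp : (restrictO (AK A K) ((resK K σ⁻¹ : K ≃ₐ[ℚ] K) : K →+* K) hψO).comp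
        (restrictO (AK A K) ((σ.restrictNormal K : K ≃ₐ[ℚ] K) : K →+* K) hσO) =
          RingHom.id ↥(AK A K) := by
      refine RingHom.ext fun x => Subtype.ext ?_
      exact congrArg (fun g : K →+* K => g (x : K)) (psi_comp_sigma K σ)
    rw [coeffMap_coeffMap, hcomp, coeffMap_id, h0, map_zero] at h1
    exact h.1 (pow_eq_zero_iff hq.out.ne_zero |>.mp h1)
  · rw [embK_coeffMap, embK_coeffMap, ← map_mul, h.2]

/-- `s₀` preserves the Gauss ring. -/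
theorem gK_mem_gaussRing {q : ℕ} [Fact q.Prime] [CharP (Res (AK A K)) q]
    {σ : Qbar ≃ₐ[ℚ] Qbar} (hσ : A.IsFrobeniusAt σ q) (N : ℕ) [NeZero N] {x : FK N K}
    (hx : (x : LaurentSeries K) ∈ gaussRing (AK A K)) :
    ((gK N K (σ.restrictNormal K) x : FK N K) : LaurentSeries K) ∈ gaussRing (AK A K) := by
  have hσO : ∀ x ∈ AK A K, ((σ.restrictNormal K : K ≃ₐ[ℚ] K) : K →+* K) x ∈ AK A K :=
    fun x hx => resK_mem_AK A K hσ.mem_decompositionSubgroup hx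
  obtain ⟨a, s, h⟩ := hx
  rw [coe_arithmeticRingAut_apply]
  exact ⟨_, _, isRep_coeffMap_frob hσ hσO h⟩

variable (M' q : ℕ) [NeZero M'] [NeZero q] [Fact q.Prime] [CharP (Res (AK A K)) q]
  {π : ↥(AK A K)} (hπ : IsUnif (AK A K) π) (hE : FK (M' * q) K ≤ fracField (AK A K))
  {σ : Qbar ≃ₐ[ℚ] Qbar} (hσ : A.IsFrobeniusAt σ q)

include hσ in
/-- **(K̄1) = `hK1`**: `β (s₀ x) ≡ (α x) ^ q  mod^× π O1` for a unit `x` of the Gauss ring of `F₀`. -/
theorem kbar_one (x : FK M' K) (hx0 : x ≠ 0)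
    (hx : (x : LaurentSeries K) ∈ gaussRing (AK A K))
    (hx' : ((x⁻¹ : FK M' K) : LaurentSeries K) ∈ gaussRing (AK A K)) :
    MC (algebraMap ↥(AK A K) ↥(FK (M' * q) K) π) (O1 M' q hπ hE)
      (beta K M' q (gK M' K (σ.restrictNormal K) x)) (alpha K M' q x ^ q) := by
  show ∃ c ∈ O1 M' q hπ hE,
      beta K M' q (gK M' K (σ.restrictNormal K) x) / alpha K M' q x ^ q - 1 =
        algebraMap ↥(AK A K) ↥(FK (M' * q) K) π * c
  obtain ⟨hψO, hψ⟩ := frobInv_of A K hσ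
  obtain ⟨o, ho, h⟩ := kron_one M' q hπ hE (resK K σ⁻¹) hψO hψ
    (gK M' K (σ.restrictNormal K) x) (gK_mem_gaussRing hσ M' hx)
  rw [gpsi_gK] at h
  have hax : (alpha K M' q x)⁻¹ ∈ O1 M' q hπ hE := by
    rw [← map_inv₀]
    exact (Fermat.Agent.ES.N34.BranchInt5.alpha_mem_O1_iff M' q hπ hE x⁻¹).mpr hx'
  have ha0 : alpha K M' q x ≠ 0 := (map_ne_zero _).mpr hx0
  refine ⟨o * (alpha K M' q x)⁻¹ ^ q, (O1 M' q hπ hE).mul_mem _ _ ho (pow_mem hax q), ?_⟩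
  have h2 : beta K M' q (gK M' K (σ.restrictNormal K) x) / alpha K M' q x ^ q - 1 =
      (beta K M' q (gK M' K (σ.restrictNormal K) x) - alpha K M' q x ^ q) *
        (alpha K M' q x)⁻¹ ^ q := by
    rw [inv_pow, sub_mul, mul_inv_cancel₀ (pow_ne_zero q ha0), div_eq_mul_inv]
  rw [h2, h, mul_assoc]

include hσ in
/-- **(K̄2) = `hK2`**: `α (s₀ y) ≡ (β y) ^ q  mod^× π O2` for a unit `y` of the Gauss ring of `F₀`. -/
theorem kbar_two [IsDiscreteValuationRing ↥(AK A K)] (hirr : Irreducible π) (hqM : ¬ q ∣ M')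
    (y : FK M' K) (hy0 : y ≠ 0)
    (hy : (y : LaurentSeries K) ∈ gaussRing (AK A K))
    (hy' : ((y⁻¹ : FK M' K) : LaurentSeries K) ∈ gaussRing (AK A K)) :
    MC (algebraMap ↥(AK A K) ↥(FK (M' * q) K) π) (O2 M' q hπ hE)
      (alpha K M' q (gK M' K (σ.restrictNormal K) y)) (beta K M' q y ^ q) := by
  show ∃ c ∈ O2 M' q hπ hE,
      alpha K M' q (gK M' K (σ.restrictNormal K) y) / beta K M' q y ^ q - 1 =
        algebraMap ↥(AK A K) ↥(FK (M' * q) K) π * c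
  obtain ⟨hψO, hψ⟩ := frobInv_of A K hσ
  have hiso : ∀ x : FK M' K, (x : LaurentSeries K) ∈ gaussRing (AK A K) ↔
      ((frickeFK M' K x : FK M' K) : LaurentSeries K) ∈ gaussRing (AK A K) :=
    fun x => Fermat.Agent.ES.N34.IsoM25.isoM A K M' q hirr hqM x
  obtain ⟨o, ho, h⟩ := kron_two' M' q hπ hE (resK K σ⁻¹) hψO hψ
    (gK M' K (σ.restrictNormal K) y) ((hiso _).mp (gK_mem_gaussRing hσ M' hy))
  rw [gpsi_gK] at h
  have hby : (beta K M' q y)⁻¹ ∈ O2 M' q hπ hE := by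
    rw [← map_inv₀]
    exact (Fermat.Agent.ES.N34.BranchInt5.beta_mem_O2_iff M' q hπ hE hiso y⁻¹).mpr hy'
  have hb0 : beta K M' q y ≠ 0 := (map_ne_zero _).mpr hy0
  refine ⟨o * (beta K M' q y)⁻¹ ^ q, (O2 M' q hπ hE).mul_mem _ _ ho (pow_mem hby q), ?_⟩
  have h2 : alpha K M' q (gK M' K (σ.restrictNormal K) y) / beta K M' q y ^ q - 1 =
      (alpha K M' q (gK M' K (σ.restrictNormal K) y) - beta K M' q y ^ q) *
        (beta K M' q y)⁻¹ ^ q := by
    rw [inv_pow, sub_mul, mul_inv_cancel₀ (pow_ne_zero q hb0), div_eq_mul_inv]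
  rw [h2, h, mul_assoc]

omit [Fact q.Prime] [CharP (Res (AK A K)) q] [Normal ℚ K] in
/-- **`hα1`**: `α (π O) ⊆ π O1`. -/
theorem halpha1 (c : FK M' K) (hc : (c : LaurentSeries K) ∈ gaussRing (AK A K)) :
    ∃ c' ∈ O1 M' q hπ hE,
      alpha K M' q (algebraMap ↥(AK A K) ↥(FK M' K) π * c) =
        algebraMap ↥(AK A K) ↥(FK (M' * q) K) π * c' := by
  refine ⟨alpha K M' q c,
    (Fermat.Agent.ES.N34.BranchInt5.alpha_mem_O1_iff M' q hπ hE c).mpr hc, ?_⟩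
  rw [map_mul]
  exact congrArg (· * _) ((alpha K M' q).commutes ((π : ↥(AK A K)) : K))

omit [Fact q.Prime] [CharP (Res (AK A K)) q] [Normal ℚ K] in
/-- **`hβ2`**: `β (π O) ⊆ π O2`. -/
theorem hbeta2 [Fact q.Prime] [CharP (Res (AK A K)) q] [IsDiscreteValuationRing ↥(AK A K)]
    (hirr : Irreducible π) (hqM : ¬ q ∣ M')
    (c : FK M' K) (hc : (c : LaurentSeries K) ∈ gaussRing (AK A K)) :
    ∃ c' ∈ O2 M' q hπ hE,
      beta K M' q (algebraMap ↥(AK A K) ↥(FK M' K) π * c) =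
        algebraMap ↥(AK A K) ↥(FK (M' * q) K) π * c' := by
  have hiso : ∀ x : FK M' K, (x : LaurentSeries K) ∈ gaussRing (AK A K) ↔
      ((frickeFK M' K x : FK M' K) : LaurentSeries K) ∈ gaussRing (AK A K) :=
    fun x => Fermat.Agent.ES.N34.IsoM25.isoM A K M' q hirr hqM x
  refine ⟨beta K M' q c,
    (Fermat.Agent.ES.N34.BranchInt5.beta_mem_O2_iff M' q hπ hE hiso c).mpr hc, ?_⟩
  rw [map_mul]
  exact congrArg (· * _) ((beta K M' q).commutes ((π : ↥(AK A K)) : K))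

/-! ### The same four statements with `O := gaussVS hπ (FK M' K) hEM` (literal shapes of
`ThirdDiffCL29.third_diff_root`: `hK1`, `hK2`, `hα1`, `hβ2`) -/

section Literal

variable (hEM : FK M' K ≤ fracField (AK A K))

include hσ in
/-- `hK1` for every unit `x` of `O`. -/
theorem kbar_one_VS (x : FK M' K) (hx0 : x ≠ 0) (hx : x ∈ gaussVS hπ (FK M' K) hEM)
    (hx' : x⁻¹ ∈ gaussVS hπ (FK M' K) hEM) :
    MC (algebraMap ↥(AK A K) ↥(FK (M' * q) K) π) (O1 M' q hπ hE)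
      (beta K M' q (gK M' K (σ.restrictNormal K) x)) (alpha K M' q x ^ q) :=
  kbar_one M' q hπ hE hσ x hx0 ((mem_gaussVS_iff hπ _ hEM x).mp hx)
    ((mem_gaussVS_iff hπ _ hEM x⁻¹).mp hx')

include hσ in
/-- `hK2` for every unit `y` of `O`. -/
theorem kbar_two_VS [IsDiscreteValuationRing ↥(AK A K)] (hqM : ¬ q ∣ M')
    (y : FK M' K) (hy0 : y ≠ 0) (hy : y ∈ gaussVS hπ (FK M' K) hEM)
    (hy' : y⁻¹ ∈ gaussVS hπ (FK M' K) hEM) :
    MC (algebraMap ↥(AK A K) ↥(FK (M' * q) K) π) (O2 M' q hπ hE)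
      (alpha K M' q (gK M' K (σ.restrictNormal K) y)) (beta K M' q y ^ q) :=
  kbar_two M' q hπ hE hσ
    ((IsDiscreteValuationRing.irreducible_iff_uniformizer π).mpr hπ.max_eq) hqM y hy0
    ((mem_gaussVS_iff hπ _ hEM y).mp hy) ((mem_gaussVS_iff hπ _ hEM y⁻¹).mp hy')

omit [Fact q.Prime] [CharP (Res (AK A K)) q] [Normal ℚ K] in
/-- `hα1`, literal. -/
theorem halpha1_VS : ∀ c ∈ gaussVS hπ (FK M' K) hEM, ∃ c' ∈ O1 M' q hπ hE,
    alpha K M' q (algebraMap ↥(AK A K) ↥(FK M' K) π * c) =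
      algebraMap ↥(AK A K) ↥(FK (M' * q) K) π * c' :=
  fun c hc => halpha1 M' q hπ hE c ((mem_gaussVS_iff hπ _ hEM c).mp hc)

omit [Normal ℚ K] in
/-- `hβ2`, literal. -/
theorem hbeta2_VS [IsDiscreteValuationRing ↥(AK A K)] (hqM : ¬ q ∣ M') :
    ∀ c ∈ gaussVS hπ (FK M' K) hEM, ∃ c' ∈ O2 M' q hπ hE,
      beta K M' q (algebraMap ↥(AK A K) ↥(FK M' K) π * c) =
        algebraMap ↥(AK A K) ↥(FK (M' * q) K) π * c' :=
  fun c hc => hbeta2 M' q hπ hE
    ((IsDiscreteValuationRing.irreducible_iff_uniformizer π).mpr hπ.max_eq) hqM c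
    ((mem_gaussVS_iff hπ _ hEM c).mp hc)

end Literal

end Fermat.Agent.ES.N35.KronMC15
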