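/-
Program O (S35), MODEL-side suppliers of the third-difference spine (helper26).

* Generic: `qExpand_mem_gaussRing_iff` — `V_c` (`𝐪 ↦ 𝐪^c`) PRESERVES AND REFLECTS the Gauss ring on
  `Frac O((𝐪))` (it is an isometry for the Gauss valuation).
* `ModelDefs9` data: the two MIXED branch intersections
  `alpha z ∈ O2 ↔ ↑z ∈ gaussRing`, `beta z ∈ O1 ↔ ↑z ∈ gaussRing` (with `BranchInt5`: all four
  intersections `O_j ∩ φ(F_{M'})`, `φ = alpha, beta`, equal `φ(Ov_{M'})`), `alpha`, `beta` fix the constants of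
  `AK A K`, and the four hypotheses `hα1, hβ2, hα2r, hβ1r` of `ThirdDiffCL29.third_diff_root`
  (helper29) in unfolded form (`One1 p O z` is `∃ c ∈ O, z - 1 = p * c`):
  `alpha (π Ov) ⊆ π O1`, `beta (π Ov) ⊆ π O2`, `alpha z ∈ 1 + π O2 → z ∈ 1 + π Ov`,
  `beta z ∈ 1 + π O1 → z ∈ 1 + π Ov`.
The level-`M'` isometry `hiso` (`IsoM25.isoM`) is a hypothesis in its literal shape.
-/
import Mathlib
import Fermat.Agent.ES.N34.BranchInt5
import Fermat.Agent.RED.PUR.GaussBridge10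

set_option autoImplicit false
set_option linter.unusedSectionVars false
set_option synthInstance.maxHeartbeats 400000

noncomputable section

open HahnSeries ModularCurve

namespace Fermat.Agent.ES.N35.PiMaps26

open Fermat.Agent.RED.Interface4 Fermat.Agent.RED.PUR.GaussGen8

section Generic

variable {K : Type*} [Field K] {O : ValuationSubring K}

/-- `𝐪 ↦ 𝐪^c` preserves the Gauss ring. -/
theorem qExpand_mem (c : ℕ) [NeZero c] {f : LaurentSeries K} (hf : f ∈ gaussRing O) :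
    qExpand K c f ∈ gaussRing O := by
  obtain ⟨a, s, hred, hmul⟩ := hf
  refine ⟨qExpand ↥O c a, qExpand ↥O c s, ?_, ?_⟩
  · rw [redL, ModularCurve.coeffMap_qExpand]
    intro h
    apply hred
    apply qExpand_injective (R := Res O) c
    rw [redL, h, map_zero]
  · rw [embK, ModularCurve.coeffMap_qExpand, ModularCurve.coeffMap_qExpand, ← map_mul]
    congr 1

/-- **`V_c` reflects the Gauss ring**: on `Frac O((𝐪))`, `f(𝐪^c)` is Gauss-integral iff `f` is. -/
theorem qExpand_mem_gaussRing_iff {π : ↥O} (hπ : IsUnif O π) (c : ℕ) [NeZero c]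
    {f : LaurentSeries K} (hf : f ∈ fracField O) :
    qExpand K c f ∈ gaussRing O ↔ f ∈ gaussRing O := by
  refine ⟨fun h => ?_, qExpand_mem c⟩
  by_contra hfn
  have hinv : f⁻¹ ∈ gaussRing O := (mem_or_inv_mem hπ hf).resolve_left hfn
  have hf0 : f ≠ 0 := by
    rintro rfl
    exact hfn (zero_mem _)
  -- the reduction of `f⁻¹` vanishes (otherwise `f` is integral)
  have hred : gaussRed O ⟨f⁻¹, hinv⟩ = 0 := by
    by_contra hne
    apply hfn
    have := inv_mem_of_gaussRed_ne_zero O ⟨f⁻¹, hinv⟩ hne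
    simpa using this
  obtain ⟨g, hg⟩ := (gaussRed_eq_zero_iff hπ ⟨f⁻¹, hinv⟩).mp hred
  have hg' : f⁻¹ = piK π * (g : LaurentSeries K) :=
    congrArg (fun y : ↥(gaussRing O) => (y : LaurentSeries K)) hg
  -- `1 = f(𝐪^c) · f⁻¹(𝐪^c) = π · (…)` in the Gauss ring
  have hqg : qExpand K c (g : LaurentSeries K) ∈ gaussRing O := qExpand_mem c g.2
  have hC : qExpand K c (piK π) = piK π := ModularCurve.qExpand_C c _
  have h1 : (1 : LaurentSeries K) = piK π * (qExpand K c f * qExpand K c (g : LaurentSeries K)) := by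
    have : qExpand K c f * qExpand K c f⁻¹ = 1 := by
      rw [← map_mul, mul_inv_cancel₀ hf0, map_one]
    rw [← this, hg', map_mul, hC]
    ring
  have h2 : (1 : ↥(gaussRing O)) =
      constG O π * (⟨qExpand K c f, h⟩ * ⟨qExpand K c (g : LaurentSeries K), hqg⟩) :=
    Subtype.ext h1
  have := congrArg (gaussRed O) h2
  rw [map_one, map_mul, gaussRed_unif hπ, zero_mul] at this
  exact one_ne_zero this

end Generic

section Model

open Fermat.Agent.ES.N34.FrickeFK8 Fermat.Agent.ES.N34.ModelDefs9 Fermat.Agent.ES.N34.BranchInt5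
  Fermat.Agent.RED.PUR.GaussBridge10

variable {A : ValuationSubring Qbar} {K : IntermediateField ℚ Qbar} (M' q : ℕ) [NeZero M'] [NeZero q]
  {π : ↥(AK A K)} (hu : IsUnif (AK A K) π) (hE : FK (M' * q) K ≤ fracField (AK A K))

/-- **`O1 ∩ beta(F_{M'}) = beta(Ov_{M'})`** (`V_q` reflects the Gauss ring). -/
theorem beta_mem_O1_iff (z : FK M' K) :
    beta K M' q z ∈ O1 M' q hu hE ↔ (z : LaurentSeries ↥K) ∈ gaussRing (AK A K) := by
  rw [beta_mem_O1_iff_qExpand]
  exact qExpand_mem_gaussRing_iff hu q (FK_le_fracField A K M' z.2)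

/-- **`O2 ∩ alpha(F_{M'}) = alpha(Ov_{M'})`** (V2-a, `V_q` reflects the Gauss ring, isometry). -/
theorem alpha_mem_O2_iff
    (hiso : ∀ x : FK M' K, (x : LaurentSeries ↥K) ∈ gaussRing (AK A K) ↔
      ((frickeFK M' K x : FK M' K) : LaurentSeries ↥K) ∈ gaussRing (AK A K))
    (z : FK M' K) :
    alpha K M' q z ∈ O2 M' q hu hE ↔ (z : LaurentSeries ↥K) ∈ gaussRing (AK A K) := by
  rw [alpha_mem_O2_iff_qExpand,
    qExpand_mem_gaussRing_iff hu q (FK_le_fracField A K M' (frickeFK M' K z).2)]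
  exact (hiso z).symm

/-- `alpha` fixes the constants of `AK A K`. -/
theorem alpha_algebraMap_AK (r : ↥(AK A K)) :
    alpha K M' q (algebraMap ↥(AK A K) ↥(FK M' K) r)
      = algebraMap ↥(AK A K) ↥(FK (M' * q) K) r := by
  have h : algebraMap ↥(AK A K) ↥(FK M' K) r
      = algebraMap ↥K ↥(FK M' K) ((r : ↥(AK A K)) : ↥K) := rfl
  have h' : algebraMap ↥(AK A K) ↥(FK (M' * q) K) r
      = algebraMap ↥K ↥(FK (M' * q) K) ((r : ↥(AK A K)) : ↥K) := rfl
  rw [h, h', AlgHom.commutes]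

/-- `beta` fixes the constants of `AK A K`. -/
theorem beta_algebraMap_AK (r : ↥(AK A K)) :
    beta K M' q (algebraMap ↥(AK A K) ↥(FK M' K) r)
      = algebraMap ↥(AK A K) ↥(FK (M' * q) K) r := by
  have h : algebraMap ↥(AK A K) ↥(FK M' K) r
      = algebraMap ↥K ↥(FK M' K) ((r : ↥(AK A K)) : ↥K) := rfl
  have h' : algebraMap ↥(AK A K) ↥(FK (M' * q) K) r
      = algebraMap ↥K ↥(FK (M' * q) K) ((r : ↥(AK A K)) : ↥K) := rfl
  rw [h, h', AlgHom.commutes]

variable (hEM : FK M' K ≤ fracField (AK A K))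

/-- `hα1`: `alpha (π Ov_{M'}) ⊆ π O1`. -/
theorem alpha_pi_mul (c : FK M' K) (hc : c ∈ gaussVS hu (FK M' K) hEM) :
    ∃ c' ∈ O1 M' q hu hE, alpha K M' q (algebraMap ↥(AK A K) ↥(FK M' K) π * c)
      = algebraMap ↥(AK A K) ↥(FK (M' * q) K) π * c' :=
  ⟨alpha K M' q c, (alpha_mem_O1_iff M' q hu hE c).mpr hc, by
    rw [map_mul, alpha_algebraMap_AK]⟩

/-- `hβ2`: `beta (π Ov_{M'}) ⊆ π O2`. -/
theorem beta_pi_mul
    (hiso : ∀ x : FK M' K, (x : LaurentSeries ↥K) ∈ gaussRing (AK A K) ↔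
      ((frickeFK M' K x : FK M' K) : LaurentSeries ↥K) ∈ gaussRing (AK A K))
    (c : FK M' K) (hc : c ∈ gaussVS hu (FK M' K) hEM) :
    ∃ c' ∈ O2 M' q hu hE, beta K M' q (algebraMap ↥(AK A K) ↥(FK M' K) π * c)
      = algebraMap ↥(AK A K) ↥(FK (M' * q) K) π * c' :=
  ⟨beta K M' q c, (beta_mem_O2_iff M' q hu hE hiso c).mpr hc, by
    rw [map_mul, beta_algebraMap_AK]⟩

include hu in
theorem algebraMap_pi_ne_zero' : algebraMap ↥(AK A K) ↥(FK M' K) π ≠ 0 := by
  intro h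
  have h1 : ((algebraMap ↥(AK A K) ↥(FK M' K) π : ↥(FK M' K)) : LaurentSeries ↥K) = piK π := by
    show algebraMap ↥K (LaurentSeries ↥K) ((π : ↥(AK A K)) : ↥K) = _
    rw [algebraMap_eq_C]
  rw [h] at h1
  exact piK_ne_zero hu h1.symm

/-- `hα2r`: `alpha z ∈ 1 + π O2 → z ∈ 1 + π Ov_{M'}`. -/
theorem one1_of_alpha
    (hiso : ∀ x : FK M' K, (x : LaurentSeries ↥K) ∈ gaussRing (AK A K) ↔
      ((frickeFK M' K x : FK M' K) : LaurentSeries ↥K) ∈ gaussRing (AK A K))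
    (z : FK M' K)
    (h : ∃ c ∈ O2 M' q hu hE, alpha K M' q z - 1 = algebraMap ↥(AK A K) ↥(FK (M' * q) K) π * c) :
    ∃ c ∈ gaussVS hu (FK M' K) hEM, z - 1 = algebraMap ↥(AK A K) ↥(FK M' K) π * c := by
  obtain ⟨c, hc, e⟩ := h
  have hπ0 := algebraMap_pi_ne_zero' (A := A) (K := K) M' hu
  set y : FK M' K := (z - 1) / algebraMap ↥(AK A K) ↥(FK M' K) π with hy
  have hzy : z - 1 = algebraMap ↥(AK A K) ↥(FK M' K) π * y := by
    rw [hy, mul_div_cancel₀ _ hπ0]
  have hαy : alpha K M' q y = c := by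
    have h1 : alpha K M' q (z - 1) = algebraMap ↥(AK A K) ↥(FK (M' * q) K) π * alpha K M' q y := by
      rw [hzy, map_mul, alpha_algebraMap_AK]
    rw [map_sub, map_one, e] at h1
    have hπN : algebraMap ↥(AK A K) ↥(FK (M' * q) K) π ≠ 0 := by
      rw [← alpha_algebraMap_AK M' q π]
      exact (map_ne_zero _).mpr hπ0
    exact (mul_left_cancel₀ hπN h1).symm
  refine ⟨y, ?_, hzy⟩
  rw [mem_gaussVS_iff]
  rw [← alpha_mem_O2_iff M' q hu hE hiso y, hαy]
  exact hc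

/-- `hβ1r`: `beta z ∈ 1 + π O1 → z ∈ 1 + π Ov_{M'}`. -/
theorem one1_of_beta (z : FK M' K)
    (h : ∃ c ∈ O1 M' q hu hE, beta K M' q z - 1 = algebraMap ↥(AK A K) ↥(FK (M' * q) K) π * c) :
    ∃ c ∈ gaussVS hu (FK M' K) hEM, z - 1 = algebraMap ↥(AK A K) ↥(FK M' K) π * c := by
  obtain ⟨c, hc, e⟩ := h
  have hπ0 := algebraMap_pi_ne_zero' (A := A) (K := K) M' hu
  set y : FK M' K := (z - 1) / algebraMap ↥(AK A K) ↥(FK M' K) π with hy
  have hzy : z - 1 = algebraMap ↥(AK A K) ↥(FK M' K) π * y := by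
    rw [hy, mul_div_cancel₀ _ hπ0]
  have hβy : beta K M' q y = c := by
    have h1 : beta K M' q (z - 1) = algebraMap ↥(AK A K) ↥(FK (M' * q) K) π * beta K M' q y := by
      rw [hzy, map_mul, beta_algebraMap_AK]
    rw [map_sub, map_one, e] at h1
    have hπN : algebraMap ↥(AK A K) ↥(FK (M' * q) K) π ≠ 0 := by
      rw [← beta_algebraMap_AK M' q π]
      exact (map_ne_zero _).mpr hπ0
    exact (mul_left_cancel₀ hπN h1).symm
  refine ⟨y, ?_, hzy⟩
  rw [mem_gaussVS_iff]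
  rw [← beta_mem_O1_iff M' q hu hE y, hβy]
  exact hc

end Model

end Fermat.Agent.ES.N35.PiMaps26
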