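/-
Program O (S35), brick CORE-O (helper13), part 3: the fields of `FrobAbs13.FrobData` owned by CORE-O, at
the ModelDefs9 data.
-/
import Mathlib
import Fermat.Agent.ES.N35.FrobReady13
import Fermat.Agent.RED.PUR.G1Package8
import Fermat.Agent.ES.N35.KronMC15
import Fermat.Agent.ES.N35.FrobModel21
import Fermat.Agent.ES.N35.FrobConst21
import Fermat.Agent.ES.N35.PiMaps26
import Fermat.Agent.ES.N35.CrtModel26
import Fermat.Agent.ES.N34.IsoM25

set_option autoImplicit false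
set_option synthInstance.maxHeartbeats 400000

open HahnSeries AlgebraicCurve ModularCurve

noncomputable section

namespace Fermat.Agent.ES.N35.FrobInst13

open Fermat.Agent.ES.N35.MulCong29 Fermat.Agent.ES.N35.ThirdDiff29 Fermat.Agent.ES.N35.FrobAbs13
  Fermat.Agent.ES.N35.FrobReady13

/-! ### Norm-equivariance -/

section Norm

variable {K F₀ F : Type*} [Field K] [Field F₀] [Field F] [Algebra K F₀] [Algebra K F]

/-- **`Nα_s`**: the norm along `φ` intertwines `s` and `s₀` when `φ` does. -/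
theorem normHom_map (φ : F₀ →ₐ[K] F) (s : F ≃+* F) (s₀ : F₀ ≃+* F₀)
    (h : ∀ x, φ (s₀ x) = s (φ x)) (y : F) : normHom φ (s y) = s₀ (normHom φ y) := by
  let _ := algebraAlong φ
  have he : RingHom.comp (algebraMap F₀ F) (s₀ : F₀ →+* F₀) =
      RingHom.comp (s : F →+* F) (algebraMap F₀ F) := RingHom.ext fun x => h x
  have := Algebra.norm_eq_of_equiv_equiv s₀ s he y
  show Algebra.norm F₀ (s y) = s₀ (Algebra.norm F₀ y)
  rw [this, RingEquiv.apply_symm_apply]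

end Norm

/-! ### (N̄) from its universal form -/

section NormBar

variable {R F₀ F : Type*} [CommRing R] [Field F₀] [Field F] [Algebra R F] [Algebra R F₀]

/-- The statement of the field `normBar` of `FrobAbs13.FrobData` (= (N̄)). -/
def NormBarStmt (π : R) (O1 O2 : ValuationSubring F) (Ov : ValuationSubring F₀)
    (α β : F₀ →+* F) (s₀ : F₀ ≃+* F₀) (Nα Nβ : F →* F₀) : Prop :=
  ∀ h : F, h ≠ 0 → h ∈ O1 → h⁻¹ ∈ O1 → h ∈ O2 → h⁻¹ ∈ O2 → ∃ x₁ y₂ : F₀,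
    x₁ ∈ Ov ∧ x₁⁻¹ ∈ Ov ∧ y₂ ∈ Ov ∧ y₂⁻¹ ∈ Ov ∧
    MC (algebraMap R F π) O1 h (α x₁) ∧ MC (algebraMap R F π) O2 h (β y₂) ∧
    MC (algebraMap R F₀ π) Ov (Nα h) (x₁ * s₀ y₂) ∧
    MC (algebraMap R F₀ π) Ov (Nβ h) (s₀ x₁ * y₂)

/-- **`normBar`** of `FrobData` from: residue lifts on the two branches (`resα`, `resβ`), the
reductions of the two norms for ALL admissible witnesses (`normα`, `normβ`), and (K̄). -/
theorem normBar_of_univ {π : R} {O1 O2 : ValuationSubring F} {Ov : ValuationSubring F₀}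
    {α β : F₀ →+* F} {s₀ : F₀ ≃+* F₀} {q : ℕ} {Nα Nβ : F →* F₀}
    (hp1 : algebraMap R F π ∈ O1) (hp1' : (algebraMap R F π)⁻¹ ∉ O1)
    (hp2 : algebraMap R F π ∈ O2) (hp2' : (algebraMap R F π)⁻¹ ∉ O2)
    (hK1 : ∀ x : F₀, x ≠ 0 → x ∈ Ov → x⁻¹ ∈ Ov →
      MC (algebraMap R F π) O1 (β (s₀ x)) (α x ^ q))
    (hK2 : ∀ y : F₀, y ≠ 0 → y ∈ Ov → y⁻¹ ∈ Ov →
      MC (algebraMap R F π) O2 (α (s₀ y)) (β y ^ q))
    (resα : ∀ h : F, h ≠ 0 → h ∈ O1 → h⁻¹ ∈ O1 → ∃ x₁ : F₀, x₁ ∈ Ov ∧ x₁⁻¹ ∈ Ov ∧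
      MC (algebraMap R F π) O1 h (α x₁))
    (resβ : ∀ h : F, h ≠ 0 → h ∈ O2 → h⁻¹ ∈ O2 → ∃ y₂ : F₀, y₂ ∈ Ov ∧ y₂⁻¹ ∈ Ov ∧
      MC (algebraMap R F π) O2 h (β y₂))
    (normα : ∀ h : F, h ≠ 0 → h ∈ O1 → h⁻¹ ∈ O1 → h ∈ O2 → h⁻¹ ∈ O2 → ∀ x₁ x₂ : F₀,
      MC (algebraMap R F π) O1 h (α x₁) → MC (algebraMap R F π) O2 (h ^ q) (α x₂) →
      MC (algebraMap R F₀ π) Ov (Nα h) (x₁ * x₂))
    (normβ : ∀ h : F, h ≠ 0 → h ∈ O1 → h⁻¹ ∈ O1 → h ∈ O2 → h⁻¹ ∈ O2 → ∀ y₁ y₂ : F₀,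
      MC (algebraMap R F π) O1 (h ^ q) (β y₁) → MC (algebraMap R F π) O2 h (β y₂) →
      MC (algebraMap R F₀ π) Ov (Nβ h) (y₁ * y₂)) :
    NormBarStmt π O1 O2 Ov α β s₀ Nα Nβ := by
  intro h h0 h1 h1' h2 h2'
  obtain ⟨x₁, hx₁, hx₁', h1α⟩ := resα h h0 h1 h1'
  obtain ⟨y₂, hy₂, hy₂', h2β⟩ := resβ h h0 h2 h2'
  have hx₁0 : x₁ ≠ 0 := by
    rintro rfl
    exact h1α.right_ne_zero hp1' (map_zero α)
  have hy₂0 : y₂ ≠ 0 := by
    rintro rfl
    exact h2β.right_ne_zero hp2' (map_zero β)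
  have h2α : MC (algebraMap R F π) O2 (h ^ q) (α (s₀ y₂)) :=
    (h2β.pow hp2 q).trans hp2 hp2' ((hK2 y₂ hy₂0 hy₂ hy₂').symm hp2 hp2')
  have h1β : MC (algebraMap R F π) O1 (h ^ q) (β (s₀ x₁)) :=
    (h1α.pow hp1 q).trans hp1 hp1' ((hK1 x₁ hx₁0 hx₁ hx₁').symm hp1 hp1')
  exact ⟨x₁, y₂, hx₁, hx₁', hy₂, hy₂', h1α, h2β, normα h h0 h1 h1' h2 h2' x₁ (s₀ y₂) h1α h2α,
    normβ h h0 h1 h1' h2 h2' (s₀ x₁) y₂ h1β h2β⟩

end NormBar

/-! ### Generic Gauss layer -/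

section Gauss

open Fermat.Agent.RED.PUR.GaussGen8 Fermat.Agent.RED.PUR.G1Package8

variable {Kt : Type*} [Field Kt] (O : ValuationSubring Kt) [IsDiscreteValuationRing ↥O]
  {π : ↥O} (hπ : IsUnif O π) (E : IntermediateField Kt (LaurentSeries Kt)) (hE : E ≤ fracField O)

include hπ in
theorem irreducible_of_isUnif : Irreducible π :=
  (IsDiscreteValuationRing.irreducible_iff_uniformizer π).mpr hπ.max_eq

/-- **`hp0`**. -/
theorem pi_mem_gaussVS : algebraMap ↥O ↥E π ∈ gaussVS hπ E hE :=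
  (mem_gaussVS_iff hπ E hE _).mpr (algebraMap_O_mem (O := O) (E := E) π)

/-- **`hp0'`**. -/
theorem pi_inv_not_mem_gaussVS : (algebraMap ↥O ↥E π)⁻¹ ∉ gaussVS hπ E hE :=
  pi_inv_not_mem (irreducible_of_isUnif O hπ) hE

/-- a `Kt`-algebra homomorphism is `O`-linear. -/
theorem algHom_algebraMap_O {O : ValuationSubring Kt} {E₀ E : IntermediateField Kt (LaurentSeries Kt)}
    (φ : ↥E₀ →ₐ[Kt] ↥E) (r : ↥O) :
    φ (algebraMap ↥O ↥E₀ r) = algebraMap ↥O ↥E r := by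
  have h0 := Fermat.Agent.RED.NumInst4.isScalarTower_OE O E₀
  have h1 := Fermat.Agent.RED.NumInst4.isScalarTower_OE O E
  rw [IsScalarTower.algebraMap_apply ↥O Kt ↥E₀, IsScalarTower.algebraMap_apply ↥O Kt ↥E,
    φ.commutes]

end Gauss

/-! ### Constants at the ModelDefs9 data -/

section Concrete

open Fermat.Agent.RED.Interface4 Fermat.Agent.RED.DESC Fermat.Agent.RED.PUR.GaussGen8
  Fermat.Agent.ES.N34.IfaceN4 Fermat.Agent.ES.N34.GalBase21 Fermat.Agent.ES.N34.ModelDefs9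

variable (A : ValuationSubring Qbar) (K : IntermediateField ℚ Qbar) (M' q : ℕ) [NeZero M'] [NeZero q]

/-- **`αR`**. -/
theorem alpha_algebraMap_AK (r : ↥(AK A K)) :
    alpha K M' q (algebraMap ↥(AK A K) ↥(FK M' K) r) =
      algebraMap ↥(AK A K) ↥(FK (M' * q) K) r :=
  algHom_algebraMap_O (alpha K M' q) r

omit [NeZero M'] in
/-- **`βR`**. -/
theorem beta_algebraMap_AK (r : ↥(AK A K)) :
    beta K M' q (algebraMap ↥(AK A K) ↥(FK M' K) r) =
      algebraMap ↥(AK A K) ↥(FK (M' * q) K) r :=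
  algHom_algebraMap_O (beta K M' q) r

/-- **`s0R`**: an element of the decomposition group maps units of `A ∩ K` to units of `A ∩ K`. -/
theorem gK_algebraMap_unit [Normal ℚ K] {σ : Qbar ≃ₐ[ℚ] Qbar}
    (hσ : σ ∈ A.decompositionSubgroup ℚ) (N : ℕ) (u v : ↥(AK A K)) (huv : u * v = 1) :
    ∃ u' v' : ↥(AK A K), u' * v' = 1 ∧
      gK N K (σ.restrictNormal K) (algebraMap ↥(AK A K) ↥(FK N K) u) =
        algebraMap ↥(AK A K) ↥(FK N K) u' := by
  refine ⟨⟨resK K σ (u : K), resK_mem_AK A K hσ u.2⟩, ⟨resK K σ (v : K), resK_mem_AK A K hσ v.2⟩,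
    ?_, ?_⟩
  · apply Subtype.ext
    show resK K σ (u : K) * resK K σ (v : K) = 1
    rw [← map_mul]
    have : ((u : K) * (v : K)) = 1 := congrArg (fun x : ↥(AK A K) => (x : K)) huv
    rw [this, map_one]
  · exact arithmeticRingAut_algebraMap (modularFunctionFieldFull N) (σ.restrictNormal K) (u : K)

/-! ### The assembly -/

set_option maxHeartbeats 4000000 in
open Fermat.Agent.ES.N34.NodalCore13 in
/-- **`FrobData` at the ModelDefs9 data** from the literal supplier theorems: B1 (helper21: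
`FrobModel21`, `FrobConst21`), (K̄) (helper15: `KronMC15`), B2c (helper26: `PiMaps26`,
`CrtModel26`) and (N̄) (`hnorm`, helper20). -/
theorem frobData_modelDefs {A : ValuationSubring Qbar} {K : IntermediateField ℚ Qbar}
    [Normal ℚ K] [FiniteDimensional ℚ K] {M' q : ℕ} [NeZero M'] [NeZero q]
    (hq : q.Prime) (hqM : ¬ q ∣ M') (hA : A.LiesOverPrime q)
    (hE : FK (M' * q) K ≤ fracField (AK A K)) (hE₀ : FK M' K ≤ fracField (AK A K))
    {π : ↥(AK A K)} (hπ : IsUnif (AK A K) π)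
    {t : ↥(FK (M' * q) K)} {B0 B1 : Subalgebra ↥(AK A K) ↥(FK (M' * q) K)}
    (M : NodalTwoChartModel ↥(AK A K) ↥(FK (M' * q) K) π t B0 B1 (O1 M' q hπ hE) (O2 M' q hπ hE))
    {σ : Qbar ≃ₐ[ℚ] Qbar} (hσ : A.IsFrobeniusAt σ q)
    (hnorm : NormBarStmt π (O1 M' q hπ hE) (O2 M' q hπ hE) (gaussVS hπ (FK M' K) hE₀)
      (alpha K M' q : ↥(FK M' K) →+* ↥(FK (M' * q) K))
      (beta K M' q : ↥(FK M' K) →+* ↥(FK (M' * q) K))
      (gK M' K (σ.restrictNormal K)) (normHom (alpha K M' q)) (normHom (beta K M' q))) :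
    FrobData (K := ↥K) π (O1 M' q hπ hE) (O2 M' q hπ hE) (gaussVS hπ (FK M' K) hE₀)
      (alpha K M' q : ↥(FK M' K) →+* ↥(FK (M' * q) K))
      (beta K M' q : ↥(FK M' K) →+* ↥(FK (M' * q) K))
      (gK (M' * q) K (σ.restrictNormal K)) (gK M' K (σ.restrictNormal K)) q
      (normHom (alpha K M' q)) (normHom (beta K M' q)) := by
  have hfact : Fact q.Prime := ⟨hq⟩
  have hchar : CharP (Res (AK A K)) q :=
    Fermat.Agent.RED.DESC.NumberFieldDVR27.charP_residueField_AK A K hq hA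
  have hdvr : IsDiscreteValuationRing ↥(AK A K) :=
    NumberFieldDVR27.isDiscreteValuationRing_AK A K hq.ne_zero hA
  have hD : σ ∈ A.decompositionSubgroup ℚ := hσ.mem_decompositionSubgroup
  have hD' : σ⁻¹ ∈ A.decompositionSubgroup ℚ := inv_mem hD
  have hirr : Irreducible π := irreducible_of_isUnif (AK A K) hπ
  have hiso : ∀ x : FK M' K, (x : LaurentSeries ↥K) ∈ gaussRing (AK A K) ↔
      ((Fermat.Agent.ES.N34.FrickeFK8.frickeFK M' K x : FK M' K) : LaurentSeries ↥K) ∈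
        gaussRing (AK A K) :=
    fun x => Fermat.Agent.ES.N34.IsoM25.isoM A K M' q hirr hqM x
  constructor
  case hp0 => exact pi_mem_gaussVS (AK A K) hπ (FK M' K) hE₀
  case hp0' => exact pi_inv_not_mem_gaussVS (AK A K) hπ (FK M' K) hE₀
  case hαs => exact FrobModel21.gK_alpha K σ M' q
  case hβs => exact FrobModel21.gK_beta K σ M' q
  case dec1 =>
    exact ⟨fun x hx => (FrobModel21.gK_mem_O1_iff K hD M' q hπ hE x).mpr hx,
      fun x hx => by
        rw [FrobModel21.gK_symm]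
        exact (FrobModel21.gK_mem_O1_iff K hD' M' q hπ hE x).mpr hx,
      FrobConst21.map_p_gaussVS K hD (M' * q) hπ hE⟩
  case dec2 =>
    exact ⟨fun x hx => (FrobModel21.gK_mem_O2_iff K hD M' q hπ hE x).mpr hx,
      fun x hx => by
        rw [FrobModel21.gK_symm]
        exact (FrobModel21.gK_mem_O2_iff K hD' M' q hπ hE x).mpr hx,
      FrobConst21.map_p_O2 K hD M' q hπ hE⟩
  case dec0 =>
    exact ⟨fun x hx => (FrobModel21.gK_mem_gaussVS_iff K hD M' hπ hE₀ x).mpr hx,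
      fun x hx => by
        rw [FrobModel21.gK_symm]
        exact (FrobModel21.gK_mem_gaussVS_iff K hD' M' hπ hE₀ x).mpr hx,
      FrobConst21.map_p_gaussVS K hD M' hπ hE₀⟩
  case Nα_s => exact FrobConst21.normAlong_gK_alpha K σ M' q
  case Nβ_s => exact FrobConst21.normAlong_gK_beta K σ M' q
  case constU =>
    intro c hc
    obtain ⟨u, hu, h⟩ := FrobConst21.Dl_const K hD M' c hc
    obtain ⟨v, hv⟩ := isUnit_iff_exists_inv.mp hu
    exact ⟨u, v, hv, h⟩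
  case frobK => exact FrobConst21.frobK K hσ M' hπ hE₀
  case s0R => exact fun u v huv => gK_algebraMap_unit A K hD M' u v huv
  case αR => exact alpha_algebraMap_AK A K M' q
  case βR => exact beta_algebraMap_AK A K M' q
  case hα1 => exact KronMC15.halpha1_VS M' q hπ hE hE₀
  case hβ2 => exact KronMC15.hbeta2_VS M' q hπ hE hE₀ hqM
  case hα2r => exact PiMaps26.one1_of_alpha M' q hπ hE hE₀ hiso
  case hβ1r => exact PiMaps26.one1_of_beta M' q hπ hE hE₀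
  case hCRT => exact CrtModel26.hCRT_modelDefs M' q hπ hE M
  case hK1 => exact fun x hx0 hx hx' => KronMC15.kbar_one_VS M' q hπ hE hσ hE₀ x hx0 hx hx'
  case hK2 => exact fun y hy0 hy hy' => KronMC15.kbar_two_VS M' q hπ hE hσ hE₀ hqM y hy0 hy hy'
  case normBar => exact hnorm

end Concrete

end Fermat.Agent.ES.N35.FrobInst13
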