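/-
Program O (S35), brick B1 (e) (helper21): **`σ²` is the `q²`-power map on `B / 𝔪` at every
two-branch point** — the field `frob` of `ThirdDiffCL29.NodeHyp`.  Generic part.

* `surj_gauss` : `B = φ(B_M) + (B ∩ π O_j)` in the Gauss vocabulary of `CompGauss16`
  (same hypotheses as `CompGauss16.branchPrincipal_gauss`; it is `CompHyp16.surj_of_data`, which the
  proof of `branchPrincipal_gauss` uses internally but does not export);
* `frob_of_surj` : abstract form of helper20's argument.  For `y ∈ B` write `y = α b⁰ + e`,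
  `e ∈ B ∩ π O1 ⊆ 𝔪`; then `s² y ≡ α (s₀² b⁰) ≡ (β (s₀ b⁰))^q mod B ∩ π O2` (Kronecker, second
  branch) `≡ ((α b⁰)^q)^q mod B ∩ π O1` (Kronecker, first branch) `≡ y^(q²) mod 𝔪`.
-/
import Mathlib
import Fermat.Agent.ES.N34.CompGauss16
import Fermat.Agent.ES.N34.NodalCore13

set_option autoImplicit false
set_option linter.unusedSectionVars false

noncomputable section

open HahnSeries Polynomial IntermediateField

namespace Fermat.Agent.ES.N35.FrobNode21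

open Fermat.Agent.RED.PUR.GaussGen8 Fermat.Agent.RED.PUR.KtGauss8 Fermat.Agent.RED.PUR.G1Package8
  Fermat.Agent.RED.PUR.ChartGeneric22 Fermat.Agent.RED.ModelAsm4
  Fermat.Agent.ES.RED.FibreSurj17 Fermat.Agent.ES.N34.CompHyp16 Fermat.Agent.ES.N34.CompGauss16
  Fermat.Agent.ES.N34.GaussEmb22 Fermat.Agent.ES.N34.NodalCore13

/-! ### Surjectivity, Gauss level -/

section Surj

variable {K : Type*} [Field K] [CharZero K] {O : ValuationSubring K} [IsDiscreteValuationRing ↥O]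
  {π : ↥O} {EM : IntermediateField K (LaurentSeries K)}
  {F : Type*} [Field F] [Algebra K F] [Algebra ↥O F] [IsScalarTower ↥O K F]

/-- **(C), surjectivity, Gauss level**: `chart O t = φ(chart O t_M) + (chart O t ∩ π O_j)`. -/
theorem surj_gauss (hπ : Irreducible π) (hEM : EM ≤ fracField O)
    (tM : ↥EM) (htM : (tM : LaurentSeries K) ∈ gaussRing O)
    (htrM : Transcendental (Res O) (gaussRed O ⟨(tM : LaurentSeries K), htM⟩))
    {n' : ℕ} (hn' : relfinrank (Kt O ⟨(tM : LaurentSeries K), htM⟩) EM ≠ 0)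
    (hdegM : DegLe O EM ⟨(tM : LaurentSeries K), htM⟩ n')
    (hirrM : Irr O EM ⟨(tM : LaurentSeries K), htM⟩ n')
    (hsm : SmoothChart O EM π tM)
    (φ : ↥EM →ₐ[K] F) (t : F) {ι : F →ₐ[K] LaurentSeries K} {Oj : ValuationSubring F}
    (hOj : IsGaussPullback O ι Oj)
    (leO : ∀ x ∈ chart ↥O t, x ∈ Oj)
    (hφO : ∀ z : ↥EM, φ z ∈ Oj ↔ z ∈ OvE O hπ EM hEM)
    (hy : φ tM ∈ chart ↥O t)
    (htw : ∃ w : ↥(chart ↥O tM), PiMul π Oj (t - φ (w : ↥EM)))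
    (hcomb : ∀ x ∈ Oj, ∃ z ∈ OvE O hπ EM hEM, ∃ c ∈ Oj, x - φ z = algebraMap ↥O F π * c) :
    ∀ y ∈ chart ↥O t, ∃ b : ↥(chart ↥O tM), ∃ c ∈ Oj,
      y - φ (b : ↥EM) = algebraMap ↥O F π * c := by
  have : IsScalarTower ↥O K ↥EM := Fermat.Agent.RED.NumInst4.isScalarTower_OE O EM
  have hpi : (algebraMap ↥O F π)⁻¹ ∉ Oj := by
    rw [algebraMap_O_eq]; exact pi_inv_not_mem hOj hπ
  have hunif : ∀ x ∈ Oj, x⁻¹ ∉ Oj → ∃ c ∈ Oj, x = algebraMap ↥O F π * c := by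
    intro x hx hxi
    rw [algebraMap_O_eq]; exact unif hOj hπ x hx hxi
  have hφB : ∀ b : ↥(chart ↥O tM), chartHom (restrictO (O := O) φ) (chart ↥O tM) b ∈ chart ↥O t :=
    hφB_of_chart (restrictO (O := O) φ) (chart ↥O tM) (chart ↥O t) tM t (fun _ hb => hb)
      (fun _ hy => hy) hy
  have hint := hint_of_chart (chartHom (restrictO (O := O) φ) (chart ↥O tM)) π Oj (chart ↥O t) leO t
    (self_mem_chart t) (fun _ hy => hy) (fun b => leO _ (hφB b))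
    (by obtain ⟨w, hw⟩ := htw; exact ⟨w, hw⟩)
  have hD := isDedekindDomain_quotient hπ hEM tM htM htrM hn' hdegM hirrM hsm
  have hprime := isPrime_span_pi hπ hEM tM htM htrM hdegM hirrM
  have hdom : IsDomain (↥(chart ↥O tM) ⧸
      (Ideal.span {algebraMap ↥O ↥(chart ↥O tM) π} : Ideal ↥(chart ↥O tM))) :=
    Ideal.Quotient.isDomain _
  have hic : IsIntegrallyClosed (↥(chart ↥O tM) ⧸
      (Ideal.span {algebraMap ↥O ↥(chart ↥O tM) π} : Ideal ↥(chart ↥O tM))) :=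
    inferInstance
  exact surj_of_data π (restrictO (O := O) φ) (chart ↥O tM) (OvE O hπ EM hEM)
    (chart ↥O t) Oj leO hpi hunif hφB hint (fun z hz => (hφO z).mp hz)
    (fun z hz => (hφO z).mpr hz) (levelM_le hπ hEM tM htM)
    (levelM_sat hπ hEM tM htM htrM hdegM hirrM) (levelM_loc hπ hEM tM htM htrM hdegM hirrM)
    hcomb

end Surj

/-! ### `σ²` is the `q²`-power map at two-branch points, abstract form -/

section Frob

variable {R F₀ F : Type*} [CommRing R] [Field F₀] [Field F] [Algebra R F₀] [Algebra R F]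

/-- **`frob` of `NodeHyp`, abstract form.** -/
theorem frob_of_surj (π : R) (α β : F₀ →+* F) (BM : Subalgebra R F₀) (B : Subalgebra R F)
    (O1 O2 : ValuationSubring F) (s : F ≃+* F) (s₀ : F₀ ≃+* F₀) (q : ℕ)
    (hαs : ∀ x, α (s₀ x) = s (α x))
    (hαB : ∀ b ∈ BM, α b ∈ B) (hβB : ∀ b ∈ BM, β b ∈ B)
    (hsB : ∀ x ∈ B, s x ∈ B) (hs₀B : ∀ b ∈ BM, s₀ b ∈ BM)
    (hs1 : ∀ c ∈ O1, ∃ c' ∈ O1, s (algebraMap R F π * c) = algebraMap R F π * c')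
    (surj : ∀ y ∈ B, ∃ b ∈ BM, ∃ c ∈ O1, y - α b = algebraMap R F π * c)
    (K1 : ∀ b ∈ BM, ∃ o ∈ O1, β (s₀ b) - (α b) ^ q = algebraMap R F π * o)
    (K2 : ∀ b ∈ BM, ∃ o ∈ O2, α (s₀ b) - (β b) ^ q = algebraMap R F π * o)
    (𝔪 : Ideal B) (h1 : ¬ OffBranch π B O1 𝔪) (h2 : ¬ OffBranch π B O2 𝔪) :
    ∀ b : B, ∃ b' : B, (b' : F) = s (s (b : F)) ∧ b' - b ^ (q ^ 2) ∈ 𝔪 := by
  -- the two branch ideals lie in `𝔪`
  have p1 : ∀ e : B, (∃ c ∈ O1, (e : F) = algebraMap R F π * c) → e ∈ 𝔪 := by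
    intro e he
    by_contra hne
    exact h1 ⟨e, hne, he⟩
  have p2 : ∀ e : B, (∃ c ∈ O2, (e : F) = algebraMap R F π * c) → e ∈ 𝔪 := by
    intro e he
    by_contra hne
    exact h2 ⟨e, hne, he⟩
  intro y
  obtain ⟨b₀, hb₀, c, hc, hyc⟩ := surj (y : F) y.2
  -- the elements of `B` involved
  set a0 : B := ⟨α b₀, hαB b₀ hb₀⟩ with ha0
  set a1 : B := ⟨β (s₀ b₀), hβB _ (hs₀B b₀ hb₀)⟩ with ha1
  set a2 : B := ⟨α (s₀ (s₀ b₀)), hαB _ (hs₀B _ (hs₀B b₀ hb₀))⟩ with ha2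
  set y2 : B := ⟨s (s (y : F)), hsB _ (hsB _ y.2)⟩ with hy2
  refine ⟨y2, rfl, ?_⟩
  -- `y ≡ a0`
  have e0 : y - a0 ∈ 𝔪 := p1 _ ⟨c, hc, hyc⟩
  -- `s² y ≡ a2`
  have e2 : y2 - a2 ∈ 𝔪 := by
    apply p1
    obtain ⟨c', hc', h'⟩ := hs1 c hc
    obtain ⟨c'', hc'', h''⟩ := hs1 c' hc'
    refine ⟨c'', hc'', ?_⟩
    show s (s (y : F)) - α (s₀ (s₀ b₀)) = _
    rw [hαs, hαs, ← map_sub, ← map_sub, hyc, h', h'']
  -- Kronecker on the second branch: `a2 ≡ a1 ^ q`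
  have e21 : a2 - a1 ^ q ∈ 𝔪 := by
    apply p2
    obtain ⟨o, ho, h⟩ := K2 (s₀ b₀) (hs₀B b₀ hb₀)
    exact ⟨o, ho, h⟩
  -- Kronecker on the first branch: `a1 ≡ a0 ^ q`
  have e10 : a1 - a0 ^ q ∈ 𝔪 := by
    apply p1
    obtain ⟨o, ho, h⟩ := K1 b₀ hb₀
    exact ⟨o, ho, h⟩
  -- assemble in `B ⧸ 𝔪`
  rw [← Ideal.Quotient.eq] at e0 e2 e21 e10 ⊢
  rw [map_pow] at e21 e10 ⊢
  rw [e2, e21, e10, e0, ← pow_mul, pow_two]

end Frob

end Fermat.Agent.ES.N35.FrobNode21
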