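/-
Program O (S35), brick B1 (e), supplier theorem (helper21):
**`Large (FrobItems n e q M' A)`** — at the `ModelDefs9` data, for all large normal number fields `K`,
every uniformiser `π` and EVERY Frobenius element `σ` at `q` (`A.IsFrobeniusAt σ q`):
`s² b ≡ b ^ (q²) mod 𝔪` for all `b` in the chart `B0` (resp. `B1`) and every ideal `𝔪` of the chart
through which both components pass — literally the field `frob` of `ThirdDiffCL29.NodeHyp`, with
`s := IfaceN4.gK (M' * q) K (σ.restrictNormal K)`.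

Assembly: `FrobNode21.frob_of_surj` with
* `surj` : `FrobNode21.surj_gauss` at `(O1, alpha)` on both charts (level-`M'` package `LevelM20`,
  `hcomb` at `(O1, alpha)` = `PrinItems12.HcombItems`, `GlueItems` for `leO`);
* `K1`, `K2` : `KronChart15.kron_one`, `kron_two'` at `ψ := σ⁻¹|_K` for the given `σ`
  (`FrobModel21.psiK_inv_res_pow`), applied to `s₀ b` (`ψ ∘ s₀ = id`);
* chart stability and `hs1` from `FrobModel21`; `β(B_M) ⊆ B` from S2 (`ModEqItems`).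
-/
import Mathlib
import Fermat.Agent.ES.N34.ModelEnd4
import Fermat.Agent.ES.N35.FrobModel21
import Fermat.Agent.ES.N35.FrobNode21

set_option autoImplicit false
set_option synthInstance.maxHeartbeats 400000
set_option linter.unusedSectionVars false

noncomputable section

open HahnSeries ModularCurve IntermediateField

namespace Fermat.Agent.ES.N35.FrobItems21

open Fermat.Agent.RED.Interface4 Fermat.Agent.RED.PUR.GaussGen8 Fermat.Agent.RED.PUR.KtGauss8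
  Fermat.Agent.RED.PUR.G1Package8 Fermat.Agent.RED.BASE.EtaQuot12
  Fermat.Agent.RED.PUR.ChartGeneric22
  Fermat.Agent.ES.N34.ModelDefs9 Fermat.Agent.ES.N34.ModelN4 Fermat.Agent.ES.N34.ModelTop4
  Fermat.Agent.ES.N34.LevelM20 Fermat.Agent.ES.N34.PrinItems12 Fermat.Agent.ES.N34.NodalCore13
  Fermat.Agent.ES.N34.IfaceN4 Fermat.Agent.ES.N34.GalBase21
  Fermat.Agent.ES.N34.CompHyp16 Fermat.Agent.ES.N34.CompGauss16
  Fermat.Agent.ES.N35.FrobModel21 Fermat.Agent.ES.N35.FrobNode21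

variable (n e q M' : ℕ) [NeZero n] [NeZero M'] [NeZero q] (A : ValuationSubring Qbar)

/-- **B1 (e) at `K`**: the field `frob` of `NodeHyp` on both charts, for every Frobenius element. -/
def FrobItems (K : IntermediateField ℚ Qbar) : Prop :=
  ∀ (_hN : Normal ℚ K) (ht : tq (↥K) n e ∈ FK M' K) (hE : FK (M' * q) K ≤ fracField (AK A K))
    (π : ↥(AK A K)) (hπ : IsUnif (AK A K) π) (σ : Qbar ≃ₐ[ℚ] Qbar), A.IsFrobeniusAt σ q →
    (∀ 𝔪 : Ideal ↥(B0 A q ht), ¬ OffBranch π (B0 A q ht) (O1 M' q hπ hE) 𝔪 →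
      ¬ OffBranch π (B0 A q ht) (O2 M' q hπ hE) 𝔪 →
      ∀ b : ↥(B0 A q ht), ∃ b' : ↥(B0 A q ht),
        (b' : ↥(FK (M' * q) K)) = gK (M' * q) K (σ.restrictNormal K)
          (gK (M' * q) K (σ.restrictNormal K) (b : ↥(FK (M' * q) K))) ∧
        b' - b ^ (q ^ 2) ∈ 𝔪) ∧
    (∀ 𝔪 : Ideal ↥(B1 A q ht), ¬ OffBranch π (B1 A q ht) (O1 M' q hπ hE) 𝔪 →
      ¬ OffBranch π (B1 A q ht) (O2 M' q hπ hE) 𝔪 →
      ∀ b : ↥(B1 A q ht), ∃ b' : ↥(B1 A q ht),
        (b' : ↥(FK (M' * q) K)) = gK (M' * q) K (σ.restrictNormal K)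
          (gK (M' * q) K (σ.restrictNormal K) (b : ↥(FK (M' * q) K))) ∧
        b' - b ^ (q ^ 2) ∈ 𝔪)

variable {n e q M' A}

theorem gK_inv_gK (K : IntermediateField ℚ Qbar) [Normal ℚ K] (N : ℕ) (σ : Qbar ≃ₐ[ℚ] Qbar)
    (x : ↥(FK N K)) :
    gK N K (σ⁻¹.restrictNormal K) (gK N K (σ.restrictNormal K) x) = x := by
  rw [← gK_symm]
  exact RingEquiv.symm_apply_apply _ _

set_option maxHeartbeats 4000000 in
/-- **B1 (e) at one `K`.** -/
theorem frobItems_at (hq : q.Prime) (hqM : ¬ q ∣ M') (hA : A.LiesOverPrime q)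
    (K : IntermediateField ℚ Qbar) [hN : Normal ℚ K] [FiniteDimensional ℚ K]
    (hL : LevelItems n e M' A K) (hG : GlueItems n e q M' A K) (hS2 : ModEqItems n e q M' A K)
    (hC : HcombItems n e q M' A K) : FrobItems n e q M' A K := by
  intro hN' ht hE π hπ σ hσ
  have hNN : hN' = hN := Subsingleton.elim _ _
  subst hNN
  have hσD : σ ∈ A.decompositionSubgroup ℚ := hσ.mem_decompositionSubgroup
  have hdvr : IsDiscreteValuationRing ↥(AK A K) :=
    Fermat.Agent.RED.DESC.NumberFieldDVR27.isDiscreteValuationRing_AK A K hq.ne_zero hA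
  have hirr : Irreducible π := (IsDiscreteValuationRing.irreducible_iff_uniformizer π).mpr hπ.max_eq
  have : Fact q.Prime := ⟨hq⟩
  have : CharP (Res (AK A K)) q :=
    Fermat.Agent.RED.DESC.NumberFieldDVR27.charP_residueField_AK A K hq hA
  have hst : IsScalarTower ↥(AK A K) ↥K ↥(FK (M' * q) K) :=
    Fermat.Agent.RED.NumInst4.isScalarTower_OE (AK A K) (FK (M' * q) K)
  obtain ⟨_, _, hLM⟩ := hL
  obtain ⟨L0, L1⟩ := hLM π hirr
  have L0' : LevelM (AK A K) (FK M' K) π (tM ht) := L0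
  have L1' : LevelM (AK A K) (FK M' K) π (tM ht)⁻¹ := L1
  obtain ⟨n0, hd0, hi0⟩ := L0'.deg_irr
  obtain ⟨n1, hd1, hi1⟩ := L1'.deg_irr
  have glue := hG ht hE π hπ
  obtain ⟨hy0, hy1⟩ := hS2 ht
  -- the isometry
  have hiso : ∀ x : FK M' K, (x : LaurentSeries ↥K) ∈ gaussRing (AK A K) →
      ((Fermat.Agent.ES.N34.FrickeFK8.frickeFK M' K x : FK M' K) : LaurentSeries ↥K) ∈
        gaussRing (AK A K) :=
    fun x => (Fermat.Agent.ES.N34.IsoM25.isoM A K M' q hirr hqM x).mp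
  -- `hφO`, `hcomb` at `(O1, alpha)`
  have haO : ∀ z : ↥(FK M' K), alpha K M' q z ∈ O1 M' q hπ hE ↔
      z ∈ OvE (AK A K) hirr (FK M' K) L0'.hEM := fun z =>
    (Fermat.Agent.ES.N34.BranchInt5.alpha_mem_O1_iff M' q hπ hE z).trans
      (mem_OvE_iff (AK A K) hirr (FK M' K) L0'.hEM z).symm
  have hc1' := hC ht hE π hπ
  have hc1 : ∀ x ∈ O1 M' q hπ hE, ∃ z ∈ OvE (AK A K) hirr (FK M' K) L0'.hEM,
      ∃ c ∈ O1 M' q hπ hE,
        x - alpha K M' q z = algebraMap ↥(AK A K) ↥(FK (M' * q) K) π * c := by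
    intro x hx
    obtain ⟨z, hz, c, hc, h⟩ := hc1' x hx
    exact ⟨z, (mem_OvE_iff (AK A K) hirr (FK M' K) L0'.hEM z).mpr hz, c, hc, h⟩
  have hO1 := Fermat.Agent.ES.N34.ModelGlue22.isGaussPullback_O1 (A := A) (K := K) M' q hπ hE
  -- surjectivity on both charts
  have surj0 := surj_gauss hirr L0'.hEM (tM ht) L0'.htM L0'.htrM L0'.hn' hd0 hi0 L0'.hsm
    (alpha K M' q) (tN q ht) hO1 glue.le_O1_0 haO (self_mem_chart _)
    ⟨⟨tM ht, self_mem_chart _⟩, 0, (O1 M' q hπ hE).zero_mem, by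
      show tN q ht - alpha K M' q (tM ht) = _
      rw [mul_zero]; exact sub_self _⟩ hc1
  have surj1 := surj_gauss hirr L0'.hEM (tM ht)⁻¹ L1'.htM L1'.htrM L1'.hn' hd1 hi1 L1'.hsm
    (alpha K M' q) (tN q ht)⁻¹ hO1 glue.le_O1_1 haO
    (by rw [map_inv₀]; exact self_mem_chart _)
    ⟨⟨(tM ht)⁻¹, self_mem_chart _⟩, 0, (O1 M' q hπ hE).zero_mem, by
      show (tN q ht)⁻¹ - alpha K M' q (tM ht)⁻¹ = _
      rw [mul_zero, map_inv₀]; exact sub_self _⟩ hc1
  -- Kronecker for the given `σ`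
  have hψO : ∀ x ∈ AK A K, ((resK K σ⁻¹ : K ≃ₐ[ℚ] K) : K →+* K) x ∈ AK A K :=
    fun x hx => resK_mem_AK A K (inv_mem hσD) hx
  have hψ := psiK_inv_res_pow K hσ hψO
  have hgψ : ∀ b : ↥(FK M' K),
      arithmeticRingAut (modularFunctionFieldFull M') (resK K σ⁻¹)
        (gK M' K (σ.restrictNormal K) b) = b := fun b => gK_inv_gK K M' σ b
  have kK1 : ∀ b : ↥(FK M' K), (b : LaurentSeries ↥K) ∈ gaussRing (AK A K) →
      ∃ o ∈ O1 M' q hπ hE, beta K M' q (gK M' K (σ.restrictNormal K) b) - (alpha K M' q b) ^ q =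
        algebraMap ↥(AK A K) ↥(FK (M' * q) K) π * o := by
    intro b hb
    obtain ⟨o, ho, h⟩ := Fermat.Agent.ES.N34.KronChart15.kron_one M' q hπ hE (resK K σ⁻¹) hψO hψ
      (gK M' K (σ.restrictNormal K) b) ((coe_gK_mem_gaussRing_iff K hσD M' b).mpr hb)
    rw [hgψ] at h
    exact ⟨o, ho, h⟩
  have kK2 : ∀ b : ↥(FK M' K), (b : LaurentSeries ↥K) ∈ gaussRing (AK A K) →
      ∃ o ∈ O2 M' q hπ hE, alpha K M' q (gK M' K (σ.restrictNormal K) b) - (beta K M' q b) ^ q =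
        algebraMap ↥(AK A K) ↥(FK (M' * q) K) π * o := by
    intro b hb
    obtain ⟨o, ho, h⟩ := Fermat.Agent.ES.N34.KronChart15.kron_two' M' q hπ hE (resK K σ⁻¹) hψO hψ
      (gK M' K (σ.restrictNormal K) b)
      (hiso _ ((coe_gK_mem_gaussRing_iff K hσD M' b).mpr hb))
    rw [hgψ] at h
    exact ⟨o, ho, h⟩
  -- `alpha`, `beta` map the level-`M'` charts into the charts
  have haB0 : ∀ b : ↥(chart ↥(AK A K) (tM ht)),
      chartHom (restrictO (O := AK A K) (alpha K M' q)) (chart ↥(AK A K) (tM ht)) b ∈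
        chart ↥(AK A K) (tN q ht) :=
    hφB_of_chart (restrictO (O := AK A K) (alpha K M' q)) (chart ↥(AK A K) (tM ht))
      (chart ↥(AK A K) (tN q ht)) (tM ht) (tN q ht) (fun _ hb => hb) (fun _ hy => hy)
      (self_mem_chart _)
  have hbB0 : ∀ b : ↥(chart ↥(AK A K) (tM ht)),
      chartHom (restrictO (O := AK A K) (beta K M' q)) (chart ↥(AK A K) (tM ht)) b ∈
        chart ↥(AK A K) (tN q ht) :=
    hφB_of_chart (restrictO (O := AK A K) (beta K M' q)) (chart ↥(AK A K) (tM ht))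
      (chart ↥(AK A K) (tN q ht)) (tM ht) (tN q ht) (fun _ hb => hb) (fun _ hy => hy) hy0
  have haB1 : ∀ b : ↥(chart ↥(AK A K) (tM ht)⁻¹),
      chartHom (restrictO (O := AK A K) (alpha K M' q)) (chart ↥(AK A K) (tM ht)⁻¹) b ∈
        chart ↥(AK A K) (tN q ht)⁻¹ :=
    hφB_of_chart (restrictO (O := AK A K) (alpha K M' q)) (chart ↥(AK A K) (tM ht)⁻¹)
      (chart ↥(AK A K) (tN q ht)⁻¹) (tM ht)⁻¹ (tN q ht)⁻¹ (fun _ hb => hb) (fun _ hy => hy)
      (by
        rw [restrictO_apply, map_inv₀]; exact self_mem_chart _)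
  have hbB1 : ∀ b : ↥(chart ↥(AK A K) (tM ht)⁻¹),
      chartHom (restrictO (O := AK A K) (beta K M' q)) (chart ↥(AK A K) (tM ht)⁻¹) b ∈
        chart ↥(AK A K) (tN q ht)⁻¹ :=
    hφB_of_chart (restrictO (O := AK A K) (beta K M' q)) (chart ↥(AK A K) (tM ht)⁻¹)
      (chart ↥(AK A K) (tN q ht)⁻¹) (tM ht)⁻¹ (tN q ht)⁻¹ (fun _ hb => hb) (fun _ hy => hy)
      (by
        rw [restrictO_apply, map_inv₀]; exact hy1)
  have hle0 := Fermat.Agent.ES.N34.KronItems15.le_B0M (A := A) (K := K) (M' := M') hirr ht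
  have hle1 := Fermat.Agent.ES.N34.KronItems15.le_B1M (A := A) (K := K) (M' := M') hirr ht
  refine ⟨fun 𝔪 h1 h2 => ?_, fun 𝔪 h1 h2 => ?_⟩
  · exact frob_of_surj π ((alpha K M' q : ↥(FK M' K) →ₐ[↥K] ↥(FK (M' * q) K)) : _ →+* _)
      ((beta K M' q : ↥(FK M' K) →ₐ[↥K] ↥(FK (M' * q) K)) : _ →+* _) (B0M A ht) (B0 A q ht)
      (O1 M' q hπ hE) (O2 M' q hπ hE) (gK (M' * q) K (σ.restrictNormal K))
      (gK M' K (σ.restrictNormal K)) q (gK_alpha K σ M' q)
      (fun b hb => haB0 ⟨b, hb⟩) (fun b hb => hbB0 ⟨b, hb⟩)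
      (fun x hx => (gK_mem_B0_iff K hσD q ht x).mpr hx)
      (fun b hb => (gK_mem_B0M_iff K hσD ht b).mpr hb)
      (hs1 K hσD M' q hπ hE)
      (fun y hy => by
        obtain ⟨b, c, hc, h⟩ := surj0 y hy
        exact ⟨b, b.2, c, hc, h⟩)
      (fun b hb => kK1 b (hle0 b hb)) (fun b hb => kK2 b (hle0 b hb)) 𝔪 h1 h2
  · exact frob_of_surj π ((alpha K M' q : ↥(FK M' K) →ₐ[↥K] ↥(FK (M' * q) K)) : _ →+* _)
      ((beta K M' q : ↥(FK M' K) →ₐ[↥K] ↥(FK (M' * q) K)) : _ →+* _) (B1M A ht) (B1 A q ht)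
      (O1 M' q hπ hE) (O2 M' q hπ hE) (gK (M' * q) K (σ.restrictNormal K))
      (gK M' K (σ.restrictNormal K)) q (gK_alpha K σ M' q)
      (fun b hb => haB1 ⟨b, hb⟩) (fun b hb => hbB1 ⟨b, hb⟩)
      (fun x hx => (gK_mem_B1_iff K hσD q ht x).mpr hx)
      (fun b hb => (gK_mem_B1M_iff K hσD ht b).mpr hb)
      (hs1 K hσD M' q hπ hE)
      (fun y hy => by
        obtain ⟨b, c, hc, h⟩ := surj1 y hy
        exact ⟨b, b.2, c, hc, h⟩)
      (fun b hb => kK1 b (hle1 b hb)) (fun b hb => kK2 b (hle1 b hb)) 𝔪 h1 h2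

/-- **B1 (e), abstract form**: `Large (FrobItems …)` from the level-`M'` package, V3i, S2 and `hcomb`
at `(O1, alpha)`. -/
theorem frobItems_of (hq : q.Prime) (hqM : ¬ q ∣ M') (hA : A.LiesOverPrime q)
    (hL : Large (LevelItems n e M' A)) (hG : Large (GlueItems n e q M' A))
    (hS2 : Large (ModEqItems n e q M' A)) (hC : Large (HcombItems n e q M' A)) :
    Large (FrobItems n e q M' A) := by
  obtain ⟨K₀, hK₀, h⟩ := ((hL.and hG).and hS2).and hC
  refine ⟨K₀, hK₀, fun K _ hfd hle => ?_⟩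
  obtain ⟨⟨⟨a1, a2⟩, a3⟩, a4⟩ := h K hfd hle
  have := hfd
  exact frobItems_at hq hqM hA K a1 a2 a3 a4

/-- **B1 (e), `q` odd** (`4 ∣ M'`, Hauptmodul `tq · 4 8`): no residual hypothesis. -/
theorem frobItems_four (hq : q.Prime) (hqM : ¬ q ∣ M') (hq2 : q ≠ 2) (hM : 4 ∣ M')
    (hA : A.LiesOverPrime q) : Large (FrobItems 4 8 q M' A) := by
  have hG : Large (GlueItems 4 8 q M' A) :=
    Fermat.Agent.ES.N34.ModelEnd4.glueItems hq hqM hA
      (Fermat.Agent.RED.ModelFinal4.jTarget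
        (Fermat.Agent.RED.BASE.MainCusp12.base_four M' hM).1.genBase)
  exact frobItems_of hq hqM hA (levelItems_four hq hqM hM hA) hG
    (Fermat.Agent.ES.N34.ItemsAd6.modEqItems_four hq hq2 hqM hA (chartItems_four hM hq hA) hG)
    (Fermat.Agent.ES.N34.CombA26.hcomb_four hq hqM hM hA)

/-- **B1 (e), `q = 2`** (`9 ∣ M'`, Hauptmodul `tq · 9 3`): no residual hypothesis. -/
theorem frobItems_nine [NeZero 2] (hqM : ¬ 2 ∣ M') (hM : 9 ∣ M') (hA : A.LiesOverPrime 2) :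
    Large (FrobItems 9 3 2 M' A) := by
  have hG : Large (GlueItems 9 3 2 M' A) :=
    Fermat.Agent.ES.N34.ModelEnd4.glueItems Nat.prime_two hqM hA
      (Fermat.Agent.RED.ModelFinal4.jTarget
        (Fermat.Agent.RED.BASE.MainCusp12.base_nine M' hM).1.genBase)
  exact frobItems_of Nat.prime_two hqM hA (levelItems_nine Nat.prime_two hqM hM hA) hG
    (Fermat.Agent.ES.N34.ItemsAd6.modEqItems_nine hqM hA (chartItems_nine hM Nat.prime_two hA) hG)
    (Fermat.Agent.ES.N34.CombA26.hcomb_nine Nat.prime_two hqM hM hA)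

end Fermat.Agent.ES.N35.FrobItems21
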