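/-
Program O (S35), brick B5d (helper10): the field **`gen`** of `ThirdDiffCL29.NodeHyp`.

At a closed point `𝔪` of a chart `B` lying on both components, for `σ : SemilinearAut K F` (a Frobenius
lift; only `σ * σ` matters), `s := SemilinearAut.toRingAut σ`, `Δ := ThirdDiff29.Dl s` (`Δ x = s (s x) / x`):
from
* the chart hypotheses of `NodeAsm6.nodeDatum_of_places` (verbatim),
* `Δ y` is a unit of `O1` and of `O2` for every `y ≠ 0` (`FrobAbs13.IsDecomp.dl_mem`),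
* `frob` (the field of `NodeHyp`: `s²` stabilises `B` and is the `q²`-Frobenius on `B / 𝔪`),
* `(σ * σ)⁻¹` permutes the places through `𝔪`,
* `f ≠ 0` with `m ∣ ord_v f` everywhere and finite support through `𝔪`,
* every place `v` through `𝔪` in the support of `f` has a Lemma-A element or is fixed by `σ * σ`
  (hypothesis `H` of `nodeDatum_of_places` with `σ := σ * σ`; supplied for ANY automorphism of the
  chart fixing `𝔪` by `NodeGlue6.node_hyp_of_sections`),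
we get `∃ G' ≠ 0, LocUnit B 𝔪 (Δ (Δ f) / G' ^ m)`, with `G' := Δ (Δ Ξ)`, `Ξ := ∏ ξ_v ^ (ord_v f / m)`.

Proof: `ε := Δ (f / Ξ ^ m)` has order `0` at every place through `𝔪` (the non-good place is fixed),
is a unit at `O1`, `O2`, hence `ε, ε⁻¹ ∈ B_𝔪` (`hhor_of_places` + `exists_den_of_horizontal`);
`Δ ε` is a unit of `B_𝔪` because `s²` stabilises `B` and `𝔪`; and `Δ (Δ f) / G' ^ m = Δ ε`.
-/
import Mathlib
import Fermat.Agent.X0.FFDict
import Fermat.Agent.ES.N34.NodalCL13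
import Fermat.Agent.ES.N34.HorizPlace13
import Fermat.Agent.ES.N34.SecondDiff6
import Fermat.Agent.ES.N34.NodeAsm6
import Fermat.Agent.ES.N34.PlaceSec10
import Fermat.Agent.ES.N34.SigmaRes15
import Fermat.Agent.ES.N34.NodeGlue6
import Fermat.Agent.ES.N34.NumData13
import Fermat.Agent.ES.N35.ThirdDiff29

set_option autoImplicit false
set_option linter.unusedSectionVars false

namespace Fermat.Agent.ES.N35.GenNode10

open AlgebraicCurve Fermat.Agent.X0.FF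
open Fermat.Agent.ES.N34.NodalCore13 Fermat.Agent.ES.N34.NodalStart13
  Fermat.Agent.ES.N34.NodalCL13 Fermat.Agent.ES.N34.HorizPlace13
  Fermat.Agent.ES.N34.NodeAsm6 Fermat.Agent.ES.N35.ThirdDiff29

section Divisor

variable {K F : Type*} [Field K] [Field F] [Algebra K F]

theorem smul_ne_zero_iff (g : SemilinearAut K F) {y : F} : g • y ≠ 0 ↔ y ≠ 0 := by
  rw [SemilinearAut.smul_def]
  exact map_ne_zero_iff _ (SemilinearAut.toRingAut g).injective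

open Fermat.Agent.ES.N34.SecondDiff6 in
/-- **Divisor step**: `g • y / y`, `y := f / Ξ ^ m`, has order `0` at every place of `𝒱`, where
`Ξ = ∏ v ∈ S, ξ v ^ n v` collects the Lemma-A elements of the good places and every other place
of `𝒱` in the support of `f` is fixed by `g`. -/
theorem ord_firstDiff_corrected_eq_zero
    (𝒱 : Set (Place K F)) (g : SemilinearAut K F) (h𝒱 : ∀ v ∈ 𝒱, g⁻¹ • v ∈ 𝒱)
    (f : F) (hf : f ≠ 0) (m : ℕ) (n : Place K F → ℤ) (hn : ∀ v ∈ 𝒱, v.ord f = (m : ℤ) * n v)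
    (S : Finset (Place K F))
    (ξ : Place K F → F) (hξ0 : ∀ v ∈ S, ξ v ≠ 0)
    (hξ1 : ∀ v ∈ S, v.ord (ξ v) = 1)
    (hξ2 : ∀ v ∈ S, ∀ w ∈ 𝒱, w ≠ v → w.ord (ξ v) = 0)
    (hbad : ∀ v ∈ 𝒱, v ∉ S → n v ≠ 0 → g • v = v) :
    ∀ w ∈ 𝒱, w.ord (g • (f / (∏ v ∈ S, ξ v ^ n v) ^ m) / (f / (∏ v ∈ S, ξ v ^ n v) ^ m)) = 0 := by
  classical
  have hξ : ∀ v ∈ S, ∀ w ∈ 𝒱, w.ord (ξ v) = if w = v then 1 else 0 := by
    intro v hv w' hw'
    split_ifs with h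
    · rw [h]; exact hξ1 v hv
    · exact hξ2 v hv w' hw' h
  have hfac : ∀ v ∈ S, ξ v ^ n v ≠ 0 := fun v hv => zpow_ne_zero _ (hξ0 v hv)
  have hΞ0 : (∏ v ∈ S, ξ v ^ n v) ≠ 0 := Finset.prod_ne_zero_iff.2 hfac
  set y : F := f / (∏ v ∈ S, ξ v ^ n v) ^ m with hy
  have hy0 : y ≠ 0 := div_ne_zero hf (pow_ne_zero m hΞ0)
  set d : Place K F → ℤ := fun w' => if w' ∈ S then 0 else n w' with hd
  have hord : ∀ w' ∈ 𝒱, w'.ord y = (m : ℤ) * d w' := by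
    intro w' hw'
    rw [hy, ord_quot w' hf (pow_ne_zero m hΞ0), ord_npow, ord_finprod w' S _ hfac, hn w' hw']
    have hterm : ∀ v ∈ S, w'.ord (ξ v ^ n v) = n v * (if w' = v then (1 : ℤ) else 0) := by
      intro v hv
      rw [w'.ord_zpow, hξ v hv w' hw']
    rw [Finset.sum_congr rfl hterm]
    simp only [mul_ite, mul_one, mul_zero, hd]
    rw [Finset.sum_ite_eq S w' n]
    split_ifs <;> ring
  have hfix : ∀ w' ∈ 𝒱, d w' ≠ 0 → g • w' = w' := by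
    intro w' hw' hdw'
    by_cases hS' : w' ∈ S
    · exact absurd (by simp [hd, hS']) hdw'
    · have : d w' = n w' := by simp [hd, hS']
      exact hbad w' hw' hS' (this ▸ hdw')
  intro w hw
  have hw' : g⁻¹ • w ∈ 𝒱 := h𝒱 w hw
  rw [ord_quot w ((smul_ne_zero_iff g).2 hy0) hy0, ord_smul' g w y, hord _ hw', hord w hw]
  have hdd : d (g⁻¹ • w) = d w := by
    by_cases h0 : d w = 0
    · by_contra hne
      have h1 : d (g⁻¹ • w) ≠ 0 := by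
        intro h
        exact hne (h.trans h0.symm)
      have h2 := hfix _ hw' h1
      rw [smul_inv_smul] at h2
      rw [← h2] at h1
      exact h1 h0
    · have h2 := hfix w hw h0
      have h3 : g⁻¹ • w = w := by
        conv_lhs => rw [← h2]
        rw [inv_smul_smul]
      rw [h3]
  rw [hdd]
  ring

end Divisor

section Loc

variable {R F : Type*} [CommRing R] [Field F] [Algebra R F]
variable {B : Subalgebra R F} {𝔪 : Ideal B}

/-- a nonzero element with `x, x⁻¹ ∈ B_𝔪` is a unit of `B_𝔪`. -/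
theorem locUnit_of_den [h𝔪 : 𝔪.IsPrime] {x : F} (hx0 : x ≠ 0)
    (hx : ∃ a d : B, d ∉ 𝔪 ∧ x * (d : F) = (a : F))
    (hxi : ∃ a d : B, d ∉ 𝔪 ∧ x⁻¹ * (d : F) = (a : F)) : LocUnit B 𝔪 x := by
  obtain ⟨a, d, hd, h⟩ := hx
  obtain ⟨a', d', hd', h'⟩ := hxi
  refine ⟨a, d, ?_, hd, h⟩
  intro ha
  have hprod : a * a' = d * d' := by
    apply Subtype.ext
    push_cast
    rw [← h, ← h']
    field_simp
  have : d * d' ∈ 𝔪 := hprod ▸ 𝔪.mul_mem_right _ ha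
  exact (h𝔪.mem_or_mem this).elim hd hd'

/-- `s²` maps units of `B_𝔪` to units of `B_𝔪` (from `NodeHyp.frob`). -/
theorem locUnit_map_sq [h𝔪 : 𝔪.IsPrime] (s : F ≃+* F) (q : ℕ)
    (frob : ∀ b : B, ∃ b' : B, (b' : F) = s (s (b : F)) ∧ b' - b ^ (q ^ 2) ∈ 𝔪)
    {x : F} (hx : LocUnit B 𝔪 x) : LocUnit B 𝔪 (s (s x)) := by
  obtain ⟨a, d, ha, hd, h⟩ := hx
  obtain ⟨a', ea', ha'⟩ := frob a
  obtain ⟨d', ed', hd'⟩ := frob d
  have key : ∀ (c c' : B), c ∉ 𝔪 → c' - c ^ (q ^ 2) ∈ 𝔪 → c' ∉ 𝔪 := by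
    intro c c' hc hcc hc'
    have : c ^ (q ^ 2) ∈ 𝔪 := by
      have := 𝔪.sub_mem hc' hcc
      simpa using this
    exact hc (h𝔪.mem_of_pow_mem _ this)
  refine ⟨a', d', key a a' ha ha', key d d' hd hd', ?_⟩
  rw [ea', ed', ← map_mul, ← map_mul, h]

/-- `Δ` maps units of `B_𝔪` to units of `B_𝔪`. -/
theorem locUnit_Dl [h𝔪 : 𝔪.IsPrime] (s : F ≃+* F) (q : ℕ)
    (frob : ∀ b : B, ∃ b' : B, (b' : F) = s (s (b : F)) ∧ b' - b ^ (q ^ 2) ∈ 𝔪)
    {x : F} (hx : LocUnit B 𝔪 x) : LocUnit B 𝔪 (Dl s x) :=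
  (locUnit_map_sq s q frob hx).div hx

end Loc

section Main

variable {R K F : Type*} [CommRing R] [Field K] [Field F] [Algebra R K] [Algebra K F]
  [Algebra R F] [IsScalarTower R K F]

/-- `Δ` in `SemilinearAut` form. -/
theorem Dl_eq_smul (σ : SemilinearAut K F) (y : F) :
    Dl (SemilinearAut.toRingAut σ) y = (σ * σ) • y / y := rfl

/-- **B5d: the field `gen` of `NodeHyp`.** -/
theorem gen_of_places (π : R) (t : F) (B : Subalgebra R F) (O1 O2 : ValuationSubring F)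
    (ht : t ∈ B) (noethB : IsNoetherianRing B) (fracR : IsFractionRing R K)
    (dvrR : ∀ r : R, r ≠ 0 → ∃ (k : ℕ) (v : Rˣ), r = π ^ k * v)
    (pi_ne : algebraMap R F π ≠ 0)
    (intcl : ∀ x : F, IsIntegral B x → x ∈ B)
    (int0 : ∀ x ∈ B, IsIntegral (Algebra.adjoin R {t}) x)
    (frac : ∀ x : F, ∃ a ∈ B, ∃ b ∈ B, b ≠ 0 ∧ x * b = a)
    (leO1 : ∀ x ∈ B, x ∈ O1) (leO2 : ∀ x ∈ B, x ∈ O2)
    (arch1 : ∀ x : F, ∃ k : ℕ, algebraMap R F π ^ k * x ∈ O1)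
    (arch2 : ∀ x : F, ∃ k : ℕ, algebraMap R F π ^ k * x ∈ O2)
    (sat : ∀ b ∈ B, ∀ c : F, c ∈ O1 → c ∈ O2 → b = algebraMap R F π * c → c ∈ B)
    (𝔪 : Ideal B) [h𝔪 : 𝔪.IsPrime]
    (σ : SemilinearAut K F) (q : ℕ)
    (hdl1 : ∀ y : F, y ≠ 0 → Dl (SemilinearAut.toRingAut σ) y ∈ O1 ∧
      (Dl (SemilinearAut.toRingAut σ) y)⁻¹ ∈ O1)
    (hdl2 : ∀ y : F, y ≠ 0 → Dl (SemilinearAut.toRingAut σ) y ∈ O2 ∧
      (Dl (SemilinearAut.toRingAut σ) y)⁻¹ ∈ O2)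
    (frob : ∀ b : B, ∃ b' : B, (b' : F) =
      SemilinearAut.toRingAut σ (SemilinearAut.toRingAut σ (b : F)) ∧ b' - b ^ (q ^ 2) ∈ 𝔪)
    (hthr : ∀ v : Place K F, Thr B 𝔪 v → Thr B 𝔪 ((σ * σ)⁻¹ • v))
    (m : ℕ) (hm : 0 < m) (f : F) (hf : f ≠ 0) (hmf : ∀ v : Place K F, (m : ℤ) ∣ v.ord f)
    (hfin : {v : Place K F | Thr B 𝔪 v ∧ v.ord f ≠ 0}.Finite)
    (H : ∀ v : Place K F, Thr B 𝔪 v → v.ord f ≠ 0 →
      (∃ ξ : F, ξ ≠ 0 ∧ v.ord ξ = 1 ∧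
        ∀ w : Place K F, Thr B 𝔪 w → w ≠ v → w.ord ξ = 0) ∨ (σ * σ) • v = v) :
    ∃ G' : F, G' ≠ 0 ∧ LocUnit B 𝔪
      (Dl (SemilinearAut.toRingAut σ) (Dl (SemilinearAut.toRingAut σ) f) / G' ^ m) := by
  classical
  set s : F ≃+* F := SemilinearAut.toRingAut σ with hs
  -- the good places
  let Good : Place K F → Prop := fun v => Thr B 𝔪 v ∧
    ∃ ξ : F, ξ ≠ 0 ∧ v.ord ξ = 1 ∧ ∀ w : Place K F, Thr B 𝔪 w → w ≠ v → w.ord ξ = 0
  let S : Finset (Place K F) := hfin.toFinset.filter Good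
  let ξ : Place K F → F := fun v => if h : Good v then Classical.choose h.2 else 1
  have hξspec : ∀ v, Good v → ξ v ≠ 0 ∧ v.ord (ξ v) = 1 ∧
      ∀ w : Place K F, Thr B 𝔪 w → w ≠ v → w.ord (ξ v) = 0 := by
    intro v hv
    have : ξ v = Classical.choose hv.2 := dif_pos hv
    rw [this]
    exact Classical.choose_spec hv.2
  have hSgood : ∀ v ∈ S, Good v := fun v hv => (Finset.mem_filter.1 hv).2
  let n : Place K F → ℤ := fun v => v.ord f / (m : ℤ)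
  have hn : ∀ v : Place K F, v.ord f = (m : ℤ) * n v := fun v =>
    (Int.mul_ediv_cancel' (hmf v)).symm
  -- divisor step
  have hdiv := ord_firstDiff_corrected_eq_zero {v : Place K F | Thr B 𝔪 v} (σ * σ)
    (fun v hv => hthr v hv) f hf m n (fun v _ => hn v) S ξ
    (fun v hv => (hξspec v (hSgood v hv)).1)
    (fun v hv => (hξspec v (hSgood v hv)).2.1)
    (fun v hv w hw hwv => (hξspec v (hSgood v hv)).2.2 w hw hwv)
    (by
      intro v hv hvS hnv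
      have hord : v.ord f ≠ 0 := by
        intro h0
        apply hnv
        have := hn v
        rw [h0] at this
        have hm0 : (m : ℤ) ≠ 0 := by exact_mod_cast hm.ne'
        rcases mul_eq_zero.1 this.symm with h | h
        · exact absurd h hm0
        · exact h
      have hnot : ¬ Good v := by
        intro hg
        apply hvS
        exact Finset.mem_filter.2 ⟨hfin.mem_toFinset.2 ⟨hv, hord⟩, hg⟩
      rcases H v hv hord with hgood | hfix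
      · exact absurd ⟨hv, hgood⟩ hnot
      · exact hfix)
  -- the generator
  set Ξ : F := ∏ v ∈ S, (ξ v) ^ (n v) with hΞ
  have hΞ0 : Ξ ≠ 0 := Finset.prod_ne_zero_iff.2 fun v hv =>
    zpow_ne_zero _ (hξspec v (hSgood v hv)).1
  set y : F := f / Ξ ^ m with hy
  have hy0 : y ≠ 0 := div_ne_zero hf (pow_ne_zero m hΞ0)
  set ε : F := Dl s y with hε
  have hε0 : ε ≠ 0 := Dl_ne_zero s hy0
  have hεeq : ε = (σ * σ) • y / y := Dl_eq_smul σ y
  have hord0 : ∀ v : Place K F, Thr B 𝔪 v → v.ord ε = 0 := by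
    intro v hv
    rw [hεeq]
    exact hdiv v hv
  -- `ε`, `ε⁻¹ ∈ B_𝔪`
  have hden : ∀ z : F, z ∈ O1 → z ∈ O2 → (∀ v : Place K F, Thr B 𝔪 v → v.ord z = 0) →
      ∃ a d : B, d ∉ 𝔪 ∧ z * (d : F) = (a : F) := by
    intro z hz1 hz2 hz
    have hhor := hhor_of_places (K := K) π t B ht noethB fracR dvrR pi_ne intcl int0 frac 𝔪 z
      (by
        intro v hv1 hv2
        exact mem_of_ord_nonneg v (le_of_eq (hz v ⟨hv1, hv2⟩).symm))
    exact exists_den_of_horizontal π B O1 O2 leO1 leO2 arch1 arch2 sat frac 𝔪 z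
      hhor (Or.inl hz1) (Or.inl hz2)
  have hεU : LocUnit B 𝔪 ε := by
    refine locUnit_of_den hε0 (hden ε (hdl1 y hy0).1 (hdl2 y hy0).1 hord0)
      (hden ε⁻¹ (hdl1 y hy0).2 (hdl2 y hy0).2 ?_)
    intro v hv
    rw [v.ord_inv, hord0 v hv, neg_zero]
  -- `Δ ε` is a unit of `B_𝔪` and equals `Δ Δ f / (Δ Δ Ξ) ^ m`
  refine ⟨Dl s (Dl s Ξ), Dl_ne_zero s (Dl_ne_zero s hΞ0), ?_⟩
  have e : Dl s (Dl s f) / Dl s (Dl s Ξ) ^ m = Dl s ε := by
    rw [hε, hy, Dl_div, Dl_div, Dl_pow, Dl_pow]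
  rw [e]
  exact locUnit_Dl s q frob hεU

end Main

section Rational

variable {R K F : Type*} [CommRing R] [IsDomain R] [IsDiscreteValuationRing R] [Field K] [Field F]
  [Algebra R K] [Algebra K F] [Algebra R F] [IsScalarTower R K F]

open Fermat.Agent.ES.N34.SigmaRes15 Fermat.Agent.ES.N34.PlaceSec10 in
/-- **B5d from rationality of the support**: the hypothesis `H` of `gen_of_places` is supplied by
`NodeGlue6.node_hyp_of_sections` for the automorphism `σ * σ` of the chart (which fixes `𝔪` by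
`frob`), the sections coming from `PlaceSec10.exists_section_of_rational`. -/
theorem gen_of_rational (π : R) (hπ : Irreducible π) (t : F) (B : Subalgebra R F)
    (O1 O2 : ValuationSubring F)
    (ht : t ∈ B) (noethB : IsNoetherianRing B) (fracR : IsFractionRing R K)
    (dvrR : ∀ r : R, r ≠ 0 → ∃ (k : ℕ) (v : Rˣ), r = π ^ k * v)
    (pi_ne : algebraMap R F π ≠ 0)
    (pi_nonunit1 : (algebraMap R F π)⁻¹ ∉ O1)
    (intcl : ∀ x : F, IsIntegral B x → x ∈ B)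
    (int0 : ∀ x ∈ B, IsIntegral (Algebra.adjoin R {t}) x)
    (frac : ∀ x : F, ∃ a ∈ B, ∃ b ∈ B, b ≠ 0 ∧ x * b = a)
    (leO1 : ∀ x ∈ B, x ∈ O1) (leO2 : ∀ x ∈ B, x ∈ O2)
    (arch1 : ∀ x : F, ∃ k : ℕ, algebraMap R F π ^ k * x ∈ O1)
    (arch2 : ∀ x : F, ∃ k : ℕ, algebraMap R F π ^ k * x ∈ O2)
    (sat : ∀ b ∈ B, ∀ c : F, c ∈ O1 → c ∈ O2 → b = algebraMap R F π * c → c ∈ B)
    (𝔪 : Ideal B) [h𝔪p : 𝔪.IsPrime] (hπ𝔪 : algebraMap R B π ∈ 𝔪)
    -- level-0 node coordinates (`NodeCoords π B 𝔪`)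
    (x₀ y₀ w₀ d₀ : B) (hx₀ : x₀ ∈ 𝔪) (hy₀ : y₀ ∈ 𝔪)
    (hgen₀ : ∀ b ∈ 𝔪, ∃ d, d ∉ 𝔪 ∧ d * b ∈ Ideal.span {algebraMap R B π, x₀, y₀})
    (hd₀ : d₀ ∉ 𝔪) (hmul₀ : d₀ * (x₀ * y₀) = algebraMap R B π * w₀)
    -- the Frobenius lift
    (σ : SemilinearAut K F) (q : ℕ) (hq : 0 < q)
    (hdl1 : ∀ y : F, y ≠ 0 → Dl (SemilinearAut.toRingAut σ) y ∈ O1 ∧
      (Dl (SemilinearAut.toRingAut σ) y)⁻¹ ∈ O1)
    (hdl2 : ∀ y : F, y ≠ 0 → Dl (SemilinearAut.toRingAut σ) y ∈ O2 ∧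
      (Dl (SemilinearAut.toRingAut σ) y)⁻¹ ∈ O2)
    (hB : ∀ x : F, x ∈ B ↔ SemilinearAut.toRingAut σ x ∈ B)
    (hsemi : ∀ r : R, ∃ r' : R,
      SemilinearAut.toRingAut σ (algebraMap R F r) = algebraMap R F r')
    (hsemi' : ∀ r : R, ∃ r' : R,
      (SemilinearAut.toRingAut σ).symm (algebraMap R F r) = algebraMap R F r')
    (frob : ∀ b : B, ∃ b' : B, (b' : F) =
      SemilinearAut.toRingAut σ (SemilinearAut.toRingAut σ (b : F)) ∧ b' - b ^ (q ^ 2) ∈ 𝔪)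
    -- the function
    (m : ℕ) (hm : 0 < m) (f : F) (hf : f ≠ 0) (hmf : ∀ v : Place K F, (m : ℤ) ∣ v.ord f)
    (hfin : {v : Place K F | Thr B 𝔪 v ∧ v.ord f ≠ 0}.Finite)
    (hrat : ∀ v : Place K F, Thr B 𝔪 v → v.ord f ≠ 0 →
      Function.Surjective (algebraMap K v.ResidueField)) :
    ∃ G' : F, G' ≠ 0 ∧ LocUnit B 𝔪
      (Dl (SemilinearAut.toRingAut σ) (Dl (SemilinearAut.toRingAut σ) f) / G' ^ m) := by
  have hinjRF : Function.Injective (algebraMap R F) := by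
    rw [IsScalarTower.algebraMap_eq R K F]
    exact (algebraMap K F).injective.comp (IsFractionRing.injective R K)
  set s : F ≃+* F := SemilinearAut.toRingAut σ with hs
  set s₂ : F ≃+* F := SemilinearAut.toRingAut (σ * σ) with hs₂
  have hs₂app : ∀ x : F, s₂ x = s (s x) := fun _ => rfl
  have hs₂symm : ∀ x : F, s₂.symm x = s.symm (s.symm x) := by
    intro x
    apply s₂.injective
    rw [RingEquiv.apply_symm_apply, hs₂app, RingEquiv.apply_symm_apply,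
      RingEquiv.apply_symm_apply]
  have hB₂ : ∀ x : F, x ∈ B ↔ s₂ x ∈ B := fun x => by
    rw [hs₂app]
    exact (hB x).trans (hB (s x))
  have hsemi₂ : ∀ r : R, ∃ r' : R, s₂ (algebraMap R F r) = algebraMap R F r' := by
    intro r
    obtain ⟨r₁, h₁⟩ := hsemi r
    obtain ⟨r₂, h₂⟩ := hsemi r₁
    exact ⟨r₂, by rw [hs₂app, h₁, h₂]⟩
  have hsemi₂' : ∀ r : R, ∃ r' : R, s₂.symm (algebraMap R F r) = algebraMap R F r' := by
    intro r
    obtain ⟨r₁, h₁⟩ := hsemi' r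
    obtain ⟨r₂, h₂⟩ := hsemi' r₁
    exact ⟨r₂, by rw [hs₂symm, h₁, h₂]⟩
  set σB : B ≃+* B := sigmaB B s₂ hB₂ with hσB
  set σR : R ≃+* R := sigmaR s₂ hinjRF hsemi₂ hsemi₂' with hσR
  have hσ : ∀ r : R, σB (algebraMap R B r) = algebraMap R B (σR r) :=
    sigmaB_algebraMap B s₂ hB₂ hinjRF hsemi₂ hsemi₂'
  obtain ⟨ε, hε⟩ := sigmaR_pi π O1 (fun r => leO1 _ (B.algebraMap_mem r)) pi_nonunit1 dvrR s₂
    hinjRF hsemi₂ hsemi₂' (hdl1 _ pi_ne).1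
    (by
      have := (hdl1 _ pi_ne).2
      rwa [Dl, inv_div] at this)
  have hcoe : ∀ b : B, ((σB b : B) : F) = (σ * σ) • (b : F) := fun _ => rfl
  have hσ𝔪 : ∀ b, σB b ∈ 𝔪 ↔ b ∈ 𝔪 := by
    intro b
    obtain ⟨b', eb', hb'⟩ := frob b
    have hbb : σB b = b' := Subtype.ext (by rw [eb']; rfl)
    rw [hbb]
    constructor
    · intro h
      have : b ^ (q ^ 2) ∈ 𝔪 := by
        have := 𝔪.sub_mem h hb'
        simpa using this
      exact h𝔪p.mem_of_pow_mem _ this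
    · intro h
      have h2 : b ^ (q ^ 2) ∈ 𝔪 := 𝔪.pow_mem_of_mem h _ (pow_pos hq 2)
      have := 𝔪.add_mem hb' h2
      simpa using this
  have hπK : algebraMap R K π ≠ 0 := by
    intro h
    apply pi_ne
    rw [IsScalarTower.algebraMap_apply R K F, h, map_zero]
  have frac' : ∀ z : F, ∃ a b : B, b ≠ 0 ∧ z * (b : F) = (a : F) := by
    intro z
    obtain ⟨a, ha, b, hb, hb0, hab⟩ := frac z
    exact ⟨⟨a, ha⟩, ⟨b, hb⟩, fun h => hb0 (congrArg Subtype.val h), hab⟩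
  have := noethB
  refine gen_of_places π t B O1 O2 ht noethB fracR dvrR pi_ne intcl int0 frac leO1 leO2 arch1 arch2
    sat 𝔪 σ q hdl1 hdl2 frob (fun v hv => thr_inv_smul B 𝔪 (σ * σ) σB hcoe hσ𝔪 v hv) m hm f hf hmf
    hfin ?_
  intro v hv hord
  obtain ⟨ev, hev, h𝔪⟩ := exists_section_of_rational π hπ t B ht fracR int0 𝔪 h𝔪p.ne_top hπ𝔪 v
    (hrat v hv hord) hv
  exact Fermat.Agent.ES.N34.NodeGlue6.node_hyp_of_sections π hπ hπK B frac' 𝔪 x₀ y₀ w₀ d₀ hx₀ hy₀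
    hgen₀ hd₀ hmul₀ (σ * σ) σR σB hσ ε hε hσ𝔪
    (fun v ev hev => isPointOf_conj B (σ * σ) σR σB hσ hcoe v ev hev)
    (fun v w ev hv hw => place_eq_of_isPointOf π t B ht noethB fracR dvrR pi_ne intcl int0 frac
      v w ev hv hw) v ev hev h𝔪

end Rational

section Model

variable {R K F : Type*} [CommRing R] [IsDomain R] [IsDiscreteValuationRing R] [Field K] [Field F]
  [Algebra R K] [Algebra K F] [Algebra R F] [IsScalarTower R K F]

variable {π : R} {t : F} {B0 B1 : Subalgebra R F} {O1 O2 : ValuationSubring F}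

open Fermat.Agent.ES.N34.NumData13

/-- `gen` on the chart `B0` of a `NodalNumData` (pattern of `NumGlue13.nodeDatum_B0`). -/
theorem gen_B0 (D : NodalNumData R K F π t B0 B1 O1 O2) (hπ : Irreducible π)
    (σ : SemilinearAut K F) (q : ℕ) (hq : 0 < q)
    (hdl1 : ∀ y : F, y ≠ 0 → Dl (SemilinearAut.toRingAut σ) y ∈ O1 ∧
      (Dl (SemilinearAut.toRingAut σ) y)⁻¹ ∈ O1)
    (hdl2 : ∀ y : F, y ≠ 0 → Dl (SemilinearAut.toRingAut σ) y ∈ O2 ∧
      (Dl (SemilinearAut.toRingAut σ) y)⁻¹ ∈ O2)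
    (hB : ∀ x : F, x ∈ B0 ↔ SemilinearAut.toRingAut σ x ∈ B0)
    (hsemi : ∀ r : R, ∃ r' : R,
      SemilinearAut.toRingAut σ (algebraMap R F r) = algebraMap R F r')
    (hsemi' : ∀ r : R, ∃ r' : R,
      (SemilinearAut.toRingAut σ).symm (algebraMap R F r) = algebraMap R F r')
    (m : ℕ) (hm : 0 < m) (f : F) (hf : f ≠ 0) (hord : ∀ v : Place K F, (m : ℤ) ∣ v.ord f)
    (hfin : {v : Place K F | v.ord f ≠ 0}.Finite)
    (hrat : ∀ v : Place K F, v.ord f ≠ 0 → Function.Surjective (algebraMap K v.ResidueField))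
    (𝔪 : Ideal B0) (h𝔪 : 𝔪.IsMaximal) (hπ𝔪 : algebraMap R B0 π ∈ 𝔪)
    (hnc : NodeCoords π B0 𝔪)
    (frob : ∀ b : B0, ∃ b' : B0, (b' : F) =
      SemilinearAut.toRingAut σ (SemilinearAut.toRingAut σ (b : F)) ∧ b' - b ^ (q ^ 2) ∈ 𝔪) :
    ∃ G' : F, G' ≠ 0 ∧ LocUnit B0 𝔪
      (Dl (SemilinearAut.toRingAut σ) (Dl (SemilinearAut.toRingAut σ) f) / G' ^ m) := by
  have M := D.model
  have := h𝔪.isPrime
  obtain ⟨x₀, y₀, hx₀, hy₀, ⟨d₀, hd₀, w₀, hmul₀⟩, hgen₀⟩ := hnc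
  exact gen_of_rational (K := K) π hπ t B0 O1 O2 M.t_mem D.noeth0 D.fracR D.dvrR
    M.pi_ne M.pi_nonunit1 M.intcl0 M.int0 D.frac0 M.le_O1_0 M.le_O2_0 M.arch1
    M.arch2 M.sat0 𝔪 hπ𝔪 x₀ y₀ w₀ d₀ hx₀ hy₀ hgen₀ hd₀ hmul₀ σ q hq hdl1 hdl2 hB hsemi hsemi' frob
    m hm f hf hord (hfin.subset fun v hv => hv.2) (fun v _ hv => hrat v hv)

/-- `gen` on the chart `B1` of a `NodalNumData` (pattern of `NumGlue13.nodeDatum_B1`). -/
theorem gen_B1 (D : NodalNumData R K F π t B0 B1 O1 O2) (hπ : Irreducible π)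
    (σ : SemilinearAut K F) (q : ℕ) (hq : 0 < q)
    (hdl1 : ∀ y : F, y ≠ 0 → Dl (SemilinearAut.toRingAut σ) y ∈ O1 ∧
      (Dl (SemilinearAut.toRingAut σ) y)⁻¹ ∈ O1)
    (hdl2 : ∀ y : F, y ≠ 0 → Dl (SemilinearAut.toRingAut σ) y ∈ O2 ∧
      (Dl (SemilinearAut.toRingAut σ) y)⁻¹ ∈ O2)
    (hB : ∀ x : F, x ∈ B1 ↔ SemilinearAut.toRingAut σ x ∈ B1)
    (hsemi : ∀ r : R, ∃ r' : R,
      SemilinearAut.toRingAut σ (algebraMap R F r) = algebraMap R F r')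
    (hsemi' : ∀ r : R, ∃ r' : R,
      (SemilinearAut.toRingAut σ).symm (algebraMap R F r) = algebraMap R F r')
    (m : ℕ) (hm : 0 < m) (f : F) (hf : f ≠ 0) (hord : ∀ v : Place K F, (m : ℤ) ∣ v.ord f)
    (hfin : {v : Place K F | v.ord f ≠ 0}.Finite)
    (hrat : ∀ v : Place K F, v.ord f ≠ 0 → Function.Surjective (algebraMap K v.ResidueField))
    (𝔪 : Ideal B1) (h𝔪 : 𝔪.IsMaximal) (hπ𝔪 : algebraMap R B1 π ∈ 𝔪)
    (hnc : NodeCoords π B1 𝔪)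
    (frob : ∀ b : B1, ∃ b' : B1, (b' : F) =
      SemilinearAut.toRingAut σ (SemilinearAut.toRingAut σ (b : F)) ∧ b' - b ^ (q ^ 2) ∈ 𝔪) :
    ∃ G' : F, G' ≠ 0 ∧ LocUnit B1 𝔪
      (Dl (SemilinearAut.toRingAut σ) (Dl (SemilinearAut.toRingAut σ) f) / G' ^ m) := by
  have M := D.model
  have := h𝔪.isPrime
  obtain ⟨x₀, y₀, hx₀, hy₀, ⟨d₀, hd₀, w₀, hmul₀⟩, hgen₀⟩ := hnc
  exact gen_of_rational (K := K) π hπ t⁻¹ B1 O1 O2 M.tinv_mem D.noeth1 D.fracR D.dvrR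
    M.pi_ne M.pi_nonunit1 M.intcl1 M.int1 D.frac1 M.le_O1_1 M.le_O2_1 M.arch1
    M.arch2 M.sat1 𝔪 hπ𝔪 x₀ y₀ w₀ d₀ hx₀ hy₀ hgen₀ hd₀ hmul₀ σ q hq hdl1 hdl2 hB hsemi hsemi' frob
    m hm f hf hord (hfin.subset fun v hv => hv.2) (fun v _ hv => hrat v hv)

end Model

end Fermat.Agent.ES.N35.GenNode10
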