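/-
Program O (S35), helper29, brick B5: suppliers of the fields `glue` and `int_j` of
`ThirdDiffCL29.NodeHyp` from what Program N's MODEL chapter proves.

* `glue_of_coords` : from the STRONG node coordinates (`NodeCoords29.nodeCoords_strong`: `x ∈ π O2`,
  `y ∈ π O1`, `𝔪 ⊆ (π, x, y)` up to denominators, i.e. transversality `𝔭₁ + 𝔭₂ = 𝔪 B_𝔪`):
  two elements of `1 + 𝔪 B_𝔪` are glued to a local unit `ρ` with `ρ ~₁ ρ₁`, `ρ ~₂ ρ₂`.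
* `int_of_comp` : from (C) (`CompN16.comp_surj`: `B = φ(B⁰) + (B ∩ π O_j)`), residue degree one (F1)
  and `B⁰ / π` an integrally closed domain: if `x ^ m ~_j` a local unit then `x ~_j` a local unit
  (the branch `(B / 𝔭_j)_𝔪` is integrally closed).
-/
import Mathlib
import Fermat.Agent.ES.RED.FibreSurj17
import Fermat.Agent.ES.N34.CompN16
import Fermat.Agent.ES.N35.ThirdDiffCL29

set_option autoImplicit false

namespace Fermat.Agent.ES.N35.NodeHyp29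

open Fermat.Agent.ES.N35.MulCong29 Fermat.Agent.ES.N35.ThirdDiff29
open Fermat.Agent.ES.N34.NodalCore13

variable {R F : Type*} [CommRing R] [Field F] [Algebra R F]

/-- an element of the chart outside `𝔪` is a unit of `O_j`, if the component `j` passes through `𝔪` -/
theorem inv_mem_of_not_mem (π : R) (B : Subalgebra R F) (Oj : ValuationSubring F)
    (leO : ∀ x ∈ B, x ∈ Oj)
    (unif : ∀ x ∈ Oj, x⁻¹ ∉ Oj → ∃ c ∈ Oj, x = algebraMap R F π * c)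
    (𝔪 : Ideal B) (hon : ∀ e : B, (∃ c ∈ Oj, (e : F) = algebraMap R F π * c) → e ∈ 𝔪)
    {b : B} (hb : b ∉ 𝔪) : ((b : F))⁻¹ ∈ Oj := by
  by_contra h
  exact hb (hon b (unif _ (leO _ b.2) h))

/-- **glue.** -/
theorem glue_of_coords (π : R) (B : Subalgebra R F) (O1 O2 : ValuationSubring F)
    (leO1 : ∀ x ∈ B, x ∈ O1) (leO2 : ∀ x ∈ B, x ∈ O2)
    (unif1 : ∀ x ∈ O1, x⁻¹ ∉ O1 → ∃ c ∈ O1, x = algebraMap R F π * c)
    (unif2 : ∀ x ∈ O2, x⁻¹ ∉ O2 → ∃ c ∈ O2, x = algebraMap R F π * c)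
    (𝔪 : Ideal B) [h𝔪 : 𝔪.IsPrime]
    (hon1 : ∀ e : B, (∃ c ∈ O1, (e : F) = algebraMap R F π * c) → e ∈ 𝔪)
    (hon2 : ∀ e : B, (∃ c ∈ O2, (e : F) = algebraMap R F π * c) → e ∈ 𝔪)
    (x y : B) (hx : ∃ o ∈ O2, (x : F) = algebraMap R F π * o)
    (hy : ∃ o ∈ O1, (y : F) = algebraMap R F π * o)
    (hspan : ∀ f ∈ 𝔪, ∃ d : B, d ∉ 𝔪 ∧ ∃ a b e : B,
      d * f = a * x + b * y + algebraMap R B π * e)
    (ρ₁ ρ₂ : F) (h1 : LocOne B 𝔪 ρ₁) (h2 : LocOne B 𝔪 ρ₂) :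
    ∃ ρ, LocUnit B 𝔪 ρ ∧ MC (algebraMap R F π) O1 ρ ρ₁ ∧ MC (algebraMap R F π) O2 ρ ρ₂ := by
  obtain ⟨a₁, b₁, hb₁, hab₁, e₁⟩ := h1
  obtain ⟨a₂, b₂, hb₂, hab₂, e₂⟩ := h2
  have ha₁ : a₁ ∉ 𝔪 := fun h => hb₁ (by
    have : b₁ = a₁ - (a₁ - b₁) := by ring
    rw [this]; exact 𝔪.sub_mem h hab₁)
  have ha₂ : a₂ ∉ 𝔪 := fun h => hb₂ (by
    have : b₂ = a₂ - (a₂ - b₂) := by ring
    rw [this]; exact 𝔪.sub_mem h hab₂)
  have hf : a₁ * b₂ - a₂ * b₁ ∈ 𝔪 := by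
    have : a₁ * b₂ - a₂ * b₁ = (a₁ - b₁) * b₂ - (a₂ - b₂) * b₁ := by ring
    rw [this]
    exact 𝔪.sub_mem (𝔪.mul_mem_right _ hab₁) (𝔪.mul_mem_right _ hab₂)
  obtain ⟨d, hd, a, b, e, hde⟩ := hspan _ hf
  obtain ⟨ox, hox, hxo⟩ := hx
  obtain ⟨oy, hoy, hyo⟩ := hy
  have hb₁0 := coe_ne_zero_of_not_mem (𝔪 := 𝔪) hb₁
  have hb₂0 := coe_ne_zero_of_not_mem (𝔪 := 𝔪) hb₂
  have ha₁0 := coe_ne_zero_of_not_mem (𝔪 := 𝔪) ha₁
  have ha₂0 := coe_ne_zero_of_not_mem (𝔪 := 𝔪) ha₂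
  have hd0 := coe_ne_zero_of_not_mem (𝔪 := 𝔪) hd
  have hρ₁ : ρ₁ = (a₁ : F) / (b₁ : F) := by rw [← e₁]; field_simp
  have hρ₂ : ρ₂ = (a₂ : F) / (b₂ : F) := by rw [← e₂]; field_simp
  -- the identity in `F`
  have hdeF : (d : F) * ((a₁ : F) * b₂ - a₂ * b₁) =
      (a : F) * x + b * y + algebraMap R F π * e := by
    have := congrArg (Subtype.val) hde
    simpa using this
  -- `P₁ := b y + π e ∈ π O1`, `P₂ := a x ∈ π O2`
  set P₁ : F := (b : F) * y + algebraMap R F π * e with hP₁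
  set P₂ : F := (a : F) * x with hP₂
  have hP₁π : ∃ c ∈ O1, P₁ = algebraMap R F π * c :=
    ⟨(b : F) * oy + e, O1.add_mem _ _ (O1.mul_mem _ _ (leO1 _ b.2) hoy) (leO1 _ e.2), by
      rw [hP₁, hyo]; ring⟩
  have hP₂π : ∃ c ∈ O2, P₂ = algebraMap R F π * c :=
    ⟨(a : F) * ox, O2.mul_mem _ _ (leO2 _ a.2) hox, by rw [hP₂, hxo]; ring⟩
  -- the numerator `A := a₁ d b₂ - (b y + π e) ∉ 𝔪`
  let A : B := a₁ * d * b₂ - (b * y + algebraMap R B π * e)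
  have hyπ𝔪 : b * y + algebraMap R B π * e ∈ 𝔪 := by
    apply hon1
    obtain ⟨c, hc, hPc⟩ := hP₁π
    exact ⟨c, hc, by rw [← hPc, hP₁]; push_cast; rfl⟩
  have hA : A ∉ 𝔪 := by
    intro h
    have : a₁ * d * b₂ ∈ 𝔪 := by
      have e' : a₁ * d * b₂ = A + (b * y + algebraMap R B π * e) := by
        simp only [A]; ring
      rw [e']; exact 𝔪.add_mem h hyπ𝔪
    rcases h𝔪.mem_or_mem this with h' | h'
    · exact (h𝔪.mem_or_mem h').elim ha₁ hd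
    · exact hb₂ h'
  have hAF : (A : F) = (a₁ : F) * d * b₂ - P₁ := by
    simp only [A, hP₁]; push_cast; rfl
  have hden : d * b₁ * b₂ ∉ 𝔪 := fun h =>
    (h𝔪.mem_or_mem h).elim (fun h' => (h𝔪.mem_or_mem h').elim hd hb₁) hb₂
  refine ⟨(A : F) / ((d : F) * b₁ * b₂), ⟨A, d * b₁ * b₂, hA, hden, ?_⟩, ?_, ?_⟩
  · push_cast; field_simp
  · -- `ρ / ρ₁ - 1 = - P₁ / (d b₂ a₁)`
    obtain ⟨c, hc, hPc⟩ := hP₁π
    have hu : ((d : F) * b₂ * a₁)⁻¹ ∈ O1 := by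
      rw [mul_inv, mul_inv]
      exact O1.mul_mem _ _ (O1.mul_mem _ _
        (inv_mem_of_not_mem π B O1 leO1 unif1 𝔪 hon1 hd)
        (inv_mem_of_not_mem π B O1 leO1 unif1 𝔪 hon1 hb₂))
        (inv_mem_of_not_mem π B O1 leO1 unif1 𝔪 hon1 ha₁)
    refine ⟨-(c * ((d : F) * b₂ * a₁)⁻¹), O1.neg_mem _ (O1.mul_mem _ _ hc hu), ?_⟩
    rw [hρ₁, hAF, hPc]
    field_simp
    ring
  · -- `ρ / ρ₂ - 1 = P₂ / (d b₁ a₂)`
    obtain ⟨c, hc, hPc⟩ := hP₂π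
    have hu : ((d : F) * b₁ * a₂)⁻¹ ∈ O2 := by
      rw [mul_inv, mul_inv]
      exact O2.mul_mem _ _ (O2.mul_mem _ _
        (inv_mem_of_not_mem π B O2 leO2 unif2 𝔪 hon2 hd)
        (inv_mem_of_not_mem π B O2 leO2 unif2 𝔪 hon2 hb₁))
        (inv_mem_of_not_mem π B O2 leO2 unif2 𝔪 hon2 ha₂)
    refine ⟨c * ((d : F) * b₁ * a₂)⁻¹, O2.mul_mem _ _ hc hu, ?_⟩
    have hA2 : (A : F) = (a₂ : F) * d * b₁ + P₂ := by
      rw [hAF]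
      have : P₁ + P₂ = (d : F) * ((a₁ : F) * b₂ - a₂ * b₁) := by
        rw [hdeF, hP₁, hP₂]; ring
      linear_combination -this
    rw [hρ₂, hA2, hPc]
    field_simp
    ring

/-- in a valuation subring: `x ^ m ∈ O`, `0 < m` ⇒ `x ∈ O` -/
theorem mem_of_pow_mem (O : ValuationSubring F) {x : F} {m : ℕ} (hm : 0 < m) (h : x ^ m ∈ O) :
    x ∈ O := by
  rcases O.mem_or_inv_mem x with hx | hx
  · exact hx
  · -- `x⁻¹ ∈ O` and `x^m ∈ O` ⇒ `x = x^m * (x⁻¹)^(m-1) ∈ O`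
    by_cases hx0 : x = 0
    · rw [hx0]; exact O.zero_mem
    have : x = x ^ m * (x⁻¹) ^ (m - 1) := by
      obtain ⟨k, rfl⟩ : ∃ k, m = k + 1 := ⟨m - 1, by omega⟩
      rw [Nat.add_sub_cancel, pow_succ, inv_pow]
      field_simp
    rw [this]
    exact O.mul_mem _ _ h (pow_mem hx _)

/-- **int.**  The branch `(B / 𝔭_j)_𝔪` is integrally closed. -/
theorem int_of_comp (π : R) (B : Subalgebra R F) (Oj : ValuationSubring F)
    (leO : ∀ x ∈ B, x ∈ Oj) (hpO : algebraMap R F π ∈ Oj)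
    (pi_nonunit : (algebraMap R F π)⁻¹ ∉ Oj)
    (unif : ∀ x ∈ Oj, x⁻¹ ∉ Oj → ∃ c ∈ Oj, x = algebraMap R F π * c)
    {B0 : Type*} [CommRing B0] [Algebra R B0] (φ : B0 →ₐ[R] F) (hφB : ∀ b : B0, φ b ∈ B)
    (hker : ∀ b : B0, (∃ c ∈ Oj, φ b = algebraMap R F π * c) →
      b ∈ Ideal.span {algebraMap R B0 π})
    [IsDomain (B0 ⧸ Ideal.span {algebraMap R B0 π})]
    [IsIntegrallyClosed (B0 ⧸ Ideal.span {algebraMap R B0 π})]
    (hF1 : ∀ x ∈ Oj, ∃ a b : B0, (¬ ∃ c ∈ Oj, φ b = algebraMap R F π * c) ∧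
      ∃ c ∈ Oj, x * φ b - φ a = algebraMap R F π * c)
    (hsurj : ∀ y ∈ B, ∃ b : B0, ∃ c ∈ Oj, y - φ b = algebraMap R F π * c)
    (𝔪 : Ideal B) [h𝔪 : 𝔪.IsPrime]
    (hon : ∀ e : B, (∃ c ∈ Oj, (e : F) = algebraMap R F π * c) → e ∈ 𝔪)
    (m : ℕ) (hm : 0 < m) (x : F)
    (hx : ∃ e, LocUnit B 𝔪 e ∧ MC (algebraMap R F π) Oj (x ^ m) e) :
    ∃ b, LocUnit B 𝔪 b ∧ MC (algebraMap R F π) Oj x b := by
  classical
  obtain ⟨e, ⟨a, b, ha, hb, hab⟩, hxe⟩ := hx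
  have hres := Fermat.Agent.ES.N34.CompN16.residue_eq_zero_iff π Oj pi_nonunit unif
  have hinv : ∀ {z : B}, z ∉ 𝔪 → ((z : F))⁻¹ ∈ Oj := fun hz =>
    inv_mem_of_not_mem π B Oj leO unif 𝔪 hon hz
  have ha0 := coe_ne_zero_of_not_mem (𝔪 := 𝔪) ha
  have hb0 := coe_ne_zero_of_not_mem (𝔪 := 𝔪) hb
  have he : e = (a : F) / (b : F) := by rw [← hab]; field_simp
  have heO : e ∈ Oj := by
    rw [he, div_eq_mul_inv]; exact Oj.mul_mem _ _ (leO _ a.2) (hinv hb)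
  -- `x ∈ O_j`
  have hxm : x ^ m ∈ Oj := by
    have h1 : x ^ m / e ∈ Oj := One1.mem hpO hxe
    have h2 : x ^ m = x ^ m / e * e := by
      have : e ≠ 0 := by rw [he]; exact div_ne_zero ha0 hb0
      field_simp
    rw [h2]; exact Oj.mul_mem _ _ h1 heO
  have hxO : x ∈ Oj := mem_of_pow_mem Oj hm hxm
  -- the residue maps
  let φO : B0 →+* Oj := (φ : B0 →+* F).codRestrict Oj.toSubring (fun b => leO _ (hφB b))
  have hφO : ∀ b, ((φO b : Oj) : F) = φ b := fun b => rfl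
  let ρ : B0 →+* IsLocalRing.ResidueField Oj := (IsLocalRing.residue Oj).comp φO
  have hρ : ∀ b, ρ b = IsLocalRing.residue Oj (φO b) := fun b => rfl
  have hkerρ : ∀ b, ρ b = 0 ↔ b ∈ Ideal.span {algebraMap R B0 π} := by
    intro b
    rw [hρ, hres, hφO]
    refine ⟨hker b, fun hb => ?_⟩
    obtain ⟨b', rfl⟩ := Ideal.mem_span_singleton'.mp hb
    refine ⟨φ b', leO _ (hφB b'), ?_⟩
    rw [map_mul, AlgHom.commutes, mul_comm]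
  -- lifts of `a`, `b` to `B⁰`
  obtain ⟨a₁, ca, hca, haa⟩ := hsurj a a.2
  obtain ⟨b₁, cb, hcb, hbb⟩ := hsurj b b.2
  let φB : B0 →+* B := (φ : B0 →+* F).codRestrict B.toSubring hφB
  have hφB' : ∀ z, ((φB z : B) : F) = φ z := fun z => rfl
  have ha₁ : φB a₁ ∉ 𝔪 := by
    intro h
    apply ha
    have h1 : a - φB a₁ ∈ 𝔪 := hon _ ⟨ca, hca, by
      show (a : F) - φ a₁ = _
      exact haa⟩
    have : a = (a - φB a₁) + φB a₁ := by ring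
    rw [this]; exact 𝔪.add_mem h1 h
  have hb₁ : φB b₁ ∉ 𝔪 := by
    intro h
    apply hb
    have h1 : b - φB b₁ ∈ 𝔪 := hon _ ⟨cb, hcb, by
      show (b : F) - φ b₁ = _
      exact hbb⟩
    have : b = (b - φB b₁) + φB b₁ := by ring
    rw [this]; exact 𝔪.add_mem h1 h
  -- residues
  set xO : Oj := ⟨x, hxO⟩ with hxOdef
  set xb : IsLocalRing.ResidueField Oj := IsLocalRing.residue Oj xO with hxb
  -- `x̄ ^ m * ρ b₁ = ρ a₁`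
  have hkey : xb ^ m * ρ b₁ = ρ a₁ := by
    rw [hxb, hρ, hρ, ← map_pow, ← map_mul, ← sub_eq_zero, ← map_sub, hres]
    -- `x^m φ b₁ - φ a₁ ∈ π O_j`
    obtain ⟨c, hc, hcx⟩ := hxe
    -- `x^m / e - 1 = π c`, `e b = a`, `a = φ a₁ + π ca`, `b = φ b₁ + π cb`
    have h1 : x ^ m * (b : F) = (a : F) * (1 + algebraMap R F π * c) := by
      have : x ^ m / e = 1 + algebraMap R F π * c := by rw [← hcx]; ring
      have he0 : e ≠ 0 := by rw [he]; exact div_ne_zero ha0 hb0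
      rw [div_eq_iff he0] at this
      rw [this, ← hab]; ring
    refine ⟨(a : F) * c + ca - x ^ m * cb, ?_, ?_⟩
    · exact sub_mem (Oj.add_mem _ _ (Oj.mul_mem _ _ (leO _ a.2) hc) hca)
        (Oj.mul_mem _ _ hxm hcb)
    · show x ^ m * φ b₁ - φ a₁ = _
      linear_combination h1 - (x ^ m) * hbb + haa
  -- `y := x̄ ρ b₁` is integral over `ρ(B⁰)` and a quotient
  obtain ⟨a₀, b₀, hb₀, c₀, hc₀, hab₀⟩ := hF1 x hxO
  have hρb₀ : ρ b₀ ≠ 0 := by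
    rw [Ne, hρ, hres, hφO]; exact hb₀
  have hxab : xb * ρ b₀ = ρ a₀ := by
    rw [hxb, hρ, hρ, ← map_mul, ← sub_eq_zero, ← map_sub, hres]
    exact ⟨c₀, hc₀, by
      show x * φ b₀ - φ a₀ = _
      exact hab₀⟩
  have hy : (xb * ρ b₁) * ρ b₀ = ρ (a₀ * b₁) := by
    rw [map_mul, ← hxab]; ring
  have hym : (xb * ρ b₁) ^ m = ρ (b₁ ^ (m - 1) * a₁) := by
    obtain ⟨k, rfl⟩ : ∃ k, m = k + 1 := ⟨m - 1, by omega⟩
    rw [Nat.add_sub_cancel, map_mul, map_pow, ← hkey, mul_pow, pow_succ (ρ b₁)]; ring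
  have hint : IsIntegral ρ.range (xb * ρ b₁) := by
    refine ⟨Polynomial.X ^ m - Polynomial.C ⟨ρ (b₁ ^ (m - 1) * a₁), ⟨_, rfl⟩⟩,
      Polynomial.monic_X_pow_sub_C _ hm.ne', ?_⟩
    rw [Polynomial.eval₂_sub, Polynomial.eval₂_pow, Polynomial.eval₂_X, Polynomial.eval₂_C, hym]
    exact sub_self _
  obtain ⟨c, hc⟩ := Fermat.Agent.ES.RED.FibreSurj17.exists_map_eq_of_isIntegral ρ
    (Ideal.span {algebraMap R B0 π}) hkerρ hρb₀ hy hint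
  -- `c ∉ 𝔪⁰`
  have hπ𝔪 : ∀ z : B0, z ∈ Ideal.span {algebraMap R B0 π} → φB z ∈ 𝔪 := by
    intro z hz
    obtain ⟨z', rfl⟩ := Ideal.mem_span_singleton'.mp hz
    apply hon
    refine ⟨φ z', leO _ (hφB z'), ?_⟩
    rw [hφB', map_mul, AlgHom.commutes, mul_comm]
  have hc𝔪 : φB c ∉ 𝔪 := by
    intro h
    have h1 : ρ (c ^ m - b₁ ^ (m - 1) * a₁) = 0 := by
      rw [map_sub, map_pow, hc, hym, sub_self]
    have h2 := hπ𝔪 _ ((hkerρ _).mp h1)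
    rw [map_sub, map_pow, map_mul, map_pow] at h2
    have h3 : φB b₁ ^ (m - 1) * φB a₁ ∈ 𝔪 := by
      have : φB b₁ ^ (m - 1) * φB a₁ = φB c ^ m - (φB c ^ m - φB b₁ ^ (m - 1) * φB a₁) := by ring
      rw [this]
      exact 𝔪.sub_mem (𝔪.pow_mem_of_mem h m hm) h2
    rcases h𝔪.mem_or_mem h3 with h4 | h4
    · exact hb₁ (h𝔪.mem_of_pow_mem _ h4)
    · exact ha₁ h4
  -- the local unit `φ c / φ b₁`
  have hc0 := coe_ne_zero_of_not_mem (𝔪 := 𝔪) hc𝔪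
  have hb₁0 := coe_ne_zero_of_not_mem (𝔪 := 𝔪) hb₁
  rw [hφB'] at hc0 hb₁0
  refine ⟨φ c / φ b₁, ⟨φB c, φB b₁, hc𝔪, hb₁, ?_⟩, ?_⟩
  · rw [hφB', hφB']; field_simp
  · -- `x φ b₁ - φ c ∈ π O_j`
    have h1 : IsLocalRing.residue Oj (xO * φO b₁ - φO c) = 0 := by
      rw [map_sub, map_mul, ← hρ, ← hρ, hc, hxb, sub_self]
    obtain ⟨c', hc', hcc⟩ := (hres _).mp h1
    have hcc' : x * φ b₁ - φ c = algebraMap R F π * c' := hcc
    refine ⟨c' * (φ c)⁻¹, Oj.mul_mem _ _ hc' (hinv hc𝔪), ?_⟩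
    have : x / (φ c / φ b₁) - 1 = (x * φ b₁ - φ c) * (φ c)⁻¹ := by field_simp
    rw [this, hcc']; ring

end Fermat.Agent.ES.N35.NodeHyp29
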