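/-
Program O (S35), brick B5 supplier (helper16): the fields `int1`, `int2` of
`ThirdDiffCL29.NodeHyp` ("the branch `(B / 𝔭_j)_𝔪` is integrally closed") at the `ModelDefs9` data,
at every closed point of both charts through which the branch passes, for all large normal number
fields `K` and every uniformiser `π` — no residual hypotheses.

* `IntAt π B Oj 𝔪` : the field `int_j` of `NodeHyp`, for every exponent `m > 0`;
* `intAt_of_compData` : `NodeHyp29.int_of_comp` fed with a `CompData16.CompData` bundle;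
* `IntNodeItems`, `intNodeItems_at`, `intNode_four/_nine : Large (IntNodeItems …)` (same binder
  shape as `GlueNode29.GlueNodeItems`).
-/
import Mathlib
import Fermat.Agent.ES.N35.NodeHyp29
import Fermat.Agent.ES.N35.CompItems16

set_option autoImplicit false
set_option synthInstance.maxHeartbeats 400000
set_option linter.unusedSectionVars false

noncomputable section

open HahnSeries ModularCurve IntermediateField

namespace Fermat.Agent.ES.N35.IntNode16

open Fermat.Agent.ES.N35.MulCong29 Fermat.Agent.ES.N35.ThirdDiff29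
open Fermat.Agent.ES.N34.NodalCore13
open Fermat.Agent.ES.N35.CompData16 Fermat.Agent.ES.N35.CompItems16

section Generic

variable {R F : Type*} [CommRing R] [Field F] [Algebra R F]

/-- The field `int_j` of `ThirdDiffCL29.NodeHyp`, for every exponent `m > 0`: if `x ^ m` is
`~_j` a unit of `B_𝔪` then so is `x`. -/
def IntAt (π : R) (B : Subalgebra R F) (Oj : ValuationSubring F) (𝔪 : Ideal B) : Prop :=
  ∀ m : ℕ, 0 < m → ∀ x : F,
    (∃ e, LocUnit B 𝔪 e ∧ MC (algebraMap R F π) Oj (x ^ m) e) →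
      ∃ b, LocUnit B 𝔪 b ∧ MC (algebraMap R F π) Oj x b

/-- `¬ OffBranch` in the shape `hon` of `NodeHyp29.int_of_comp` / `glue_of_coords`. -/
theorem on_of_not_off {π : R} {B : Subalgebra R F} {Oj : ValuationSubring F} {𝔪 : Ideal B}
    (h : ¬ OffBranch π B Oj 𝔪) :
    ∀ e : B, (∃ c ∈ Oj, (e : F) = algebraMap R F π * c) → e ∈ 𝔪 := by
  intro e he
  by_contra he𝔪
  exact h ⟨e, he𝔪, he⟩

/-- **int from (C).** -/
theorem intAt_of_compData (π : R) (B : Subalgebra R F) (Oj : ValuationSubring F)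
    (leO : ∀ x ∈ B, x ∈ Oj) (hpO : algebraMap R F π ∈ Oj)
    (pi_nonunit : (algebraMap R F π)⁻¹ ∉ Oj)
    (unif : ∀ x ∈ Oj, x⁻¹ ∉ Oj → ∃ c ∈ Oj, x = algebraMap R F π * c)
    {B0 : Type*} [CommRing B0] [Algebra R B0] (φ : B0 →ₐ[R] F) (h : CompData π B Oj φ)
    (𝔪 : Ideal B) [𝔪.IsPrime] (hoff : ¬ OffBranch π B Oj 𝔪) : IntAt π B Oj 𝔪 := by
  intro m hm x hx
  have := h.dom
  have := h.intcl
  exact NodeHyp29.int_of_comp π B Oj leO hpO pi_nonunit unif φ h.hφB h.hker h.hF1 h.hsurj 𝔪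
    (on_of_not_off hoff) m hm x hx

end Generic

section Concrete

open Fermat.Agent.RED.Interface4 Fermat.Agent.RED.ModelTargets4
  Fermat.Agent.RED.PUR.GaussGen8 Fermat.Agent.RED.BASE.EtaQuot12
  Fermat.Agent.RED.PUR.ChartGeneric22
  Fermat.Agent.ES.N34.ModelDefs9 Fermat.Agent.ES.N34.ModelN4 Fermat.Agent.ES.N34.ModelTop4

variable (n e q M' : ℕ) [NeZero n] [NeZero M'] [NeZero q] (A : ValuationSubring Qbar)

/-- B5 (int) at `K`: `IntAt` for both branches at every two-branch closed point of both charts, for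
every uniformiser (binder shape of `GlueNode29.GlueNodeItems`). -/
def IntNodeItems (K : IntermediateField ℚ Qbar) : Prop :=
  ∀ (ht : tq (↥K) n e ∈ FK M' K) (hE : FK (M' * q) K ≤ fracField (AK A K))
    (π : ↥(AK A K)) (hπ : IsUnif (AK A K) π),
    (∀ 𝔪 : Ideal ↥(B0 A q ht), 𝔪.IsMaximal → algebraMap ↥(AK A K) ↥(B0 A q ht) π ∈ 𝔪 →
      ¬ OffBranch π (B0 A q ht) (O1 M' q hπ hE) 𝔪 → ¬ OffBranch π (B0 A q ht) (O2 M' q hπ hE) 𝔪 →
        IntAt π (B0 A q ht) (O1 M' q hπ hE) 𝔪 ∧ IntAt π (B0 A q ht) (O2 M' q hπ hE) 𝔪) ∧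
    (∀ 𝔪 : Ideal ↥(B1 A q ht), 𝔪.IsMaximal → algebraMap ↥(AK A K) ↥(B1 A q ht) π ∈ 𝔪 →
      ¬ OffBranch π (B1 A q ht) (O1 M' q hπ hE) 𝔪 → ¬ OffBranch π (B1 A q ht) (O2 M' q hπ hE) 𝔪 →
        IntAt π (B1 A q ht) (O1 M' q hπ hE) 𝔪 ∧ IntAt π (B1 A q ht) (O2 M' q hπ hE) 𝔪)

variable {n e q M' A}

set_option maxHeartbeats 4000000 in
/-- B5 (int) at one `K`, from the glue output and `CompItems`. -/
theorem intNodeItems_at (K : IntermediateField ℚ Qbar) (hG : GlueItems n e q M' A K)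
    (hC : CompItems n e q M' A K) : IntNodeItems n e q M' A K := by
  intro ht hE π hπ
  have g := hG ht hE π hπ
  obtain ⟨c01, c02, c11, c12⟩ := hC ht hE π hπ
  refine ⟨fun 𝔪 h𝔪 _ h1 h2 => ?_, fun 𝔪 h𝔪 _ h1 h2 => ?_⟩
  · have := h𝔪.isPrime
    exact ⟨intAt_of_compData π (B0 A q ht) (O1 M' q hπ hE) g.le_O1_0 (g.R_le_O1 π) g.pi_nonunit1
        g.unif1 _ c01 𝔪 h1,
      intAt_of_compData π (B0 A q ht) (O2 M' q hπ hE) g.le_O2_0 (g.R_le_O2 π) g.pi_nonunit2
        g.unif2 _ c02 𝔪 h2⟩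
  · have := h𝔪.isPrime
    exact ⟨intAt_of_compData π (B1 A q ht) (O1 M' q hπ hE) g.le_O1_1 (g.R_le_O1 π) g.pi_nonunit1
        g.unif1 _ c11 𝔪 h1,
      intAt_of_compData π (B1 A q ht) (O2 M' q hπ hE) g.le_O2_1 (g.R_le_O2 π) g.pi_nonunit2
        g.unif2 _ c12 𝔪 h2⟩

theorem intNodeItems_of (hG : Large (GlueItems n e q M' A)) (hC : Large (CompItems n e q M' A)) :
    Large (IntNodeItems n e q M' A) := by
  obtain ⟨K₀, hK₀, h⟩ := hG.and hC
  refine ⟨K₀, hK₀, fun K _ hfd hle => ?_⟩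
  obtain ⟨a1, a2⟩ := h K hfd hle
  exact intNodeItems_at K a1 a2

/-- **B5 (int), `q` odd** (`4 ∣ M'`, Hauptmodul `tq · 4 8`), no residual hypotheses. -/
theorem intNode_four (q M' : ℕ) [NeZero M'] [NeZero q] (A : ValuationSubring Qbar)
    (hq : q.Prime) (hqM : ¬ q ∣ M') (hq2 : q ≠ 2) (hM : 4 ∣ M') (hA : A.LiesOverPrime q) :
    Large (IntNodeItems 4 8 q M' A) := by
  have hJ : JTarget 4 8 := Fermat.Agent.RED.ModelFinal4.jTarget
    (Fermat.Agent.RED.BASE.MainCusp12.base_four M' hM).1.genBase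
  exact intNodeItems_of (Fermat.Agent.ES.N34.ModelEnd4.glueItems hq hqM hA hJ)
    (compItems_four hq hqM hq2 hM hA)

/-- **B5 (int), `q = 2`** (`9 ∣ M'`, Hauptmodul `tq · 9 3`), no residual hypotheses. -/
theorem intNode_nine (M' : ℕ) [NeZero M'] (A : ValuationSubring Qbar)
    (hqM : ¬ 2 ∣ M') (hM : 9 ∣ M') (hA : A.LiesOverPrime 2) :
    Large (IntNodeItems 9 3 2 M' A) := by
  have hJ : JTarget 9 3 := Fermat.Agent.RED.ModelFinal4.jTarget
    (Fermat.Agent.RED.BASE.MainCusp12.base_nine M' hM).1.genBase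
  exact intNodeItems_of (Fermat.Agent.ES.N34.ModelEnd4.glueItems Nat.prime_two hqM hA hJ)
    (compItems_nine hqM hM hA)

end Concrete

end Fermat.Agent.ES.N35.IntNode16
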