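/-
Program O (S35), chapter LVL-O (helper17): **norm compatibility for the `β`-square**.

Twin of `ES/HECKE/LevelCompat19` (helper19, Program I), which treats the `α`-square:

* `natDegree_minpoly_j_beta` : `j(q)` has degree `ℓ + 1` over `β(Fbar M) = V_ℓ(Fbar M)` inside
  `Fbar (M ℓ)` (ramification at the cusp `∞`: every element of `V_ℓ(Fbar M)` is a series in `q^ℓ`,
  while `j` has order `-1`; upper bound `AlongDegree25.finrankAlong_beta`);
* `norm_compat_beta` : for `N ∣ M`, `ℓ ∤ M`, norms along `β_N` and `β_M` are compatible with the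
  level inclusions:  `N_{β_M} (π' f) = π (N_{β_N} f)` for `f ∈ Fbar (N ℓ)`.
* `norm_compat_alpha` : restatement of `LevelCompat19.norm_compat`.
-/
import Mathlib
import Fermat.Agent.ES.HECKE.LevelCompat19
import Fermat.Agent.X0.RootsK

set_option autoImplicit false
set_option linter.style.haveILetI false
set_option linter.unusedSectionVars false

open AlgebraicCurve ModularCurve

noncomputable section

namespace Fermat.Agent.ES.N35.NormCompatBeta17

open Fermat.Agent.X0 Fermat.Agent.ES.HECKE Fermat.Agent.RED.LVL Fermat.Agent.RED.TOP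
open Fermat.Agent.ES.HECKE.InputsMain19 (Qb)
open Fermat.Agent.ES.HECKE.LevelCompat19

variable (M ℓ : ℕ) [NeZero M] [NeZero ℓ]

/-- **`[β(Fbar M)(j) : β(Fbar M)] = ℓ + 1`**. -/
theorem natDegree_minpoly_j_beta (hℓ : ℓ.Prime) (hℓM : ¬ ℓ ∣ M) :
    letI := algebraAlong (heckeBetaBar Qb M ℓ)
    (minpoly (FF M) (jF (M * ℓ))).natDegree = ℓ + 1 := by
  letI := algebraAlong (heckeBetaBar Qb M ℓ)
  haveI : Module.Finite (FF M) (FF (M * ℓ)) := AlongDegree25.finiteAlong_beta Qb M ℓ hℓ hℓM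
  have hfr : Module.finrank (FF M) (FF (M * ℓ)) = ℓ + 1 :=
    AlongDegree25.finrankAlong_beta Qb M ℓ hℓ hℓM
  have hint : IsIntegral (FF M) (jF (M * ℓ)) := Algebra.IsIntegral.isIntegral _
  -- upper bound
  have hdvd : (minpoly (FF M) (jF (M * ℓ))).natDegree ∣ ℓ + 1 := by
    rw [← hfr]
    exact minpoly.degree_dvd hint
  -- lower bound through the cusp `∞`
  let T : FF (M * ℓ) →+* LaurentSeries Kbar := (modularFunctionFieldBar (M * ℓ)).val.toRingHom
  have hTinj : Function.Injective T := Subtype.val_injective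
  letI : Algebra (FF M) (LaurentSeries Kbar) :=
    (T.comp (algebraMap (FF M) (FF (M * ℓ)))).toAlgebra
  let T' : FF (M * ℓ) →ₐ[FF M] LaurentSeries Kbar := { T with commutes' := fun _ => rfl }
  have hTx : T' (jF (M * ℓ)) = jqK := Fermat.Agent.X0.coe_jF (M * ℓ)
  have hmin : minpoly (FF M) (T' (jF (M * ℓ))) = minpoly (FF M) (jF (M * ℓ)) :=
    minpoly.algHom_eq T' hTinj _
  have hord : (jqK).order = -1 := by
    have h := order_qExpand_jqK 1
    rwa [ModularCurve.qExpand_one_apply] at h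
  have hy0 : T' (jF (M * ℓ)) ≠ 0 := by
    rw [hTx]
    intro h0
    rw [h0, HahnSeries.order_zero] at hord
    omega
  have hcop : IsCoprime (T' (jF (M * ℓ))).order (ℓ : ℤ) := by
    rw [hTx, hord]
    exact (isCoprime_one_left).neg_left
  have hF : ∀ a : FF M, algebraMap (FF M) (LaurentSeries Kbar) a ∈
      Set.range (qExpand Kbar ℓ) := fun a => ⟨(a : LaurentSeries Kbar), (coe_heckeBetaBar M ℓ a).symm⟩
  have hge := Fermat.Agent.IG.PR.RamDeg25.le_natDegree_minpoly (F := FF M) (p := ℓ) hy0 hcop hF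
    ((isIntegral_algHom_iff T' hTinj).mpr hint)
  rw [hmin] at hge
  -- `d ∣ ℓ + 1`, `d ≥ ℓ ≥ 2` ⇒ `d = ℓ + 1`
  obtain ⟨c, hc⟩ := hdvd
  have h2 : 2 ≤ ℓ := hℓ.two_le
  rcases Nat.lt_or_ge c 2 with hc2 | hc2
  · interval_cases c
    · omega
    · omega
  · nlinarith

section Level

variable (N : ℕ) [NeZero N]

/-- `π' (j) = j`. -/
theorem levelIncl_jF (hNM : N ∣ M) :
    levelIncl (N * ℓ) (M * ℓ) (Nat.mul_dvd_mul_right hNM ℓ) (jF (N * ℓ)) = jF (M * ℓ) := by
  apply Subtype.ext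
  rw [coe_levelIncl, Fermat.Agent.X0.coe_jF, Fermat.Agent.X0.coe_jF]

/-- **Norm compatibility** for the `β`-square. -/
theorem norm_compat_beta (hNM : N ∣ M) (hℓ : ℓ.Prime) (hℓM : ¬ ℓ ∣ M) (f : FF (N * ℓ)) :
    BaseChange19.normAlong (heckeBetaBar Qb M ℓ)
        (levelIncl (N * ℓ) (M * ℓ) (Nat.mul_dvd_mul_right hNM ℓ) f) =
      levelIncl N M hNM (BaseChange19.normAlong (heckeBetaBar Qb N ℓ) f) := by
  have hℓN : ¬ ℓ ∣ N := fun h => hℓM (h.trans hNM)
  unfold BaseChange19.normAlong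
  letI := algebraAlong (heckeBetaBar Qb N ℓ)
  letI := algebraAlong (heckeBetaBar Qb M ℓ)
  have hsq : ∀ c : FF N, (levelIncl (N * ℓ) (M * ℓ) (Nat.mul_dvd_mul_right hNM ℓ)).toRingHom
      (algebraMap (FF N) (FF (N * ℓ)) c) =
      algebraMap (FF M) (FF (M * ℓ)) ((levelIncl N M hNM).toRingHom c) := fun c =>
    (AlgHom.congr_fun (beta_square N M ℓ hNM) c).symm
  have hn' : (minpoly (FF M) ((levelIncl (N * ℓ) (M * ℓ)
      (Nat.mul_dvd_mul_right hNM ℓ)).toRingHom (jF (N * ℓ)))).natDegree = ℓ + 1 := by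
    have h1 : (levelIncl (N * ℓ) (M * ℓ) (Nat.mul_dvd_mul_right hNM ℓ)).toRingHom (jF (N * ℓ)) =
        jF (M * ℓ) := levelIncl_jF M ℓ N hNM
    rw [h1]
    exact natDegree_minpoly_j_beta M ℓ hℓ hℓM
  exact norm_map_of_natDegree_minpoly (levelIncl N M hNM).toRingHom
    (levelIncl (N * ℓ) (M * ℓ) (Nat.mul_dvd_mul_right hNM ℓ)).toRingHom hsq
    (jF (N * ℓ)) (ℓ + 1) (Nat.succ_ne_zero ℓ) (natDegree_minpoly_j_beta N ℓ hℓ hℓN) hn'
    (AlongDegree25.finrankAlong_beta Qb N ℓ hℓ hℓN)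
    (AlongDegree25.finrankAlong_beta Qb M ℓ hℓ hℓM) f

/-- **Norm compatibility** for the `α`-square (`LevelCompat19.norm_compat`). -/
theorem norm_compat_alpha (hNM : N ∣ M) (hℓ : ℓ.Prime) (hℓM : ¬ ℓ ∣ M) (f : FF (N * ℓ)) :
    BaseChange19.normAlong (heckeAlphaBar Qb M ℓ)
        (levelIncl (N * ℓ) (M * ℓ) (Nat.mul_dvd_mul_right hNM ℓ) f) =
      levelIncl N M hNM (BaseChange19.normAlong (heckeAlphaBar Qb N ℓ) f) :=
  norm_compat N M ℓ hNM hℓ hℓM f

end Level

end Fermat.Agent.ES.N35.NormCompatBeta17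

end
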