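/-
Program O (S35), brick LVL-O (helper17): **the level step for the third-difference statement**.

`IfaceO13.FBar q M₀ A` (helper13's interface of record): for every Frobenius lift `σ` at `q` (w.r.t. `A`), `m` prime to `q`, `f ∈ Fbar (M₀ q)` all of whose
orders are divisible by `m` and which is `q`-new in Kummer form (`N_α f`, `N_β f ∈ ℚ̄^× · Fbar(M₀)^{×m}`),
the third difference `∇ Δ Δ f` (`Δ x = σ²x/x`, `∇ x = σ²x/x^{q²}`) is an `m`-th power in `Fbar (M₀ q)`.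

* `fBar_of_rootDescent` : `FBar q M₀ A → FBar q N₀ A` for `N₀ ∣ M₀`, `q ∤ M₀`, from root descent
  `Fbar (M₀ q) → Fbar (N₀ q)`; the Kummer form of newness is transported by the norm compatibility of
  the `α`- and `β`-squares (`LevelCompat19.norm_compat`, `NormCompatBeta17.norm_compat_beta`).
* `auxLevel_mul` : `auxLevel q (M₀ q) = auxLevel q M₀ · q`.
* `lvlStepO` : **`FBar q (auxLevel q M₀) A → FBar q M₀ A`**.
* `fBar_of_fBarAll` : `IfaceO13.FBarAll → ∀ q M₀ A, q prime, q ∤ M₀, A over q → FBar q M₀ A` (the input of TOP-O).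
-/
import Mathlib
import Fermat.Prelude.Def_EllipticCurve_FrobeniusTrace
import Fermat.Agent.ES.N34.LvlN17
import Fermat.Agent.ES.N35.NormCompatBeta17
import Fermat.Agent.ES.N35.ThirdDiff29
import Fermat.Agent.ES.N35.IfaceO13

set_option autoImplicit false

open ModularCurve IntermediateField AlgebraicCurve HahnSeries

noncomputable section

namespace Fermat.Agent.ES.N35.LvlO17

open Fermat.Agent.RED.Interface4 Fermat.Agent.RED.BASE.Interface12 Fermat.Agent.RED.LVL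
open Fermat.Agent.ES.N34.IfaceN4 Fermat.Agent.ES.N34.LvlN17
open Fermat.Agent.ES.N35.NormCompatBeta17
open Fermat.Agent.ES.HECKE.LevelCompat19
open Fermat.Agent.ES.HECKE.BaseChange19 (normAlong)
open Fermat.Agent.ES.N35.IfaceO13

/-- `IfaceO13.third` in terms of helper29's `ThirdDiff29.Dl`, `ThirdDiff29.Nb`. -/
theorem third_eq {F : Type*} [Field F] (s : F ≃+* F) (q : ℕ) (f : F) :
    third s q f = ThirdDiff29.Nb s q (ThirdDiff29.Dl s (ThirdDiff29.Dl s f)) := rfl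

/-! ### orders of `Δ`, `∇` -/

theorem dvd_ord_Dl (N : ℕ) (σ : Qbar ≃ₐ[ℚ] Qbar) (m : ℤ) {f : Fbar N} (hf : f ≠ 0)
    (h : ∀ v : Place Qbar (Fbar N), m ∣ v.ord f) (v : Place Qbar (Fbar N)) :
    m ∣ v.ord (ThirdDiff29.Dl (gB N σ) f) := by
  have h2 : gB N σ (gB N σ f) ≠ 0 := by
    simpa using hf
  unfold ThirdDiff29.Dl
  rw [div_eq_mul_inv, v.ord_mul h2 (inv_ne_zero hf), v.ord_inv]
  exact dvd_add (dvd_ord_gB N σ m (dvd_ord_gB N σ m h) v) (h v).neg_right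

theorem dvd_ord_Nb (N : ℕ) (σ : Qbar ≃ₐ[ℚ] Qbar) (q : ℕ) (m : ℤ) {f : Fbar N} (hf : f ≠ 0)
    (h : ∀ v : Place Qbar (Fbar N), m ∣ v.ord f) (v : Place Qbar (Fbar N)) :
    m ∣ v.ord (ThirdDiff29.Nb (gB N σ) q f) := by
  have h2 : gB N σ (gB N σ f) ≠ 0 := by
    simpa using hf
  have hpow : ∀ k : ℕ, m ∣ v.ord (f ^ k) := by
    intro k
    induction k with
    | zero => simp
    | succ k ih =>
      rw [pow_succ, v.ord_mul (pow_ne_zero k hf) hf]
      exact dvd_add ih (h v)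
  unfold ThirdDiff29.Nb
  rw [div_eq_mul_inv, v.ord_mul h2 (inv_ne_zero (pow_ne_zero _ hf)), v.ord_inv]
  exact dvd_add (dvd_ord_gB N σ m (dvd_ord_gB N σ m h) v) (hpow _).neg_right

/-! ### the level step, general form -/

/-- **LVL-O, general form.** -/
theorem fBar_of_rootDescent {q N₀ M₀ : ℕ} [NeZero N₀] [NeZero M₀] [NeZero q]
    (A : ValuationSubring Qbar) (hNM : N₀ ∣ M₀) (hq : q.Prime) (hqM : ¬ q ∣ M₀)
    (hrd : LevelStepAbs2.RootDescent (N₀ * q) (M₀ * q)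
      (fbar_mono (Nat.mul_dvd_mul_right hNM q))) :
    FBar q M₀ A → FBar q N₀ A := by
  intro hU σ hσ m hm f hf hdiv hα hβ
  have hm0 : 0 < m := Nat.pos_of_ne_zero (fun h => hm (h ▸ dvd_zero q))
  have hd : N₀ * q ∣ M₀ * q := Nat.mul_dvd_mul_right hNM q
  have hle : Fbar (N₀ * q) ≤ Fbar (M₀ * q) := fbar_mono hd
  have halg : ∀ x : Fbar (M₀ * q), IsAlgebraic (Fbar (N₀ * q)) (x : LaurentSeries Qbar) :=
    LevelDegree17.isAlgebraic_of_mem hd
  set ι := IntermediateField.inclusion hle with hι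
  have hιinj : Function.Injective ι := (IntermediateField.inclusion hle).injective
  have hf' : ι f ≠ 0 := (map_ne_zero_iff _ hιinj).mpr hf
  -- divisibility of the orders at the upper level
  have hdivM : ∀ v : Place Qbar (Fbar (M₀ * q)), (m : ℤ) ∣ v.ord (ι f) := by
    intro v
    obtain ⟨w, e, -, hord, -⟩ := PlaceRestrict2.exists_restrict_le hle halg v
    rw [hord f]
    exact Dvd.dvd.mul_left (hdiv w) _
  -- newness at the upper level
  have hαM : ∃ (c : Qbar) (g : Fbar M₀), c ≠ 0 ∧ g ≠ 0 ∧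
      normAlong (heckeAlphaBar Qbar M₀ q) (ι f) = c • g ^ m := by
    obtain ⟨c, g, hc, hg, hN⟩ := hα
    refine ⟨c, levelIncl N₀ M₀ hNM g, hc, (map_ne_zero_iff _ (levelIncl N₀ M₀ hNM).injective).mpr hg, ?_⟩
    have h := norm_compat_alpha M₀ q N₀ hNM hq hqM f
    rw [hN, Algebra.smul_def, map_mul, AlgHom.commutes, map_pow, ← Algebra.smul_def] at h
    exact h
  have hβM : ∃ (c : Qbar) (g : Fbar M₀), c ≠ 0 ∧ g ≠ 0 ∧
      normAlong (heckeBetaBar Qbar M₀ q) (ι f) = c • g ^ m := by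
    obtain ⟨c, g, hc, hg, hN⟩ := hβ
    refine ⟨c, levelIncl N₀ M₀ hNM g, hc, (map_ne_zero_iff _ (levelIncl N₀ M₀ hNM).injective).mpr hg, ?_⟩
    have h := norm_compat_beta M₀ q N₀ hNM hq hqM f
    rw [hN, Algebra.smul_def, map_mul, AlgHom.commutes, map_pow, ← Algebra.smul_def] at h
    exact h
  obtain ⟨S', hS'0, hS'⟩ := hU σ hσ m hm (ι f) hf' hdivM hαM hβM
  -- the third difference at the lower level
  have hcomm : ∀ x : Fbar (N₀ * q), (ι : Fbar (N₀ * q) →+* Fbar (M₀ * q)) (gB (N₀ * q) σ x) =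
      gB (M₀ * q) σ ((ι : Fbar (N₀ * q) →+* Fbar (M₀ * q)) x) := fun x =>
    (gB_inclusion hle σ x).symm
  set h : Fbar (N₀ * q) :=
    ThirdDiff29.Nb (gB (N₀ * q) σ) q
      (ThirdDiff29.Dl (gB (N₀ * q) σ) (ThirdDiff29.Dl (gB (N₀ * q) σ) f)) with hh
  have hιh : ι h = ThirdDiff29.Nb (gB (M₀ * q) σ) q
      (ThirdDiff29.Dl (gB (M₀ * q) σ) (ThirdDiff29.Dl (gB (M₀ * q) σ) (ι f))) := by
    have e1 := ThirdDiff29.map_Nb (ι : Fbar (N₀ * q) →+* Fbar (M₀ * q)) (gB (N₀ * q) σ)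
      (gB (M₀ * q) σ) hcomm q
      (ThirdDiff29.Dl (gB (N₀ * q) σ) (ThirdDiff29.Dl (gB (N₀ * q) σ) f))
    have e2 := ThirdDiff29.map_Dl (ι : Fbar (N₀ * q) →+* Fbar (M₀ * q)) (gB (N₀ * q) σ)
      (gB (M₀ * q) σ) hcomm
      (ThirdDiff29.Dl (gB (N₀ * q) σ) f)
    have e3 := ThirdDiff29.map_Dl (ι : Fbar (N₀ * q) →+* Fbar (M₀ * q)) (gB (N₀ * q) σ)
      (gB (M₀ * q) σ) hcomm f
    rw [hh]
    show (ι : Fbar (N₀ * q) →+* Fbar (M₀ * q)) _ = _
    rw [e1, e2, e3]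
    rfl
  have hsm : S' ^ m = ι h := by rw [hιh, ← third_eq]; exact hS'
  have hD1 : ThirdDiff29.Dl (gB (N₀ * q) σ) f ≠ 0 := ThirdDiff29.Dl_ne_zero _ hf
  have hD2 : ThirdDiff29.Dl (gB (N₀ * q) σ) (ThirdDiff29.Dl (gB (N₀ * q) σ) f) ≠ 0 :=
    ThirdDiff29.Dl_ne_zero _ hD1
  have hordh : ∀ w : Place Qbar (Fbar (N₀ * q)), (m : ℤ) ∣ w.ord h := by
    intro w
    rw [hh]
    exact dvd_ord_Nb _ σ q m hD2
      (dvd_ord_Dl _ σ m hD1 (dvd_ord_Dl _ σ m hf hdiv)) w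
  obtain ⟨S, hS⟩ := hrd m hm0 h S' hsm hordh
  refine ⟨S, ?_, ?_⟩
  · intro h0
    apply hS'0
    rw [← hS, h0, map_zero]
  · rw [third_eq]
    apply hιinj
    rw [map_pow]
    show ι S ^ m = ι h
    rw [hS]
    exact hsm

/-! ### the auxiliary level -/

/-- `auxLevel q (M₀ q) = auxLevel q M₀ · q`. -/
theorem auxLevel_mul {q : ℕ} (hq : q.Prime) (M₀ : ℕ) :
    auxLevel q (M₀ * q) = auxLevel q M₀ * q := by
  have key : ∀ c : ℕ, Nat.Coprime q c → Nat.lcm (M₀ * q) c = Nat.lcm M₀ c * q := by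
    intro c hc
    rcases Nat.eq_zero_or_pos c with rfl | hc0
    · simp
    have hg : Nat.gcd (M₀ * q) c = Nat.gcd M₀ c := Nat.Coprime.gcd_mul_right_cancel M₀ hc
    have hgpos : 0 < Nat.gcd M₀ c := Nat.gcd_pos_of_pos_right _ hc0
    apply Nat.eq_of_mul_eq_mul_left hgpos
    calc Nat.gcd M₀ c * Nat.lcm (M₀ * q) c = Nat.gcd (M₀ * q) c * Nat.lcm (M₀ * q) c := by rw [hg]
      _ = M₀ * q * c := Nat.gcd_mul_lcm _ _
      _ = (M₀ * c) * q := by ring
      _ = (Nat.gcd M₀ c * Nat.lcm M₀ c) * q := by rw [Nat.gcd_mul_lcm]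
      _ = Nat.gcd M₀ c * (Nat.lcm M₀ c * q) := by ring
  unfold auxLevel
  split_ifs with h2
  · subst h2
    exact key 9 (by decide)
  · refine key 4 ?_
    have : Nat.Coprime q 2 := (Nat.coprime_primes hq Nat.prime_two).mpr h2
    exact Nat.Coprime.pow_right 2 this

/-- **LVL-O** (brick B6-LVL): `FBar q (auxLevel q M₀) A → FBar q M₀ A`. -/
theorem lvlStepO (q M₀ : ℕ) [NeZero M₀] [NeZero q] (hq : q.Prime) (hqM : ¬ q ∣ M₀)
    (A : ValuationSubring Qbar) :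
    haveI := LevelDegree17.neZero_auxLevel q M₀
    FBar q (auxLevel q M₀) A → FBar q M₀ A := by
  have := LevelDegree17.neZero_auxLevel q M₀
  have hNM : M₀ ∣ auxLevel q M₀ := dvd_auxLevel q M₀
  have hqM' : ¬ q ∣ auxLevel q M₀ := not_dvd_auxLevel hq hqM
  have : NeZero (M₀ * q) := ⟨Nat.mul_ne_zero (NeZero.ne M₀) (NeZero.ne q)⟩
  have : NeZero (auxLevel q M₀ * q) := ⟨Nat.mul_ne_zero (NeZero.ne _) (NeZero.ne q)⟩
  obtain ⟨e, he⟩ := hNM
  have : NeZero e := ⟨fun h0 => NeZero.ne (auxLevel q M₀) (by rw [he, h0, mul_zero])⟩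
  have hM : auxLevel q M₀ * q = M₀ * q * e := by rw [he]; ring
  have hdeg : relfinrank (Fbar (M₀ * q)) (Fbar (auxLevel q M₀ * q)) < 2 * e := by
    have := LevelDegree17.neZero_auxLevel q (M₀ * q)
    have h := LevelDegree17.relfinrank_auxLevel_lt q (M₀ * q)
    have hdiv : auxLevel q (M₀ * q) / (M₀ * q) = e := by
      rw [auxLevel_mul hq, hM]
      exact Nat.mul_div_cancel_left e (Nat.pos_of_ne_zero (NeZero.ne (M₀ * q)))
    rw [hdiv, auxLevel_mul hq] at h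
    exact h
  exact fBar_of_rootDescent A ⟨e, he⟩ hq hqM'
    (LevelStepMain19.rootDescent (M₀ * q) (auxLevel q M₀ * q) e hM hdeg)

/-- The auxiliary level is divisible by the base level (`9` for `q = 2`, `4` otherwise). -/
theorem auxLevel_base (q N₀ : ℕ) : if q = 2 then 9 ∣ auxLevel q N₀ else 4 ∣ auxLevel q N₀ := by
  unfold auxLevel
  split_ifs
  · exact Nat.dvd_lcm_right N₀ 9
  · exact Nat.dvd_lcm_right N₀ 4

/-- **The input of TOP-O**: (C″) over `ℚ̄` at every level `M₀ q`, `q ∤ M₀`, from (C″) at the auxiliary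
levels (`IfaceO13.FBarAll`, the output of NUM-O + DESC-O). -/
theorem fBar_of_fBarAll (h : FBarAll) :
    ∀ (q M₀ : ℕ) [NeZero M₀] [NeZero q] (A : ValuationSubring Qbar), q.Prime → ¬ q ∣ M₀ →
      A.LiesOverPrime q → FBar q M₀ A := by
  intro q M₀ _ _ A hq hqM hA
  have := LevelDegree17.neZero_auxLevel q M₀
  exact lvlStepO q M₀ hq hqM A
    (h q (auxLevel q M₀) A hq (not_dvd_auxLevel hq hqM) (auxLevel_base q M₀) hA)

end Fermat.Agent.ES.N35.LvlO17

end
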