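/-
Program O (S35), chapter MODEL re-exports — helper4.

Program N's MODEL chapter exports, through `ModelInput13.ModelInput`, only the WEAK node coordinates
`NumData13.NodeCoords` (`x, y ∈ 𝔪`, `d x y ∈ π B`, `𝔪 ⊆ (π, x, y)` up to denominators).  Brick B5 of
Program O (`NodeHyp29.glue_of_coords`: gluing of two local units through `𝔭₁ + 𝔭₂ = 𝔪 B_𝔪`) needs
the STRONG form proved on the way by `NodeCoords29.nodeCoords_strong`:

  `x ∈ π O2`,  `y ∈ π O1`,  `x y ∈ π B`,  and  `∀ f ∈ 𝔪, ∃ d ∉ 𝔪, d f = a x + b y + π e`.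

This file re-exports it

* generically (`strongCoords_of_two_levels`, `strongCoords_of_inputs` at `ModelN4.TwoLevelInputs`);
* at the `ModelDefs9` data, per number field (`StrongItems`, `strongItems_of_items`);
* for all large normal `K`, with NO residual hypothesis, for `(4, 8, q)` (`q` odd) and `(9, 3, 2)`:
  `strongItems_four`, `strongItems_nine`.

It also re-exports the five deliverables of MODEL's suppliers for all large `K` as one bundle
(`AllItems`, `allItems_four`, `allItems_nine`), for the other suppliers of Program O that start from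
the same data (S1 `ChartItems`, V3i `GlueItems`, S2 `ModEqItems`, S5-B `KronItems`, S3i `PrinItems`).
-/
import Mathlib
import Fermat.Agent.ES.N34.ModelEnd4

set_option autoImplicit false
set_option synthInstance.maxHeartbeats 400000
set_option linter.unusedSectionVars false

namespace Fermat.Agent.ES.N35.NodeStrong4

open Fermat.Agent.RED.PUR.ChartGeneric22 Fermat.Agent.ES.N34.NodalCore13
  Fermat.Agent.ES.N34.NodalCL13 Fermat.Agent.ES.N34.NumData13 Fermat.Agent.ES.N34.SmoothN5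
  Fermat.Agent.ES.N34.ChartN26 Fermat.Agent.ES.N34.ModelN4

section Generic

variable {R F : Type*} [CommRing R] [Field F] [Algebra R F]

/-- **Strong node coordinates** at a prime `𝔪` of the chart `B` (literal conclusion of
`NodeCoords29.nodeCoords_strong`): `x` vanishes along the component `2`, `y` along the component `1`,
`x y ∈ π B`, and `𝔪 B_𝔪 = (x, y, π) B_𝔪` with the explicit linear combination. -/
def StrongCoords (π : R) (B : Subalgebra R F) (O1 O2 : ValuationSubring F) (𝔪 : Ideal B) : Prop :=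
  ∃ x y : B, (∃ o ∈ O2, (x : F) = algebraMap R F π * o) ∧
    (∃ o ∈ O1, (y : F) = algebraMap R F π * o) ∧
    (∃ e : B, x * y = algebraMap R B π * e) ∧
    ∀ f ∈ 𝔪, ∃ d : B, d ∉ 𝔪 ∧ ∃ a b e : B, d * f = a * x + b * y + algebraMap R B π * e

/-- `¬ OffBranch` in the `hon` form used by `NodeCoords29` / `NodeHyp29`. -/
theorem on_of_not_offBranch {π : R} {B : Subalgebra R F} {Oj : ValuationSubring F} {𝔪 : Ideal B}
    (h : ¬ OffBranch π B Oj 𝔪) :
    ∀ b : B, (∃ c ∈ Oj, (b : F) = algebraMap R F π * c) → b ∈ 𝔪 := by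
  intro b hb
  by_contra hb𝔪
  exact h ⟨b, hb𝔪, hb⟩

/-- The strong form implies the weak form `NumData13.NodeCoords` (on both branches). -/
theorem StrongCoords.nodeCoords {π : R} {B : Subalgebra R F} {O1 O2 : ValuationSubring F}
    {𝔪 : Ideal B} [h𝔪 : 𝔪.IsPrime] (h1 : ¬ OffBranch π B O1 𝔪) (h2 : ¬ OffBranch π B O2 𝔪)
    (h : StrongCoords π B O1 O2 𝔪) : NodeCoords π B 𝔪 := by
  obtain ⟨x, y, hx, hy, ⟨e, hxy⟩, hspan⟩ := h
  refine ⟨x, y, on_of_not_offBranch h2 x hx, on_of_not_offBranch h1 y hy,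
    ⟨1, ?_, e, by rw [one_mul, hxy]⟩, ?_⟩
  · exact fun h1 => h𝔪.ne_top ((Ideal.eq_top_iff_one 𝔪).mpr h1)
  · intro b hb
    obtain ⟨d, hd, a, b', e', h⟩ := hspan b hb
    refine ⟨d, hd, ?_⟩
    rw [h]
    have hπ : algebraMap R B π ∈ Ideal.span {algebraMap R B π, x, y} :=
      Ideal.subset_span (by simp)
    have hxm : x ∈ Ideal.span {algebraMap R B π, x, y} := Ideal.subset_span (by simp)
    have hym : y ∈ Ideal.span {algebraMap R B π, x, y} := Ideal.subset_span (by simp)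
    exact Ideal.add_mem _ (Ideal.add_mem _ (Ideal.mul_mem_left _ _ hxm)
      (Ideal.mul_mem_left _ _ hym)) (Ideal.mul_mem_right _ _ hπ)

/-- **Strong (M3) at one point from (C) and (K)** — twin of
`NodeCoordsAsm29.nodeCoords_of_two_levels` without the final weakening. -/
theorem strongCoords_of_two_levels {B0 : Type*} [CommRing B0]
    (π : R) (B : Subalgebra R F) (O1 O2 : ValuationSubring F)
    (leO1 : ∀ x ∈ B, x ∈ O1) (leO2 : ∀ x ∈ B, x ∈ O2)
    (sat : ∀ b ∈ B, ∀ c : F, c ∈ O1 → c ∈ O2 → b = algebraMap R F π * c → c ∈ B)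
    (pi_ne : algebraMap R F π ≠ 0)
    (α β : B0 →+* F) (hαB : ∀ b, α b ∈ B) (hβB : ∀ b, β b ∈ B)
    (q : ℕ) (hq : 2 ≤ q)
    (hKα : ∀ b : B0, ∃ c : B0, ∃ o ∈ O2, α b - (β c) ^ q = algebraMap R F π * o)
    (hKβ : ∀ b : B0, ∃ c : B0, ∃ o ∈ O1, β b - (α c) ^ q = algebraMap R F π * o)
    (𝔪 : Ideal B) [h𝔪 : 𝔪.IsPrime]
    (h1 : ¬ OffBranch π B O1 𝔪) (h2 : ¬ OffBranch π B O2 𝔪)
    (hCα : ∃ s0 : B0, (⟨α s0, hαB s0⟩ : B) ∈ 𝔪 ∧ ∀ y ∈ 𝔪, ∃ d : B, d ∉ 𝔪 ∧ ∃ b : B, ∃ c ∈ O1,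
      (d : F) * (y : F) - (b : F) * α s0 = algebraMap R F π * c)
    (hCβ : ∃ s0 : B0, (⟨β s0, hβB s0⟩ : B) ∈ 𝔪 ∧ ∀ y ∈ 𝔪, ∃ d : B, d ∉ 𝔪 ∧ ∃ b : B, ∃ c ∈ O2,
      (d : F) * (y : F) - (b : F) * β s0 = algebraMap R F π * c) :
    StrongCoords π B O1 O2 𝔪 := by
  obtain ⟨s0, hs, hgen1⟩ := hCα
  obtain ⟨s0', hs', hgen2⟩ := hCβ
  obtain ⟨c0, o, ho, hsc⟩ := hKα s0
  obtain ⟨c0', o', ho', hs'c'⟩ := hKβ s0'
  exact Fermat.Agent.ES.N34.NodeCoords29.nodeCoords_strong π B O1 O2 leO1 leO2 sat pi_ne 𝔪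
    (on_of_not_offBranch h1) (on_of_not_offBranch h2) q hq
    ⟨α s0, hαB s0⟩ ⟨β c0, hβB c0⟩ ⟨β s0', hβB s0'⟩ ⟨α c0', hαB c0'⟩ hs hs'
    ⟨o, ho, hsc⟩ ⟨o', ho', hs'c'⟩ hgen1 hgen2

/-- **Strong (M3) for a chart**: at ALL maximal ideals `𝔪 ∋ π` on both branches. -/
theorem strong_field_of_two_levels {B0 : Type*} [CommRing B0]
    (π : R) (B : Subalgebra R F) (O1 O2 : ValuationSubring F)
    (leO1 : ∀ x ∈ B, x ∈ O1) (leO2 : ∀ x ∈ B, x ∈ O2)
    (sat : ∀ b ∈ B, ∀ c : F, c ∈ O1 → c ∈ O2 → b = algebraMap R F π * c → c ∈ B)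
    (pi_ne : algebraMap R F π ≠ 0)
    (α β : B0 →+* F) (hαB : ∀ b, α b ∈ B) (hβB : ∀ b, β b ∈ B)
    (q : ℕ) (hq : 2 ≤ q)
    (hKα : ∀ b : B0, ∃ c : B0, ∃ o ∈ O2, α b - (β c) ^ q = algebraMap R F π * o)
    (hKβ : ∀ b : B0, ∃ c : B0, ∃ o ∈ O1, β b - (α c) ^ q = algebraMap R F π * o)
    (hCα : ∀ 𝔪 : Ideal B, 𝔪.IsMaximal → algebraMap R B π ∈ 𝔪 →
      ∃ s0 : B0, (⟨α s0, hαB s0⟩ : B) ∈ 𝔪 ∧ ∀ y ∈ 𝔪, ∃ d : B, d ∉ 𝔪 ∧ ∃ b : B, ∃ c ∈ O1,
        (d : F) * (y : F) - (b : F) * α s0 = algebraMap R F π * c)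
    (hCβ : ∀ 𝔪 : Ideal B, 𝔪.IsMaximal → algebraMap R B π ∈ 𝔪 →
      ∃ s0 : B0, (⟨β s0, hβB s0⟩ : B) ∈ 𝔪 ∧ ∀ y ∈ 𝔪, ∃ d : B, d ∉ 𝔪 ∧ ∃ b : B, ∃ c ∈ O2,
        (d : F) * (y : F) - (b : F) * β s0 = algebraMap R F π * c) :
    ∀ 𝔪 : Ideal B, 𝔪.IsMaximal → algebraMap R B π ∈ 𝔪 →
      ¬ OffBranch π B O1 𝔪 → ¬ OffBranch π B O2 𝔪 → StrongCoords π B O1 O2 𝔪 := by
  intro 𝔪 h𝔪 hπ𝔪 h1 h2
  have : 𝔪.IsPrime := h𝔪.isPrime
  exact strongCoords_of_two_levels π B O1 O2 leO1 leO2 sat pi_ne α β hαB hβB q hq hKα hKβ 𝔪 h1 h2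
    (hCα 𝔪 h𝔪 hπ𝔪) (hCβ 𝔪 h𝔪 hπ𝔪)

/-- Strong node coordinates at all two-branch points of both charts. -/
def StrongNodes (π : R) (B0 B1 : Subalgebra R F) (O1 O2 : ValuationSubring F) : Prop :=
  (∀ 𝔪 : Ideal B0, 𝔪.IsMaximal → algebraMap R B0 π ∈ 𝔪 →
      ¬ OffBranch π B0 O1 𝔪 → ¬ OffBranch π B0 O2 𝔪 → StrongCoords π B0 O1 O2 𝔪) ∧
  (∀ 𝔪 : Ideal B1, 𝔪.IsMaximal → algebraMap R B1 π ∈ 𝔪 →
      ¬ OffBranch π B1 O1 𝔪 → ¬ OffBranch π B1 O2 𝔪 → StrongCoords π B1 O1 O2 𝔪)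

end Generic

section GenericTwo

variable {R K F : Type*} [CommRing R] [Field K] [Field F] [Algebra R K] [Algebra K F]
  [Algebra R F] [IsScalarTower R K F]

/-- Twin of `ModelN4.nodalNumData_of_two_levels` for the strong node coordinates (only the inputs
it uses). -/
theorem strongNodes_of_two_levels {π : R} {t : F} {O1 O2 : ValuationSubring F}
    (hc : ChartInputs R K F π t) (g : Fermat.Agent.ES.N34.TwoGlue20.GlueOut K π t O1 O2)
    (q : ℕ) (hq : 2 ≤ q)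
    {C0 C1 : Type*} [CommRing C0] [CommRing C1]
    (α0 β0 : C0 →+* F) (α1 β1 : C1 →+* F)
    (hα0 : ∀ b, α0 b ∈ chart R t) (hβ0 : ∀ b, β0 b ∈ chart R t)
    (hα1 : ∀ b, α1 b ∈ chart R t⁻¹) (hβ1 : ∀ b, β1 b ∈ chart R t⁻¹)
    (hKα0 : ∀ b : C0, ∃ c : C0, ∃ o ∈ O2, α0 b - (β0 c) ^ q = algebraMap R F π * o)
    (hKβ0 : ∀ b : C0, ∃ c : C0, ∃ o ∈ O1, β0 b - (α0 c) ^ q = algebraMap R F π * o)
    (hKα1 : ∀ b : C1, ∃ c : C1, ∃ o ∈ O2, α1 b - (β1 c) ^ q = algebraMap R F π * o)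
    (hKβ1 : ∀ b : C1, ∃ c : C1, ∃ o ∈ O1, β1 b - (α1 c) ^ q = algebraMap R F π * o)
    (h01 : BranchPrincipalVia α0 π (chart R t) O1) (h02 : BranchPrincipalVia β0 π (chart R t) O2)
    (h11 : BranchPrincipalVia α1 π (chart R t⁻¹) O1)
    (h12 : BranchPrincipalVia β1 π (chart R t⁻¹) O2) :
    StrongNodes π (chart R t) (chart R t⁻¹) O1 O2 := by
  have model := model_of_glue hc g
  refine ⟨?_, ?_⟩
  · exact strong_field_of_two_levels π (chart R t) O1 O2 model.le_O1_0 model.le_O2_0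
      model.sat0 model.pi_ne α0 β0 hα0 hβ0 q hq hKα0 hKβ0 (via_fixed hα0 h01) (via_fixed hβ0 h02)
  · exact strong_field_of_two_levels π (chart R t⁻¹) O1 O2 model.le_O1_1
      model.le_O2_1 model.sat1 model.pi_ne α1 β1 hα1 hβ1 q hq hKα1 hKβ1 (via_fixed hα1 h11)
      (via_fixed hβ1 h12)

end GenericTwo

section GaussLayer

variable {Kt : Type*} [Field Kt] {O : ValuationSubring Kt}
  {EM E : IntermediateField Kt (HahnSeries ℤ Kt)}

/-- **Strong node coordinates over a Gauss valuation ring** from `ModelN4.TwoLevelInputs`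
(the same bundle that gives `NodalNumData` through `ModelN4.nodalNumData_of_inputs`). -/
theorem strongNodes_of_inputs {a b : ↥EM →ₐ[Kt] ↥E} {q : ℕ} {π : ↥O} {tM : ↥EM}
    {O1 O2 : ValuationSubring ↥E} (h : TwoLevelInputs O EM E a b q π tM O1 O2) :
    StrongNodes π (chart ↥O (a tM)) (chart ↥O (a tM)⁻¹) O1 O2 := by
  have := Fermat.Agent.RED.NumInst4.isScalarTower_OE O E
  exact strongNodes_of_two_levels h.chartIn.out h.glue q h.two_le
    (resChart O EM E a (chart ↥O tM)) (resChart O EM E b (chart ↥O tM))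
    (resChart O EM E a (chart ↥O tM⁻¹)) (resChart O EM E b (chart ↥O tM⁻¹))
    h.a_mem0 h.b_mem0 h.a_mem1 h.b_mem1 h.kron_a0 h.kron_b0 h.kron_a1 h.kron_b1
    h.prin01 h.prin02 h.prin11 h.prin12

end GaussLayer

noncomputable section Concrete

open HahnSeries ModularCurve
open Fermat.Agent.RED.Interface4 Fermat.Agent.RED.PUR.GaussGen8 Fermat.Agent.RED.BASE.EtaQuot12
  Fermat.Agent.RED.ModelTargets4 Fermat.Agent.ES.N34.ModelDefs9 Fermat.Agent.ES.N34.ModelTop4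

section Items

variable (n e q M' : ℕ) [NeZero n] [NeZero M'] [NeZero q] (A : ValuationSubring Qbar)
  (K : IntermediateField ℚ Qbar)

/-- **B5 input at `K`**: strong node coordinates at every two-branch point of the two charts
`B0 A q ht`, `B1 A q ht` of level `M' q`, for every uniformiser `π` of `A ∩ K`
(`ht`, `hE` are proofs: any choice gives the same statement). -/
def StrongItems : Prop :=
  ∀ (ht : tq (↥K) n e ∈ FK M' K) (hE : FK (M' * q) K ≤ fracField (AK A K))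
    (π : ↥(AK A K)) (hπ : IsUnif (AK A K) π),
    StrongNodes π (B0 A q ht) (B1 A q ht) (O1 M' q hπ hE) (O2 M' q hπ hE)

/-- The five deliverables of MODEL's suppliers at `K` (S1, V3i, S2, S5-B, S3i). -/
def AllItems : Prop :=
  ChartItems n e q M' A K ∧ GlueItems n e q M' A K ∧ ModEqItems n e q M' A K ∧
    KronItems n e q M' A K ∧ PrinItems n e q M' A K

variable {n e q M' A K}

/-- Strong node coordinates at one `K` from the five items. -/
theorem strongItems_of_items (hq : 2 ≤ q) (h : AllItems n e q M' A K) :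
    StrongItems n e q M' A K := by
  obtain ⟨h1, h2, h3, h4, h5⟩ := h
  obtain ⟨ht, hE, hin⟩ := twoLevelInputs_of_items hq h1 h2 h3 h4 h5
  intro ht' hE' π hπ
  exact strongNodes_of_inputs (hin π hπ)

end Items

variable {n e M' : ℕ} [NeZero n] [NeZero M'] {q : ℕ} [NeZero q] {A : ValuationSubring Qbar}

/-- The five items for all large `K` from S1, the `j`-target and the S2 / S3i adapters (same
inputs as `ModelEnd4.modelInput_of_rest`). -/
theorem allItems_of_rest (hq : q.Prime) (hqM : ¬ q ∣ M') (hA : A.LiesOverPrime q)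
    (hS1 : Large (ChartItems n e q M' A)) (hJ : JTarget n e)
    (hS2 : Large (GlueItems n e q M' A) → Large (ModEqItems n e q M' A))
    (hS3 : Large (GlueItems n e q M' A) → Large (ModEqItems n e q M' A) →
      Large (PrinItems n e q M' A)) :
    Large (AllItems n e q M' A) := by
  have hG : Large (GlueItems n e q M' A) := Fermat.Agent.ES.N34.ModelEnd4.glueItems hq hqM hA hJ
  have hM : Large (ModEqItems n e q M' A) := hS2 hG
  have hK : Large (KronItems n e q M' A) := Fermat.Agent.ES.N34.KronItems15.kronItems hq hqM hA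
  have hP : Large (PrinItems n e q M' A) := hS3 hG hM
  exact (hS1.and (hG.and (hM.and (hK.and hP))))

/-- **All five items, `q` odd** (`4 ∣ M'`, Hauptmodul `tq · 4 8`): no residual hypothesis. -/
theorem allItems_four (hq : q.Prime) (hqM : ¬ q ∣ M') (hq2 : q ≠ 2) (hM : 4 ∣ M')
    (hA : A.LiesOverPrime q) : Large (AllItems 4 8 q M' A) :=
  allItems_of_rest hq hqM hA (chartItems_four hM hq hA)
    (Fermat.Agent.RED.ModelFinal4.jTarget
      (Fermat.Agent.RED.BASE.MainCusp12.base_four M' hM).1.genBase)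
    (Fermat.Agent.ES.N34.ItemsAd6.modEqItems_four hq hq2 hqM hA (chartItems_four hM hq hA))
    (fun hG hS2 => Fermat.Agent.ES.N34.PrinItems12.prinItems_four hq hqM hM hA hG hS2
      (Fermat.Agent.ES.N34.CombA26.hcomb_four hq hqM hM hA))

/-- **All five items, `q = 2`** (`9 ∣ M'`, Hauptmodul `tq · 9 3`): no residual hypothesis. -/
theorem allItems_nine [NeZero 2] (hqM : ¬ 2 ∣ M') (hM : 9 ∣ M') (hA : A.LiesOverPrime 2) :
    Large (AllItems 9 3 2 M' A) :=
  allItems_of_rest Nat.prime_two hqM hA (chartItems_nine hM Nat.prime_two hA)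
    (Fermat.Agent.RED.ModelFinal4.jTarget
      (Fermat.Agent.RED.BASE.MainCusp12.base_nine M' hM).1.genBase)
    (Fermat.Agent.ES.N34.ItemsAd6.modEqItems_nine hqM hA (chartItems_nine hM Nat.prime_two hA))
    (fun hG hS2 => Fermat.Agent.ES.N34.PrinItems12.prinItems_nine Nat.prime_two hqM hM hA hG hS2
      (Fermat.Agent.ES.N34.CombA26.hcomb_nine Nat.prime_two hqM hM hA))

/-- **B5 input, `q` odd**: strong node coordinates for all large normal `K`. -/
theorem strongItems_four (q M' : ℕ) [NeZero M'] [NeZero q] (A : ValuationSubring Qbar)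
    (hq : q.Prime) (hqM : ¬ q ∣ M') (hq2 : q ≠ 2) (hM : 4 ∣ M') (hA : A.LiesOverPrime q) :
    Large (StrongItems 4 8 q M' A) :=
  (allItems_four hq hqM hq2 hM hA).mono fun _ h => strongItems_of_items hq.two_le h

/-- **B5 input, `q = 2`**: strong node coordinates for all large normal `K`. -/
theorem strongItems_nine (M' : ℕ) [NeZero M'] (A : ValuationSubring Qbar)
    (hqM : ¬ 2 ∣ M') (hM : 9 ∣ M') (hA : A.LiesOverPrime 2) :
    Large (StrongItems 9 3 2 M' A) :=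
  (allItems_nine hqM hM hA).mono fun _ h => strongItems_of_items Nat.prime_two.two_le h

end Concrete

end Fermat.Agent.ES.N35.NodeStrong4
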