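/-
Program O (S35), brick B5c′ — helper4: the field `glue` of `ThirdDiffCL29.NodeHyp` at the
`ModelDefs9` data.

`NodeHyp.glue` at a two-branch closed point `𝔪` of a chart `B`:

  `∀ ρ₁ ρ₂ : F, LocOne B 𝔪 ρ₁ → LocOne B 𝔪 ρ₂ →
      ∃ ρ, LocUnit B 𝔪 ρ ∧ MC (algebraMap R F π) O1 ρ ρ₁ ∧ MC (algebraMap R F π) O2 ρ ρ₂`

(two elements of `1 + 𝔪 B_𝔪` are glued to a local unit through `𝔭₁ + 𝔭₂ = 𝔪 B_𝔪`).  It follows from
the strong node coordinates (`NodeStrong4.StrongCoords`) by `NodeHyp29.glue_of_coords`; the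
remaining arguments (`B ⊆ O_j`, `π` a uniformiser of `O_j`) are fields of the nodal model.

* generic: `glue_of_strong` (one point), `GlueNodes`, `glueNodes_of_model`, `glueNodes_of_inputs`
  (from `ModelN4.TwoLevelInputs`);
* per number field at the `ModelDefs9` data: `GlueNodeItems`, `glueNodeItems_of_items`;
* for all large normal `K`, NO residual hypothesis: `glueNodeItems_four` (`(4, 8, q)`, `q` odd),
  `glueNodeItems_nine` (`(9, 3, 2)`).
-/
import Mathlib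
import Fermat.Agent.ES.N35.NodeStrong4
import Fermat.Agent.ES.N35.NodeHyp29

set_option autoImplicit false
set_option synthInstance.maxHeartbeats 400000
set_option linter.unusedSectionVars false

namespace Fermat.Agent.ES.N35.NodeGlue4

open Fermat.Agent.RED.PUR.ChartGeneric22 Fermat.Agent.ES.N34.NodalCore13
  Fermat.Agent.ES.N34.NodalCL13 Fermat.Agent.ES.N34.NumData13 Fermat.Agent.ES.N34.SmoothN5
  Fermat.Agent.ES.N34.ChartN26 Fermat.Agent.ES.N34.ModelN4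
  Fermat.Agent.ES.N35.NodeStrong4 Fermat.Agent.ES.N35.MulCong29 Fermat.Agent.ES.N35.ThirdDiff29

section Generic

variable {R F : Type*} [CommRing R] [Field F] [Algebra R F]

/-- The literal field `glue` of `ThirdDiffCL29.NodeHyp` at `𝔪`. -/
def GlueAt (π : R) (B : Subalgebra R F) (O1 O2 : ValuationSubring F) (𝔪 : Ideal B) : Prop :=
  ∀ ρ₁ ρ₂ : F, LocOne B 𝔪 ρ₁ → LocOne B 𝔪 ρ₂ →
    ∃ ρ, LocUnit B 𝔪 ρ ∧ MC (algebraMap R F π) O1 ρ ρ₁ ∧ MC (algebraMap R F π) O2 ρ ρ₂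

/-- **glue at one two-branch point** from the strong node coordinates. -/
theorem glue_of_strong (π : R) (B : Subalgebra R F) (O1 O2 : ValuationSubring F)
    (leO1 : ∀ x ∈ B, x ∈ O1) (leO2 : ∀ x ∈ B, x ∈ O2)
    (unif1 : ∀ x ∈ O1, x⁻¹ ∉ O1 → ∃ c ∈ O1, x = algebraMap R F π * c)
    (unif2 : ∀ x ∈ O2, x⁻¹ ∉ O2 → ∃ c ∈ O2, x = algebraMap R F π * c)
    (𝔪 : Ideal B) (h𝔪 : 𝔪.IsMaximal)
    (h1 : ¬ OffBranch π B O1 𝔪) (h2 : ¬ OffBranch π B O2 𝔪)
    (hs : StrongCoords π B O1 O2 𝔪) : GlueAt π B O1 O2 𝔪 := by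
  obtain ⟨x, y, hx, hy, _, hspan⟩ := hs
  have : 𝔪.IsPrime := h𝔪.isPrime
  intro ρ₁ ρ₂ hρ₁ hρ₂
  exact Fermat.Agent.ES.N35.NodeHyp29.glue_of_coords π B O1 O2 leO1 leO2 unif1 unif2 𝔪
    (on_of_not_offBranch h1) (on_of_not_offBranch h2) x y hx hy hspan ρ₁ ρ₂ hρ₁ hρ₂

/-- The field `glue` at all two-branch closed points of both charts (binder list = `hnode0` /
`hnode1` of `ThirdDiffCL29.third_diff_root`). -/
def GlueNodes (π : R) (B0 B1 : Subalgebra R F) (O1 O2 : ValuationSubring F) : Prop :=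
  (∀ 𝔪 : Ideal B0, 𝔪.IsMaximal → algebraMap R B0 π ∈ 𝔪 →
      ¬ OffBranch π B0 O1 𝔪 → ¬ OffBranch π B0 O2 𝔪 → GlueAt π B0 O1 O2 𝔪) ∧
  (∀ 𝔪 : Ideal B1, 𝔪.IsMaximal → algebraMap R B1 π ∈ 𝔪 →
      ¬ OffBranch π B1 O1 𝔪 → ¬ OffBranch π B1 O2 𝔪 → GlueAt π B1 O1 O2 𝔪)

/-- glue at all nodes from the nodal model and the strong node coordinates. -/
theorem glueNodes_of_model {π : R} {t : F} {B0 B1 : Subalgebra R F} {O1 O2 : ValuationSubring F}
    (M : NodalTwoChartModel R F π t B0 B1 O1 O2) (hs : StrongNodes π B0 B1 O1 O2) :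
    GlueNodes π B0 B1 O1 O2 :=
  ⟨fun 𝔪 h𝔪 hπ h1 h2 => glue_of_strong π B0 O1 O2 M.le_O1_0 M.le_O2_0 M.unif1 M.unif2 𝔪 h𝔪 h1 h2
      (hs.1 𝔪 h𝔪 hπ h1 h2),
    fun 𝔪 h𝔪 hπ h1 h2 => glue_of_strong π B1 O1 O2 M.le_O1_1 M.le_O2_1 M.unif1 M.unif2 𝔪 h𝔪 h1 h2
      (hs.2 𝔪 h𝔪 hπ h1 h2)⟩

end Generic

section GaussLayer

variable {Kt : Type*} [Field Kt] {O : ValuationSubring Kt}
  {EM E : IntermediateField Kt (HahnSeries ℤ Kt)}

/-- **glue over a Gauss valuation ring** from `ModelN4.TwoLevelInputs`. -/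
theorem glueNodes_of_inputs {a b : ↥EM →ₐ[Kt] ↥E} {q : ℕ} {π : ↥O} {tM : ↥EM}
    {O1 O2 : ValuationSubring ↥E} (h : TwoLevelInputs O EM E a b q π tM O1 O2) :
    GlueNodes π (chart ↥O (a tM)) (chart ↥O (a tM)⁻¹) O1 O2 := by
  have := Fermat.Agent.RED.NumInst4.isScalarTower_OE O E
  exact glueNodes_of_model (model_of_glue h.chartIn.out h.glue) (strongNodes_of_inputs h)

end GaussLayer

noncomputable section Concrete

open HahnSeries ModularCurve
open Fermat.Agent.RED.Interface4 Fermat.Agent.RED.PUR.GaussGen8 Fermat.Agent.RED.BASE.EtaQuot12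
  Fermat.Agent.RED.ModelTargets4 Fermat.Agent.ES.N34.ModelDefs9 Fermat.Agent.ES.N34.ModelTop4

section Items

variable (n e q M' : ℕ) [NeZero n] [NeZero M'] [NeZero q] (A : ValuationSubring Qbar)
  (K : IntermediateField ℚ Qbar)

/-- **`NodeHyp.glue` at `K`**: at every two-branch closed point of the two charts `B0 A q ht`,
`B1 A q ht` of level `M' q`, for every uniformiser `π` of `A ∩ K`. -/
def GlueNodeItems : Prop :=
  ∀ (ht : tq (↥K) n e ∈ FK M' K) (hE : FK (M' * q) K ≤ fracField (AK A K))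
    (π : ↥(AK A K)) (hπ : IsUnif (AK A K) π),
    GlueNodes π (B0 A q ht) (B1 A q ht) (O1 M' q hπ hE) (O2 M' q hπ hE)

variable {n e q M' A K}

/-- glue at one `K` from the five MODEL items. -/
theorem glueNodeItems_of_items (hq : 2 ≤ q) (h : AllItems n e q M' A K) :
    GlueNodeItems n e q M' A K := by
  obtain ⟨h1, h2, h3, h4, h5⟩ := h
  obtain ⟨ht, hE, hin⟩ := twoLevelInputs_of_items hq h1 h2 h3 h4 h5
  intro ht' hE' π hπ
  exact glueNodes_of_inputs (hin π hπ)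

end Items

/-- **`NodeHyp.glue`, `q` odd**: for all large normal `K`, no residual hypothesis. -/
theorem glueNodeItems_four (q M' : ℕ) [NeZero M'] [NeZero q] (A : ValuationSubring Qbar)
    (hq : q.Prime) (hqM : ¬ q ∣ M') (hq2 : q ≠ 2) (hM : 4 ∣ M') (hA : A.LiesOverPrime q) :
    Large (GlueNodeItems 4 8 q M' A) :=
  (allItems_four hq hqM hq2 hM hA).mono fun _ h => glueNodeItems_of_items hq.two_le h

/-- **`NodeHyp.glue`, `q = 2`**: for all large normal `K`, no residual hypothesis. -/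
theorem glueNodeItems_nine (M' : ℕ) [NeZero M'] (A : ValuationSubring Qbar)
    (hqM : ¬ 2 ∣ M') (hM : 9 ∣ M') (hA : A.LiesOverPrime 2) :
    Large (GlueNodeItems 9 3 2 M' A) :=
  (allItems_nine hqM hM hA).mono fun _ h => glueNodeItems_of_items Nat.prime_two.two_le h

end Concrete

end Fermat.Agent.ES.N35.NodeGlue4
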