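/-
Program O (S35), helper29, brick B5a (assembly): **the node package `FrobReady13.NodeItems`** from
its parts.

`FrobReady13.NodeSupplyAt O E π B0 B1 O1 O2 s q` asks, for every `f` with all orders divisible by
`m` and rational support, for `ThirdDiffCL29.NodeHyp` for `Δ Δ f` at every two-branch closed point
of both charts and all constants which are local units.  Its fields come from

* `frob`  : `FrobNodes` (below; supplier B1b — kron twice + surjectivity of the component maps),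
* `int1`, `int2` : `IntNodes` (below; `IntNode16.IntAt`, supplier B5b),
* `glue`  : `NodeGlue4.GlueNodes` (supplier B5c),
* `gen`   : `GenNode10.gen_B0 / gen_B1` (B5d), fed with the nodal model, the decomposition property
  of `s` at `O1`, `O2`, stability of the charts, semilinearity and `frob`,
* `const1`, `const2` : hypotheses of `NodeSupplyAt`.

Generic layer: `nodeSupplyAt_of_parts`.  Concrete layer (`ModelDefs9` data, `s = gK (M' q) K σ|K`
for a Frobenius lift `σ` at `q`): `FrobNodeItems` (`frobNodeItems_of` : from `FrobItems21.FrobItems`),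
`nodeItems_at`, `nodeItems_of`, and, with NO residual hypotheses,
**`nodeItems_four`, `nodeItems_nine` : `Large (NodeItems …)`**.
-/
import Mathlib
import Fermat.Agent.ES.N35.FrobReady13
import Fermat.Agent.ES.N35.IntNode16
import Fermat.Agent.ES.N35.NodeGlue4
import Fermat.Agent.ES.N35.GenNode10
import Fermat.Agent.ES.N35.FrobConst21
import Fermat.Agent.ES.N35.FrobItems21
import Fermat.Agent.ES.N34.ModelEnd4
import Fermat.Agent.ES.N34.GalFinite21

set_option autoImplicit false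
set_option synthInstance.maxHeartbeats 400000
set_option linter.unusedSectionVars false

open HahnSeries AlgebraicCurve ModularCurve

noncomputable section

namespace Fermat.Agent.ES.N35.NodeItems29

open Fermat.Agent.ES.N34.NodalCore13 Fermat.Agent.ES.N34.NodalCL13 Fermat.Agent.ES.N34.NumData13
  Fermat.Agent.ES.N34.ModelInput13
  Fermat.Agent.ES.N35.MulCong29 Fermat.Agent.ES.N35.ThirdDiff29 Fermat.Agent.ES.N35.ThirdDiffCL29
  Fermat.Agent.ES.N35.FrobAbs13 Fermat.Agent.ES.N35.FrobReady13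
  Fermat.Agent.ES.N35.IntNode16 Fermat.Agent.ES.N35.NodeGlue4

/-! ### Generic layer -/

section Parts

variable {R F : Type*} [CommRing R] [Field F] [Algebra R F]

/-- The literal field `frob` of `ThirdDiffCL29.NodeHyp` at `𝔪`. -/
def FrobAt (B : Subalgebra R F) (𝔪 : Ideal B) (s : F ≃+* F) (q : ℕ) : Prop :=
  ∀ b : B, ∃ b' : B, (b' : F) = s (s (b : F)) ∧ b' - b ^ (q ^ 2) ∈ 𝔪

/-- `frob` at all two-branch closed points of both charts (binder list of `NodeGlue4.GlueNodes`). -/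
def FrobNodes (π : R) (B0 B1 : Subalgebra R F) (O1 O2 : ValuationSubring F) (s : F ≃+* F)
    (q : ℕ) : Prop :=
  (∀ 𝔪 : Ideal B0, 𝔪.IsMaximal → algebraMap R B0 π ∈ 𝔪 →
      ¬ OffBranch π B0 O1 𝔪 → ¬ OffBranch π B0 O2 𝔪 → FrobAt B0 𝔪 s q) ∧
  (∀ 𝔪 : Ideal B1, 𝔪.IsMaximal → algebraMap R B1 π ∈ 𝔪 →
      ¬ OffBranch π B1 O1 𝔪 → ¬ OffBranch π B1 O2 𝔪 → FrobAt B1 𝔪 s q)

/-- `int1`, `int2` at all two-branch closed points of both charts (the body of
`IntNode16.IntNodeItems`). -/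
def IntNodes (π : R) (B0 B1 : Subalgebra R F) (O1 O2 : ValuationSubring F) : Prop :=
  (∀ 𝔪 : Ideal B0, 𝔪.IsMaximal → algebraMap R B0 π ∈ 𝔪 →
      ¬ OffBranch π B0 O1 𝔪 → ¬ OffBranch π B0 O2 𝔪 →
        IntAt π B0 O1 𝔪 ∧ IntAt π B0 O2 𝔪) ∧
  (∀ 𝔪 : Ideal B1, 𝔪.IsMaximal → algebraMap R B1 π ∈ 𝔪 →
      ¬ OffBranch π B1 O1 𝔪 → ¬ OffBranch π B1 O2 𝔪 →
        IntAt π B1 O1 𝔪 ∧ IntAt π B1 O2 𝔪)

/-- `NodeHyp` from its seven fields. -/
theorem nodeHyp_of_fields {π : R} {B : Subalgebra R F} {O1 O2 : ValuationSubring F}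
    {𝔪 : Ideal B} {s : F ≃+* F} {q m : ℕ} (hm : 0 < m) {h' C₁ C₂ : F}
    (hfrob : FrobAt B 𝔪 s q) (hint1 : IntAt π B O1 𝔪) (hint2 : IntAt π B O2 𝔪)
    (hglue : GlueAt π B O1 O2 𝔪) (hgen : ∃ G' : F, G' ≠ 0 ∧ LocUnit B 𝔪 (h' / G' ^ m))
    (h1 : LocUnit B 𝔪 C₁) (h2 : LocUnit B 𝔪 C₂) :
    NodeHyp π B O1 O2 𝔪 s q m h' C₁ C₂ :=
  ⟨hfrob, hint1 m hm, hint2 m hm, hglue, hgen, h1, h2⟩

end Parts

section Generic

variable {Kt : Type*} [Field Kt]

/-- **The node package from its parts** (generic form). -/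
theorem nodeSupplyAt_of_parts {O : ValuationSubring Kt} [IsDiscreteValuationRing ↥O]
    {E : IntermediateField Kt (LaurentSeries Kt)} {π : O} {t : E}
    {B0 B1 : Subalgebra ↥O ↥E} {O1 O2 : ValuationSubring ↥E}
    (D : NodalDataAt O E π t B0 B1 O1 O2) (hπ : Irreducible π)
    (g : SemilinearAut Kt E) (q : ℕ) (hq : 0 < q)
    (dec1 : IsDecomp O1 (algebraMap ↥O ↥E π) (SemilinearAut.toRingAut g))
    (dec2 : IsDecomp O2 (algebraMap ↥O ↥E π) (SemilinearAut.toRingAut g))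
    (hB0 : ∀ x : E, x ∈ B0 ↔ SemilinearAut.toRingAut g x ∈ B0)
    (hB1 : ∀ x : E, x ∈ B1 ↔ SemilinearAut.toRingAut g x ∈ B1)
    (hsemi : ∀ r : O, ∃ r' : O,
      SemilinearAut.toRingAut g (algebraMap ↥O ↥E r) = algebraMap ↥O ↥E r')
    (hsemi' : ∀ r : O, ∃ r' : O,
      (SemilinearAut.toRingAut g).symm (algebraMap ↥O ↥E r) = algebraMap ↥O ↥E r')
    (hfin : ∀ f : E, f ≠ 0 → {v : Place Kt E | v.ord f ≠ 0}.Finite)
    (hfrob : FrobNodes π B0 B1 O1 O2 (SemilinearAut.toRingAut g) q)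
    (hint : IntNodes π B0 B1 O1 O2) (hglue : GlueNodes π B0 B1 O1 O2) :
    NodeSupplyAt O E π B0 B1 O1 O2 (SemilinearAut.toRingAut g) q := by
  have := Fermat.Agent.RED.NumInst4.isScalarTower_OE O E
  have D' : NodalNumData ↥O Kt ↥E π t B0 B1 O1 O2 := D
  have M := D'.model
  have hdl1 : ∀ y : E, y ≠ 0 → Dl (SemilinearAut.toRingAut g) y ∈ O1 ∧
      (Dl (SemilinearAut.toRingAut g) y)⁻¹ ∈ O1 :=
    fun y hy => dec1.dl_mem M.pi_ne M.unif1 M.arch1 hy
  have hdl2 : ∀ y : E, y ≠ 0 → Dl (SemilinearAut.toRingAut g) y ∈ O2 ∧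
      (Dl (SemilinearAut.toRingAut g) y)⁻¹ ∈ O2 :=
    fun y hy => dec2.dl_mem M.pi_ne M.unif2 M.arch2 hy
  intro m hm f hf hord hrat
  have hm0 : 0 < m := Nat.pos_of_ne_zero fun h => hm (h ▸ dvd_zero q)
  refine ⟨fun 𝔪 h𝔪 hπ𝔪 h1 h2 C₁ C₂ hC₁ hC₂ => ?_, fun 𝔪 h𝔪 hπ𝔪 h1 h2 C₁ C₂ hC₁ hC₂ => ?_⟩
  · have hfr := hfrob.1 𝔪 h𝔪 hπ𝔪 h1 h2
    obtain ⟨hi1, hi2⟩ := hint.1 𝔪 h𝔪 hπ𝔪 h1 h2
    exact nodeHyp_of_fields hm0 hfr hi1 hi2 (hglue.1 𝔪 h𝔪 hπ𝔪 h1 h2)
      (Fermat.Agent.ES.N35.GenNode10.gen_B0 D' hπ g q hq hdl1 hdl2 hB0 hsemi hsemi' m hm0 f hf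
        hord (hfin f hf) hrat 𝔪 h𝔪 hπ𝔪 (D'.node0 𝔪 h𝔪 hπ𝔪 h1 h2) hfr) hC₁ hC₂
  · have hfr := hfrob.2 𝔪 h𝔪 hπ𝔪 h1 h2
    obtain ⟨hi1, hi2⟩ := hint.2 𝔪 h𝔪 hπ𝔪 h1 h2
    exact nodeHyp_of_fields hm0 hfr hi1 hi2 (hglue.2 𝔪 h𝔪 hπ𝔪 h1 h2)
      (Fermat.Agent.ES.N35.GenNode10.gen_B1 D' hπ g q hq hdl1 hdl2 hB1 hsemi hsemi' m hm0 f hf
        hord (hfin f hf) hrat 𝔪 h𝔪 hπ𝔪 (D'.node1 𝔪 h𝔪 hπ𝔪 h1 h2) hfr) hC₁ hC₂

end Generic

/-! ### Concrete layer: the `ModelDefs9` data -/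

section Concrete

open Fermat.Agent.RED.Interface4 Fermat.Agent.RED.DESC Fermat.Agent.RED.PUR.GaussGen8
  Fermat.Agent.RED.BASE.EtaQuot12
  Fermat.Agent.ES.N34.IfaceN4 Fermat.Agent.ES.N34.GalBase21 Fermat.Agent.ES.N34.ModelDefs9
  Fermat.Agent.ES.N34.ModelN4 Fermat.Agent.ES.N35.FrobModel21 Fermat.Agent.ES.N35.FrobConst21

variable (n e q M' : ℕ) [NeZero n] [NeZero M'] [NeZero q] (A : ValuationSubring Qbar)
  (K : IntermediateField ℚ Qbar)

/-- **B1b at `K`**: the field `frob` of `NodeHyp` at every two-branch closed point of both charts,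
for every uniformiser and every Frobenius lift `σ` at `q` (`s = gK (M' q) K σ|K`). -/
def FrobNodeItems : Prop :=
  ∀ [Normal ℚ K] (ht : tq (↥K) n e ∈ FK M' K) (hE : FK (M' * q) K ≤ fracField (AK A K))
    (π : ↥(AK A K)) (hπ : IsUnif (AK A K) π) (σ : Qbar ≃ₐ[ℚ] Qbar), A.IsFrobeniusAt σ q →
    FrobNodes π (B0 A q ht) (B1 A q ht) (O1 M' q hπ hE) (O2 M' q hπ hE)
      (gK (M' * q) K (σ.restrictNormal K)) q

/-- MODEL at `K`: the body of `ModelInput13.ModelInput`. -/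
def ModelDataItems : Prop :=
  ∃ (ht : tq ↥K n e ∈ FK M' K) (hE : FK (M' * q) K ≤ fracField (AK A K)),
    ∀ (π : ↥(AK A K)) (hπ : IsUnif (AK A K) π),
      NodalDataAt (AK A K) (FK (M' * q) K) π (tN q ht) (B0 A q ht) (B1 A q ht)
        (O1 M' q hπ hE) (O2 M' q hπ hE)

variable {n e q M' A}

theorem large_modelDataItems (h : ModelInput n e q M' A) : Large (ModelDataItems n e q M' A) := h

variable {K}

/-- helper21's `FrobItems21.FrobItems` (explicit normality binder, no `IsMaximal` / `π ∈ 𝔪`) in the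
binder shape of `NodeItems`. -/
theorem frobNodeItems_of (h : Fermat.Agent.ES.N35.FrobItems21.FrobItems n e q M' A K) :
    FrobNodeItems n e q M' A K := by
  intro hN ht hE π hπ σ hσ
  obtain ⟨h0, h1⟩ := h hN ht hE π hπ σ hσ
  exact ⟨fun 𝔪 _ _ a b => h0 𝔪 a b, fun 𝔪 _ _ a b => h1 𝔪 a b⟩

/-- `s = gK (M' q) K σ|K` preserves `O1` with its uniformiser, for `σ` in the decomposition group. -/
theorem isDecomp_O1 [Normal ℚ K] {σ : Qbar ≃ₐ[ℚ] Qbar} (hσ : σ ∈ A.decompositionSubgroup ℚ)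
    {π : ↥(AK A K)} (hπ : IsUnif (AK A K) π) (hE : FK (M' * q) K ≤ fracField (AK A K)) :
    IsDecomp (O1 M' q hπ hE) (algebraMap ↥(AK A K) ↥(FK (M' * q) K) π)
      (gK (M' * q) K (σ.restrictNormal K)) where
  map_mem := fun x hx => (gK_mem_O1_iff K hσ M' q hπ hE x).mpr hx
  symm_mem := fun x hx => by
    rw [gK_symm]
    exact (gK_mem_O1_iff K (inv_mem hσ) M' q hπ hE x).mpr hx
  map_p := map_p_gaussVS K hσ (M' * q) hπ hE

/-- `s` preserves `O2` with its uniformiser. -/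
theorem isDecomp_O2 [Normal ℚ K] {σ : Qbar ≃ₐ[ℚ] Qbar} (hσ : σ ∈ A.decompositionSubgroup ℚ)
    {π : ↥(AK A K)} (hπ : IsUnif (AK A K) π) (hE : FK (M' * q) K ≤ fracField (AK A K)) :
    IsDecomp (O2 M' q hπ hE) (algebraMap ↥(AK A K) ↥(FK (M' * q) K) π)
      (gK (M' * q) K (σ.restrictNormal K)) where
  map_mem := fun x hx => (gK_mem_O2_iff K hσ M' q hπ hE x).mpr hx
  symm_mem := fun x hx => by
    rw [gK_symm]
    exact (gK_mem_O2_iff K (inv_mem hσ) M' q hπ hE x).mpr hx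
  map_p := map_p_O2 K hσ M' q hπ hE

/-- **B5 at one `K`** from MODEL, frob, int and glue at `K`. -/
theorem nodeItems_at (hq : q.Prime) (hA : A.LiesOverPrime q) (K : IntermediateField ℚ Qbar)
    [FiniteDimensional ℚ K] (hD : ModelDataItems n e q M' A K) (hF : FrobNodeItems n e q M' A K)
    (hI : IntNodeItems n e q M' A K) (hG : GlueNodeItems n e q M' A K) :
    NodeItems n e q M' A K := by
  intro _ ht hE π hπ σ hσ
  obtain ⟨_, _, hD⟩ := hD
  have hdvr : IsDiscreteValuationRing ↥(AK A K) :=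
    NumberFieldDVR27.isDiscreteValuationRing_AK A K hq.ne_zero hA
  have hirr : Irreducible π :=
    (IsDiscreteValuationRing.irreducible_iff_uniformizer π).mpr hπ.max_eq
  have hσd := hσ.mem_decompositionSubgroup
  exact nodeSupplyAt_of_parts (hD π hπ) hirr (galK K (M' * q) σ) q hq.pos
    (isDecomp_O1 hσd hπ hE) (isDecomp_O2 hσd hπ hE)
    (fun x => (gK_mem_B0_iff K hσd q ht x).symm) (fun x => (gK_mem_B1_iff K hσd q ht x).symm)
    (gK_semilin K hσd (M' * q))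
    (fun r => by
      have h := gK_semilin K (inv_mem hσd) (M' * q) r
      rwa [← gK_symm] at h)
    (fun f hf => Fermat.Agent.ES.N34.GalFinite21.finite_support_ord_FK (M' * q) K hf)
    (hF ht hE π hπ σ hσ) (hI ht hE π hπ) (hG ht hE π hπ)

/-- **B5 for all large `K`** from MODEL and the three `Large` suppliers. -/
theorem nodeItems_of (hq : q.Prime) (hA : A.LiesOverPrime q) (hmodel : ModelInput n e q M' A)
    (hF : Large (FrobNodeItems n e q M' A)) (hI : Large (IntNodeItems n e q M' A))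
    (hG : Large (GlueNodeItems n e q M' A)) : Large (NodeItems n e q M' A) := by
  obtain ⟨K₀, hK₀, h⟩ := ((large_modelDataItems hmodel).and hF).and (hI.and hG)
  refine ⟨K₀, hK₀, fun K _ hfd hle => ?_⟩
  obtain ⟨⟨a1, a2⟩, a3, a4⟩ := h K hfd hle
  exact nodeItems_at hq hA K a1 a2 a3 a4

/-- **B5, `q` odd** (`4 ∣ M'`, Hauptmodul `tq · 4 8`), no residual hypotheses. -/
theorem nodeItems_four (q M' : ℕ) [NeZero M'] [NeZero q] (A : ValuationSubring Qbar)
    (hq : q.Prime) (hqM : ¬ q ∣ M') (hq2 : q ≠ 2) (hM : 4 ∣ M') (hA : A.LiesOverPrime q) :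
    Large (NodeItems 4 8 q M' A) :=
  nodeItems_of hq hA (Fermat.Agent.ES.N34.ModelEnd4.modelInput_four q M' A hq hqM hq2 hM hA)
    ((Fermat.Agent.ES.N35.FrobItems21.frobItems_four hq hqM hq2 hM hA).mono
      fun _ h => frobNodeItems_of h)
    (intNode_four q M' A hq hqM hq2 hM hA) (glueNodeItems_four q M' A hq hqM hq2 hM hA)

/-- **B5, `q = 2`** (`9 ∣ M'`, Hauptmodul `tq · 9 3`), no residual hypotheses. -/
theorem nodeItems_nine (M' : ℕ) [NeZero M'] (A : ValuationSubring Qbar)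
    (hqM : ¬ 2 ∣ M') (hM : 9 ∣ M') (hA : A.LiesOverPrime 2) :
    Large (NodeItems 9 3 2 M' A) :=
  nodeItems_of Nat.prime_two hA (Fermat.Agent.ES.N34.ModelEnd4.modelInput_nine M' A hqM hM hA)
    ((Fermat.Agent.ES.N35.FrobItems21.frobItems_nine hqM hM hA).mono
      fun _ h => frobNodeItems_of h)
    (intNode_nine M' A hqM hM hA) (glueNodeItems_nine M' A hqM hM hA)

end Concrete

end Fermat.Agent.ES.N35.NodeItems29
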