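/-
Program O (S35), brick B2b, abstract assembly (helper26): **`normBar`** = (N̄) in the literal shape of
`FrobAbs13.FrobData.normBar` from
* `hcomb` on both branches (`CombA26.HcombAt`, `HcombBeta5.HcombBetaAt`),
* the branch intersections `α z ∈ O1 ↔ z ∈ Ov`, `β z ∈ O2 ↔ z ∈ Ov`,
* the Kronecker congruences `hK1 hK2` in `MC` form (`KronMC15`),
* the two norm congruences in VALUATION form (`NormGauss20.norm_congr_gauss` at `(alpha; O1, O2)` and at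
  `(beta; O2, O1)`).
Pure algebra: Mathlib + `MulCong29`.

For a unit `h ≠ 0` of `O1 ⊓ O2`: `x₁` := an `α`-representative of `h` on the first branch, `y₂` := a
`β`-representative of `h` on the second branch; they are units of `Ov`; `x₂ := s₀ y₂` satisfies
`h ^ q ≡ α x₂` on the second branch (`(β y₂) ^ q ≡ α (s₀ y₂)`, `hK2`), `y₁ := s₀ x₁` satisfies
`h ^ q ≡ β y₁` on the first branch (`hK1`); the norm congruences give `N_α h ≡ x₁ x₂`, `N_β h ≡ y₂ y₁`.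
-/
import Mathlib
import Fermat.Agent.ES.N35.MulCong29

set_option autoImplicit false

namespace Fermat.Agent.ES.N35.NormBarAbs26

open Fermat.Agent.ES.N35.MulCong29

section Val

variable {F : Type*} [Field F] {p : F} {O : ValuationSubring F}

theorem val_p_lt_one (hp : p ∈ O) (hp' : p⁻¹ ∉ O) : O.valuation p < 1 := by
  have h1 : O.valuation p ≤ 1 := (O.valuation_le_one_iff p).mpr hp
  rcases lt_or_eq_of_le h1 with h | h
  · exact h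
  · exfalso
    apply hp'
    rw [← O.valuation_le_one_iff, map_inv₀, h, inv_one]

/-- `p c`, `c ∈ O`, has valuation `< 1`. -/
theorem val_mul_lt_one (hp : p ∈ O) (hp' : p⁻¹ ∉ O) {c : F} (hc : c ∈ O) :
    O.valuation (p * c) < 1 := by
  rw [map_mul]
  calc O.valuation p * O.valuation c ≤ O.valuation p * 1 := by
        gcongr
        exact (O.valuation_le_one_iff c).mpr hc
    _ = O.valuation p := mul_one _
    _ < 1 := val_p_lt_one hp hp'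

/-- valuation `< 1` means: in `p O` (`p` a uniformiser). -/
theorem exists_mul_of_val_lt_one (unif : ∀ x ∈ O, x⁻¹ ∉ O → ∃ c ∈ O, x = p * c) {x : F}
    (hx : O.valuation x < 1) : ∃ c ∈ O, x = p * c := by
  by_cases hx0 : x = 0
  · exact ⟨0, O.zero_mem, by rw [hx0, mul_zero]⟩
  have hxO : x ∈ O := (O.valuation_le_one_iff x).mp hx.le
  refine unif x hxO ?_
  intro hinv
  have h1 : O.valuation x⁻¹ ≤ 1 := (O.valuation_le_one_iff _).mpr hinv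
  have h2 : O.valuation x * O.valuation x⁻¹ = 1 := by
    rw [← map_mul, mul_inv_cancel₀ hx0, map_one]
  have h3 : O.valuation x * O.valuation x⁻¹ < 1 := by
    calc O.valuation x * O.valuation x⁻¹ ≤ O.valuation x * 1 := by gcongr
      _ = O.valuation x := mul_one _
      _ < 1 := hx
  rw [h2] at h3
  exact lt_irrefl _ h3

/-- `One1` gives a unit of `O`. -/
theorem One1.inv_mem (hp : p ∈ O) (hp' : p⁻¹ ∉ O) {z : F} (hz : One1 p O z) : z⁻¹ ∈ O :=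
  (hz.inv hp hp').mem hp

/-- `MC x y` with `x ∈ O` gives `y ∈ O`. -/
theorem MC.right_mem (hp : p ∈ O) (hp' : p⁻¹ ∉ O) {x y : F} (h : MC p O x y) (hx : x ∈ O) :
    y ∈ O := by
  have hx0 : x ≠ 0 := h.left_ne_zero hp'
  have h1 : (x / y)⁻¹ ∈ O := One1.inv_mem hp hp' h
  have e : y = x * (x / y)⁻¹ := by
    rw [inv_div, mul_div_assoc', mul_comm, mul_div_assoc, div_self hx0, mul_one]
  rw [e]
  exact O.mul_mem _ _ hx h1

/-- `MC x y` with `x ∈ O`: the difference `x - y` has valuation `< 1`. -/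
theorem MC.val_sub_lt_one (hp : p ∈ O) (hp' : p⁻¹ ∉ O) {x y : F} (h : MC p O x y) (hx : x ∈ O) :
    O.valuation (x - y) < 1 := by
  have hy0 : y ≠ 0 := h.right_ne_zero hp'
  have hyO : y ∈ O := MC.right_mem hp hp' h hx
  obtain ⟨c, hc, e⟩ := h
  have e' : x - y = p * (c * y) := by
    have : x / y - 1 = (x - y) / y := by field_simp
    rw [this] at e
    rw [← mul_assoc, ← e, div_mul_cancel₀ _ hy0]
  rw [e']
  exact val_mul_lt_one hp hp' (O.mul_mem _ _ hc hyO)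

/-- difference of valuation `< 1` and `y` a unit of `O` give `MC x y`. -/
theorem MC.of_val_sub_lt_one (unif : ∀ x ∈ O, x⁻¹ ∉ O → ∃ c ∈ O, x = p * c) {x y : F}
    (hy0 : y ≠ 0) (hyinv : y⁻¹ ∈ O) (h : O.valuation (x - y) < 1) : MC p O x y := by
  obtain ⟨c, hc, e⟩ := exists_mul_of_val_lt_one unif h
  refine ⟨c * y⁻¹, O.mul_mem _ _ hc hyinv, ?_⟩
  have : x / y - 1 = (x - y) / y := by field_simp
  rw [this, e, div_eq_mul_inv, mul_assoc]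

/-- `x - φ z = p c` with `x` a unit: `MC x (φ z)`. -/
theorem MC.of_sub_eq (hp : p ∈ O) (hp' : p⁻¹ ∉ O) {x y c : F} (hx0 : x ≠ 0) (hxinv : x⁻¹ ∈ O)
    (hc : c ∈ O) (e : x - y = p * c) : MC p O x y := by
  -- `y / x = 1 - p c x⁻¹`
  have h1 : One1 p O (y / x) := by
    refine ⟨-(c * x⁻¹), O.neg_mem _ (O.mul_mem _ _ hc hxinv), ?_⟩
    have : y / x - 1 = -((x - y) / x) := by field_simp; ring
    rw [this, e, div_eq_mul_inv]
    ring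
  have h2 : MC p O y x := h1
  exact h2.symm hp hp'

end Val

section Main

variable {R F F₀ : Type*} [CommRing R] [Field F] [Field F₀] [Algebra R F] [Algebra R F₀]

/-- **(N̄), abstract assembly** — the field `normBar` of `FrobAbs13.FrobData` (with `h ≠ 0`). -/
theorem normBar_of (π : R) (O1 O2 : ValuationSubring F) (Ov : ValuationSubring F₀)
    (α β : F₀ →+* F) (s₀ : F₀ ≃+* F₀) (q : ℕ) (Nα Nβ : F →* F₀)
    (hp1 : algebraMap R F π ∈ O1) (hp1' : (algebraMap R F π)⁻¹ ∉ O1)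
    (hp2 : algebraMap R F π ∈ O2) (hp2' : (algebraMap R F π)⁻¹ ∉ O2)
    (unif0 : ∀ x ∈ Ov, x⁻¹ ∉ Ov → ∃ c ∈ Ov, x = algebraMap R F₀ π * c)
    (hαO1 : ∀ z : F₀, α z ∈ O1 ↔ z ∈ Ov) (hβO2 : ∀ z : F₀, β z ∈ O2 ↔ z ∈ Ov)
    (hcombA : ∀ x ∈ O1, ∃ z ∈ Ov, ∃ c ∈ O1, x - α z = algebraMap R F π * c)
    (hcombB : ∀ x ∈ O2, ∃ z ∈ Ov, ∃ c ∈ O2, x - β z = algebraMap R F π * c)
    (s0mem : ∀ x ∈ Ov, s₀ x ∈ Ov)
    (hK1 : ∀ x : F₀, x ≠ 0 → x ∈ Ov → x⁻¹ ∈ Ov →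
      MC (algebraMap R F π) O1 (β (s₀ x)) (α x ^ q))
    (hK2 : ∀ y : F₀, y ≠ 0 → y ∈ Ov → y⁻¹ ∈ Ov →
      MC (algebraMap R F π) O2 (α (s₀ y)) (β y ^ q))
    (normA : ∀ h : F, h ∈ O1 → h ∈ O2 → ∀ x₁ x₂ : F₀, x₁ ∈ Ov → x₂ ∈ Ov →
      O1.valuation (h - α x₁) < 1 → O2.valuation (h ^ q - α x₂) < 1 →
      Ov.valuation (Nα h - x₁ * x₂) < 1)
    (normB : ∀ h : F, h ∈ O1 → h ∈ O2 → ∀ y₁ y₂ : F₀, y₁ ∈ Ov → y₂ ∈ Ov →
      O2.valuation (h - β y₂) < 1 → O1.valuation (h ^ q - β y₁) < 1 →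
      Ov.valuation (Nβ h - y₂ * y₁) < 1) :
    ∀ h : F, h ≠ 0 → h ∈ O1 → h⁻¹ ∈ O1 → h ∈ O2 → h⁻¹ ∈ O2 → ∃ x₁ y₂ : F₀,
      x₁ ∈ Ov ∧ x₁⁻¹ ∈ Ov ∧ y₂ ∈ Ov ∧ y₂⁻¹ ∈ Ov ∧
      MC (algebraMap R F π) O1 h (α x₁) ∧ MC (algebraMap R F π) O2 h (β y₂) ∧
      MC (algebraMap R F₀ π) Ov (Nα h) (x₁ * s₀ y₂) ∧
      MC (algebraMap R F₀ π) Ov (Nβ h) (s₀ x₁ * y₂) := by
  intro h hh0 h1 h1' h2 h2'
  -- the representatives
  obtain ⟨x₁, hx₁, c₁, hc₁, e₁⟩ := hcombA h h1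
  obtain ⟨y₂, hy₂, c₂, hc₂, e₂⟩ := hcombB h h2
  have m1 : MC (algebraMap R F π) O1 h (α x₁) := MC.of_sub_eq hp1 hp1' hh0 h1' hc₁ e₁
  have m2 : MC (algebraMap R F π) O2 h (β y₂) := MC.of_sub_eq hp2 hp2' hh0 h2' hc₂ e₂
  -- they are units of `Ov`
  have hαx0 : α x₁ ≠ 0 := m1.right_ne_zero hp1'
  have hβy0 : β y₂ ≠ 0 := m2.right_ne_zero hp2'
  have hx₁0 : x₁ ≠ 0 := fun h0 => hαx0 (by rw [h0, map_zero])
  have hy₂0 : y₂ ≠ 0 := fun h0 => hβy0 (by rw [h0, map_zero])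
  have hx₁' : x₁⁻¹ ∈ Ov := by
    rw [← hαO1, map_inv₀]
    exact MC.right_mem hp1 hp1' (m1.inv hp1 hp1') h1'
  have hy₂' : y₂⁻¹ ∈ Ov := by
    rw [← hβO2, map_inv₀]
    exact MC.right_mem hp2 hp2' (m2.inv hp2 hp2') h2'
  -- `x₂ := s₀ y₂`, `y₁ := s₀ x₁`
  have hx₂ : s₀ y₂ ∈ Ov := s0mem _ hy₂
  have hx₂' : (s₀ y₂)⁻¹ ∈ Ov := by rw [← map_inv₀]; exact s0mem _ hy₂'
  have hy₁ : s₀ x₁ ∈ Ov := s0mem _ hx₁
  have hy₁' : (s₀ x₁)⁻¹ ∈ Ov := by rw [← map_inv₀]; exact s0mem _ hx₁'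
  have hx₂0 : s₀ y₂ ≠ 0 := (map_ne_zero s₀).mpr hy₂0
  have hy₁0 : s₀ x₁ ≠ 0 := (map_ne_zero s₀).mpr hx₁0
  -- `h ^ q ~₂ α (s₀ y₂)`, `h ^ q ~₁ β (s₀ x₁)`
  have m2q : MC (algebraMap R F π) O2 (h ^ q) (α (s₀ y₂)) :=
    (m2.pow hp2 q).trans hp2 hp2' ((hK2 y₂ hy₂0 hy₂ hy₂').symm hp2 hp2')
  have m1q : MC (algebraMap R F π) O1 (h ^ q) (β (s₀ x₁)) :=
    (m1.pow hp1 q).trans hp1 hp1' ((hK1 x₁ hx₁0 hx₁ hx₁').symm hp1 hp1')
  -- valuation forms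
  have v1 : O1.valuation (h - α x₁) < 1 := MC.val_sub_lt_one hp1 hp1' m1 h1
  have v2 : O2.valuation (h - β y₂) < 1 := MC.val_sub_lt_one hp2 hp2' m2 h2
  have v2q : O2.valuation (h ^ q - α (s₀ y₂)) < 1 :=
    MC.val_sub_lt_one hp2 hp2' m2q (pow_mem h2 q)
  have v1q : O1.valuation (h ^ q - β (s₀ x₁)) < 1 :=
    MC.val_sub_lt_one hp1 hp1' m1q (pow_mem h1 q)
  -- the norms
  have nA := normA h h1 h2 x₁ (s₀ y₂) hx₁ hx₂ v1 v2q
  have nB := normB h h1 h2 (s₀ x₁) y₂ hy₁ hy₂ v2 v1q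
  refine ⟨x₁, y₂, hx₁, hx₁', hy₂, hy₂', m1, m2, ?_, ?_⟩
  · refine MC.of_val_sub_lt_one unif0 (mul_ne_zero hx₁0 hx₂0) ?_ nA
    rw [mul_inv]
    exact Ov.mul_mem _ _ hx₁' hx₂'
  · refine MC.of_val_sub_lt_one unif0 (mul_ne_zero hy₁0 hy₂0) ?_ ?_
    · rw [mul_inv]
      exact Ov.mul_mem _ _ hy₁' hy₂'
    · rw [mul_comm (s₀ x₁) y₂]
      exact nB

end Main

end Fermat.Agent.ES.N35.NormBarAbs26
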