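/-
Program O (S35), brick B2b, per-`K` instance (helper26): **`FrobData.normBar` at the `ModelDefs9` data**
from
* `CombA26.HcombAt` (`hcomb` at `(O1, alpha)`, on main, `Large` unconditionally) and its W-transport
  `CombW5.hcomb_O2_of_O1` (`hcomb` at `(O2, beta)`) with the isometry `IsoM25.isoM`,
* `BranchInt5.alpha_mem_O1_iff`, `beta_mem_O2_iff`, `FrobModel21.gK_mem_gaussVS_iff`,
* `KronMC15.kbar_one_VS`, `kbar_two_VS`,
* the two norm congruences in valuation form (hypotheses `normA`, `normB`: the literal conclusions of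
  helper11's `NormInst11.normA_congr / normB_congr`, for arbitrary `Nα Nβ : F →* F₀`),
through the abstract assembly `NormBarAbs26.normBar_of`.
-/
import Mathlib
import Fermat.Agent.ES.N34.CombA26
import Fermat.Agent.ES.N34.CombW5
import Fermat.Agent.ES.N34.IsoM25
import Fermat.Agent.ES.N34.ModelGlue22
import Fermat.Agent.ES.N35.KronMC15
import Fermat.Agent.ES.N35.FrobModel21
import Fermat.Agent.ES.N35.NormBarAbs26

set_option autoImplicit false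
set_option linter.unusedSectionVars false
set_option synthInstance.maxHeartbeats 400000

noncomputable section

open HahnSeries ModularCurve

namespace Fermat.Agent.ES.N35.NormBarInst26

open Fermat.Agent.RED.Interface4 Fermat.Agent.RED.PUR.GaussGen8
  Fermat.Agent.RED.BASE.EtaQuot12 Fermat.Agent.ES.N34.ModelDefs9 Fermat.Agent.ES.N34.IfaceN4
  Fermat.Agent.ES.N34.GaussEmb22 Fermat.Agent.ES.N35.MulCong29

section Generic

variable {Kt : Type*} [Field Kt] {O : ValuationSubring Kt} [IsDiscreteValuationRing ↥O]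
  {F : Type*} [Field F] [Algebra Kt F] [Algebra ↥O F] [IsScalarTower ↥O Kt F]
  {ι : F →ₐ[Kt] LaurentSeries Kt} {V : ValuationSubring F} {π : ↥O}

theorem pi_mem (hV : IsGaussPullback O ι V) : algebraMap ↥O F π ∈ V :=
  algebraMap_O_mem hV π

theorem pi_inv_not_mem' (hV : IsGaussPullback O ι V) (hπ : Irreducible π) :
    (algebraMap ↥O F π)⁻¹ ∉ V := by
  rw [algebraMap_O_eq]
  exact pi_inv_not_mem hV hπ

theorem unif' (hV : IsGaussPullback O ι V) (hπ : Irreducible π) :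
    ∀ x ∈ V, x⁻¹ ∉ V → ∃ c ∈ V, x = algebraMap ↥O F π * c := by
  intro x hx hx'
  obtain ⟨c, hc, e⟩ := unif hV hπ x hx hx'
  exact ⟨c, hc, by rw [algebraMap_O_eq]; exact e⟩

end Generic

variable {n e q M' : ℕ} [NeZero n] [NeZero M'] [NeZero q] {A : ValuationSubring Qbar}

set_option maxHeartbeats 4000000 in
/-- **`normBar` at one number field `K`** (literal `FrobAbs13.FrobData.normBar`, with `h ≠ 0`). -/
theorem normBar_at (hq : q.Prime) (hqM : ¬ q ∣ M') (hA : A.LiesOverPrime q)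
    (K : IntermediateField ℚ Qbar) [Normal ℚ K] [FiniteDimensional ℚ K]
    (ht : tq (↥K) n e ∈ FK M' K) (hc : Fermat.Agent.ES.N34.CombA26.HcombAt n e q M' A K)
    (hE : FK (M' * q) K ≤ fracField (AK A K)) (hE₀ : FK M' K ≤ fracField (AK A K))
    (π : ↥(AK A K)) (hπ : IsUnif (AK A K) π) (σ : Qbar ≃ₐ[ℚ] Qbar) (hσ : A.IsFrobeniusAt σ q)
    (Nα Nβ : ↥(FK (M' * q) K) →* ↥(FK M' K))
    (normA : ∀ h : ↥(FK (M' * q) K), h ∈ O1 M' q hπ hE → h ∈ O2 M' q hπ hE →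
      ∀ x₁ x₂ : ↥(FK M' K), x₁ ∈ gaussVS hπ (FK M' K) hE₀ → x₂ ∈ gaussVS hπ (FK M' K) hE₀ →
      (O1 M' q hπ hE).valuation (h - alpha K M' q x₁) < 1 →
      (O2 M' q hπ hE).valuation (h ^ q - alpha K M' q x₂) < 1 →
      (gaussVS hπ (FK M' K) hE₀).valuation (Nα h - x₁ * x₂) < 1)
    (normB : ∀ h : ↥(FK (M' * q) K), h ∈ O1 M' q hπ hE → h ∈ O2 M' q hπ hE →
      ∀ y₁ y₂ : ↥(FK M' K), y₁ ∈ gaussVS hπ (FK M' K) hE₀ → y₂ ∈ gaussVS hπ (FK M' K) hE₀ →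
      (O2 M' q hπ hE).valuation (h - beta K M' q y₂) < 1 →
      (O1 M' q hπ hE).valuation (h ^ q - beta K M' q y₁) < 1 →
      (gaussVS hπ (FK M' K) hE₀).valuation (Nβ h - y₂ * y₁) < 1) :
    ∀ h : ↥(FK (M' * q) K), h ≠ 0 → h ∈ O1 M' q hπ hE → h⁻¹ ∈ O1 M' q hπ hE →
      h ∈ O2 M' q hπ hE → h⁻¹ ∈ O2 M' q hπ hE → ∃ x₁ y₂ : ↥(FK M' K),
      x₁ ∈ gaussVS hπ (FK M' K) hE₀ ∧ x₁⁻¹ ∈ gaussVS hπ (FK M' K) hE₀ ∧
      y₂ ∈ gaussVS hπ (FK M' K) hE₀ ∧ y₂⁻¹ ∈ gaussVS hπ (FK M' K) hE₀ ∧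
      MC (algebraMap ↥(AK A K) ↥(FK (M' * q) K) π) (O1 M' q hπ hE) h
        ((alpha K M' q : ↥(FK M' K) →+* ↥(FK (M' * q) K)) x₁) ∧
      MC (algebraMap ↥(AK A K) ↥(FK (M' * q) K) π) (O2 M' q hπ hE) h
        ((beta K M' q : ↥(FK M' K) →+* ↥(FK (M' * q) K)) y₂) ∧
      MC (algebraMap ↥(AK A K) ↥(FK M' K) π) (gaussVS hπ (FK M' K) hE₀) (Nα h)
        (x₁ * gK M' K (σ.restrictNormal K) y₂) ∧
      MC (algebraMap ↥(AK A K) ↥(FK M' K) π) (gaussVS hπ (FK M' K) hE₀) (Nβ h)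
        (gK M' K (σ.restrictNormal K) x₁ * y₂) := by
  have hdvr : IsDiscreteValuationRing ↥(AK A K) :=
    Fermat.Agent.RED.DESC.NumberFieldDVR27.isDiscreteValuationRing_AK A K hq.ne_zero hA
  have hirr : Irreducible π := (IsDiscreteValuationRing.irreducible_iff_uniformizer π).mpr hπ.max_eq
  have : Fact q.Prime := ⟨hq⟩
  have : CharP (Res (AK A K)) q :=
    Fermat.Agent.RED.DESC.NumberFieldDVR27.charP_residueField_AK A K hq hA
  have hiso := Fermat.Agent.ES.N34.IsoM25.isoM A K M' q hirr hqM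
  have hV1 := Fermat.Agent.ES.N34.ModelGlue22.isGaussPullback_O1 M' q hπ hE
  have hV2 := Fermat.Agent.ES.N34.ModelGlue22.isGaussPullback_O2 M' q hπ hE
  have hV0 : IsGaussPullback (AK A K) (FK M' K).val (gaussVS hπ (FK M' K) hE₀) :=
    fun x => mem_gaussVS_iff hπ _ hE₀ x
  have hcA := hc ht hE π hπ
  have hcB := Fermat.Agent.ES.N34.CombW5.hcomb_O2_of_O1 M' q hπ hE hiso hcA
  have hdec := hσ.mem_decompositionSubgroup
  exact NormBarAbs26.normBar_of π (O1 M' q hπ hE) (O2 M' q hπ hE) (gaussVS hπ (FK M' K) hE₀)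
    (alpha K M' q : ↥(FK M' K) →+* ↥(FK (M' * q) K)) (beta K M' q : ↥(FK M' K) →+* ↥(FK (M' * q) K))
    (gK M' K (σ.restrictNormal K)) q Nα Nβ
    (pi_mem hV1) (pi_inv_not_mem' hV1 hirr) (pi_mem hV2) (pi_inv_not_mem' hV2 hirr)
    (unif' hV0 hirr)
    (fun z => (Fermat.Agent.ES.N34.BranchInt5.alpha_mem_O1_iff M' q hπ hE z).trans
      (mem_gaussVS_iff hπ _ hE₀ z).symm)
    (fun z => (Fermat.Agent.ES.N34.BranchInt5.beta_mem_O2_iff M' q hπ hE hiso z).trans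
      (mem_gaussVS_iff hπ _ hE₀ z).symm)
    (fun x hx => by
      obtain ⟨z, hz, c, hc, e⟩ := hcA x hx
      exact ⟨z, (mem_gaussVS_iff hπ _ hE₀ z).mpr hz, c, hc, e⟩)
    (fun x hx => by
      obtain ⟨z, hz, c, hc, e⟩ := hcB x hx
      exact ⟨z, (mem_gaussVS_iff hπ _ hE₀ z).mpr hz, c, hc, e⟩)
    (fun x hx => (Fermat.Agent.ES.N35.FrobModel21.gK_mem_gaussVS_iff K hdec M' hπ hE₀ x).mpr hx)
    (fun x hx0 hx hx' => Fermat.Agent.ES.N35.KronMC15.kbar_one_VS M' q hπ hE hσ hE₀ x hx0 hx hx')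
    (fun y hy0 hy hy' =>
      Fermat.Agent.ES.N35.KronMC15.kbar_two_VS M' q hπ hE hσ hE₀ hqM y hy0 hy hy')
    normA normB

end Fermat.Agent.ES.N35.NormBarInst26
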