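/-
S35 scoping, brick B2-abs (helper20): **the norm commutes with reduction at two unramified extensions**
— abstract form on top of `TwoExt22` / `TwoExtDeg22` (Mathlib + `UniqueExt20` + `TwoExt22` only).

`F / E` finite, `O₁ ≠ O₂` valuation subrings of `F` with the same restriction `O_E` to `E`, `b₁` (`n₁`
elements of `O₁`), `b₂` (`n₂` elements of `O₂`) residually independent over `O_E` (elementwise form of
`TwoExt22`), `[F : E] ≤ n₁ + n₂`.

* `det_congr`: entrywise congruent matrices over a valuation subring have congruent determinants.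
* `RepMod V b h M`: the matrix `M` (entries in `O_E`) represents multiplication by `h` on the family `b`
  modulo `𝔪_V`.  `RepMod.mul`, `RepMod.pow`, `RepMod.congr`, `RepMod.scalar`.
* `norm_congr` **(NORM-RED)**: `h ∈ O₁ ⊓ O₂`, `RepMod O₁ b₁ h M₁`, `RepMod O₂ b₂ h M₂`
  ⊢ `N_{F/E} h ≡ det M₁ · det M₂ mod 𝔪_E`.
* `det_congr_of_pow` (purely inseparable residue extension): `n₂ = q` prime, `q ∈ 𝔪_E`,
  `h ^ q ≡ x₂ mod 𝔪₂` with `x₂ ∈ O_E` ⊢ `det M₂ ≡ x₂ mod 𝔪_E`.
* `norm_congr_insep`: `n₁ = 1`, `n₂ = q`: `h ≡ x₁ mod 𝔪₁`, `h ^ q ≡ x₂ mod 𝔪₂` ⊢ `N h ≡ x₁ x₂ mod 𝔪_E`.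
-/
import Mathlib
import Fermat.Agent.RED.PUR.UniqueExt20
import Fermat.Agent.ES.N34.TwoExt22
import Fermat.Agent.ES.N34.TwoExtDeg22

set_option autoImplicit false

namespace Fermat.Agent.ES.N35.NormRed20

open Fermat.Agent.RED.PUR.UniqueExt20 Fermat.Agent.ES.N34.TwoExt22 Fermat.Agent.ES.N34.TwoExtDeg22

open scoped Classical

/-! ### Determinants modulo the maximal ideal -/

section Det

variable {E : Type*} [Field E]

/-- Entrywise congruent matrices over a valuation subring have congruent determinants. -/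
theorem det_congr {ι : Type*} [Fintype ι] [DecidableEq ι] (V : ValuationSubring E)
    (A B : Matrix ι ι ↥V) (hAB : ∀ i j, V.valuation ((A i j : E) - (B i j : E)) < 1) :
    V.valuation ((A.det : E) - (B.det : E)) < 1 := by
  have hres : A.map (IsLocalRing.residue ↥V) = B.map (IsLocalRing.residue ↥V) := by
    ext i j
    simp only [Matrix.map_apply]
    rw [← sub_eq_zero, ← map_sub, IsLocalRing.residue_eq_zero_iff, V.valuation_lt_one_iff]
    exact hAB i j
  have hdet : IsLocalRing.residue ↥V A.det = IsLocalRing.residue ↥V B.det := by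
    rw [RingHom.map_det, RingHom.map_det]
    exact congrArg Matrix.det hres
  have hmem : A.det - B.det ∈ IsLocalRing.maximalIdeal ↥V := by
    rw [← IsLocalRing.residue_eq_zero_iff, map_sub, hdet, sub_self]
  exact (V.valuation_lt_one_iff _).mp hmem

end Det

/-! ### Matrices representing a multiplication modulo `𝔪_V` -/

section Rep

variable {E F : Type*} [Field E] [Field F] [Algebra E F]

/-- the coefficient map `O_E → F`. -/
def toF (OE : ValuationSubring E) : ↥OE →+* F := (algebraMap E F).comp OE.subtype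

@[simp] theorem toF_apply (OE : ValuationSubring E) (x : ↥OE) :
    (toF OE x : F) = algebraMap E F (x : E) := rfl

/-- `M` (entries in `O_E`) represents multiplication by `h` on the family `b` modulo `𝔪_V`. -/
def RepMod (OE : ValuationSubring E) (V : ValuationSubring F) {n : ℕ} (b : Fin n → F) (h : F)
    (M : Matrix (Fin n) (Fin n) ↥OE) : Prop :=
  ∀ i, V.valuation (h * b i - ∑ k, (toF OE (M i k) : F) * b k) < 1

variable {OE : ValuationSubring E} {V : ValuationSubring F} {n : ℕ} {b : Fin n → F}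

theorem repMod_one : RepMod OE V b 1 (1 : Matrix (Fin n) (Fin n) ↥OE) := by
  intro i
  have : ∑ k, (toF OE ((1 : Matrix (Fin n) (Fin n) ↥OE) i k) : F) * b k = b i := by
    rw [Finset.sum_eq_single i]
    · rw [Matrix.one_apply_eq, map_one, one_mul]
    · intro k _ hk
      rw [Matrix.one_apply_ne (Ne.symm hk), map_zero, zero_mul]
    · intro hi
      exact absurd (Finset.mem_univ i) hi
  rw [this, one_mul, sub_self, map_zero]
  exact zero_lt_one

theorem RepMod.mul (hle : ∀ x : ↥OE, V.valuation (toF OE x : F) ≤ 1) {h h' : F}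
    {M M' : Matrix (Fin n) (Fin n) ↥OE} (hh : V.valuation h ≤ 1)
    (hM : RepMod OE V b h M) (hM' : RepMod OE V b h' M') : RepMod OE V b (h * h') (M' * M) := by
  intro i
  have key : h * h' * b i - ∑ l, (toF OE ((M' * M) i l) : F) * b l =
      h * (h' * b i - ∑ k, (toF OE (M' i k) : F) * b k) +
        ∑ k, (toF OE (M' i k) : F) * (h * b k - ∑ l, (toF OE (M k l) : F) * b l) := by
    have e1 : ∑ l, (toF OE ((M' * M) i l) : F) * b l =
        ∑ k, (toF OE (M' i k) : F) * ∑ l, (toF OE (M k l) : F) * b l := by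
      simp only [Matrix.mul_apply, map_sum, map_mul, Finset.sum_mul, Finset.mul_sum]
      rw [Finset.sum_comm]
      refine Finset.sum_congr rfl fun k _ => Finset.sum_congr rfl fun l _ => ?_
      ring
    rw [e1]
    simp only [mul_sub, Finset.sum_sub_distrib, Finset.mul_sum]
    have e2 : ∀ k, (toF OE (M' i k) : F) * (h * b k) = h * ((toF OE (M' i k) : F) * b k) := by
      intro k; ring
    simp only [e2]
    ring
  rw [key]
  refine Valuation.map_add_lt _ ?_ ?_
  · rw [map_mul]
    exact (mul_le_of_le_one_left' hh).trans_lt (hM' i)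
  · refine Valuation.map_sum_lt _ one_ne_zero fun k _ => ?_
    rw [map_mul]
    exact (mul_le_of_le_one_left' (hle _)).trans_lt (hM k)

theorem RepMod.pow (hle : ∀ x : ↥OE, V.valuation (toF OE x : F) ≤ 1) {h : F}
    {M : Matrix (Fin n) (Fin n) ↥OE} (hh : V.valuation h ≤ 1)
    (hM : RepMod OE V b h M) (m : ℕ) : RepMod OE V b (h ^ m) (M ^ m) := by
  induction m with
  | zero => rw [pow_zero, pow_zero]; exact repMod_one
  | succ m ih =>
    rw [pow_succ' h, pow_succ M]
    exact RepMod.mul hle hh hM ih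

theorem RepMod.congr (hbV : ∀ i, V.valuation (b i) ≤ 1) {h h' : F}
    {M : Matrix (Fin n) (Fin n) ↥OE} (hM : RepMod OE V b h M)
    (hh : V.valuation (h - h') < 1) : RepMod OE V b h' M := by
  intro i
  have : h' * b i - ∑ k, (toF OE (M i k) : F) * b k =
      (h * b i - ∑ k, (toF OE (M i k) : F) * b k) - (h - h') * b i := by ring
  rw [this]
  refine Valuation.map_sub_lt _ (hM i) ?_
  rw [map_mul]
  exact (mul_le_of_le_one_right' (hbV i)).trans_lt hh

/-- a matrix representing a scalar of `O_E` on a residually independent family is congruent to the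
scalar matrix. -/
theorem RepMod.scalar
    (hb : ∀ a : Fin n → E, (∀ i, OE.valuation (a i) ≤ 1) →
      V.valuation (∑ i, algebraMap E F (a i) * b i) < 1 → ∀ i, OE.valuation (a i) < 1)
    {x : ↥OE} {M : Matrix (Fin n) (Fin n) ↥OE} (hM : RepMod OE V b (toF OE x : F) M) (i k : Fin n) :
    OE.valuation ((M i k : E) - ((x • (1 : Matrix (Fin n) (Fin n) ↥OE)) i k : E)) < 1 := by
  refine hb (fun k => (M i k : E) - ((x • (1 : Matrix (Fin n) (Fin n) ↥OE)) i k : E))
    (fun k => ?_) ?_ k
  · have : (M i k : E) - ((x • (1 : Matrix (Fin n) (Fin n) ↥OE)) i k : E) =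
        ((M i k - (x • (1 : Matrix (Fin n) (Fin n) ↥OE)) i k : ↥OE) : E) := by
      push_cast; rfl
    rw [this]
    exact (OE.valuation_le_one_iff _).mpr (Subtype.mem _)
  · have e : ∑ k, algebraMap E F ((M i k : E) - ((x • (1 : Matrix (Fin n) (Fin n) ↥OE)) i k : E)) * b k
        = -((toF OE x : F) * b i - ∑ k, (toF OE (M i k) : F) * b k) := by
      have e1 : ∑ k, algebraMap E F (((x • (1 : Matrix (Fin n) (Fin n) ↥OE)) i k : ↥OE) : E) * b k =
          (toF OE x : F) * b i := by
        rw [Finset.sum_eq_single i]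
        · rw [Matrix.smul_apply, Matrix.one_apply_eq, smul_eq_mul, mul_one, toF_apply]
        · intro k _ hk
          rw [Matrix.smul_apply, Matrix.one_apply_ne (Ne.symm hk), smul_eq_mul, mul_zero]
          simp
        · intro hi
          exact absurd (Finset.mem_univ i) hi
      simp only [map_sub, sub_mul, Finset.sum_sub_distrib, e1, toF_apply]
      ring
    rw [e, Valuation.map_neg]
    exact hM i

/-- **purely inseparable residue extension of degree `q`**: if `h ^ q ≡ x mod 𝔪_V` with `x ∈ O_E`,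
then every matrix representing `h` on a residually independent family of `q` elements has
determinant `≡ x mod 𝔪_E`. -/
theorem det_congr_of_pow (q : ℕ) [hq : Fact q.Prime] (hqE : OE.valuation (q : E) < 1)
    (hle : ∀ x : ↥OE, V.valuation (toF OE x : F) ≤ 1)
    {b : Fin q → F} (hbV : ∀ i, V.valuation (b i) ≤ 1)
    (hb : ∀ a : Fin q → E, (∀ i, OE.valuation (a i) ≤ 1) →
      V.valuation (∑ i, algebraMap E F (a i) * b i) < 1 → ∀ i, OE.valuation (a i) < 1)
    {h : F} (hh : V.valuation h ≤ 1) {M : Matrix (Fin q) (Fin q) ↥OE}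
    (hM : RepMod OE V b h M) (x : ↥OE) (hx : V.valuation (h ^ q - (toF OE x : F)) < 1) :
    OE.valuation ((M.det : E) - (x : E)) < 1 := by
  have h1 : RepMod OE V b (h ^ q) (M ^ q) := hM.pow hle hh q
  have h2 : RepMod OE V b (toF OE x : F) (M ^ q) := h1.congr hbV hx
  have h3 := det_congr OE (M ^ q) (x • (1 : Matrix (Fin q) (Fin q) ↥OE)) (fun i k => h2.scalar hb i k)
  rw [Matrix.det_pow, Matrix.det_smul, Matrix.det_one, mul_one, Fintype.card_fin] at h3
  -- pass to the residue field, of characteristic `q`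
  have hmem : M.det ^ q - x ^ q ∈ IsLocalRing.maximalIdeal ↥OE := by
    rw [OE.valuation_lt_one_iff]
    exact h3
  have hq0 : (q : IsLocalRing.ResidueField ↥OE) = 0 := by
    have : ((q : ↥OE)) ∈ IsLocalRing.maximalIdeal ↥OE := by
      rw [OE.valuation_lt_one_iff]
      have : (((q : ↥OE)) : E) = (q : E) := by push_cast; rfl
      rw [this]
      exact hqE
    have h0 := (IsLocalRing.residue_eq_zero_iff _).mpr this
    rwa [map_natCast] at h0
  have hchar : CharP (IsLocalRing.ResidueField ↥OE) q := (CharP.charP_iff_prime_eq_zero hq.out).mpr hq0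
  have hres : IsLocalRing.residue ↥OE M.det ^ q = IsLocalRing.residue ↥OE x ^ q := by
    rw [← map_pow, ← map_pow, ← sub_eq_zero, ← map_sub, IsLocalRing.residue_eq_zero_iff]
    exact hmem
  have hinj := frobenius_inj (IsLocalRing.ResidueField ↥OE) q
  have heq : IsLocalRing.residue ↥OE M.det = IsLocalRing.residue ↥OE x := hinj hres
  have hmem' : M.det - x ∈ IsLocalRing.maximalIdeal ↥OE := by
    rw [← IsLocalRing.residue_eq_zero_iff, map_sub, heq, sub_self]
  exact (OE.valuation_lt_one_iff _).mp hmem'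

end Rep

/-! ### Joint residual independence at two valuation subrings -/

section Joint

variable {E F : Type*} [Field E] [Field F] [Algebra E F]

/-- joint residual independence of a family at two valuation subrings of `F`. -/
def JointIndep (OE : ValuationSubring E) (O₁ O₂ : ValuationSubring F) {ι : Type*} [Fintype ι]
    (e : ι → F) : Prop :=
  ∀ g : ι → E, (∀ o, OE.valuation (g o) ≤ 1) →
    O₁.valuation (∑ o, algebraMap E F (g o) * e o) < 1 →
    O₂.valuation (∑ o, algebraMap E F (g o) * e o) < 1 → ∀ o, OE.valuation (g o) < 1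

variable {OE : ValuationSubring E} {O₁ O₂ : ValuationSubring F} {ι : Type*} [Fintype ι] {e : ι → F}

theorem sum_div_mul (g : ι → E) (j : ι) :
    ∑ o, algebraMap E F (g o / g j) * e o =
      (algebraMap E F (g j))⁻¹ * ∑ o, algebraMap E F (g o) * e o := by
  rw [Finset.mul_sum]
  refine Finset.sum_congr rfl fun o _ => ?_
  rw [map_div₀, div_eq_mul_inv]
  ring

theorem JointIndep.linearIndependent (he : JointIndep OE O₁ O₂ e) : LinearIndependent E e := by
  rw [Fintype.linearIndependent_iff]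
  intro g hg
  by_contra hex
  push Not at hex
  obtain ⟨j, hj0, hj⟩ := exists_scale OE g hex
  have hrel : ∑ o, algebraMap E F (g o / g j) * e o = 0 := by
    rw [sum_div_mul]
    have : ∑ o, algebraMap E F (g o) * e o = ∑ o, g o • e o :=
      Finset.sum_congr rfl fun o _ => (Algebra.smul_def _ _).symm
    rw [this, hg, mul_zero]
  have := he (fun o => g o / g j) hj (by rw [hrel, map_zero]; exact zero_lt_one)
    (by rw [hrel, map_zero]; exact zero_lt_one) j
  rw [div_self hj0, map_one] at this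
  exact lt_irrefl _ this

/-- the coordinates of an element of `O₁ ⊓ O₂` in a jointly independent family are integral. -/
theorem JointIndep.coeff_le_one (hOE1 : O₁.comap (algebraMap E F) = OE)
    (hOE2 : O₂.comap (algebraMap E F) = OE) (he : JointIndep OE O₁ O₂ e) (g : ι → E)
    (h1 : O₁.valuation (∑ o, algebraMap E F (g o) * e o) ≤ 1)
    (h2 : O₂.valuation (∑ o, algebraMap E F (g o) * e o) ≤ 1) : ∀ o, OE.valuation (g o) ≤ 1 := by
  by_contra hcon
  push Not at hcon
  obtain ⟨o₀, ho₀⟩ := hcon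
  have hex : ∃ i, g i ≠ 0 := ⟨o₀, fun h0 => by
    rw [h0, map_zero] at ho₀; exact not_lt_of_ge zero_le ho₀⟩
  obtain ⟨j, hj0, hj⟩ := exists_scale OE g hex
  have hjbig : 1 < OE.valuation (g j) := by
    have h3 := hj o₀
    rw [map_div₀] at h3
    have hpos : 0 < OE.valuation (g j) := val_pos OE hj0
    exact lt_of_lt_of_le ho₀ ((div_le_one₀ hpos).mp h3)
  have hinv : ∀ V : ValuationSubring F, V.comap (algebraMap E F) = OE →
      V.valuation ((algebraMap E F (g j))⁻¹) < 1 := by
    intro V hV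
    rw [map_inv₀]
    have : 1 < V.valuation (algebraMap E F (g j)) := by
      by_contra hle
      rw [not_lt] at hle
      have h3 := (comap_val_le_one_iff V (g j)).mpr hle
      rw [hV] at h3
      exact absurd hjbig (not_lt.mpr h3)
    exact inv_lt_one_of_one_lt₀ this
  have := he (fun o => g o / g j) hj
    (by rw [sum_div_mul, map_mul]; exact (mul_le_of_le_one_right' h1).trans_lt (hinv O₁ hOE1))
    (by rw [sum_div_mul, map_mul]; exact (mul_le_of_le_one_right' h2).trans_lt (hinv O₂ hOE2)) j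
  rw [div_self hj0, map_one] at this
  exact lt_irrefl _ this

/-- one-sided comparison of coordinates modulo `𝔪_V`. -/
theorem coord_congr (V : ValuationSubring F)
    (hle : ∀ x : E, OE.valuation x ≤ 1 → V.valuation (algebraMap E F x) ≤ 1)
    {ι₁ ι₂ : Type*} [Fintype ι₁] [Fintype ι₂] (b : ι₁ → F)
    (hb : ∀ a : ι₁ → E, (∀ i, OE.valuation (a i) ≤ 1) →
      V.valuation (∑ i, algebraMap E F (a i) * b i) < 1 → ∀ i, OE.valuation (a i) < 1)
    (e₁ : ι₁ → F) (e₂ : ι₂ → F) (he₁ : ∀ i, V.valuation (e₁ i - b i) < 1)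
    (he₂ : ∀ i, V.valuation (e₂ i) < 1)
    (a₁ : ι₁ → E) (a₂ : ι₂ → E) (ha₁ : ∀ i, OE.valuation (a₁ i) ≤ 1)
    (ha₂ : ∀ i, OE.valuation (a₂ i) ≤ 1) (m : ι₁ → E) (hm : ∀ i, OE.valuation (m i) ≤ 1)
    (y : F) (hy : y = ∑ i, algebraMap E F (a₁ i) * e₁ i + ∑ i, algebraMap E F (a₂ i) * e₂ i)
    (hym : V.valuation (y - ∑ i, algebraMap E F (m i) * b i) < 1) :
    ∀ i, OE.valuation (a₁ i - m i) < 1 := by
  refine hb (fun i => a₁ i - m i) (fun i => ?_) ?_
  · exact (Valuation.map_sub _ _ _).trans (max_le (ha₁ i) (hm i))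
  · have e : ∑ i, algebraMap E F (a₁ i - m i) * b i =
        (y - ∑ i, algebraMap E F (m i) * b i) - ∑ i, algebraMap E F (a₂ i) * e₂ i -
          ∑ i, algebraMap E F (a₁ i) * (e₁ i - b i) := by
      rw [hy]
      simp only [map_sub, sub_mul, mul_sub, Finset.sum_sub_distrib]
      ring
    rw [e]
    refine Valuation.map_sub_lt _ (Valuation.map_sub_lt _ hym ?_) ?_
    · refine Valuation.map_sum_lt _ one_ne_zero fun i _ => ?_
      rw [map_mul]
      exact (mul_le_of_le_one_left' (hle _ (ha₂ i))).trans_lt (he₂ i)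
    · refine Valuation.map_sum_lt _ one_ne_zero fun i _ => ?_
      rw [map_mul]
      exact (mul_le_of_le_one_left' (hle _ (ha₁ i))).trans_lt (he₁ i)

/-- the adapted family: `e (inl i) ≡ (b₁ i, 0)`, `e (inr i) ≡ (0, b₂ i)` modulo `(𝔪₁, 𝔪₂)`. -/
theorem exists_jointIndep [FiniteDimensional E F] {n₁ n₂ : ℕ}
    (O₁ O₂ : ValuationSubring F) (h12 : O₁ ≠ O₂)
    (hcomap₂ : O₁.comap (algebraMap E F) = O₂.comap (algebraMap E F))
    (b₁ : Fin n₁ → F) (hb₁O : ∀ i, b₁ i ∈ O₁)
    (hb₁ : ∀ a : Fin n₁ → E, (∀ i, (O₁.comap (algebraMap E F)).valuation (a i) ≤ 1) →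
      O₁.valuation (∑ i, algebraMap E F (a i) * b₁ i) < 1 →
      ∀ i, (O₁.comap (algebraMap E F)).valuation (a i) < 1)
    (b₂ : Fin n₂ → F) (hb₂O : ∀ i, b₂ i ∈ O₂)
    (hb₂ : ∀ a : Fin n₂ → E, (∀ i, (O₁.comap (algebraMap E F)).valuation (a i) ≤ 1) →
      O₂.valuation (∑ i, algebraMap E F (a i) * b₂ i) < 1 →
      ∀ i, (O₁.comap (algebraMap E F)).valuation (a i) < 1) :
    ∃ e : Fin n₁ ⊕ Fin n₂ → F,
      (∀ i, O₁.valuation (e (Sum.inl i) - b₁ i) < 1) ∧ (∀ i, O₂.valuation (e (Sum.inl i)) < 1) ∧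
      (∀ i, O₂.valuation (e (Sum.inr i) - b₂ i) < 1) ∧ (∀ i, O₁.valuation (e (Sum.inr i)) < 1) ∧
      JointIndep (O₁.comap (algebraMap E F)) O₁ O₂ e := by
  have : Algebra.IsAlgebraic E F := Algebra.IsAlgebraic.of_finite E F
  have n12 := not_le_of_ne_of_comap_eq h12 hcomap₂
  have n21 := not_le_of_ne_of_comap_eq (Ne.symm h12) hcomap₂.symm
  obtain ⟨w₁, hw₁1, hw₁2⟩ := exists_approx n12 n21
  obtain ⟨w₂, hw₂2, hw₂1⟩ := exists_approx n21 n12
  choose c hc1 hc2 using fun i =>
    exists_adjust hw₁1 hw₁2 ((O₁.valuation_le_one_iff (b₁ i)).mpr (hb₁O i))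
  choose c' hc'2 hc'1 using fun i =>
    exists_adjust hw₂2 hw₂1 ((O₂.valuation_le_one_iff (b₂ i)).mpr (hb₂O i))
  refine ⟨Sum.elim c c', hc1, hc2, hc'2, hc'1, ?_⟩
  intro g hg hs1 hs2
  have hg1 : ∀ o, O₁.valuation (algebraMap E F (g o)) ≤ 1 := fun o =>
    (comap_val_le_one_iff O₁ _).mp (hg o)
  have hg2 : ∀ o, O₂.valuation (algebraMap E F (g o)) ≤ 1 := fun o => by
    rw [← comap_val_le_one_iff, ← hcomap₂]; exact hg o
  rw [Fintype.sum_sum_type] at hs1 hs2
  simp only [Sum.elim_inl, Sum.elim_inr] at hs1 hs2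
  have hsmall1 := coord_congr (OE := O₁.comap (algebraMap E F)) O₁
    (fun x hx => (comap_val_le_one_iff O₁ _).mp hx) b₁ hb₁ c c' hc1 hc'1
    (fun i => g (Sum.inl i)) (fun i => g (Sum.inr i)) (fun i => hg _) (fun i => hg _)
    (fun _ => 0) (fun _ => by rw [map_zero]; exact zero_le_one) _ rfl
    (by simpa using hs1)
  have hsmall2 := coord_congr (OE := O₁.comap (algebraMap E F)) O₂
    (fun x hx => by rw [← comap_val_le_one_iff, ← hcomap₂]; exact hx) b₂ hb₂ c' c hc'2 hc2
    (fun i => g (Sum.inr i)) (fun i => g (Sum.inl i)) (fun i => hg _) (fun i => hg _)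
    (fun _ => 0) (fun _ => by rw [map_zero]; exact zero_le_one) _ (add_comm _ _)
    (by simpa using hs2)
  rintro (i | i)
  · simpa using hsmall1 i
  · simpa using hsmall2 i

end Joint

/-! ### The norm modulo `𝔪_E` -/

section Main

variable {E F : Type*} [Field E] [Field F] [Algebra E F]

/-- **(NORM-RED)** the norm of `h ∈ O₁ ⊓ O₂` is congruent modulo `𝔪_E` to the product of the
determinants of matrices representing `h` on the two residually independent families. -/
theorem norm_congr [FiniteDimensional E F] {n₁ n₂ : ℕ}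
    (hn : Module.finrank E F ≤ n₁ + n₂) (O₁ O₂ : ValuationSubring F) (h12 : O₁ ≠ O₂)
    (hcomap₂ : O₁.comap (algebraMap E F) = O₂.comap (algebraMap E F))
    (b₁ : Fin n₁ → F) (hb₁O : ∀ i, b₁ i ∈ O₁)
    (hb₁ : ∀ a : Fin n₁ → E, (∀ i, (O₁.comap (algebraMap E F)).valuation (a i) ≤ 1) →
      O₁.valuation (∑ i, algebraMap E F (a i) * b₁ i) < 1 →
      ∀ i, (O₁.comap (algebraMap E F)).valuation (a i) < 1)
    (b₂ : Fin n₂ → F) (hb₂O : ∀ i, b₂ i ∈ O₂)
    (hb₂ : ∀ a : Fin n₂ → E, (∀ i, (O₁.comap (algebraMap E F)).valuation (a i) ≤ 1) →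
      O₂.valuation (∑ i, algebraMap E F (a i) * b₂ i) < 1 →
      ∀ i, (O₁.comap (algebraMap E F)).valuation (a i) < 1)
    {h : F} (h1 : h ∈ O₁) (h2 : h ∈ O₂)
    (M₁ : Matrix (Fin n₁) (Fin n₁) ↥(O₁.comap (algebraMap E F)))
    (M₂ : Matrix (Fin n₂) (Fin n₂) ↥(O₁.comap (algebraMap E F)))
    (hM₁ : RepMod (O₁.comap (algebraMap E F)) O₁ b₁ h M₁)
    (hM₂ : RepMod (O₁.comap (algebraMap E F)) O₂ b₂ h M₂) :
    (O₁.comap (algebraMap E F)).valuation
      (Algebra.norm E h - (M₁.det : E) * (M₂.det : E)) < 1 := by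
  obtain ⟨e, he1, he2, he3, he4, hJ⟩ :=
    exists_jointIndep O₁ O₂ h12 hcomap₂ b₁ hb₁O hb₁ b₂ hb₂O hb₂
  have hv1 : O₁.valuation h ≤ 1 := (O₁.valuation_le_one_iff h).mpr h1
  have hv2 : O₂.valuation h ≤ 1 := (O₂.valuation_le_one_iff h).mpr h2
  have hb₁v : ∀ i, O₁.valuation (b₁ i) ≤ 1 := fun i => (O₁.valuation_le_one_iff _).mpr (hb₁O i)
  have hb₂v : ∀ i, O₂.valuation (b₂ i) ≤ 1 := fun i => (O₂.valuation_le_one_iff _).mpr (hb₂O i)
  have hle1 : ∀ x : E, (O₁.comap (algebraMap E F)).valuation x ≤ 1 →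
      O₁.valuation (algebraMap E F x) ≤ 1 := fun x hx => (comap_val_le_one_iff O₁ _).mp hx
  have hle2 : ∀ x : E, (O₁.comap (algebraMap E F)).valuation x ≤ 1 →
      O₂.valuation (algebraMap E F x) ≤ 1 := fun x hx => by
    rw [← comap_val_le_one_iff, ← hcomap₂]; exact hx
  -- the family `e` is integral at both rings
  have he1' : ∀ o, O₁.valuation (e o) ≤ 1 := by
    rintro (i | i)
    · have : e (Sum.inl i) = (e (Sum.inl i) - b₁ i) + b₁ i := by ring
      rw [this]
      exact (Valuation.map_add _ _ _).trans (max_le (he1 i).le (hb₁v i))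
    · exact (he4 i).le
  have he2' : ∀ o, O₂.valuation (e o) ≤ 1 := by
    rintro (i | i)
    · exact (he2 i).le
    · have : e (Sum.inr i) = (e (Sum.inr i) - b₂ i) + b₂ i := by ring
      rw [this]
      exact (Valuation.map_add _ _ _).trans (max_le (he3 i).le (hb₂v i))
  -- the basis
  have hli := hJ.linearIndependent
  have hcard : Fintype.card (Fin n₁ ⊕ Fin n₂) = Module.finrank E F := by
    refine le_antisymm hli.fintype_card_le_finrank ?_
    rw [Fintype.card_sum, Fintype.card_fin, Fintype.card_fin]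
    exact hn
  have hne : Nonempty (Fin n₁ ⊕ Fin n₂) := by
    rw [← Fintype.card_pos_iff, hcard]
    exact Module.finrank_pos
  set B := basisOfLinearIndependentOfCardEqFinrank hli hcard with hBdef
  have hB : ∀ o, B o = e o := fun o => by
    rw [hBdef, coe_basisOfLinearIndependentOfCardEqFinrank]
  have hnorm := Algebra.norm_eq_matrix_det B h
  set H := Algebra.leftMulMatrix B h with hH
  have hF1 : ∀ j, h * e j = ∑ i, algebraMap E F (H i j) * e i := by
    intro j
    conv_lhs => rw [← B.sum_repr (h * e j)]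
    refine Finset.sum_congr rfl fun i _ => ?_
    rw [hH, Algebra.leftMulMatrix_eq_repr_mul, hB, hB, Algebra.smul_def]
  have hF2 : ∀ i j, (O₁.comap (algebraMap E F)).valuation (H i j) ≤ 1 := fun i j =>
    hJ.coeff_le_one rfl hcomap₂.symm (fun i => H i j)
      (by rw [← hF1, map_mul]; exact mul_le_one' hv1 (he1' j))
      (by rw [← hF1, map_mul]; exact mul_le_one' hv2 (he2' j)) i
  -- lift `H` to `O_E`
  set H' : Matrix (Fin n₁ ⊕ Fin n₂) (Fin n₁ ⊕ Fin n₂) ↥(O₁.comap (algebraMap E F)) :=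
    fun i j => ⟨H i j, ((O₁.comap (algebraMap E F)).valuation_le_one_iff _).mp (hF2 i j)⟩ with hH'
  have hdetH : (H'.det : E) = H.det := by
    have e1 : H = H'.map (O₁.comap (algebraMap E F)).subtype := by
      ext i j; rfl
    rw [e1]
    exact (RingHom.map_det (O₁.comap (algebraMap E F)).subtype H')
  -- the block matrix
  set Bl : Matrix (Fin n₁ ⊕ Fin n₂) (Fin n₁ ⊕ Fin n₂) ↥(O₁.comap (algebraMap E F)) :=
    Matrix.fromBlocks M₁.transpose 0 0 M₂.transpose with hBl
  have hdetBl : Bl.det = M₁.det * M₂.det := by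
    rw [hBl, Matrix.det_fromBlocks_zero₂₁, Matrix.det_transpose, Matrix.det_transpose]
  -- the two congruences for a column
  have hsplit : ∀ j, h * e j = ∑ i, algebraMap E F (H (Sum.inl i) j) * e (Sum.inl i) +
      ∑ i, algebraMap E F (H (Sum.inr i) j) * e (Sum.inr i) := by
    intro j
    rw [hF1 j, Fintype.sum_sum_type]
  have hcong : ∀ i j, (O₁.comap (algebraMap E F)).valuation ((H' i j : E) - (Bl i j : E)) < 1 := by
    intro i j
    rcases j with j | j
    · -- column `inl j`
      have hA := coord_congr (OE := O₁.comap (algebraMap E F)) O₁ hle1 b₁ hb₁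
        (fun i => e (Sum.inl i)) (fun i => e (Sum.inr i)) he1 he4
        (fun i => H (Sum.inl i) (Sum.inl j)) (fun i => H (Sum.inr i) (Sum.inl j))
        (fun i => hF2 _ _) (fun i => hF2 _ _) (fun i => ((M₁ j i : ↥(O₁.comap (algebraMap E F))) : E))
        (fun i => ((O₁.comap (algebraMap E F)).valuation_le_one_iff _).mpr (Subtype.mem _))
        (h * e (Sum.inl j)) (hsplit _)
        (by
          have : h * e (Sum.inl j) - ∑ i, algebraMap E F ((M₁ j i : ↥(O₁.comap (algebraMap E F))) : E) * b₁ i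
              = h * (e (Sum.inl j) - b₁ j) +
                (h * b₁ j - ∑ k, (toF (O₁.comap (algebraMap E F)) (M₁ j k) : F) * b₁ k) := by
            simp only [toF_apply]; ring
          rw [this]
          refine Valuation.map_add_lt _ ?_ (hM₁ j)
          rw [map_mul]
          exact (mul_le_of_le_one_left' hv1).trans_lt (he1 j))
      have hB' := coord_congr (OE := O₁.comap (algebraMap E F)) O₂ hle2 b₂ hb₂
        (fun i => e (Sum.inr i)) (fun i => e (Sum.inl i)) he3 he2
        (fun i => H (Sum.inr i) (Sum.inl j)) (fun i => H (Sum.inl i) (Sum.inl j))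
        (fun i => hF2 _ _) (fun i => hF2 _ _) (fun _ => 0)
        (fun _ => by rw [map_zero]; exact zero_le_one)
        (h * e (Sum.inl j)) ((hsplit _).trans (add_comm _ _))
        (by
          simp only [map_zero, zero_mul, Finset.sum_const_zero, sub_zero]
          rw [map_mul]
          exact (mul_le_of_le_one_left' hv2).trans_lt (he2 j))
      rcases i with i | i
      · simpa [hH', hBl] using hA i
      · simpa [hH', hBl] using hB' i
    · -- column `inr j`
      have hA := coord_congr (OE := O₁.comap (algebraMap E F)) O₁ hle1 b₁ hb₁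
        (fun i => e (Sum.inl i)) (fun i => e (Sum.inr i)) he1 he4
        (fun i => H (Sum.inl i) (Sum.inr j)) (fun i => H (Sum.inr i) (Sum.inr j))
        (fun i => hF2 _ _) (fun i => hF2 _ _) (fun _ => 0)
        (fun _ => by rw [map_zero]; exact zero_le_one)
        (h * e (Sum.inr j)) (hsplit _)
        (by
          simp only [map_zero, zero_mul, Finset.sum_const_zero, sub_zero]
          rw [map_mul]
          exact (mul_le_of_le_one_left' hv1).trans_lt (he4 j))
      have hB' := coord_congr (OE := O₁.comap (algebraMap E F)) O₂ hle2 b₂ hb₂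
        (fun i => e (Sum.inr i)) (fun i => e (Sum.inl i)) he3 he2
        (fun i => H (Sum.inr i) (Sum.inr j)) (fun i => H (Sum.inl i) (Sum.inr j))
        (fun i => hF2 _ _) (fun i => hF2 _ _)
        (fun i => ((M₂ j i : ↥(O₁.comap (algebraMap E F))) : E))
        (fun i => ((O₁.comap (algebraMap E F)).valuation_le_one_iff _).mpr (Subtype.mem _))
        (h * e (Sum.inr j)) ((hsplit _).trans (add_comm _ _))
        (by
          have : h * e (Sum.inr j) - ∑ i, algebraMap E F ((M₂ j i : ↥(O₁.comap (algebraMap E F))) : E) * b₂ i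
              = h * (e (Sum.inr j) - b₂ j) +
                (h * b₂ j - ∑ k, (toF (O₁.comap (algebraMap E F)) (M₂ j k) : F) * b₂ k) := by
            simp only [toF_apply]; ring
          rw [this]
          refine Valuation.map_add_lt _ ?_ (hM₂ j)
          rw [map_mul]
          exact (mul_le_of_le_one_left' hv2).trans_lt (he3 j))
      rcases i with i | i
      · simpa [hH', hBl] using hA i
      · simpa [hH', hBl] using hB' i
  have hfin := det_congr (O₁.comap (algebraMap E F)) H' Bl hcong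
  rw [hdetH, hdetBl] at hfin
  rw [hnorm]
  simpa using hfin

/-- **(NORM-RED), one residue isomorphism and one purely inseparable residue extension of degree
`q`**: `[F : E] ≤ 1 + q`, `q ∈ 𝔪_E`, `h ≡ x₁ mod 𝔪₁`, `h ^ q ≡ x₂ mod 𝔪₂` with `x₁, x₂ ∈ O_E`
⊢ `N_{F/E} h ≡ x₁ x₂ mod 𝔪_E`. -/
theorem norm_congr_insep [FiniteDimensional E F] (q : ℕ) [Fact q.Prime]
    (hn : Module.finrank E F ≤ 1 + q) (O₁ O₂ : ValuationSubring F) (h12 : O₁ ≠ O₂)
    (hcomap₂ : O₁.comap (algebraMap E F) = O₂.comap (algebraMap E F))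
    (hqE : (O₁.comap (algebraMap E F)).valuation (q : E) < 1)
    (b₂ : Fin q → F) (hb₂O : ∀ i, b₂ i ∈ O₂)
    (hb₂ : ∀ a : Fin q → E, (∀ i, (O₁.comap (algebraMap E F)).valuation (a i) ≤ 1) →
      O₂.valuation (∑ i, algebraMap E F (a i) * b₂ i) < 1 →
      ∀ i, (O₁.comap (algebraMap E F)).valuation (a i) < 1)
    {h : F} (h1 : h ∈ O₁) (h2 : h ∈ O₂) {x₁ x₂ : E}
    (hx₁ : (O₁.comap (algebraMap E F)).valuation x₁ ≤ 1)
    (hx₂ : (O₁.comap (algebraMap E F)).valuation x₂ ≤ 1)
    (hc1 : O₁.valuation (h - algebraMap E F x₁) < 1)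
    (hc2 : O₂.valuation (h ^ q - algebraMap E F x₂) < 1) :
    (O₁.comap (algebraMap E F)).valuation (Algebra.norm E h - x₁ * x₂) < 1 := by
  -- the family `b₁ = (1)`
  have hb₁O : ∀ i : Fin 1, (fun _ : Fin 1 => (1 : F)) i ∈ O₁ := fun _ => O₁.one_mem
  have hb₁ : ∀ a : Fin 1 → E, (∀ i, (O₁.comap (algebraMap E F)).valuation (a i) ≤ 1) →
      O₁.valuation (∑ i, algebraMap E F (a i) * (fun _ : Fin 1 => (1 : F)) i) < 1 →
      ∀ i, (O₁.comap (algebraMap E F)).valuation (a i) < 1 := by
    intro a _ hs i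
    rw [Fin.sum_univ_one, mul_one] at hs
    rw [Subsingleton.elim i 0]
    exact (comap_val_lt_one_iff O₁ _).mpr hs
  have hx₁' : x₁ ∈ O₁.comap (algebraMap E F) := ((O₁.comap _).valuation_le_one_iff _).mp hx₁
  have hx₂' : x₂ ∈ O₁.comap (algebraMap E F) := ((O₁.comap _).valuation_le_one_iff _).mp hx₂
  -- `M₁`
  set M₁ : Matrix (Fin 1) (Fin 1) ↥(O₁.comap (algebraMap E F)) := fun _ _ => ⟨x₁, hx₁'⟩ with hM₁def
  have hM₁ : RepMod (O₁.comap (algebraMap E F)) O₁ (fun _ : Fin 1 => (1 : F)) h M₁ := by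
    intro i
    rw [Fin.sum_univ_one, mul_one, mul_one]
    exact hc1
  have hdet₁ : ((M₁.det : ↥(O₁.comap (algebraMap E F))) : E) = x₁ := by
    rw [Matrix.det_unique]
  -- `M₂`
  have hv2 : O₂.valuation h ≤ 1 := (O₂.valuation_le_one_iff h).mpr h2
  have hb₂v : ∀ i, O₂.valuation (b₂ i) ≤ 1 := fun i => (O₂.valuation_le_one_iff _).mpr (hb₂O i)
  choose a ha1 ha2 using fun i => exists_residue_combination' hn O₁ O₂ h12 hcomap₂
    (fun _ : Fin 1 => (1 : F)) hb₁O hb₁ b₂ hb₂O hb₂ (O₂.mul_mem _ _ h2 (hb₂O i))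
  set M₂ : Matrix (Fin q) (Fin q) ↥(O₁.comap (algebraMap E F)) :=
    fun i k => ⟨a i k, ((O₁.comap _).valuation_le_one_iff _).mp (ha1 i k)⟩ with hM₂def
  have hM₂ : RepMod (O₁.comap (algebraMap E F)) O₂ b₂ h M₂ := fun i => ha2 i
  have hle2 : ∀ x : ↥(O₁.comap (algebraMap E F)),
      O₂.valuation (toF (O₁.comap (algebraMap E F)) x : F) ≤ 1 := fun x => by
    rw [toF_apply, ← comap_val_le_one_iff, ← hcomap₂]
    exact ((O₁.comap _).valuation_le_one_iff _).mpr x.2
  have hmain := norm_congr hn O₁ O₂ h12 hcomap₂ (fun _ : Fin 1 => (1 : F)) hb₁O hb₁ b₂ hb₂O hb₂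
    h1 h2 M₁ M₂ hM₁ hM₂
  have hdet₂ := det_congr_of_pow q hqE hle2 hb₂v hb₂ hv2 hM₂ ⟨x₂, hx₂'⟩ hc2
  rw [hdet₁] at hmain
  have : Algebra.norm E h - x₁ * x₂ =
      (Algebra.norm E h - x₁ * (M₂.det : E)) + x₁ * ((M₂.det : E) - x₂) := by ring
  rw [this]
  refine Valuation.map_add_lt _ hmain ?_
  rw [map_mul]
  exact (mul_le_of_le_one_left' hx₁).trans_lt hdet₂

end Main

end Fermat.Agent.ES.N35.NormRed20
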