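/-
Program O (S35), brick B2 (helper20): **(N̄) norm/reduction, Gauss form** — `NormRed20.norm_congr_insep`
in the vocabulary of `GaussEmb22` (`IsGaussPullback O ι V`).

`φ : F₀ →ₐ[K] F` of degree `≤ 1 + q`; `V₀ ⊂ F₀` a Gauss pull-back along TWO expansions `ι₀a`, `ι₀b`;
`V₁ ≠ V₂ ⊂ F` Gauss pull-backs along `ι₁`, `ι₂` with `ι₁ ∘ φ = ι₀a` (residue degree one) and
`ι₂ ∘ φ = V_q ∘ ι₀b` (purely inseparable residue extension); `w ∈ F` with `ι₂ w` of residual order prime to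
`q`.  Then for `h ∈ V₁ ⊓ V₂`, `x₁, x₂ ∈ V₀` with `h ≡ φ x₁ mod 𝔪₁`, `h ^ q ≡ φ x₂ mod 𝔪₂`:
`N_φ h ≡ x₁ x₂ mod 𝔪₀`.
-/
import Mathlib
import Fermat.Agent.ES.N35.NormRed20
import Fermat.Agent.ES.N34.GaussEmb22
import Fermat.Agent.ES.N34.GaussVTwoFam25
import Fermat.Agent.ES.HECKE.PointFormula28

set_option autoImplicit false
set_option linter.unusedSectionVars false
set_option linter.style.haveILetI false

noncomputable section

open HahnSeries ModularCurve AlgebraicCurve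

namespace Fermat.Agent.ES.N35.NormGauss20

open Fermat.Agent.RED.PUR.GaussGen8 Fermat.Agent.RED.PUR.UniqueExt20
  Fermat.Agent.ES.N34.GaussEmb22 Fermat.Agent.ES.N34.GaussVTwoFam25
  Fermat.Agent.ES.HECKE.PointFormula28 Fermat.Agent.ES.N35.NormRed20

variable {K : Type*} [Field K] {O : ValuationSubring K}
  {F₀ F : Type*} [Field F₀] [Field F] [Algebra K F₀] [Algebra K F]

/-- `V_q f ∈ gaussRing → f ∈ gaussRing` for `f = ι x`, `x` in a field with a Gauss pull-back. -/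
theorem mem_of_qExpand_mem (q : ℕ) [NeZero q] {ι : F₀ →ₐ[K] LaurentSeries K}
    {V : ValuationSubring F₀} (hV : IsGaussPullback O ι V) (x : F₀)
    (hx : qExpand K q (ι x) ∈ gaussRing O) : x ∈ V := by
  rcases V.mem_or_inv_mem x with h | h
  · exact h
  by_contra hcon
  have hx0 : x ≠ 0 := fun h0 => hcon (h0 ▸ V.zero_mem)
  have hlt : V.valuation ((⟨x⁻¹, h⟩ : V) : F₀) < 1 := by
    rw [val_lt_one_iff]
    right
    rw [inv_inv]
    exact hcon
  have hred : redOf hV ⟨x⁻¹, h⟩ = 0 := (redOf_eq_zero_iff hV _).mpr hlt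
  rw [redOf_apply] at hred
  have hmem : qExpand K q (ι x⁻¹) ∈ gaussRing O := qExpand_mem_gaussRing q ((hV _).mp h)
  have h2 := gaussRed_qExpand q (toGauss hV ⟨x⁻¹, h⟩) hmem
  rw [hred, map_zero] at h2
  have h3 : (⟨qExpand K q (ι x), hx⟩ : gaussRing O) * ⟨qExpand K q (ι x⁻¹), hmem⟩ = 1 := by
    apply Subtype.ext
    show qExpand K q (ι x) * qExpand K q (ι x⁻¹) = 1
    rw [← map_mul, ← map_mul, mul_inv_cancel₀ hx0, map_one, map_one]
  have h4 := congrArg (gaussRed O) h3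
  rw [map_mul, map_one] at h4
  have h5 : gaussRed O ⟨qExpand K q (ι x⁻¹), hmem⟩ = 0 := h2
  rw [h5, mul_zero] at h4
  exact zero_ne_one h4

variable [IsDiscreteValuationRing ↥O] {π : ↥O}

/-- **(N̄), Gauss form.** -/
theorem norm_congr_gauss (q : ℕ) [NeZero q] [hq : Fact q.Prime] [CharP (Res O) q]
    (hirr : Irreducible π)
    (φ : F₀ →ₐ[K] F) (hfin : FiniteAlong K φ) (hdeg : finrankAlong K φ ≤ 1 + q)
    {ι₀a ι₀b : F₀ →ₐ[K] LaurentSeries K} {V₀ : ValuationSubring F₀}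
    (hV₀a : IsGaussPullback O ι₀a V₀) (hV₀b : IsGaussPullback O ι₀b V₀)
    {ι₁ ι₂ : F →ₐ[K] LaurentSeries K} {V₁ V₂ : ValuationSubring F}
    (hV₁ : IsGaussPullback O ι₁ V₁) (hV₂ : IsGaussPullback O ι₂ V₂) (h12 : V₁ ≠ V₂)
    (hφ₁ : ∀ x, ι₁ (φ x) = ι₀a x) (hφ₂ : ∀ x, ι₂ (φ x) = qExpand K q (ι₀b x))
    (w : F) (hw : ι₂ w ∈ gaussRing O) (hw0 : gaussRed O ⟨ι₂ w, hw⟩ ≠ 0)
    (hword : IsCoprime (gaussRed O ⟨ι₂ w, hw⟩).order (q : ℤ))
    {h : F} (h1 : h ∈ V₁) (h2 : h ∈ V₂) {x₁ x₂ : F₀} (hx₁ : x₁ ∈ V₀) (hx₂ : x₂ ∈ V₀)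
    (hc1 : V₁.valuation (h - φ x₁) < 1) (hc2 : V₂.valuation (h ^ q - φ x₂) < 1) :
    V₀.valuation (normAlong φ h - x₁ * x₂) < 1 := by
  letI := algebraAlong φ
  haveI : Module.Finite F₀ F := hfin
  have hπu := isUnif_of_irreducible O hirr
  -- the two restrictions
  have hcomap1 : V₁.comap (algebraMap F₀ F) = V₀ := by
    ext x
    rw [ValuationSubring.mem_comap]
    show φ x ∈ V₁ ↔ _
    rw [hV₁, hφ₁, ← hV₀a]
  have hcomap2 : V₂.comap (algebraMap F₀ F) = V₀ := by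
    ext x
    rw [ValuationSubring.mem_comap]
    show φ x ∈ V₂ ↔ _
    rw [hV₂, hφ₂]
    constructor
    · intro hx
      exact mem_of_qExpand_mem q hV₀b x hx
    · intro hx
      exact qExpand_mem_gaussRing q ((hV₀b x).mp hx)
  -- `q ∈ 𝔪₀`
  have hqE : V₀.valuation ((q : ℕ) : F₀) < 1 := by
    have h0 : res0 O ((q : ℕ) : ↥O) = 0 := by
      rw [map_natCast]
      exact CharP.cast_eq_zero (Res O) q
    obtain ⟨r, hr⟩ := (res0_eq_zero_iff hπu _).mp h0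
    have e : ((q : ℕ) : F₀) = algebraMap K F₀ ((π : ↥O) : K) * algebraMap K F₀ ((r : ↥O) : K) := by
      rw [← map_mul]
      have : (((π * r : ↥O)) : K) = ((q : ℕ) : K) := by
        rw [← hr]; push_cast; rfl
      rw [show ((π : ↥O) : K) * ((r : ↥O) : K) = (((π * r : ↥O)) : K) from rfl, this, map_natCast]
    rw [e, map_mul]
    exact (mul_le_of_le_one_right'
      ((V₀.valuation_le_one_iff _).mpr (algebraMap_mem hV₀a r))).trans_lt (val_pi_lt_one hV₀a hirr)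
  -- the family `w ^ i`
  have hwV : w ∈ V₂ := (hV₂ w).mpr hw
  have hb₂O : ∀ i : Fin q, (fun i : Fin q => w ^ (i : ℕ)) i ∈ V₂ := fun i => pow_mem hwV _
  have hb₂ : ∀ a : Fin q → F₀, (∀ i, V₀.valuation (a i) ≤ 1) →
      V₂.valuation (∑ i, algebraMap F₀ F (a i) * (fun i : Fin q => w ^ (i : ℕ)) i) < 1 →
      ∀ i, V₀.valuation (a i) < 1 := by
    intro a ha hs
    have haV : ∀ i, a i ∈ V₀ := fun i => (V₀.valuation_le_one_iff _).mp (ha i)
    have hφa : ∀ i, φ (a i) ∈ V₂ := fun i => by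
      have : a i ∈ V₂.comap (algebraMap F₀ F) := by rw [hcomap2]; exact haV i
      exact this
    -- the sum as an element of `V₂`
    have hsum : (∑ i, algebraMap F₀ F (a i) * (fun i : Fin q => w ^ (i : ℕ)) i) =
        ((∑ i : Fin q, (⟨φ (a i), hφa i⟩ : V₂) * (⟨w, hwV⟩ : V₂) ^ (i : ℕ) : V₂) : F) := by
      push_cast
      rfl
    rw [hsum, ← redOf_eq_zero_iff hV₂, map_sum] at hs
    have hterm : ∀ i : Fin q, redOf hV₂ ((⟨φ (a i), hφa i⟩ : V₂) * (⟨w, hwV⟩ : V₂) ^ (i : ℕ)) =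
        qExpand (Res O) q (redOf hV₀b ⟨a i, haV i⟩) * gaussRed O ⟨ι₂ w, hw⟩ ^ (i : ℕ) := by
      intro i
      rw [map_mul, map_pow]
      congr 1
      rw [redOf_apply, redOf_apply]
      have hmem : qExpand K q ((toGauss hV₀b ⟨a i, haV i⟩ : gaussRing O) : LaurentSeries K) ∈
          gaussRing O := qExpand_mem_gaussRing q (toGauss hV₀b ⟨a i, haV i⟩).2
      rw [← gaussRed_qExpand q (toGauss hV₀b ⟨a i, haV i⟩) hmem]
      congr 1
      exact Subtype.ext (hφ₂ (a i))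
    simp only [hterm] at hs
    have hz := eq_zero_of_sum_qExpand_mul_pow q hw0 hword
      (fun i => redOf hV₀b ⟨a i, haV i⟩) hs
    intro i
    exact (redOf_eq_zero_iff hV₀b ⟨a i, haV i⟩).mp (hz i)
  subst hcomap1
  exact norm_congr_insep q hdeg V₁ V₂ h12 hcomap2.symm hqE (fun i : Fin q => w ^ (i : ℕ)) hb₂O hb₂
    h1 h2 ((ValuationSubring.valuation_le_one_iff _ _).mpr hx₁)
    ((ValuationSubring.valuation_le_one_iff _ _).mpr hx₂) hc1 hc2

end Fermat.Agent.ES.N35.NormGauss20
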