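/-
Program O (S35), brick B2b (helper11): **(N̄) at the `ModelDefs9` data** — the two instances of
`NormGauss20.norm_congr_gauss`.

`R = A_K`, `F₀ = FK M' K` (good level, Gauss ring `Ov = gaussVS`), `F = FK (M' q) K` (bad level, `O1`, `O2`),
`α = alpha K M' q`, `β = beta K M' q`, `q ∤ M'` prime, residue characteristic `q`.  For `h ∈ O1 ⊓ O2`,
`x₁, x₂ ∈ Ov`:

* `normA_congr` : `h ≡ α x₁ mod 𝔪₁`, `h^q ≡ α x₂ mod 𝔪₂`  ⟹  `N_α h ≡ x₁ x₂ mod 𝔪_{Ov}`;
* `normB_congr` : `h ≡ β y₂ mod 𝔪₂`, `h^q ≡ β y₁ mod 𝔪₁`  ⟹  `N_β h ≡ y₂ y₁ mod 𝔪_{Ov}`.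

Inputs (all on main): `FrickeV11` (`iota2 ∘ α = V_q ∘ ι₂'`, `iota2 ∘ β = ι₂'`), `IsoM25`
(`Ov` is a Gauss pull-back along both expansions of level `M'`; `jN`, `jTop`), `ModelGlue22`
(`iota2Alg`, pull-back structures of `O1`, `O2`), `OneNeTwo3` (`O1 ≠ O2`), `AlongDegree25` (degree `q + 1`).
-/
import Mathlib
import Fermat.Agent.ES.N35.NormGauss20
import Fermat.Agent.ES.N34.IsoM25
import Fermat.Agent.ES.N34.FrickeV11
import Fermat.Agent.ES.N34.ModelGlue22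
import Fermat.Agent.ES.N34.OneNeTwo3
import Fermat.Agent.ES.HECKE.AlongDegree25

set_option autoImplicit false
set_option linter.unusedSectionVars false

noncomputable section

open HahnSeries ModularCurve AlgebraicCurve

namespace Fermat.Agent.ES.N35.NormInst11

open Fermat.Agent.RED.Interface4 Fermat.Agent.RED.PUR.GaussGen8
  Fermat.Agent.ES.N34.FrickeFK8 Fermat.Agent.ES.N34.ModelDefs9 Fermat.Agent.ES.N34.GaussEmb22
  Fermat.Agent.ES.N34.IsoM25 Fermat.Agent.ES.N34.ModelGlue22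
  Fermat.Agent.ES.HECKE.PointFormula28

variable (A : ValuationSubring Qbar) (K : IntermediateField ℚ Qbar) (M' q : ℕ) [NeZero M'] [NeZero q]
  [hq : Fact q.Prime] [IsDiscreteValuationRing ↥(AK A K)] [CharP (Res (AK A K)) q]
  {π : ↥(AK A K)}

/-- `Ov` (level `M'`) is a Gauss pull-back along the expansion at `∞`. -/
theorem isGaussPullback_Ov_val (hu : IsUnif (AK A K) π) (hE₀ : FK M' K ≤ fracField (AK A K)) :
    IsGaussPullback (AK A K) (FK M' K).val (gaussVS hu (FK M' K) hE₀) :=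
  fun _ => Iff.rfl

/-- `Ov` (level `M'`) is a Gauss pull-back along the expansion at `0` (the isometry `IsoM25`). -/
theorem isGaussPullback_Ov_iota (hπ : Irreducible π) (hu : IsUnif (AK A K) π) (hqM : ¬ q ∣ M')
    (hE₀ : FK M' K ≤ fracField (AK A K)) :
    IsGaussPullback (AK A K) (iotaAlg M' K) (gaussVS hu (FK M' K) hE₀) :=
  isGaussPullback_OvE_iotaAlg A K M' q hπ hqM

/-- the residue of `j(𝐪)` has order `-1`, prime to `q`. -/
theorem isCoprime_order_j :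
    IsCoprime (gaussRed (AK A K) ⟨qExpand K 1 (jqModC K),
      Fermat.Agent.RED.PUR.GaussBridge10.jqd_mem_gaussRing (AK A K) 1⟩).order (q : ℤ) := by
  rw [order_gaussRed_jqd]
  exact ⟨-1, 0, by push_cast; ring⟩

/-- `ι₁ ∘ α = ι₁'` in `AlgHom` form (kept as a separate lemma: unifying `coe_alpha` against the `AlgHom`
form inside a big application makes the unifier unfold `alpha`). -/
theorem val_alpha (x : FK M' K) :
    (FK (M' * q) K).val (alpha K M' q x) = (FK M' K).val x := by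
  rw [IntermediateField.coe_val, IntermediateField.coe_val]
  exact coe_alpha K M' q x

/-- `ι₁ ∘ β = V_q ∘ ι₁'` in `AlgHom` form. -/
theorem val_beta (x : FK M' K) :
    (FK (M' * q) K).val (beta K M' q x) = qExpand (↥K) q ((FK M' K).val x) := by
  rw [IntermediateField.coe_val, IntermediateField.coe_val]
  exact coe_beta K M' q x

/-- `ι₂ ∘ α = V_q ∘ ι₂'` in `AlgHom` form. -/
theorem iota2Alg_alpha (x : FK M' K) :
    iota2Alg K M' q (alpha K M' q x) = qExpand (↥K) q (iotaAlg M' K x) :=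
  Fermat.Agent.ES.N34.FrickeV11.iota2_alpha K M' q x

/-- `ι₂ ∘ β = ι₂'` in `AlgHom` form. -/
theorem iota2Alg_beta (x : FK M' K) :
    iota2Alg K M' q (beta K M' q x) = iotaAlg M' K x :=
  Fermat.Agent.ES.N34.FrickeV11.iota2_beta K M' q x

/-- **(N̄) for `α`.** -/
theorem normA_congr (hπ : Irreducible π) (hu : IsUnif (AK A K) π) (hqM : ¬ q ∣ M')
    (hE : FK (M' * q) K ≤ fracField (AK A K)) (hE₀ : FK M' K ≤ fracField (AK A K))
    {h : FK (M' * q) K} (h1 : h ∈ O1 M' q hu hE) (h2 : h ∈ O2 M' q hu hE)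
    {x₁ x₂ : FK M' K} (hx₁ : x₁ ∈ gaussVS hu (FK M' K) hE₀) (hx₂ : x₂ ∈ gaussVS hu (FK M' K) hE₀)
    (hc1 : (O1 M' q hu hE).valuation (h - alpha K M' q x₁) < 1)
    (hc2 : (O2 M' q hu hE).valuation (h ^ q - alpha K M' q x₂) < 1) :
    (gaussVS hu (FK M' K) hE₀).valuation (normAlong (alpha K M' q) h - x₁ * x₂) < 1 := by
  have hdeg : finrankAlong (↥K) (alpha K M' q) ≤ 1 + q := by
    have := Fermat.Agent.ES.HECKE.AlongDegree25.finrankAlong_alpha (↥K) M' q hq.out hqM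
    unfold alpha
    omega
  have hfin : FiniteAlong (↥K) (alpha K M' q) :=
    Fermat.Agent.ES.HECKE.AlongDegree25.finiteAlong_alpha (↥K) M' q hq.out hqM
  have hw : iota2Alg K M' q (jTop K (M' * q)) ∈ gaussRing (AK A K) := by
    show iotaAlg (M' * q) K (jTop K (M' * q)) ∈ _
    rw [iotaAlg_jTop]
    exact Fermat.Agent.RED.PUR.GaussBridge10.jqd_mem_gaussRing (AK A K) 1
  have hwe : (⟨iota2Alg K M' q (jTop K (M' * q)), hw⟩ : gaussRing (AK A K)) =
      ⟨qExpand K 1 (jqModC K), Fermat.Agent.RED.PUR.GaussBridge10.jqd_mem_gaussRing (AK A K) 1⟩ :=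
    Subtype.ext (iotaAlg_jTop K (M' * q))
  refine Fermat.Agent.ES.N35.NormGauss20.norm_congr_gauss (K := ↥K) (O := AK A K) (F₀ := ↥(FK M' K))
    (F := ↥(FK (M' * q) K)) (π := π) q hπ (alpha K M' q) hfin hdeg
    (ι₀a := (FK M' K).val) (ι₀b := iotaAlg M' K) (V₀ := gaussVS hu (FK M' K) hE₀) ?_ ?_
    (ι₁ := (FK (M' * q) K).val) (ι₂ := iota2Alg K M' q) (V₁ := O1 M' q hu hE) (V₂ := O2 M' q hu hE)
    ?_ ?_ ?_ ?_ ?_ (jTop K (M' * q)) hw ?_ ?_ h1 h2 hx₁ hx₂ hc1 hc2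
  · exact isGaussPullback_Ov_val A K M' hu hE₀
  · exact isGaussPullback_Ov_iota A K M' q hπ hu hqM hE₀
  · exact isGaussPullback_O1 M' q hu hE
  · exact isGaussPullback_O2 M' q hu hE
  · exact Fermat.Agent.ES.N34.OneNeTwo3.o1_ne_o2 M' q hu hE
  · exact val_alpha K M' q
  · exact iota2Alg_alpha K M' q
  · rw [hwe]; exact gaussRed_jqd_ne_zero (AK A K) 1
  · rw [hwe]; exact isCoprime_order_j A K q

/-- **(N̄) for `β`** (roles of the two branches swapped: `β` has residue degree one on `O2` and is purely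
inseparable on `O1`). -/
theorem normB_congr (hπ : Irreducible π) (hu : IsUnif (AK A K) π) (hqM : ¬ q ∣ M')
    (hE : FK (M' * q) K ≤ fracField (AK A K)) (hE₀ : FK M' K ≤ fracField (AK A K))
    {h : FK (M' * q) K} (h1 : h ∈ O1 M' q hu hE) (h2 : h ∈ O2 M' q hu hE)
    {y₂ y₁ : FK M' K} (hy₂ : y₂ ∈ gaussVS hu (FK M' K) hE₀) (hy₁ : y₁ ∈ gaussVS hu (FK M' K) hE₀)
    (hc2 : (O2 M' q hu hE).valuation (h - beta K M' q y₂) < 1)
    (hc1 : (O1 M' q hu hE).valuation (h ^ q - beta K M' q y₁) < 1) :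
    (gaussVS hu (FK M' K) hE₀).valuation (normAlong (beta K M' q) h - y₂ * y₁) < 1 := by
  have hdeg : finrankAlong (↥K) (beta K M' q) ≤ 1 + q := by
    have := Fermat.Agent.ES.HECKE.AlongDegree25.finrankAlong_beta (↥K) M' q hq.out hqM
    unfold beta
    omega
  have hfin : FiniteAlong (↥K) (beta K M' q) :=
    Fermat.Agent.ES.HECKE.AlongDegree25.finiteAlong_beta (↥K) M' q hq.out hqM
  have hw : (FK (M' * q) K).val (jN K (M' * q)) ∈ gaussRing (AK A K) := by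
    rw [val_jN]
    exact Fermat.Agent.RED.PUR.GaussBridge10.jqd_mem_gaussRing (AK A K) 1
  have hwe : (⟨(FK (M' * q) K).val (jN K (M' * q)), hw⟩ : gaussRing (AK A K)) =
      ⟨qExpand K 1 (jqModC K), Fermat.Agent.RED.PUR.GaussBridge10.jqd_mem_gaussRing (AK A K) 1⟩ :=
    Subtype.ext (val_jN K (M' * q))
  refine Fermat.Agent.ES.N35.NormGauss20.norm_congr_gauss (K := ↥K) (O := AK A K) (F₀ := ↥(FK M' K))
    (F := ↥(FK (M' * q) K)) (π := π) q hπ (beta K M' q) hfin hdeg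
    (ι₀a := iotaAlg M' K) (ι₀b := (FK M' K).val) (V₀ := gaussVS hu (FK M' K) hE₀) ?_ ?_
    (ι₁ := iota2Alg K M' q) (ι₂ := (FK (M' * q) K).val) (V₁ := O2 M' q hu hE) (V₂ := O1 M' q hu hE)
    ?_ ?_ ?_ ?_ ?_ (jN K (M' * q)) hw ?_ ?_ h2 h1 hy₂ hy₁ hc2 hc1
  · exact isGaussPullback_Ov_iota A K M' q hπ hu hqM hE₀
  · exact isGaussPullback_Ov_val A K M' hu hE₀
  · exact isGaussPullback_O2 M' q hu hE
  · exact isGaussPullback_O1 M' q hu hE
  · exact (Fermat.Agent.ES.N34.OneNeTwo3.o1_ne_o2 M' q hu hE).symm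
  · exact iota2Alg_beta K M' q
  · exact val_beta K M' q
  · rw [hwe]; exact gaussRed_jqd_ne_zero (AK A K) 1
  · rw [hwe]; exact isCoprime_order_j A K q

end Fermat.Agent.ES.N35.NormInst11
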