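/-
Program O (S35), brick CORE-O (helper13), part 4: **NUM-O** — `IfaceO13.NumStepO` from MODEL (M9, as in
Program N) + the per-K supplier packages.

* `NormItems q M' A K` : (N̄) = the field `normBar` of `FrobAbs13.FrobData` at the ModelDefs9 data, for
  every Frobenius lift (the only field of `FrobData` which is delivered per `K` through `Large`);
* `frobItems_of_model` : `ModelInput` + `Large NormItems` ⇒ `Large FrobItems` (all the other fields are
  closed theorems: `FrobInst13.frobData_modelDefs`);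
* `numStepO_of_suppliers` : `Large NormItems` + `Large NodeItems` at the auxiliary levels ⇒ `NumStepO`.
-/
import Mathlib
import Fermat.Agent.ES.N35.FrobInst13
import Fermat.Agent.ES.N34.ModelEnd4

set_option autoImplicit false
set_option synthInstance.maxHeartbeats 400000

open HahnSeries AlgebraicCurve ModularCurve

noncomputable section

namespace Fermat.Agent.ES.N35.NumO13

open Fermat.Agent.RED.Interface4 Fermat.Agent.RED.DESC Fermat.Agent.RED.PUR.GaussGen8
  Fermat.Agent.RED.BASE.EtaQuot12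
  Fermat.Agent.ES.N34.IfaceN4 Fermat.Agent.ES.N34.GalBase21 Fermat.Agent.ES.N34.ModelDefs9
  Fermat.Agent.ES.N34.ModelN4 Fermat.Agent.ES.N34.ModelInput13 Fermat.Agent.ES.N34.NumData13
  Fermat.Agent.ES.N35.IfaceO13 Fermat.Agent.ES.N35.FrobAbs13 Fermat.Agent.ES.N35.FrobReady13
  Fermat.Agent.ES.N35.FrobInst13

variable (n e q M' : ℕ) [NeZero n] [NeZero M'] [NeZero q] (A : ValuationSubring Qbar)
  (K : IntermediateField ℚ Qbar)

set_option maxHeartbeats 4000000 in
/-- **(N̄) at `K`**: `FrobData.normBar` at the ModelDefs9 data, for every Frobenius lift at `q`. -/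
def NormItems : Prop :=
  ∀ [Normal ℚ K] (hE : FK (M' * q) K ≤ fracField (AK A K)) (hE₀ : FK M' K ≤ fracField (AK A K))
    (π : ↥(AK A K)) (hπ : IsUnif (AK A K) π) (σ : Qbar ≃ₐ[ℚ] Qbar), A.IsFrobeniusAt σ q →
    NormBarStmt π (O1 M' q hπ hE) (O2 M' q hπ hE) (gaussVS hπ (FK M' K) hE₀)
      (alpha K M' q : ↥(FK M' K) →+* ↥(FK (M' * q) K))
      (beta K M' q : ↥(FK M' K) →+* ↥(FK (M' * q) K))
      (gK M' K (σ.restrictNormal K)) (normHom (alpha K M' q)) (normHom (beta K M' q))

variable {n e q M' A}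

set_option maxHeartbeats 4000000 in
/-- **B1 + B2 for all large `K`** from MODEL and (N̄). -/
theorem frobItems_of_model (hq : q.Prime) (hqM : ¬ q ∣ M') (hA : A.LiesOverPrime q)
    (hmodel : ModelInput n e q M' A) (hnorm : Large (NormItems q M' A)) :
    Large (FrobItems q M' A) := by
  obtain ⟨K₁, hK₁, h1⟩ := hmodel
  obtain ⟨K₂, hK₂, h2⟩ := hnorm
  refine ⟨K₁ ⊔ K₂, inferInstance, fun K _ hfd hle => ?_⟩
  obtain ⟨ht, hE', hD⟩ := h1 K hfd (le_trans le_sup_left hle)
  have hN := h2 K hfd (le_trans le_sup_right hle)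
  intro _ hE hE₀ π hπ σ hσ
  have hfd' : FiniteDimensional ℚ K := hfd
  exact frobData_modelDefs hq hqM hA hE hE₀ hπ (hD π hπ).model hσ (hN hE hE₀ π hπ σ hσ)

/-- **`FNumLarge`** at one auxiliary level from MODEL, (N̄) and the node package. -/
theorem fnumLarge_of_suppliers (hq : q.Prime) (hqM : ¬ q ∣ M') (hA : A.LiesOverPrime q)
    (hmodel : ModelInput n e q M' A) (hnorm : Large (NormItems q M' A))
    (hnode : Large (NodeItems n e q M' A)) : FNumLarge q M' A :=
  fnumLarge_of_model hq hA hmodel (frobItems_of_model hq hqM hA hmodel hnorm) hnode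

/-- **NUM-O** from the two per-K packages still delivered through `Large`: (N̄) and the nodes. -/
theorem numStepO_of_suppliers
    (hnorm : ∀ (q M' : ℕ) [NeZero M'] [NeZero q] (A : ValuationSubring Qbar), q.Prime → ¬ q ∣ M' →
      (if q = 2 then 9 ∣ M' else 4 ∣ M') → A.LiesOverPrime q → Large (NormItems q M' A))
    (hnode_odd : ∀ (q M' : ℕ) [NeZero M'] [NeZero q] (A : ValuationSubring Qbar), q.Prime →
      ¬ q ∣ M' → q ≠ 2 → 4 ∣ M' → A.LiesOverPrime q → Large (NodeItems 4 8 q M' A))
    (hnode_two : ∀ (M' : ℕ) [NeZero M'] (A : ValuationSubring Qbar), ¬ 2 ∣ M' → 9 ∣ M' →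
      A.LiesOverPrime 2 → Large (NodeItems 9 3 2 M' A)) : NumStepO := by
  intro q M' _ _ A hq hqM hc hA
  have hN := hnorm q M' A hq hqM hc hA
  by_cases h2 : q = 2
  · subst h2
    rw [if_pos rfl] at hc
    exact fnumLarge_of_suppliers hq hqM hA
      (Fermat.Agent.ES.N34.ModelEnd4.modelInput_nine M' A hqM hc hA) hN (hnode_two M' A hqM hc hA)
  · rw [if_neg h2] at hc
    exact fnumLarge_of_suppliers hq hqM hA
      (Fermat.Agent.ES.N34.ModelEnd4.modelInput_four q M' A hq hqM h2 hc hA) hN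
      (hnode_odd q M' A hq hqM h2 hc hA)

end Fermat.Agent.ES.N35.NumO13
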