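/-
Program O (S35), brick B2b, last link (helper17; SPARE twin of helper5's `NormBarModel5` — land only if the
gatekeeper says so): **`Large (NumO13.NormItems q M' A)`** at the auxiliary levels, i.e. the `hnorm` input of
`NumO13.numStepO_of_suppliers`, from `NormInst11.normA_congr / normB_congr` (helper11),
`NormBarInst26.normBar_at` (helper26), `CombA26.hcomb_four / hcomb_nine` and `ModelEnd4.modelInput_four / _nine`.
No new mathematics: per-`K` instantiation + `Large` threading.
-/
import Mathlib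
import Fermat.Agent.ES.N35.NumO13
import Fermat.Agent.ES.N35.NormInst11
import Fermat.Agent.ES.N35.NormBarInst26

set_option autoImplicit false
set_option synthInstance.maxHeartbeats 400000
set_option maxHeartbeats 4000000

open HahnSeries AlgebraicCurve ModularCurve

noncomputable section

namespace Fermat.Agent.ES.N35.NormBarModel17

open Fermat.Agent.RED.Interface4 Fermat.Agent.RED.DESC Fermat.Agent.RED.PUR.GaussGen8
  Fermat.Agent.RED.BASE.EtaQuot12
  Fermat.Agent.ES.N34.IfaceN4 Fermat.Agent.ES.N34.GalBase21 Fermat.Agent.ES.N34.ModelDefs9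
  Fermat.Agent.ES.N34.ModelN4 Fermat.Agent.ES.N34.ModelInput13 Fermat.Agent.ES.N34.NumData13
  Fermat.Agent.ES.N35.IfaceO13 Fermat.Agent.ES.N35.FrobAbs13 Fermat.Agent.ES.N35.FrobReady13
  Fermat.Agent.ES.N35.FrobInst13

/-- **(N̄) at one number field `K`**: `NumO13.NormItems q M' A K` from `hcomb` at `(O1, alpha)` and the
Hauptmodul membership `ht`. -/
theorem normItems_at {n e q M' : ℕ} [NeZero n] [NeZero M'] [NeZero q] {A : ValuationSubring Qbar}
    (hq : q.Prime) (hqM : ¬ q ∣ M') (hA : A.LiesOverPrime q)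
    (K : IntermediateField ℚ Qbar) [Normal ℚ K] [FiniteDimensional ℚ K]
    (ht : tq (↥K) n e ∈ FK M' K) (hc : Fermat.Agent.ES.N34.CombA26.HcombAt n e q M' A K) :
    NumO13.NormItems q M' A K := by
  intro _ hE hE₀ π hπ σ hσ
  have hdvr : IsDiscreteValuationRing ↥(AK A K) :=
    Fermat.Agent.RED.DESC.NumberFieldDVR27.isDiscreteValuationRing_AK A K hq.ne_zero hA
  have hirr : Irreducible π := (IsDiscreteValuationRing.irreducible_iff_uniformizer π).mpr hπ.max_eq
  have : Fact q.Prime := ⟨hq⟩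
  have : CharP (Res (AK A K)) q :=
    Fermat.Agent.RED.DESC.NumberFieldDVR27.charP_residueField_AK A K hq hA
  exact NormBarInst26.normBar_at hq hqM hA K ht hc hE hE₀ π hπ σ hσ
    (normHom (alpha K M' q)) (normHom (beta K M' q))
    (fun h h1 h2 x₁ x₂ hx₁ hx₂ hc1 hc2 =>
      NormInst11.normA_congr A K M' q hirr hπ hqM hE hE₀ h1 h2 hx₁ hx₂ hc1 hc2)
    (fun h h1 h2 y₁ y₂ hy₁ hy₂ hc2 hc1 =>
      NormInst11.normB_congr A K M' q hirr hπ hqM hE hE₀ h1 h2 hy₂ hy₁ hc2 hc1)

/-- **(N̄) for all large `K`** from MODEL (only `ht` is used) and `Large HcombAt`. -/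
theorem normItems_large {n e q M' : ℕ} [NeZero n] [NeZero M'] [NeZero q] {A : ValuationSubring Qbar}
    (hq : q.Prime) (hqM : ¬ q ∣ M') (hA : A.LiesOverPrime q)
    (hmodel : ModelInput n e q M' A) (hcomb : Large (Fermat.Agent.ES.N34.CombA26.HcombAt n e q M' A)) :
    Large (NumO13.NormItems q M' A) := by
  obtain ⟨K₁, hK₁, h1⟩ := hmodel
  obtain ⟨K₂, hK₂, h2⟩ := hcomb
  refine ⟨K₁ ⊔ K₂, inferInstance, fun K _ hfd hle => ?_⟩
  obtain ⟨ht, -, -⟩ := h1 K hfd (le_trans le_sup_left hle)
  have hfd' : FiniteDimensional ℚ K := hfd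
  have key := normItems_at hq hqM hA K ht (h2 K hfd (le_trans le_sup_right hle))
  unfold NumO13.NormItems at key ⊢
  intro _
  exact key

/-- **The `hnorm` input of `NumO13.numStepO_of_suppliers`, literally.** -/
theorem hnorm : ∀ (q M' : ℕ) [NeZero M'] [NeZero q] (A : ValuationSubring Qbar), q.Prime → ¬ q ∣ M' →
    (if q = 2 then 9 ∣ M' else 4 ∣ M') → A.LiesOverPrime q → Large (NumO13.NormItems q M' A) := by
  intro q M' _ _ A hq hqM hc hA
  by_cases h2 : q = 2
  · subst h2
    rw [if_pos rfl] at hc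
    exact normItems_large hq hqM hA
      (Fermat.Agent.ES.N34.ModelEnd4.modelInput_nine M' A hqM hc hA)
      (Fermat.Agent.ES.N34.CombA26.hcomb_nine hq hqM hc hA)
  · rw [if_neg h2] at hc
    exact normItems_large hq hqM hA
      (Fermat.Agent.ES.N34.ModelEnd4.modelInput_four q M' A hq hqM h2 hc hA)
      (Fermat.Agent.ES.N34.CombA26.hcomb_four hq hqM hc hA)

end Fermat.Agent.ES.N35.NormBarModel17

end
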