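/-
Program O (S35), brick B2d — helper25: **norms along the degeneracy maps commute with the arithmetic
Galois action.**

For a field `L ⊇ ℚ`, `σ ∈ Aut(L/ℚ)` acts coefficientwise on `L·F_N` (`arithmeticRingAut`, = `IfaceN4.gK`
over a number field `K ⊂ ℚ̄`, = `IfaceN4.gB` over `ℚ̄`).  The degeneracy maps `α, β : L·F_N → L·F_{Nℓ}`
(`heckeAlphaBar`, `heckeBetaBar`) commute with this action (`alpha_arith`, `beta_arith`), hence so do the
norms along them:

  `normAlong α (σ x) = σ (normAlong α x)`,   `normAlong β (σ x) = σ (normAlong β x)`.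

Generic core: `normAlong_ringEquiv` (`Algebra.norm_eq_of_equiv_equiv` for `algebraAlong φ`).
`normAlong` is `BaseChange19.normAlong` (the interface's), `= PointFormula28.normAlong` by `rfl`
(`normAlong_eq_pointFormula`).

No hypothesis on `N, ℓ` (finiteness is not needed: both sides are `1` in the non-finite case).
-/
import Mathlib
import Fermat.Agent.ES.HECKE.BaseChange19
import Fermat.Agent.ES.HECKE.PointFormula28
import Fermat.Agent.ES.N34.IfaceN4
import Fermat.Agent.ES.N34.ModelDefs9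
import Fermat.Prelude.Def_ModularCurve_HeckeOperator
import Fermat.Prelude.Def_ModularCurve_ArithmeticGalois
import Fermat.Prelude.Thm_ModularCurve_coeffMap_qExpand

set_option autoImplicit false
set_option synthInstance.maxHeartbeats 400000
set_option linter.style.haveILetI false
set_option linter.unusedSectionVars false

open HahnSeries AlgebraicCurve ModularCurve

noncomputable section

namespace Fermat.Agent.ES.N35.NormGal25

open Fermat.Agent.RED.Interface4 Fermat.Agent.ES.N34.IfaceN4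
open Fermat.Agent.ES.HECKE.BaseChange19 (normAlong)

/-! ### Generic: the norm along an embedding is equivariant -/

section Generic

variable {K F F₁ : Type*} [Field K] [Field F] [Field F₁] [Algebra K F] [Algebra K F₁]

/-- `BaseChange19.normAlong` and `PointFormula28.normAlong` are the same function. -/
theorem normAlong_eq_pointFormula (φ : F →ₐ[K] F₁) (x : F₁) :
    normAlong φ x = Fermat.Agent.ES.HECKE.PointFormula28.normAlong φ x :=
  rfl

/-- **Equivariance of the norm along an embedding**: if ring automorphisms `e₀` of `F` and `e` of `F₁`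
are intertwined by `φ`, then `N_φ (e x) = e₀ (N_φ x)`.  (`e₀`, `e` need not be `K`-linear.) -/
theorem normAlong_ringEquiv (φ : F →ₐ[K] F₁) (e₀ : F ≃+* F) (e : F₁ ≃+* F₁)
    (h : ∀ a, φ (e₀ a) = e (φ a)) (x : F₁) :
    normAlong φ (e x) = e₀ (normAlong φ x) := by
  letI := algebraAlong φ
  have he : RingHom.comp (algebraMap F F₁) (e₀ : F →+* F) =
      RingHom.comp (e : F₁ →+* F₁) (algebraMap F F₁) :=
    RingHom.ext fun a => h a
  have key := Algebra.norm_eq_of_equiv_equiv e₀ e he x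
  show Algebra.norm F (e x) = e₀ (Algebra.norm F x)
  rw [key, RingEquiv.apply_symm_apply]

/-- Monoid-hom form of `normAlong` (for consumers which want `Nα : F₁ →* F`). -/
def normAlongHom (φ : F →ₐ[K] F₁) : F₁ →* F :=
  letI := algebraAlong φ
  Algebra.norm F

theorem normAlongHom_apply (φ : F →ₐ[K] F₁) (x : F₁) : normAlongHom φ x = normAlong φ x :=
  rfl

end Generic

/-! ### The degeneracy maps commute with the arithmetic Galois action -/

section Arith

variable {L : Type*} [Field L] [Algebra ℚ L] (N ℓ : ℕ) [NeZero N] [NeZero ℓ]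

/-- `α (σ a) = σ (α a)`. -/
theorem alpha_arith (σ : L ≃ₐ[ℚ] L) (a : laurentBaseChange L (modularFunctionFieldFull N)) :
    heckeAlphaBar L N ℓ (arithmeticRingAut (modularFunctionFieldFull N) σ a) =
      arithmeticRingAut (modularFunctionFieldFull (N * ℓ)) σ (heckeAlphaBar L N ℓ a) := by
  apply Subtype.ext
  rw [coe_heckeAlphaBar, coe_arithmeticRingAut_apply, coe_arithmeticRingAut_apply,
    coe_heckeAlphaBar]

omit [NeZero N] in
/-- `β (σ a) = σ (β a)`. -/
theorem beta_arith (σ : L ≃ₐ[ℚ] L) (a : laurentBaseChange L (modularFunctionFieldFull N)) :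
    heckeBetaBar L N ℓ (arithmeticRingAut (modularFunctionFieldFull N) σ a) =
      arithmeticRingAut (modularFunctionFieldFull (N * ℓ)) σ (heckeBetaBar L N ℓ a) := by
  apply Subtype.ext
  rw [coe_heckeBetaBar, coe_arithmeticRingAut_apply, coe_arithmeticRingAut_apply,
    coe_heckeBetaBar, coeffMap_qExpand]

/-- **`N_α (σ x) = σ (N_α x)`** over any field `L ⊇ ℚ`. -/
theorem normAlong_alpha_arith (σ : L ≃ₐ[ℚ] L)
    (x : laurentBaseChange L (modularFunctionFieldFull (N * ℓ))) :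
    normAlong (heckeAlphaBar L N ℓ) (arithmeticRingAut (modularFunctionFieldFull (N * ℓ)) σ x) =
      arithmeticRingAut (modularFunctionFieldFull N) σ (normAlong (heckeAlphaBar L N ℓ) x) :=
  normAlong_ringEquiv _ _ _ (alpha_arith N ℓ σ) x

omit [NeZero N] in
/-- **`N_β (σ x) = σ (N_β x)`** over any field `L ⊇ ℚ`. -/
theorem normAlong_beta_arith (σ : L ≃ₐ[ℚ] L)
    (x : laurentBaseChange L (modularFunctionFieldFull (N * ℓ))) :
    normAlong (heckeBetaBar L N ℓ) (arithmeticRingAut (modularFunctionFieldFull (N * ℓ)) σ x) =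
      arithmeticRingAut (modularFunctionFieldFull N) σ (normAlong (heckeBetaBar L N ℓ) x) :=
  normAlong_ringEquiv _ _ _ (beta_arith N ℓ σ) x

end Arith

/-! ### Literal forms over a number field (`gK`) and over `ℚ̄` (`gB`) -/

section Literal

variable (N₀ q : ℕ) [NeZero N₀] [NeZero q]

/-- `α (s₀ a) = s (α a)` over `K`, `s = gK (N₀ q) K τ`, `s₀ = gK N₀ K τ`. -/
theorem alpha_gK (K : IntermediateField ℚ Qbar) (τ : K ≃ₐ[ℚ] K) (a : FK N₀ K) :
    heckeAlphaBar K N₀ q (gK N₀ K τ a) = gK (N₀ * q) K τ (heckeAlphaBar K N₀ q a) :=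
  alpha_arith N₀ q τ a

/-- `β (s₀ a) = s (β a)` over `K`. -/
theorem beta_gK (K : IntermediateField ℚ Qbar) (τ : K ≃ₐ[ℚ] K) (a : FK N₀ K) :
    heckeBetaBar K N₀ q (gK N₀ K τ a) = gK (N₀ * q) K τ (heckeBetaBar K N₀ q a) :=
  beta_arith N₀ q τ a

/-- `α (s₀ a) = s (α a)` over `ℚ̄`. -/
theorem alpha_gB (σ : Qbar ≃ₐ[ℚ] Qbar) (a : Fbar N₀) :
    heckeAlphaBar Qbar N₀ q (gB N₀ σ a) = gB (N₀ * q) σ (heckeAlphaBar Qbar N₀ q a) :=
  alpha_arith N₀ q σ a

/-- `β (s₀ a) = s (β a)` over `ℚ̄`. -/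
theorem beta_gB (σ : Qbar ≃ₐ[ℚ] Qbar) (a : Fbar N₀) :
    heckeBetaBar Qbar N₀ q (gB N₀ σ a) = gB (N₀ * q) σ (heckeBetaBar Qbar N₀ q a) :=
  beta_arith N₀ q σ a

/-- **B2d over `K`, `α`**: `nA (s x) = s₀ (nA x)`. -/
theorem normAlong_alpha_gK (K : IntermediateField ℚ Qbar) (τ : K ≃ₐ[ℚ] K) (x : FK (N₀ * q) K) :
    normAlong (heckeAlphaBar K N₀ q) (gK (N₀ * q) K τ x) =
      gK N₀ K τ (normAlong (heckeAlphaBar K N₀ q) x) :=
  normAlong_alpha_arith N₀ q τ x

/-- **B2d over `K`, `β`**: `nB (s x) = s₀ (nB x)`. -/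
theorem normAlong_beta_gK (K : IntermediateField ℚ Qbar) (τ : K ≃ₐ[ℚ] K) (x : FK (N₀ * q) K) :
    normAlong (heckeBetaBar K N₀ q) (gK (N₀ * q) K τ x) =
      gK N₀ K τ (normAlong (heckeBetaBar K N₀ q) x) :=
  normAlong_beta_arith N₀ q τ x

/-- **B2d over `ℚ̄`, `α`**. -/
theorem normAlong_alpha_gB (σ : Qbar ≃ₐ[ℚ] Qbar) (x : Fbar (N₀ * q)) :
    normAlong (heckeAlphaBar Qbar N₀ q) (gB (N₀ * q) σ x) =
      gB N₀ σ (normAlong (heckeAlphaBar Qbar N₀ q) x) :=
  normAlong_alpha_arith N₀ q σ x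

/-- **B2d over `ℚ̄`, `β`**. -/
theorem normAlong_beta_gB (σ : Qbar ≃ₐ[ℚ] Qbar) (x : Fbar (N₀ * q)) :
    normAlong (heckeBetaBar Qbar N₀ q) (gB (N₀ * q) σ x) =
      gB N₀ σ (normAlong (heckeBetaBar Qbar N₀ q) x) :=
  normAlong_beta_arith N₀ q σ x

/-! The same at the `ModelDefs9` names `alpha K M' q`, `beta K M' q` (these are `def`s, so the literal
forms are restated). -/

open Fermat.Agent.ES.N34.ModelDefs9 in
/-- `alpha (s₀ a) = s (alpha a)`. -/
theorem modelAlpha_gK (K : IntermediateField ℚ Qbar) (τ : K ≃ₐ[ℚ] K) (a : FK N₀ K) :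
    alpha K N₀ q (gK N₀ K τ a) = gK (N₀ * q) K τ (alpha K N₀ q a) :=
  alpha_arith N₀ q τ a

open Fermat.Agent.ES.N34.ModelDefs9 in
/-- `beta (s₀ a) = s (beta a)`. -/
theorem modelBeta_gK (K : IntermediateField ℚ Qbar) (τ : K ≃ₐ[ℚ] K) (a : FK N₀ K) :
    beta K N₀ q (gK N₀ K τ a) = gK (N₀ * q) K τ (beta K N₀ q a) :=
  beta_arith N₀ q τ a

open Fermat.Agent.ES.N34.ModelDefs9 in
/-- `N_alpha (s x) = s₀ (N_alpha x)` at the `ModelDefs9` data. -/
theorem normAlong_modelAlpha_gK (K : IntermediateField ℚ Qbar) (τ : K ≃ₐ[ℚ] K)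
    (x : FK (N₀ * q) K) :
    normAlong (alpha K N₀ q) (gK (N₀ * q) K τ x) = gK N₀ K τ (normAlong (alpha K N₀ q) x) :=
  normAlong_alpha_arith N₀ q τ x

open Fermat.Agent.ES.N34.ModelDefs9 in
/-- `N_beta (s x) = s₀ (N_beta x)` at the `ModelDefs9` data. -/
theorem normAlong_modelBeta_gK (K : IntermediateField ℚ Qbar) (τ : K ≃ₐ[ℚ] K)
    (x : FK (N₀ * q) K) :
    normAlong (beta K N₀ q) (gK (N₀ * q) K τ x) = gK N₀ K τ (normAlong (beta K N₀ q) x) :=
  normAlong_beta_arith N₀ q τ x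

end Literal

end Fermat.Agent.ES.N35.NormGal25
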