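/-
Program O (S35), chapter TOP-O, brick T1 (helper12): the `JZero` form of (C″) and the Kummer ⇄ `JZero`
bridge.

* `pic0PushAlong φ` : push-forward `φ_* : Pic⁰ F' → Pic⁰ F` along a finite embedding `φ : F → F'`
  (Prelude `Divisor.pushforwardAlong`; principal divisors go to principal divisors by the norm formula);
* `alphaPush hq hqM`, `betaPush hq hqM : JZero (M₀ * q) →+ JZero M₀` : the two degeneracy push-forwards
  `α_*`, `β_*` along the Prelude's `heckeAlphaBar`, `heckeBetaBar` at `(M₀, q)`, `q ∤ M₀`;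
* `FrobTors` : **the geometric input of S35** in `JZero` form — `(σ² − q²)(σ² − 1)² y = 0` for every
  Frobenius lift `σ` at `q` and every prime-to-`q` torsion point `y` of `J₀(M₀ q)` with
  `α_* y = 0 = β_* y`;
* `exists_norm_eq_of_push_eq_zero` : **(E)**, easy direction: `φ_* [D] = 0`, `m D = div f` ⇒
  `N_φ f = c · g ^ m`;
* `frobTors_of_fBar` : `IfaceO13.FBar` at all levels `M₀ q` ⇒ `FrobTors`
  (twin of `TorsionInertia12.inertiaTors_of_uBar`).
-/
import Mathlib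
import Fermat.Agent.ES.N35.IfaceO13
import Fermat.Agent.ES.N34.TorsionInertia12
import Fermat.Agent.ES.HECKE.InputsFinal15
import Fermat.Agent.X0.FFConst
import Fermat.Agent.X0.FFSum

set_option autoImplicit false
set_option synthInstance.maxHeartbeats 400000
set_option linter.style.haveILetI false
set_option linter.unusedSectionVars false

open HahnSeries AlgebraicCurve ModularCurve

noncomputable section

namespace Fermat.Agent.ES.N35.PushO12

open Fermat.Agent.RED.Interface4 Fermat.Agent.ES.N34.IfaceN4 Fermat.Agent.ES.N35.IfaceO13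
  Fermat.Agent.ES.N34.TorsionInertia12
open Fermat.Agent.ES.HECKE.BaseChange19 (normAlong)

/-! ### Generic: push-forward on `Pic⁰` -/

section Generic

variable {K F F' : Type*} [Field K] [Field F] [Field F'] [Algebra K F] [Algebra K F']

/-- push-forward of degree-zero divisors. -/
def degZeroPushAlong (φ : F →ₐ[K] F') (hφ : φ.toRingHom.IsIntegral) :
    Divisor.degZero (K := K) (F := F') →+ Divisor.degZero (K := K) (F := F) :=
  ((Divisor.pushforwardAlong φ hφ).domRestrict (Divisor.degZero (K := K) (F := F'))).codRestrict _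
    (fun D => Divisor.pushforwardAlong_mem_degZero φ hφ D.2)

@[simp]
theorem coe_degZeroPushAlong (φ : F →ₐ[K] F') (hφ : φ.toRingHom.IsIntegral)
    (D : Divisor.degZero (K := K) (F := F')) :
    (degZeroPushAlong φ hφ D : Divisor K F) = Divisor.pushforwardAlong φ hφ (D : Divisor K F') :=
  rfl

/-- **push-forward on `Pic⁰`** along a finite embedding with the norm formula. -/
def pic0PushAlong (φ : F →ₐ[K] F') (hφ : φ.toRingHom.IsIntegral) (hfin : FiniteAlong K φ)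
    (hN : NormFormulaAlong K φ hfin) : Pic0 K F' →+ Pic0 K F :=
  QuotientAddGroup.map _ _ (degZeroPushAlong φ hφ) (by
    rintro ⟨D, hD0⟩ hD
    simp only [AddSubgroup.mem_addSubgroupOf] at hD ⊢
    exact Divisor.isPrincipal_pushforwardAlong φ hφ hfin hN hD)

theorem pic0PushAlong_mk (φ : F →ₐ[K] F') (hφ : φ.toRingHom.IsIntegral) (hfin : FiniteAlong K φ)
    (hN : NormFormulaAlong K φ hfin) (D : Divisor.degZero (K := K) (F := F')) :
    pic0PushAlong φ hφ hfin hN (Pic0.mk D) = Pic0.mk (degZeroPushAlong φ hφ D) :=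
  rfl

/-- the norm formula, `Along` form: `ord_v (N_φ f) = (φ_* div f)(v)`. -/
theorem pushforwardAlong_eq_ord_norm (φ : F →ₐ[K] F') (hφ : φ.toRingHom.IsIntegral)
    (hfin : FiniteAlong K φ) (hN : NormFormulaAlong K φ hfin) {f : F'} (hf : f ≠ 0)
    {D : Divisor K F'} (hD : ∀ w, D w = w.ord f) (v : Place K F) :
    Divisor.pushforwardAlong φ hφ D v = v.ord (normAlong φ f) := by
  letI := algebraAlong φ
  haveI := isScalarTower_along φ
  haveI := isIntegral_along φ hφ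
  haveI : Module.Finite F F' := hfin
  exact hN f hf D hD v

end Generic

/-! ### Functions without poles are constant -/

section Const

variable {N : ℕ} [NeZero N]

/-- a function of `Fbar N` all of whose orders vanish is a nonzero constant. -/
theorem exists_const_of_ord_eq_zero {x : Fbar N} (hx0 : x ≠ 0)
    (hx : ∀ v : Place Qbar (Fbar N), v.ord x = 0) : ∃ c : Qbar, c ≠ 0 ∧ x = algebraMap Qbar (Fbar N) c := by
  have halg : IsAlgebraic Qbar x := by
    by_contra htr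
    have hgen : Fermat.Agent.X0.FF.IsGen Qbar x :=
      Fermat.Agent.X0.FF.IsGen.of_transcendental (Fermat.Agent.RED.TOP.FbarFacts20.isGen_j N) htr
    have hsum := Fermat.Agent.X0.FF.sum_ord_poles hgen
    have h0 : (∑ᶠ (v : Place Qbar (Fbar N)) (_ : v.ord x < 0), -v.ord x) = 0 := by
      refine finsum_eq_zero_of_forall_eq_zero fun v => ?_
      rw [finsum_eq_if, if_neg]
      rw [hx v]
      exact lt_irrefl 0
    rw [h0] at hsum
    have hfin : FiniteDimensional (IntermediateField.adjoin Qbar {x}) (Fbar N) := hgen.2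
    have hpos : 0 < Module.finrank (IntermediateField.adjoin Qbar {x}) (Fbar N) :=
      Module.finrank_pos
    have : (Module.finrank (IntermediateField.adjoin Qbar {x}) (Fbar N) : ℤ) = 0 := hsum.symm
    omega
  obtain ⟨c, hc⟩ := Fermat.Agent.X0.FF.eq_algebraMap_of_isAlgebraic halg
  refine ⟨c, ?_, hc⟩
  rintro rfl
  rw [map_zero] at hc
  exact hx0 hc

end Const

/-! ### (E), easy direction -/

section E

variable {N N' : ℕ} [NeZero N] [NeZero N']

/-- **(E)**: if `φ_* [D] = 0` in `Pic⁰` and `m D = div f`, then `N_φ f = c · g ^ m`. -/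
theorem exists_norm_eq_of_push_eq_zero (φ : Fbar N →ₐ[Qbar] Fbar N')
    (hφ : φ.toRingHom.IsIntegral) (hfin : FiniteAlong Qbar φ) (hN : NormFormulaAlong Qbar φ hfin)
    (D : Divisor.degZero (K := Qbar) (F := Fbar N'))
    (hpush : pic0PushAlong φ hφ hfin hN (Pic0.mk D) = 0)
    {m : ℕ} {f : Fbar N'} (hf : f ≠ 0)
    (hfD : ∀ v : Place Qbar (Fbar N'), (m : ℤ) * (D : Divisor Qbar (Fbar N')) v = v.ord f) :
    ∃ (c : Qbar) (g : Fbar N), c ≠ 0 ∧ g ≠ 0 ∧ normAlong φ f = c • g ^ m := by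
  -- `φ_* D = div g`
  rw [pic0PushAlong_mk] at hpush
  have h2 := (QuotientAddGroup.eq_zero_iff _).mp hpush
  rw [AddSubgroup.mem_addSubgroupOf] at h2
  obtain ⟨g, hg0, hgD⟩ := h2
  -- `ord_v (N f) = m · ord_v g`
  have hmD : ∀ w : Place Qbar (Fbar N'), (m • (D : Divisor Qbar (Fbar N'))) w = w.ord f := by
    intro w
    rw [← hfD w]
    simp
  have hord : ∀ v : Place Qbar (Fbar N), v.ord (normAlong φ f) = (m : ℤ) * v.ord g := by
    intro v
    rw [← pushforwardAlong_eq_ord_norm φ hφ hfin hN hf hmD v, map_nsmul, ← hgD v]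
    simp
  have hNf0 : normAlong φ f ≠ 0 := by
    letI := algebraAlong φ
    haveI : Module.Finite (Fbar N) (Fbar N') := hfin
    show Algebra.norm (Fbar N) f ≠ 0
    exact Algebra.norm_ne_zero_iff.mpr hf
  have hgm0 : g ^ m ≠ 0 := pow_ne_zero m hg0
  obtain ⟨c, hc0, hc⟩ := exists_const_of_ord_eq_zero (x := normAlong φ f / g ^ m)
    (div_ne_zero hNf0 hgm0) (fun v => by
      rw [div_eq_mul_inv, v.ord_mul hNf0 (inv_ne_zero hgm0), v.ord_inv, hord v,
        ← zpow_natCast g m, v.ord_zpow]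
      ring)
  refine ⟨c, g, hc0, hg0, ?_⟩
  rw [Algebra.smul_def, ← hc, div_mul_cancel₀ _ hgm0]

end E

/-! ### The two degeneracy push-forwards -/

section Level

variable {M₀ q : ℕ} [NeZero M₀] [NeZero q]

/-- `α_* : J₀(M₀ q) → J₀(M₀)` (`α` = the inclusion `Fbar M₀ ⊆ Fbar (M₀ q)`). -/
def alphaPush (hq : q.Prime) (hqM : ¬ q ∣ M₀) : JZero (M₀ * q) →+ JZero M₀ :=
  pic0PushAlong (heckeAlphaBar Qbar M₀ q)
    (Fermat.Agent.ES.HECKE.AlongDegree25.heckeAlphaBarIntegral Qbar M₀ q hq hqM)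
    (Fermat.Agent.ES.HECKE.AlongDegree25.finiteAlong_alpha Qbar M₀ q hq hqM)
    (Fermat.Agent.ES.HECKE.InputsFinal15.normFormulaAlong_alpha M₀ q hq hqM)

/-- `β_* : J₀(M₀ q) → J₀(M₀)` (`β` = `𝐪 ↦ 𝐪^q`, `Fbar M₀ → Fbar (M₀ q)`). -/
def betaPush (hq : q.Prime) (hqM : ¬ q ∣ M₀) : JZero (M₀ * q) →+ JZero M₀ :=
  pic0PushAlong (heckeBetaBar Qbar M₀ q)
    (Fermat.Agent.ES.HECKE.AlongDegree25.heckeBetaBarIntegral Qbar M₀ q hq hqM)
    (Fermat.Agent.ES.HECKE.AlongDegree25.finiteAlong_beta Qbar M₀ q hq hqM)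
    (Fermat.Agent.ES.HECKE.InputsFinal15.normFormulaAlong_beta M₀ q hq hqM)

end Level

/-! ### The contract and the bridge -/

/-- **The geometric input of S35, `JZero` form** (TOP-O's final assembly consumes exactly this):
for `q ∤ M₀`, a Frobenius lift `σ` at `q`, `y ∈ J₀(M₀ q)(ℚ̄)` of order prime to `q` with
`α_* y = 0 = β_* y`:  `(σ² − q²)(σ² − 1)² y = 0`, i.e.
`σ⁶y + (1 + 2q²) σ²y = (2 + q²) σ⁴y + q² y`. -/
def FrobTors : Prop :=
  ∀ (M₀ q : ℕ) [NeZero M₀] [NeZero q] (hq : q.Prime) (hqM : ¬ q ∣ M₀)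
    (A : ValuationSubring Qbar), A.LiesOverPrime q →
    ∀ σ : Qbar ≃ₐ[ℚ] Qbar, A.IsFrobeniusAt σ q →
    ∀ m : ℕ, ¬ q ∣ m → ∀ y : JZero (M₀ * q), m • y = 0 →
      alphaPush hq hqM y = 0 → betaPush hq hqM y = 0 →
      (σ ^ 6) • y + (1 + 2 * q ^ 2) • ((σ ^ 2) • y) = (2 + q ^ 2) • ((σ ^ 4) • y) + q ^ 2 • y

section Bridge

variable {N : ℕ}

theorem Dl_ne_zero (τ : Qbar ≃ₐ[ℚ] Qbar) {x : Fbar N} (hx : x ≠ 0) : Dl (gB N τ) x ≠ 0 :=
  div_ne_zero (gB_ne_zero τ (gB_ne_zero τ hx)) hx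

/-- `ord_v (Δ x) = ord_{τ⁻² v} x − ord_v x`. -/
theorem ord_Dl (τ : Qbar ≃ₐ[ℚ] Qbar) {x : Fbar N} (hx : x ≠ 0) (v : Place Qbar (Fbar N)) :
    v.ord (Dl (gB N τ) x) = ((gal N τ)⁻¹ • (gal N τ)⁻¹ • v).ord x - v.ord x := by
  unfold Dl
  rw [div_eq_mul_inv, v.ord_mul (gB_ne_zero τ (gB_ne_zero τ hx)) (inv_ne_zero hx), v.ord_inv,
    ord_gB, ord_gB]
  ring

/-- `ord_v (∇ x) = ord_{τ⁻² v} x − q² ord_v x`. -/
theorem ord_Nb (τ : Qbar ≃ₐ[ℚ] Qbar) (q : ℕ) {x : Fbar N} (hx : x ≠ 0)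
    (v : Place Qbar (Fbar N)) :
    v.ord (Nb (gB N τ) q x) =
      ((gal N τ)⁻¹ • (gal N τ)⁻¹ • v).ord x - ((q : ℤ) ^ 2) * v.ord x := by
  unfold Nb
  rw [div_eq_mul_inv, v.ord_mul (gB_ne_zero τ (gB_ne_zero τ hx)) (inv_ne_zero (pow_ne_zero _ hx)),
    v.ord_inv, ord_gB, ord_gB, ← zpow_natCast x (q ^ 2), v.ord_zpow]
  push_cast
  ring

/-- the orders of the third difference. -/
theorem ord_third (τ : Qbar ≃ₐ[ℚ] Qbar) (q : ℕ) {f : Fbar N} (hf : f ≠ 0)
    (v : Place Qbar (Fbar N)) :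
    v.ord (third (gB N τ) q f) =
      ((gal N τ)⁻¹ • (gal N τ)⁻¹ • (gal N τ)⁻¹ • (gal N τ)⁻¹ • (gal N τ)⁻¹ • (gal N τ)⁻¹ • v).ord f
      + (1 + 2 * (q : ℤ) ^ 2) * ((gal N τ)⁻¹ • (gal N τ)⁻¹ • v).ord f
      - (2 + (q : ℤ) ^ 2) *
        ((gal N τ)⁻¹ • (gal N τ)⁻¹ • (gal N τ)⁻¹ • (gal N τ)⁻¹ • v).ord f
      - (q : ℤ) ^ 2 * v.ord f := by
  unfold third
  rw [ord_Nb τ q (Dl_ne_zero τ (Dl_ne_zero τ hf)), ord_Dl τ (Dl_ne_zero τ hf),
    ord_Dl τ (Dl_ne_zero τ hf), ord_Dl τ hf, ord_Dl τ hf, ord_Dl τ hf]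
  ring

end Bridge

set_option maxHeartbeats 1000000 in
/-- **The bridge**: (C″) in Kummer form at all levels `M₀ q` gives `FrobTors`. -/
theorem frobTors_of_fBar
    (hF : ∀ (q M₀ : ℕ) [NeZero M₀] [NeZero q] (A : ValuationSubring Qbar), q.Prime → ¬ q ∣ M₀ →
      A.LiesOverPrime q → FBar q M₀ A) : FrobTors := by
  intro M₀ q _ _ hq hqM A hA σ hσ m hm y hy hαy hβy
  obtain ⟨⟨D, hD⟩, rfl⟩ := Pic0.mk_surjective y
  have hm0 : m ≠ 0 := fun h0 => hm (h0 ▸ dvd_zero q)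
  have hmZ : (m : ℤ) ≠ 0 := by exact_mod_cast hm0
  -- `m • D` is principal
  have hmD : m • D ∈ Divisor.principal (K := Qbar) (F := Fbar (M₀ * q)) := by
    have h1 : Pic0.mk (m • (⟨D, hD⟩ : Divisor.degZero (K := Qbar) (F := Fbar (M₀ * q)))) = 0 := by
      rw [← hy]; rfl
    have h2 := (QuotientAddGroup.eq_zero_iff _).mp h1
    rw [AddSubgroup.mem_addSubgroupOf] at h2
    simpa using h2
  obtain ⟨f, hf0, hfD⟩ := hmD
  have hfD' : ∀ v : Place Qbar (Fbar (M₀ * q)), (m : ℤ) * D v = v.ord f := by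
    intro v
    rw [← hfD v]
    simp
  -- (E)
  have hEα := exists_norm_eq_of_push_eq_zero (heckeAlphaBar Qbar M₀ q) _ _ _ ⟨D, hD⟩ hαy hf0 hfD'
  have hEβ := exists_norm_eq_of_push_eq_zero (heckeBetaBar Qbar M₀ q) _ _ _ ⟨D, hD⟩ hβy hf0 hfD'
  obtain ⟨s, hs0, hs⟩ := hF q M₀ A hq hqM hA σ hσ m hm f hf0
    (fun v => ⟨D v, (hfD' v).symm⟩) hEα hEβ
  -- the goal in `Pic0`
  set g := gal (M₀ * q) σ with hg
  have e6 : (σ ^ 6) • Pic0.mk ⟨D, hD⟩ = g • g • g • g • g • g • Pic0.mk ⟨D, hD⟩ := by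
    simp only [pow_succ, pow_zero, one_mul, mul_smul]
    rfl
  have e4 : (σ ^ 4) • Pic0.mk ⟨D, hD⟩ = g • g • g • g • Pic0.mk ⟨D, hD⟩ := by
    simp only [pow_succ, pow_zero, one_mul, mul_smul]
    rfl
  have e2 : (σ ^ 2) • Pic0.mk ⟨D, hD⟩ = g • g • Pic0.mk ⟨D, hD⟩ := by
    simp only [pow_succ, pow_zero, one_mul, mul_smul]
    rfl
  rw [e6, e4, e2]
  simp only [SemilinearAut.pic0_smul_mk]
  have hns : ∀ (n : ℕ) (E : Divisor.degZero (K := Qbar) (F := Fbar (M₀ * q))),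
      n • Pic0.mk E = Pic0.mk (n • E) := fun n E => rfl
  rw [hns, hns, hns, ← Pic0.mk_add, ← Pic0.mk_add]
  symm
  refine (QuotientAddGroup.eq).mpr ?_
  rw [AddSubgroup.mem_addSubgroupOf]
  refine ⟨s, hs0, fun v => ?_⟩
  apply mul_left_cancel₀ hmZ
  have h1 := congrArg v.ord hs
  rw [← zpow_natCast s m, v.ord_zpow, ord_third σ q hf0 v, ← hfD', ← hfD', ← hfD', ← hfD'] at h1
  rw [h1]
  simp only [AddSubgroup.coe_add, AddSubgroup.coe_neg, AddSubgroup.coe_nsmul, Finsupp.add_apply,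
    Finsupp.neg_apply, Finsupp.smul_apply, nsmul_eq_mul, SemilinearAut.coe_degZeroSMulHom,
    SemilinearAut.divisor_smul_apply]
  push_cast
  ring

end Fermat.Agent.ES.N35.PushO12
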