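/-
Program O (S35), chapter TOP-O, route (B) (helper2's "strong multiplicity one away from the level"),
brick QNew (helper19):

* `push_tT` : a Galois-equivariant `ℤ_p`-linear map `D : T_p J₀(M) → T_p J₀(M')` commutes with the
  Hecke operators `T_ℓ`, `ℓ ∤ M M' p` (Eichler–Shimura at both levels at a Frobenius lift at `ℓ`);
* `push_aeval` : hence with every polynomial in the `T_ℓ`, `ℓ ∉ S`;
* `exists_qnew_of_sep` : if `s ∈ ℤ[X_ℓ : ℓ ∉ S]` kills the Hecke algebra of level `M'` and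
  `s(a_ℓ(g)) ≠ 0`, then `x₀ := s(T_ℓ^{(M)})` has `χ_g(x₀) ≠ 0` and `D ∘ x₀ = 0` on `T_p J₀(M)` for every
  such `D`;
* `iota_injective` : a ring hom from `χ_g`'s range (integral over `ℤ`) to a domain of characteristic
  zero is injective.
-/
import Mathlib
import Fermat.Agent.ES.K.HeckeTate26
import Fermat.Agent.ES.ALG31.TateLevelW13
import Fermat.Agent.S54.FrobeniusExists
import Fermat.Agent.S22

set_option autoImplicit false
set_option linter.unusedSectionVars false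
set_option linter.style.haveILetI false

noncomputable section

namespace Fermat.Agent.ES.N35.QNewCore19

open TensorProduct CuspForm ModularCurve CongruenceSubgroup
open Fermat.Agent.ES.J.TateJZero13 Fermat.Agent.ES.K.HeckeTate26

local notation "Qb" => AlgebraicClosure ℚ

section Push

variable {p : ℕ} [hp : Fact p.Prime] {M M' : ℕ} [NeZero M] [NeZero M']

/-- A Galois-equivariant map between Tate modules commutes with `T_ℓ`, `ℓ ∤ M M' p`. -/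
theorem push_tT (D : TJ p M →ₗ[ℤ_[p]] TJ p M')
    (hD : ∀ (σ : Qb ≃ₐ[ℚ] Qb) (x : TJ p M), D (rhoT p M σ x) = rhoT p M' σ (D x))
    {ℓ : ℕ} (hℓ : ℓ.Prime) (hℓM : ¬ ℓ ∣ M) (hℓM' : ¬ ℓ ∣ M') (hℓp : ℓ ≠ p) (x : TJ p M) :
    D (tT p M ⟨ℓ, hℓ⟩ x) = tT p M' ⟨ℓ, hℓ⟩ (D x) := by
  obtain ⟨A, φ, hA, hφ⟩ := Fermat.Agent.S54.exists_isFrobeniusAt ℓ hℓ
  rw [← Fermat.Agent.ES.ALG31.TateLevelW13.rhoT_add_smul_inv hℓ hℓM hℓp hA hφ,
    ← Fermat.Agent.ES.ALG31.TateLevelW13.rhoT_add_smul_inv hℓ hℓM' hℓp hA hφ]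
  rw [LinearMap.add_apply, LinearMap.add_apply, LinearMap.smul_apply, LinearMap.smul_apply,
    map_add, map_smul, hD, hD]

end Push

/-! ### polynomials in the `T_ℓ`, `ℓ ∉ S` -/

/-- the primes outside `S` (same text as `SepPoly2.Idx`). -/
abbrev PIdx (S : Finset ℕ) : Type := {ℓ : ℕ // ℓ.Prime ∧ ℓ ∉ S}

theorem PIdx.not_dvd {S : Finset ℕ} {N : ℕ} (hNS : ∀ r : ℕ, r.Prime → r ∣ N → r ∈ S)
    (i : PIdx S) : ¬ (i : ℕ) ∣ N := fun h => i.2.2 (hNS _ i.2.1 h)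

theorem PIdx.not_mem_coe {S : Finset ℕ} (i : PIdx S) : (i : ℕ) ∉ (↑S : Set ℕ) :=
  fun h => i.2.2 (Finset.mem_coe.mp h)

theorem PIdx.ne_of_mem {S : Finset ℕ} {p : ℕ} (hpS : p ∈ S) (i : PIdx S) : (i : ℕ) ≠ p :=
  fun h => i.2.2 (h ▸ hpS)

/-- the family `ℓ ↦ T_ℓ` in the `S`-anemic Hecke algebra of level `N` (same text as
`SepPoly2.Tfam`). -/
def TfamQ (N : ℕ) [NeZero N] (S : Finset ℕ) (hNS : ∀ r : ℕ, r.Prime → r ∣ N → r ∈ S) :
    PIdx S → ↥(heckeAlgebra N 2 (↑S : Set ℕ)) :=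
  fun i => heckeAlgebra.T i.2.1 (i.not_dvd hNS) i.not_mem_coe

section Sep

variable (p : ℕ) [hp : Fact p.Prime] {M M' : ℕ} [NeZero M] [NeZero M'] (S : Finset ℕ)

/-- the integral Hecke action on the Tate module, `x ↦ evJ (1 ⊗ x)`, as a `ℤ`-algebra map. -/
def evJZ (N : ℕ) [NeZero N] (hS : ∀ q : ℕ, q.Prime → q ∣ N → q ∈ (↑S : Set ℕ)) :
    ↥(heckeAlgebra N 2 (↑S : Set ℕ)) →ₐ[ℤ] Module.End ℤ_[p] (TJ p N) :=
  evZ (↑S : Set ℕ) hS (iotaJ p N) (isBaseChange_iotaJ p N)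

theorem evJZ_apply (N : ℕ) [NeZero N] (hS : ∀ q : ℕ, q.Prime → q ∣ N → q ∈ (↑S : Set ℕ))
    (x : ↥(heckeAlgebra N 2 (↑S : Set ℕ))) :
    evJZ p S N hS x = evJ (p := p) (↑S : Set ℕ) hS (1 ⊗ₜ[ℤ] x) := rfl

theorem evJZ_TfamQ (N : ℕ) [NeZero N] (hS : ∀ q : ℕ, q.Prime → q ∣ N → q ∈ (↑S : Set ℕ))
    (hNS : ∀ r : ℕ, r.Prime → r ∣ N → r ∈ S) (i : PIdx S) :
    evJZ p S N hS (TfamQ N S hNS i) = tT p N ⟨i, i.2.1⟩ :=
  evJ_T (↑S : Set ℕ) hS (i : ℕ) i.2.1 (i.not_dvd hNS) i.not_mem_coe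

/-- A Galois-equivariant map between Tate modules intertwines `s(T^{(M)})` and `s(T^{(M')})`. -/
theorem push_aeval (hpS : p ∈ S) (hMS : ∀ r : ℕ, r.Prime → r ∣ M → r ∈ S)
    (hM'S : ∀ r : ℕ, r.Prime → r ∣ M' → r ∈ S)
    (hS : ∀ q : ℕ, q.Prime → q ∣ M → q ∈ (↑S : Set ℕ))
    (hS' : ∀ q : ℕ, q.Prime → q ∣ M' → q ∈ (↑S : Set ℕ))
    (D : TJ p M →ₗ[ℤ_[p]] TJ p M')
    (hD : ∀ (σ : Qb ≃ₐ[ℚ] Qb) (x : TJ p M), D (rhoT p M σ x) = rhoT p M' σ (D x))
    (s : MvPolynomial (PIdx S) ℤ) (x : TJ p M) :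
    D (evJZ p S M hS (MvPolynomial.aeval (TfamQ M S hMS) s) x) =
      evJZ p S M' hS' (MvPolynomial.aeval (TfamQ M' S hM'S) s) (D x) := by
  induction s using MvPolynomial.induction_on generalizing x with
  | C a =>
    rw [MvPolynomial.aeval_C, MvPolynomial.aeval_C, AlgHom.commutes, AlgHom.commutes,
      Module.algebraMap_end_apply, Module.algebraMap_end_apply, map_zsmul]
  | add s t hs ht =>
    rw [map_add, map_add, map_add, map_add, LinearMap.add_apply, LinearMap.add_apply, map_add,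
      hs, ht]
  | mul_X s i hs =>
    rw [map_mul, map_mul, map_mul, map_mul, MvPolynomial.aeval_X, MvPolynomial.aeval_X,
      evJZ_TfamQ, evJZ_TfamQ, Module.End.mul_apply, Module.End.mul_apply, hs,
      push_tT D hD i.2.1 (i.not_dvd hMS) (i.not_dvd hM'S) (i.ne_of_mem hpS)]

/-- **QNew, core**: a separating polynomial `s` (zero on the Hecke algebra of level `M'`, nonzero at
the eigensystem of `g`) gives `x₀ := s(T^{(M)})` with `χ_g(x₀) ≠ 0` such that every Galois-equivariant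
`D : T_p J₀(M) → T_p J₀(M')` kills the image of `x₀`. -/
theorem exists_qnew_of_sep {g : CuspForm (Gamma0 M) 2} (hpS : p ∈ S)
    (hMS : ∀ r : ℕ, r.Prime → r ∣ M → r ∈ S) (hM'S : ∀ r : ℕ, r.Prime → r ∣ M' → r ∈ S)
    (hS : ∀ q : ℕ, q.Prime → q ∣ M → q ∈ (↑S : Set ℕ))
    (chig : ↥(heckeAlgebra M 2 (↑S : Set ℕ)) →+* ℂ)
    (hchig : ∀ (ℓ : ℕ) (hℓ : ℓ.Prime) (hℓM : ¬ ℓ ∣ M) (hℓS : ℓ ∉ (↑S : Set ℕ)),
      chig (heckeAlgebra.T hℓ hℓM hℓS) = ModularFormClass.qCoeff g ℓ)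
    (s : MvPolynomial (PIdx S) ℤ)
    (hs0 : MvPolynomial.aeval (TfamQ M' S hM'S) s = 0)
    (hsg : MvPolynomial.aeval (fun i : PIdx S => ModularFormClass.qCoeff g (i : ℕ)) s ≠ 0) :
    ∃ x₀ : ↥(heckeAlgebra M 2 (↑S : Set ℕ)), chig x₀ ≠ 0 ∧
      ∀ D : TJ p M →ₗ[ℤ_[p]] TJ p M',
        (∀ (σ : Qb ≃ₐ[ℚ] Qb) (x : TJ p M), D (rhoT p M σ x) = rhoT p M' σ (D x)) →
        ∀ x : TJ p M, D (evJ (p := p) (↑S : Set ℕ) hS (1 ⊗ₜ[ℤ] x₀) x) = 0 := by
  refine ⟨MvPolynomial.aeval (TfamQ M S hMS) s, ?_, fun D hD x => ?_⟩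
  · have h1 : chig (MvPolynomial.aeval (TfamQ M S hMS) s) =
        MvPolynomial.aeval (fun i : PIdx S => ModularFormClass.qCoeff g (i : ℕ)) s := by
      have h2 := MvPolynomial.comp_aeval_apply (f := TfamQ M S hMS) chig.toIntAlgHom s
      rw [RingHom.toIntAlgHom_apply] at h2
      have hfg : (fun i : PIdx S => chig.toIntAlgHom (TfamQ M S hMS i)) =
          fun i : PIdx S => ModularFormClass.qCoeff g (i : ℕ) := by
        funext i
        exact hchig _ _ _ _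
      rw [h2, hfg]
    rw [h1]
    exact hsg
  · have hS' : ∀ q : ℕ, q.Prime → q ∣ M' → q ∈ (↑S : Set ℕ) :=
      fun q hq hd => Finset.mem_coe.mpr (hM'S q hq hd)
    have h := push_aeval p S hpS hMS hM'S hS hS' D hD s x
    rw [hs0, map_zero, LinearMap.zero_apply, evJZ_apply] at h
    exact h

end Sep

/-! ### injectivity of `iota` -/

/-- A ring hom from the range of a character of the Hecke algebra (a subring of `ℂ`, integral over
`ℤ`) to a domain of characteristic zero is injective. -/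
theorem iota_injective {N : ℕ} [NeZero N] {S : Set ℕ} (chig : ↥(heckeAlgebra N 2 S) →+* ℂ)
    {O' : Type*} [CommRing O'] [IsDomain O'] [CharZero O'] (iota : chig.range →+* O') :
    Function.Injective iota := by
  haveI : Module.Finite ℤ ↥(heckeAlgebra N 2 S) := Fermat.Agent.S22.result N 2 S
  haveI : Algebra.IsIntegral ℤ ↥(heckeAlgebra N 2 S) := Algebra.IsIntegral.of_finite ℤ _
  -- `chig.range` is integral over `ℤ`
  haveI : Algebra.IsIntegral ℤ ↥chig.range := by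
    refine ⟨fun y => ?_⟩
    obtain ⟨y, x, rfl⟩ := y
    have hx : IsIntegral ℤ x := Algebra.IsIntegral.isIntegral x
    have h1 : IsIntegral ℤ (chig.rangeRestrict x) := hx.map chig.rangeRestrict.toIntAlgHom
    exact h1
  rw [RingHom.injective_iff_ker_eq_bot]
  apply Ideal.eq_bot_of_comap_eq_bot (R := ℤ)
  rw [eq_bot_iff]
  intro n hn
  rw [Ideal.mem_comap, RingHom.mem_ker, eq_intCast, map_intCast, Int.cast_eq_zero] at hn
  rw [hn]
  exact Ideal.zero_mem _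

end Fermat.Agent.ES.N35.QNewCore19
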