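/-
Program O (S35), TOP-O brick T4', helper12: **the Frobenius relation on the Tate module of
`J₀(M₀ q)`, on the common kernel of the two degeneracy push-forwards.**

* generic: `pic0PushAlong_smul` — the push-forward on `Pic⁰` commutes with compatible semilinear
  automorphisms;
* `alphaPush_smul`, `betaPush_smul` : `α_*`, `β_* : J₀(M₀ q)(ℚ̄) → J₀(M₀)(ℚ̄)` are
  `Gal(ℚ̄/ℚ)`-equivariant;
* `alphaT`, `betaT : TJ p (M₀ q) →ₗ[ℤ_[p]] TJ p M₀` — the induced maps on Tate modules;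
  `alphaT_rhoT`, `betaT_rhoT` : they are Galois-equivariant;
* **`tate_frob`** : if `PushO12.FrobTors` holds, `q ∤ M₀`, `q ≠ p`, `σ` a Frobenius lift at `q`,
  `x ∈ T_p J₀(M₀ q)` with `α_* x = 0 = β_* x`, then
  `ρ(σ)⁶ x + (1 + 2q²) ρ(σ)² x = (2 + q²) ρ(σ)⁴ x + q² x`,
  i.e. `(ρ(σ)² − q²)(ρ(σ)² − 1)² x = 0`.
-/
import Mathlib
import Fermat.Agent.ES.N35.PushO12
import Fermat.Agent.ES.J.TateJZero13

set_option autoImplicit false
set_option synthInstance.maxHeartbeats 400000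
set_option linter.unusedSectionVars false
set_option linter.style.haveILetI false

noncomputable section

open AlgebraicCurve ModularCurve

namespace Fermat.Agent.ES.N35.TateFrob12

open Fermat.Agent.ES.N35.PushO12 Fermat.Agent.ES.J.TateModule13 Fermat.Agent.ES.J.TateJZero13

/-- `ℚbar`. -/
local notation "Qb" => AlgebraicClosure ℚ

/-! ### Generic: push-forward on `Pic⁰` commutes with compatible semilinear automorphisms -/

section Generic

variable {K F F' : Type*} [Field K] [Field F] [Field F'] [Algebra K F] [Algebra K F']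

theorem pic0PushAlong_smul (ψ : F →ₐ[K] F') (hψ : ψ.toRingHom.IsIntegral)
    (hfin : FiniteAlong K ψ) (hN : NormFormulaAlong K ψ hfin)
    (g : SemilinearAut K F) (g' : SemilinearAut K F')
    (hcomm : ∀ f : F, ψ (g • f) = g' • ψ f)
    (hf : ∀ w : Place K F', w.inertiaDegAlong ψ hψ = 1) (x : Pic0 K F') :
    pic0PushAlong ψ hψ hfin hN (g' • x) = g • pic0PushAlong ψ hψ hfin hN x := by
  obtain ⟨D, rfl⟩ := Pic0.mk_surjective x
  rw [SemilinearAut.pic0_smul_mk, pic0PushAlong_mk, pic0PushAlong_mk, SemilinearAut.pic0_smul_mk]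
  refine congrArg Pic0.mk (Subtype.ext ?_)
  rw [coe_degZeroPushAlong, SemilinearAut.coe_degZeroSMulHom, SemilinearAut.coe_degZeroSMulHom,
    coe_degZeroPushAlong]
  exact Fermat.Agent.ES.HECKE.HeckeGalois12.pushforwardAlong_smul ψ hψ g g' hcomm hf D

end Generic

/-! ### The two degeneracy push-forwards are Galois-equivariant -/

section Level

variable {M₀ q : ℕ} [NeZero M₀] [NeZero q]

theorem alphaPush_smul (hq : q.Prime) (hqM : ¬ q ∣ M₀) (σ : Qb ≃ₐ[ℚ] Qb) (y : JZero (M₀ * q)) :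
    alphaPush hq hqM (σ • y) = σ • alphaPush hq hqM y := by
  haveI : HasPrincipalDivisors Qb (laurentBaseChange Qb (modularFunctionFieldFull (M₀ * q))) :=
    Fermat.Agent.RED.TOP.FbarFacts20.hasPrincipalDivisors_bar (M₀ * q)
  rw [galois_smul_pic0_def, galois_smul_pic0_def]
  exact pic0PushAlong_smul (heckeAlphaBar Qb M₀ q) _ _ _
    (arithmeticGalois (modularFunctionFieldFull M₀) σ)
    (arithmeticGalois (modularFunctionFieldFull (M₀ * q)) σ)
    (Fermat.Agent.ES.HECKE.HeckeGalois12.heckeAlphaBar_smul M₀ q σ)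
    (fun w => Fermat.Agent.ES.HECKE.FundId12.inertiaDegAlong_eq_one (heckeAlphaBar Qb M₀ q) _
      (Fermat.Agent.ES.HECKE.AlongDegree25.finiteAlong_alpha Qb M₀ q hq hqM)
      (Fermat.Agent.RED.TOP.FbarFacts20.isGen_j M₀) w) y

theorem betaPush_smul (hq : q.Prime) (hqM : ¬ q ∣ M₀) (σ : Qb ≃ₐ[ℚ] Qb) (y : JZero (M₀ * q)) :
    betaPush hq hqM (σ • y) = σ • betaPush hq hqM y := by
  haveI : HasPrincipalDivisors Qb (laurentBaseChange Qb (modularFunctionFieldFull (M₀ * q))) :=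
    Fermat.Agent.RED.TOP.FbarFacts20.hasPrincipalDivisors_bar (M₀ * q)
  rw [galois_smul_pic0_def, galois_smul_pic0_def]
  exact pic0PushAlong_smul (heckeBetaBar Qb M₀ q) _ _ _
    (arithmeticGalois (modularFunctionFieldFull M₀) σ)
    (arithmeticGalois (modularFunctionFieldFull (M₀ * q)) σ)
    (Fermat.Agent.ES.HECKE.HeckeGalois12.heckeBetaBar_smul M₀ q σ)
    (fun w => Fermat.Agent.ES.HECKE.FundId12.inertiaDegAlong_eq_one (heckeBetaBar Qb M₀ q) _
      (Fermat.Agent.ES.HECKE.AlongDegree25.finiteAlong_beta Qb M₀ q hq hqM)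
      (Fermat.Agent.RED.TOP.FbarFacts20.isGen_j M₀) w) y

variable (p : ℕ) [hp : Fact p.Prime]

/-- `α_*` on Tate modules. -/
def alphaT (hq : q.Prime) (hqM : ¬ q ∣ M₀) : TJ p (M₀ * q) →ₗ[ℤ_[p]] TJ p M₀ :=
  map (alphaPush hq hqM)

/-- `β_*` on Tate modules. -/
def betaT (hq : q.Prime) (hqM : ¬ q ∣ M₀) : TJ p (M₀ * q) →ₗ[ℤ_[p]] TJ p M₀ :=
  map (betaPush hq hqM)

variable {p}

theorem proj_alphaT (hq : q.Prime) (hqM : ¬ q ∣ M₀) (x : TJ p (M₀ * q)) (k : ℕ) :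
    proj k (alphaT p hq hqM x) = alphaPush hq hqM (proj k x) := rfl

theorem proj_betaT (hq : q.Prime) (hqM : ¬ q ∣ M₀) (x : TJ p (M₀ * q)) (k : ℕ) :
    proj k (betaT p hq hqM x) = betaPush hq hqM (proj k x) := rfl

/-- `α_*` on Tate modules is Galois-equivariant. -/
theorem alphaT_rhoT (hq : q.Prime) (hqM : ¬ q ∣ M₀) (σ : Qb ≃ₐ[ℚ] Qb) (x : TJ p (M₀ * q)) :
    alphaT p hq hqM (rhoT p (M₀ * q) σ x) = rhoT p M₀ σ (alphaT p hq hqM x) := by
  ext k
  show alphaPush hq hqM (σ • proj k x) = σ • alphaPush hq hqM (proj k x)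
  exact alphaPush_smul hq hqM σ (proj k x)

/-- `β_*` on Tate modules is Galois-equivariant. -/
theorem betaT_rhoT (hq : q.Prime) (hqM : ¬ q ∣ M₀) (σ : Qb ≃ₐ[ℚ] Qb) (x : TJ p (M₀ * q)) :
    betaT p hq hqM (rhoT p (M₀ * q) σ x) = rhoT p M₀ σ (betaT p hq hqM x) := by
  ext k
  show betaPush hq hqM (σ • proj k x) = σ • betaPush hq hqM (proj k x)
  exact betaPush_smul hq hqM σ (proj k x)

theorem proj_rhoT_pow (N : ℕ) [NeZero N] (σ : Qb ≃ₐ[ℚ] Qb) (n : ℕ) (x : TJ p N) (k : ℕ) :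
    proj k ((rhoT p N σ ^ n) x) = (σ ^ n) • proj k x := by
  rw [← map_pow]
  rfl

/-- **the Frobenius relation on the common kernel of `α_*`, `β_*` in `T_p J₀(M₀ q)`.** -/
theorem tate_frob (hFT : FrobTors) (hq : q.Prime) (hqM : ¬ q ∣ M₀) (hqp : q ≠ p)
    (A : ValuationSubring Qb) (hA : A.LiesOverPrime q) (σ : Qb ≃ₐ[ℚ] Qb)
    (hσ : A.IsFrobeniusAt σ q) (x : TJ p (M₀ * q))
    (ha : alphaT p hq hqM x = 0) (hb : betaT p hq hqM x = 0) :
    (rhoT p (M₀ * q) σ ^ 6) x + ((1 + 2 * q ^ 2 : ℕ) : ℤ_[p]) • (rhoT p (M₀ * q) σ ^ 2) x =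
      ((2 + q ^ 2 : ℕ) : ℤ_[p]) • (rhoT p (M₀ * q) σ ^ 4) x + ((q ^ 2 : ℕ) : ℤ_[p]) • x := by
  ext k
  have hk : ¬ q ∣ p ^ k := not_dvd_pow hq hqp k
  have h1 : alphaPush hq hqM (proj k x) = 0 := by
    rw [← proj_alphaT, ha]; rfl
  have h2 : betaPush hq hqM (proj k x) = 0 := by
    rw [← proj_betaT, hb]; rfl
  have key := hFT M₀ q hq hqM A hA σ hσ (p ^ k) hk (proj k x) (pow_smul_proj k x) h1 h2
  show proj k ((rhoT p (M₀ * q) σ ^ 6) x + ((1 + 2 * q ^ 2 : ℕ) : ℤ_[p]) • (rhoT p (M₀ * q) σ ^ 2) x)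
    = proj k (((2 + q ^ 2 : ℕ) : ℤ_[p]) • (rhoT p (M₀ * q) σ ^ 4) x + ((q ^ 2 : ℕ) : ℤ_[p]) • x)
  rw [map_add, map_add, proj_natCast_smul, proj_natCast_smul, proj_natCast_smul,
    proj_rhoT_pow, proj_rhoT_pow, proj_rhoT_pow]
  exact key

end Level

end Fermat.Agent.ES.N35.TateFrob12
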