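/-
Program O (S35), TOP-O final assembly, helper12: **the frozen S35 conclusion from the two open
inputs** `IfaceO13.NumStepO` (chapter NUM-O) and the separating polynomial of a newform
(`SepPoly2.exists_sep`, stated here as the hypothesis `SepStmt`).

Chain:  `NumStepO` ⇒ (`DescO1.descStep_chain`, `IfaceO13.fBarAll_of_chain`) `FBarAll`
⇒ (`LvlO17.fBar_of_fBarAll`) `FBar` at all `(q, M₀)` ⇒ (`PushO12.frobTors_of_fBar`) `FrobTors`
⇒ (`TateFrob12.tate_frob`) the Frobenius polynomial kills `ker α_* ∩ ker β_*` in `T_λ J₀(M₀ q)`;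
`SepStmt` ⇒ (`QNewCore19.exists_qnew_of_sep`) `x₀` in the `S`-anemic Hecke algebra of level `M = M₀ q`
with `χ_g(x₀) ≠ 0` and `α_* x₀ = 0 = β_* x₀` on the Tate module; `QNewCore19.iota_injective`;
`EigenNewHecke8.s35_of_hecke`.
-/
import Mathlib
import Fermat.Agent.ES.N35.TateFrob12
import Fermat.Agent.ES.N35.EigenNewHecke8
import Fermat.Agent.ES.N35.QNewCore19
import Fermat.Agent.ES.N35.LvlO17
import Fermat.Agent.ES.N35.DescO1
import Fermat.Prelude.Def_CuspForm_Newforms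

set_option autoImplicit false
set_option synthInstance.maxHeartbeats 400000
set_option linter.unusedSectionVars false
set_option linter.style.haveILetI false

noncomputable section

open AlgebraicCurve ModularCurve TensorProduct Polynomial

namespace Fermat.Agent.ES.N35.S35Top12

open Fermat.Agent.ES.N35.PushO12 Fermat.Agent.ES.N35.TateFrob12
  Fermat.Agent.ES.J.TateModule13 Fermat.Agent.ES.J.TateJZero13 Fermat.Agent.ES.N35.QNewCore19

local notation "Qb" => AlgebraicClosure ℚ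

/-- **NUM-O ⇒ `FrobTors`** (TOP-T1 ∘ LVL ∘ DESC). -/
theorem frobTors_of_num (hnum : Fermat.Agent.ES.N35.IfaceO13.NumStepO) : FrobTors :=
  frobTors_of_fBar (Fermat.Agent.ES.N35.LvlO17.fBar_of_fBarAll
    (Fermat.Agent.ES.N35.IfaceO13.fBarAll_of_chain
      (fun q M' _ _ A => Fermat.Agent.ES.N35.DescO1.descStep_chain q M' A) hnum))

/-- the statement of `SepPoly2.exists_sep` (the `S`-anemic eigensystem of a newform of level `M`
does not occur at a proper divisor level `M'`, in polynomial form). -/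
def SepStmt : Prop :=
  ∀ {M M' : ℕ} [NeZero M] [NeZero M'] (hdvd : M' ∣ M) (_hne : M' ≠ M)
    {g : CuspForm (CongruenceSubgroup.Gamma0 M) 2} (_hg : g.IsNewform) (S : Finset ℕ)
    (hMS : ∀ r : ℕ, r.Prime → r ∣ M → r ∈ S),
    ∃ s : MvPolynomial (PIdx S) ℤ,
      MvPolynomial.aeval (TfamQ M' S (fun r hr h => hMS r hr (h.trans hdvd))) s = 0 ∧
      MvPolynomial.aeval (fun i : PIdx S => ModularFormClass.qCoeff g (i : ℕ)) s ≠ 0

/-- **The frozen S35 conclusion from `FrobTors` and `SepStmt`.** -/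
theorem s35_of (hFT : FrobTors) (hsep : SepStmt)
    {M : ℕ} [NeZero M] {g : CuspForm (CongruenceSubgroup.Gamma0 M) 2} (hg : g.IsNewform)
    (lam : ℕ) [Fact lam.Prime]
    (S : Finset ℕ)
    (O' : Type) [CommRing O'] [IsDomain O'] [IsDiscreteValuationRing O']
    [IsAdicComplete (IsLocalRing.maximalIdeal O') O'] [Finite (IsLocalRing.ResidueField O')]
    [CharZero O'] (hlamO' : (lam : O') ∈ IsLocalRing.maximalIdeal O')
    (chig : CuspForm.heckeAlgebra M 2 (↑S : Set ℕ) →+* ℂ)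
    (hchig : ∀ (ℓ : ℕ) (hℓ : ℓ.Prime) (hℓM : ¬ ℓ ∣ M) (hℓS : ℓ ∉ (↑S : Set ℕ)),
      chig (CuspForm.heckeAlgebra.T hℓ hℓM hℓS) = ModularFormClass.qCoeff g ℓ)
    (iota : chig.range →+* O')
    (hlamS : lam ∈ S) (hMS : ∀ q : ℕ, q.Prime → q ∣ M → q ∈ S)
    :
    ∃ (O'' : Type) (_ : CommRing O'') (_ : IsDomain O'') (_ : IsDiscreteValuationRing O'')
      (_ : IsAdicComplete (IsLocalRing.maximalIdeal O'') O'') (_ : Finite (IsLocalRing.ResidueField O''))
      (_ : CharZero O'') (_ : Algebra O' O'') (_ : Module.Finite O' O'') (_ : IsLocalHom (algebraMap O' O'')),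
      Function.Injective (algebraMap O' O'') ∧
      ∃ ρ : GaloisRepAdic O'',
        (∀ (ℓ : ℕ) (hℓ : ℓ.Prime) (hℓM : ¬ ℓ ∣ M) (hℓS : ℓ ∉ (↑S : Set ℕ)),
          ∀ A : ValuationSubring (AlgebraicClosure ℚ), A.LiesOverPrime ℓ →
            ∀ σ : AlgebraicClosure ℚ ≃ₐ[ℚ] AlgebraicClosure ℚ, A.IsFrobeniusAt σ ℓ →
              LinearMap.charpoly (ρ.ρ σ) =
                X ^ 2 - C (algebraMap O' O'' ((iota.comp chig.rangeRestrict) (CuspForm.heckeAlgebra.T hℓ hℓM hℓS))) * X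
                  + C ((ℓ : O''))) ∧
        (∀ q : ℕ, q.Prime → q ≠ lam → q ∣ M → ¬ q ^ 2 ∣ M →
          ∀ A : ValuationSubring (AlgebraicClosure ℚ), A.LiesOverPrime q →
            ∀ σ : AlgebraicClosure ℚ ≃ₐ[ℚ] AlgebraicClosure ℚ, A.IsFrobeniusAt σ q →
              LinearMap.charpoly (ρ.ρ σ) = X ^ 2 - C ((q : O'') + 1) * X + C ((q : O'')) ∨
              LinearMap.charpoly (ρ.ρ σ) = X ^ 2 + C ((q : O'') + 1) * X + C ((q : O''))) := by
  have hS : ∀ q : ℕ, q.Prime → q ∣ M → q ∈ (↑S : Set ℕ) :=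
    fun q hq h => Finset.mem_coe.mpr (hMS q hq h)
  refine Fermat.Agent.ES.N35.EigenNewHecke8.s35_of_hecke hg lam S O' hlamO' chig iota hlamS hMS
    hS (fun q hq hqlam hqM hq2 => ?_)
  -- split the level: `M = M₀ * q`, `q ∤ M₀`
  obtain ⟨M₀, rfl⟩ : ∃ M₀, M = M₀ * q := ⟨M / q, (Nat.div_mul_cancel hqM).symm⟩
  have hM0 : M₀ ≠ 0 := fun h => NeZero.ne (M₀ * q) (by rw [h, zero_mul])
  haveI : NeZero M₀ := ⟨hM0⟩
  haveI : NeZero q := ⟨hq.ne_zero⟩
  have hqM₀ : ¬ q ∣ M₀ := by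
    intro h
    apply hq2
    rw [pow_two]
    exact Nat.mul_dvd_mul h (dvd_refl q)
  have hdvd : M₀ ∣ M₀ * q := dvd_mul_right M₀ q
  have hne : M₀ ≠ M₀ * q := by
    intro h
    have h1 : M₀ * 1 = M₀ * q := by rw [mul_one]; exact h
    have := Nat.eq_of_mul_eq_mul_left (Nat.pos_of_ne_zero hM0) h1
    exact hq.one_lt.ne this
  -- the separating polynomial and the element `x₀`
  obtain ⟨s, hs0, hsg⟩ := hsep hdvd hne hg S hMS
  obtain ⟨x₀, hx₀, hD⟩ := exists_qnew_of_sep lam S hlamS hMS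
    (fun r hr h => hMS r hr (h.trans hdvd)) hS chig hchig s hs0 hsg
  refine ⟨x₀, ?_, fun A hA σ hσ x => ?_⟩
  · intro h0
    apply hx₀
    have h1 : iota (chig.rangeRestrict x₀) = iota 0 := by rw [map_zero]; exact h0
    exact congrArg Subtype.val (iota_injective chig iota h1)
  · exact tate_frob hFT hq hqM₀ hqlam A hA σ hσ _
      (hD (alphaT lam hq hqM₀) (alphaT_rhoT hq hqM₀) x)
      (hD (betaT lam hq hqM₀) (betaT_rhoT hq hqM₀) x)

/-- **The frozen S35 conclusion from `NumStepO` and `SepStmt`.** -/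
theorem s35_of_num (hnum : Fermat.Agent.ES.N35.IfaceO13.NumStepO) (hsep : SepStmt)
    {M : ℕ} [NeZero M] {g : CuspForm (CongruenceSubgroup.Gamma0 M) 2} (hg : g.IsNewform)
    (lam : ℕ) [Fact lam.Prime]
    (S : Finset ℕ)
    (O' : Type) [CommRing O'] [IsDomain O'] [IsDiscreteValuationRing O']
    [IsAdicComplete (IsLocalRing.maximalIdeal O') O'] [Finite (IsLocalRing.ResidueField O')]
    [CharZero O'] (hlamO' : (lam : O') ∈ IsLocalRing.maximalIdeal O')
    (chig : CuspForm.heckeAlgebra M 2 (↑S : Set ℕ) →+* ℂ)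
    (hchig : ∀ (ℓ : ℕ) (hℓ : ℓ.Prime) (hℓM : ¬ ℓ ∣ M) (hℓS : ℓ ∉ (↑S : Set ℕ)),
      chig (CuspForm.heckeAlgebra.T hℓ hℓM hℓS) = ModularFormClass.qCoeff g ℓ)
    (iota : chig.range →+* O')
    (hlamS : lam ∈ S) (hMS : ∀ q : ℕ, q.Prime → q ∣ M → q ∈ S)
    :
    ∃ (O'' : Type) (_ : CommRing O'') (_ : IsDomain O'') (_ : IsDiscreteValuationRing O'')
      (_ : IsAdicComplete (IsLocalRing.maximalIdeal O'') O'') (_ : Finite (IsLocalRing.ResidueField O''))
      (_ : CharZero O'') (_ : Algebra O' O'') (_ : Module.Finite O' O'') (_ : IsLocalHom (algebraMap O' O'')),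
      Function.Injective (algebraMap O' O'') ∧
      ∃ ρ : GaloisRepAdic O'',
        (∀ (ℓ : ℕ) (hℓ : ℓ.Prime) (hℓM : ¬ ℓ ∣ M) (hℓS : ℓ ∉ (↑S : Set ℕ)),
          ∀ A : ValuationSubring (AlgebraicClosure ℚ), A.LiesOverPrime ℓ →
            ∀ σ : AlgebraicClosure ℚ ≃ₐ[ℚ] AlgebraicClosure ℚ, A.IsFrobeniusAt σ ℓ →
              LinearMap.charpoly (ρ.ρ σ) =
                X ^ 2 - C (algebraMap O' O'' ((iota.comp chig.rangeRestrict) (CuspForm.heckeAlgebra.T hℓ hℓM hℓS))) * X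
                  + C ((ℓ : O''))) ∧
        (∀ q : ℕ, q.Prime → q ≠ lam → q ∣ M → ¬ q ^ 2 ∣ M →
          ∀ A : ValuationSubring (AlgebraicClosure ℚ), A.LiesOverPrime q →
            ∀ σ : AlgebraicClosure ℚ ≃ₐ[ℚ] AlgebraicClosure ℚ, A.IsFrobeniusAt σ q →
              LinearMap.charpoly (ρ.ρ σ) = X ^ 2 - C ((q : O'') + 1) * X + C ((q : O'')) ∨
              LinearMap.charpoly (ρ.ρ σ) = X ^ 2 + C ((q : O'') + 1) * X + C ((q : O''))) :=
  s35_of (frobTors_of_num hnum) hsep hg lam S O' hlamO' chig hchig iota hlamS hMS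

end Fermat.Agent.ES.N35.S35Top12
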