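/-
Program O (S35), chapter TOP, brick T3′-1 (helper2): **strong multiplicity one away from the level**.

`qCoeff_eq_of_agree`: two normalised weight-2 eigenforms `g` (level `M`) and `h` (level `M₀ ∣ M`) whose
Hecke eigenvalues agree at all primes `ℓ ∤ M` outside a finite set `S` have the same eigenvalue at EVERY
prime `r ∤ M`.

Proof: if `x := a_r(g) - a_r(h) ≠ 0` (an algebraic integer), choose a prime `p'` outside a finite set and a
residue map `φ : ℤ̄ → k`, `char k = p'`, with `φ x ≠ 0` (`exists_residue_map`).  S29 (`S30Term4.s29`)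
attaches to `g`, `h` residual representations over `k`, both of finite level.  By the generator form of
Chebotarev (`ChebQbar23`) a Frobenius lift `σ_r` at `r` acts, on both, as the `j`-th power of a Frobenius
lift `φ_ℓ` at a prime `ℓ ∉ S`, `ℓ ∤ M p'`; the two operators at `φ_ℓ` have the same characteristic
polynomial `X² - φ(a_ℓ) X + ℓ`, and the trace of the `j`-th power of an endomorphism of a plane is a
function of its characteristic polynomial (`trace_pow_of_charpoly`).  Hence `φ(a_r(g)) = φ(a_r(h))`.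
-/
import Mathlib
import Fermat.Agent.ES.J7.S30Term4
import Fermat.Agent.ES.J7.EigenChar1
import Fermat.Agent.ES.GAL.ChebQbar23
import Fermat.Agent.S54.FrobeniusExists

set_option autoImplicit false

open Polynomial CuspForm CongruenceSubgroup ModularFormClass

noncomputable section

namespace Fermat.Agent.ES.N35.StrongMult2

local notation "Qb" => AlgebraicClosure ℚ
local notation "GQ" => (AlgebraicClosure ℚ ≃ₐ[ℚ] AlgebraicClosure ℚ)
local notation "Zbar" => integralClosure ℤ ℂ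

/-! ### linear algebra: the trace of a power of an endomorphism of a plane -/

section LinAlg

variable {k : Type*} [Field k] {V : Type*} [AddCommGroup V] [Module k V]

/-- the two coefficient sequences of `F ^ j = u_j F + v_j` when `F² = a F - δ`. -/
def uvSeq (a δ : k) : ℕ → k × k
  | 0 => (0, 1)
  | j + 1 => (a * (uvSeq a δ j).1 + (uvSeq a δ j).2, -(δ * (uvSeq a δ j).1))

theorem pow_eq_uvSeq {F : Module.End k V} {a δ : k}
    (h : F * F - a • F + δ • (1 : Module.End k V) = 0) (j : ℕ) :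
    F ^ j = (uvSeq a δ j).1 • F + (uvSeq a δ j).2 • (1 : Module.End k V) := by
  have hFF : F * F = a • F - δ • (1 : Module.End k V) := by
    have : F * F = (F * F - a • F + δ • (1 : Module.End k V)) + (a • F - δ • 1) := by abel
    rw [this, h, zero_add]
  induction j with
  | zero => simp [uvSeq]
  | succ j ih =>
    rw [pow_succ, ih, add_mul, smul_mul_assoc, hFF, smul_mul_assoc, one_mul]
    simp only [uvSeq]
    module

variable [Module.Finite k V]

theorem trace_eq_neg_coeff_one (hV : Module.finrank k V = 2) (f : Module.End k V) :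
    LinearMap.trace k V f = - f.charpoly.coeff 1 := by
  classical
  rw [LinearMap.trace_eq_matrix_trace k (Module.Free.chooseBasis k V) f]
  have hcard : Fintype.card (Module.Free.ChooseBasisIndex k V) = 2 := by
    rw [← Module.finrank_eq_card_chooseBasisIndex, hV]
  have : Nonempty (Module.Free.ChooseBasisIndex k V) := by
    rw [← Fintype.card_pos_iff, hcard]; norm_num
  rw [Matrix.trace_eq_neg_charpoly_coeff, hcard]
  rfl

theorem trace_of_charpoly (hV : Module.finrank k V = 2) {f : Module.End k V} {a δ : k}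
    (h : f.charpoly = X ^ 2 - C a * X + C δ) : LinearMap.trace k V f = a := by
  rw [trace_eq_neg_coeff_one hV, h]
  simp [coeff_X_pow, coeff_C]

theorem quad_of_charpoly {f : Module.End k V} {a δ : k}
    (h : f.charpoly = X ^ 2 - C a * X + C δ) :
    f * f - a • f + δ • (1 : Module.End k V) = 0 := by
  have := LinearMap.aeval_self_charpoly f
  rw [h] at this
  simpa [pow_two, Algebra.smul_def] using this

/-- the trace of `f ^ j` is determined by the characteristic polynomial of `f`. -/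
theorem trace_pow_of_charpoly (hV : Module.finrank k V = 2) {f : Module.End k V} {a δ : k}
    (h : f.charpoly = X ^ 2 - C a * X + C δ) (j : ℕ) :
    LinearMap.trace k V (f ^ j) = (uvSeq a δ j).1 * a + (uvSeq a δ j).2 * 2 := by
  rw [pow_eq_uvSeq (quad_of_charpoly h) j, map_add, map_smul, map_smul, trace_of_charpoly hV h,
    LinearMap.trace_one, hV]
  simp

end LinAlg


/-! ### a residue map of `ℤ̄` not killing a given nonzero element -/

/-- a nonzero algebraic integer divides a nonzero rational integer. -/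
theorem exists_mul_eq_intCast {x : Zbar} (hx : x ≠ 0) :
    ∃ (y : Zbar) (n : ℤ), n ≠ 0 ∧ x * y = (n : Zbar) := by
  have hint : IsIntegral ℤ x := Algebra.IsIntegral.isIntegral x
  have hne : minpoly ℤ x ≠ 0 := minpoly.ne_zero hint
  have h0 : (minpoly ℤ x).coeff 0 ≠ 0 := by
    intro hc
    have h2 : (minpoly ℤ x).divX * X + C ((minpoly ℤ x).coeff 0) = minpoly ℤ x :=
      divX_mul_X_add _
    rw [hc, C_0, add_zero] at h2
    have h1 : aeval x (minpoly ℤ x) = 0 := minpoly.aeval ℤ x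
    rw [← h2, map_mul, aeval_X] at h1
    have h3 : aeval x (minpoly ℤ x).divX = 0 := by
      rcases mul_eq_zero.mp h1 with h | h
      · exact h
      · exact absurd h hx
    have hd0 : (minpoly ℤ x).divX ≠ 0 := by
      intro hd
      rw [hd, zero_mul] at h2
      exact hne h2.symm
    have hle := minpoly.IsIntegrallyClosed.degree_le_of_ne_zero (s := x) hd0 h3
    exact absurd hle (not_le.mpr (degree_divX_lt hne))
  refine ⟨-(aeval x (minpoly ℤ x).divX), (minpoly ℤ x).coeff 0, h0, ?_⟩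
  have h1 : aeval x (minpoly ℤ x) = 0 := minpoly.aeval ℤ x
  have h2 : (minpoly ℤ x).divX * X + C ((minpoly ℤ x).coeff 0) = minpoly ℤ x :=
    divX_mul_X_add _
  rw [← h2, map_add, map_mul, aeval_X, aeval_C] at h1
  have h3 : algebraMap ℤ Zbar ((minpoly ℤ x).coeff 0) = (((minpoly ℤ x).coeff 0 : ℤ) : Zbar) := by
    simp
  rw [h3] at h1
  linear_combination (-1 : Zbar) * h1

/-- a residue map of `ℤ̄` at a prime `p'` avoiding a finite set and not killing `x ≠ 0`. -/
theorem exists_residue_map {x : Zbar} (hx : x ≠ 0) (T : Finset ℕ) :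
    ∃ (p' : ℕ) (_ : p'.Prime) (k : Type) (_ : Field k) (_ : CharP k p') (φ : Zbar →+* k),
      p' ∉ T ∧ φ x ≠ 0 := by
  classical
  obtain ⟨y, n, hn, hxy⟩ := exists_mul_eq_intCast hx
  obtain ⟨p', hp'ge, hp'⟩ := Nat.exists_infinite_primes (T.sup id + n.natAbs + 1)
  have hp'T : p' ∉ T := by
    intro hmem
    have : p' ≤ T.sup id := Finset.le_sup (f := id) hmem
    omega
  have hp'n : ¬ (p' : ℤ) ∣ n := by
    intro hdvd
    have h1 : p' ∣ n.natAbs := by
      have := Int.natAbs_dvd_natAbs.mpr hdvd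
      simpa using this
    have h2 : p' ≤ n.natAbs := Nat.le_of_dvd (Int.natAbs_pos.mpr hn) h1
    omega
  -- a maximal ideal over `p'`
  have : Fact p'.Prime := ⟨hp'⟩
  have hPmax : (Ideal.span {(p' : ℤ)}).IsMaximal := Int.ideal_span_isMaximal_of_prime p'
  have hker : RingHom.ker (algebraMap ℤ Zbar) ≤ Ideal.span {(p' : ℤ)} := by
    have hinj : Function.Injective (algebraMap ℤ Zbar) := by
      intro a b hab
      have := congrArg (fun z : Zbar => (z : ℂ)) hab
      simpa using this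
    rw [(RingHom.injective_iff_ker_eq_bot _).mp hinj]
    exact bot_le
  obtain ⟨Q, hQmax, hQ⟩ :=
    Ideal.exists_ideal_over_maximal_of_isIntegral (S := Zbar) (Ideal.span {(p' : ℤ)}) hker
  have hpQ : ((p' : ℕ) : Zbar) ∈ Q := by
    have : (p' : ℤ) ∈ Q.comap (algebraMap ℤ Zbar) := by
      rw [hQ]; exact Ideal.subset_span rfl
    simpa using this
  let _ : Field (Zbar ⧸ Q) := Ideal.Quotient.field Q
  have hp0 : ((p' : ℕ) : Zbar ⧸ Q) = 0 := by
    have := Ideal.Quotient.eq_zero_iff_mem.mpr hpQ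
    simpa using this
  have hchar : CharP (Zbar ⧸ Q) p' := by
    have h1 : ringChar (Zbar ⧸ Q) = p' := CharP.ringChar_of_prime_eq_zero hp' hp0
    have := ringChar.charP (Zbar ⧸ Q)
    rwa [h1] at this
  refine ⟨p', hp', Zbar ⧸ Q, inferInstance, hchar, Ideal.Quotient.mk Q, hp'T, ?_⟩
  intro h0
  have h1 : (Ideal.Quotient.mk Q) (x * y) = 0 := by rw [map_mul, h0, zero_mul]
  rw [hxy, map_intCast] at h1
  exact hp'n ((CharP.intCast_eq_zero_iff (Zbar ⧸ Q) p' n).mp h1)


/-! ### the main theorem -/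

/-- a representation factoring through the finite level `L` sends `σ` and `φ ^ j` to the same
operator as soon as `σ⁻¹ φ ^ j` fixes `L`. -/
theorem rho_eq_pow_of_fixes {k : Type} [Field k] (ρ : ResidualGaloisRep k)
    {L : IntermediateField ℚ Qb} (hL : ∀ σ : GQ, (∀ x ∈ L, σ x = x) → ρ.ρ σ = 1)
    {σ φ : GQ} {j : ℕ} (h : ∀ x ∈ L, (σ⁻¹ * φ ^ j) x = x) : ρ.ρ σ = ρ.ρ φ ^ j := by
  have h1 := hL _ h
  rw [map_mul, map_pow] at h1
  have h2 : ρ.ρ σ * ρ.ρ σ⁻¹ = 1 := by rw [← map_mul, mul_inv_cancel, map_one]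
  calc ρ.ρ σ = ρ.ρ σ * (ρ.ρ σ⁻¹ * ρ.ρ φ ^ j) := by rw [h1, mul_one]
    _ = ρ.ρ φ ^ j := by rw [← mul_assoc, h2, one_mul]

/-- **Strong multiplicity one away from the level**, from S29 + generator Chebotarev. -/
theorem qCoeff_eq_of_agree {M M₀ : ℕ} [NeZero M] [NeZero M₀] (hdvd : M₀ ∣ M)
    {g : CuspForm (Gamma0 M) 2} {h : CuspForm (Gamma0 M₀) 2}
    (hg : g.IsNormalizedEigenform) (hh : h.IsNormalizedEigenform) (S : Finset ℕ)
    (H : ∀ ℓ : ℕ, ℓ.Prime → ℓ ∉ S → ¬ ℓ ∣ M → qCoeff h ℓ = qCoeff g ℓ) :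
    ∀ r : ℕ, r.Prime → ¬ r ∣ M → qCoeff h r = qCoeff g r := by
  classical
  intro r hr hrM
  have hrM₀ : ¬ r ∣ M₀ := fun hd => hrM (hd.trans hdvd)
  -- the two eigenvalues as algebraic integers
  set bg : Zbar := Fermat.Agent.ES.J7.EigenChar1.chiG hg (∅ : Set ℕ)
    (heckeAlgebra.T hr hrM (Set.notMem_empty r)) with hbg
  set bh : Zbar := Fermat.Agent.ES.J7.EigenChar1.chiG hh (∅ : Set ℕ)
    (heckeAlgebra.T hr hrM₀ (Set.notMem_empty r)) with hbh
  have hbgC : (bg : ℂ) = qCoeff g r := Fermat.Agent.ES.J7.EigenChar1.coe_chiG_T hg hr hrM _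
  have hbhC : (bh : ℂ) = qCoeff h r := Fermat.Agent.ES.J7.EigenChar1.coe_chiG_T hh hr hrM₀ _
  by_contra hne
  have hx : bg - bh ≠ 0 := by
    intro h0
    apply hne
    rw [← hbgC, ← hbhC, sub_eq_zero.mp h0]
  -- the residue map
  obtain ⟨p', hp', k, _, _, φ, hp'T, hφx⟩ :=
    exists_residue_map hx (S ∪ {r} ∪ M.primeFactors)
  have hp'r : p' ≠ r := by
    rintro rfl
    exact hp'T (by simp)
  -- the two residual representations
  obtain ⟨ρg, hρg, -⟩ := Fermat.Agent.ES.J7.S30Term4.s29 hg hp' φ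
  obtain ⟨ρh, hρh, -⟩ := Fermat.Agent.ES.J7.S30Term4.s29 hh hp' φ
  obtain ⟨Lg, hLgfin, hLg⟩ := ρg.factorsThroughFiniteLevel
  obtain ⟨Lh, hLhfin, hLh⟩ := ρh.factorsThroughFiniteLevel
  have := hLgfin
  have := hLhfin
  -- a Frobenius lift at `r`
  obtain ⟨Ar, σr, hAr, hσr⟩ := Fermat.Agent.S54.exists_isFrobeniusAt r hr
  -- generator Chebotarev
  obtain ⟨ℓ, A, φℓ, j, hℓ, hℓT, hA, hφℓ, hfix⟩ :=
    Fermat.Agent.ES.GAL.ChebQbar23.exists_frobenius_inv_mul_pow_fixes (Lg ⊔ Lh) σr
      (S ∪ {p'} ∪ M.primeFactors)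
  have hℓS : ℓ ∉ S := fun hm => hℓT (by simp [hm])
  have hℓp' : ℓ ≠ p' := by
    rintro rfl
    exact hℓT (by simp)
  have hℓM : ¬ ℓ ∣ M := fun hd => hℓT (by
    simp only [Finset.mem_union, Nat.mem_primeFactors]
    exact Or.inr ⟨hℓ, hd, NeZero.ne M⟩)
  have hℓM₀ : ¬ ℓ ∣ M₀ := fun hd => hℓM (hd.trans hdvd)
  have hcast : ∀ n : ℕ, n.Prime → n ≠ p' → ((n : ℕ) : k) ≠ 0 := by
    intro n hn hnp h0
    have := (CharP.cast_eq_zero_iff k p' n).mp h0
    exact hnp ((Nat.prime_dvd_prime_iff_eq hp' hn).mp this).symm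
  have eg : ρg.ρ σr = ρg.ρ φℓ ^ j :=
    rho_eq_pow_of_fixes ρg hLg fun x hx => hfix x (le_sup_left (a := Lg) (b := Lh) hx)
  have eh : ρh.ρ σr = ρh.ρ φℓ ^ j :=
    rho_eq_pow_of_fixes ρh hLh fun x hx => hfix x (le_sup_right (a := Lg) (b := Lh) hx)
  -- characteristic polynomials at `ℓ`
  obtain ⟨ag, hagC, hag⟩ := hρg ℓ hℓ hℓM (hcast ℓ hℓ hℓp') A hA φℓ hφℓ
  obtain ⟨ah, hahC, hah⟩ := hρh ℓ hℓ hℓM₀ (hcast ℓ hℓ hℓp') A hA φℓ hφℓ
  have hagh : ag = ah := by
    apply Subtype.ext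
    rw [hagC, hahC, H ℓ hℓ hℓS hℓM]
  -- characteristic polynomials at `r`
  obtain ⟨cg, hcgC, hcg⟩ := hρg r hr hrM (hcast r hr hp'r.symm) Ar hAr σr hσr
  obtain ⟨ch, hchC, hch⟩ := hρh r hr hrM₀ (hcast r hr hp'r.symm) Ar hAr σr hσr
  have hcg' : cg = bg := Subtype.ext (by rw [hcgC, hbgC])
  have hch' : ch = bh := Subtype.ext (by rw [hchC, hbhC])
  -- traces
  have tg : φ cg = (uvSeq (φ ag) (ℓ : k) j).1 * φ ag + (uvSeq (φ ag) (ℓ : k) j).2 * 2 := by
    rw [← trace_of_charpoly ρg.finrank_eq hcg, eg, trace_pow_of_charpoly ρg.finrank_eq hag]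
  have th : φ ch = (uvSeq (φ ah) (ℓ : k) j).1 * φ ah + (uvSeq (φ ah) (ℓ : k) j).2 * 2 := by
    rw [← trace_of_charpoly ρh.finrank_eq hch, eh, trace_pow_of_charpoly ρh.finrank_eq hah]
  apply hφx
  rw [map_sub, ← hcg', ← hch', tg, th, hagh, sub_self]

end Fermat.Agent.ES.N35.StrongMult2
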