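/-
Program O (S35), chapter TOP, brick T3′-2 (helper2): **the separating polynomial of a newform**.

`g` a newform of level `M`, `M' ∣ M` a proper divisor, `S ⊇ primes of M` finite.  Then there is a
polynomial `s` in the Hecke operators `T_ℓ`, `ℓ ∉ S`, which is ZERO in the anemic Hecke algebra of level
`M'` but whose value at the eigenvalues of `g` is NONZERO (`exists_sep`).

Proof: otherwise the evaluation `s ↦ s(a_ℓ(g))` factors through `heckeAlgebra M' 2 S`; this character has a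
nonzero eigenvector in `ℂ ⊗ Λ_{M'}` (`FaithFinal26.exists_eigenvector`), hence in the complex parabolic
homs, hence (Eichler–Shimura, `periodEquiv`) a common eigenspace of `S₂(Γ₀(M'))` is nonzero and contains a
normalised eigenform `h` (`EigenformOfCommon23`) with `a_ℓ(h) = a_ℓ(g)` for `ℓ ∉ S`; by strong
multiplicity one away from the level (`StrongMult2`) this holds for all `ℓ ∤ M`, contradicting newness.
-/
import Mathlib
import Fermat.Prelude.Def_CuspForm_Newforms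
import Fermat.Agent.ES.LR.Final12
import Fermat.Agent.ES.LR.EigenformOfCommon23
import Fermat.Agent.ES.N35.StrongMult2

set_option autoImplicit false
set_option linter.unusedSectionVars false

open CuspForm CongruenceSubgroup ModularFormClass ModularCurve ModularCurve.Period TensorProduct

noncomputable section

namespace Fermat.Agent.ES.N35.SepPoly2

open Fermat.Agent.ES.HEQ.FaithInst26 Fermat.Agent.ES.HEQ.FaithFinal26 Fermat.Agent.ES.LR.Final12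

/-- the index set: the primes outside `S`. -/
abbrev Idx (S : Finset ℕ) : Type := {ℓ : ℕ // ℓ.Prime ∧ ℓ ∉ S}

theorem Idx.not_dvd {S : Finset ℕ} {N : ℕ} (hNS : ∀ r : ℕ, r.Prime → r ∣ N → r ∈ S) (i : Idx S) :
    ¬ (i : ℕ) ∣ N := fun h => i.2.2 (hNS i i.2.1 h)

theorem Idx.not_mem_coe {S : Finset ℕ} (i : Idx S) : (i : ℕ) ∉ (↑S : Set ℕ) := fun h =>
  i.2.2 (Finset.mem_coe.mp h)

/-- the family of the `T_ℓ`, `ℓ ∉ S`, in the anemic Hecke algebra of level `N`. -/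
def Tfam (N : ℕ) [NeZero N] (S : Finset ℕ) (hNS : ∀ r : ℕ, r.Prime → r ∣ N → r ∈ S) :
    Idx S → ↥(heckeAlgebra N 2 (↑S : Set ℕ)) :=
  fun i => heckeAlgebra.T i.2.1 (i.not_dvd hNS) i.not_mem_coe

theorem Tfam_apply (N : ℕ) [NeZero N] (S : Finset ℕ) (hNS : ∀ r : ℕ, r.Prime → r ∣ N → r ∈ S)
    (i : Idx S) : Tfam N S hNS i = heckeAlgebra.T i.2.1 (i.not_dvd hNS) i.not_mem_coe := rfl

/-- the `T_ℓ`, `ℓ ∉ S`, generate the anemic Hecke algebra. -/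
theorem aeval_Tfam_surjective (N : ℕ) [NeZero N] (S : Finset ℕ)
    (hNS : ∀ r : ℕ, r.Prime → r ∣ N → r ∈ S) :
    Function.Surjective (MvPolynomial.aeval (R := ℤ) (Tfam N S hNS)) := by
  have hS : ∀ q : ℕ, q.Prime → q ∣ N → q ∈ (↑S : Set ℕ) := fun q hq hqN =>
    Finset.mem_coe.mpr (hNS q hq hqN)
  rintro ⟨x, hx⟩
  induction hx using Algebra.adjoin_induction with
  | mem y hy =>
    rw [heckeGenerators_eq (↑S : Set ℕ) hS] at hy
    obtain ⟨ℓ, hℓ, hℓN, hℓS, rfl⟩ := hy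
    refine ⟨MvPolynomial.X ⟨ℓ, hℓ, fun h => hℓS (Finset.mem_coe.mpr h)⟩, ?_⟩
    rw [MvPolynomial.aeval_X]
    rfl
  | algebraMap r =>
    refine ⟨MvPolynomial.C r, ?_⟩
    rw [MvPolynomial.aeval_C]
    rfl
  | add y z hy hz ihy ihz =>
    obtain ⟨a, ha⟩ := ihy
    obtain ⟨b, hb⟩ := ihz
    refine ⟨a + b, ?_⟩
    rw [map_add, ha, hb]
    rfl
  | mul y z hy hz ihy ihz =>
    obtain ⟨a, ha⟩ := ihy
    obtain ⟨b, hb⟩ := ihz
    refine ⟨a * b, ?_⟩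
    rw [map_mul, ha, hb]
    rfl

/-- a nonzero complex parabolic hom of `Γ₀(M)` which is an eigenvector of the double coset operators
`T_ℓ` (`ℓ ∤ M`, `P ℓ`) with eigenvalues `lam ℓ` produces a normalised eigenform of level `M` with
`a_ℓ = lam ℓ` (`ℓ ∤ M`, `P ℓ`). -/
theorem exists_eigenform_of_hom_eigenvector {M : ℕ} [NeZero M] (P : ℕ → Prop) (lam : ℕ → ℂ)
    (φ : Additive (Gamma0 M) →+ ℂ) (hφpar : φ ∈ ParC M) (hφ : φ ≠ 0)
    (heig : ∀ ℓ (hℓ : ℓ.Prime) (hℓM : ¬ ℓ ∣ M), P ℓ → dcC M ℓ hℓ hℓM φ = lam ℓ • φ) :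
    ∃ h : CuspForm (Gamma0 M) 2, h.IsNormalizedEigenform ∧
      ∀ ℓ, ℓ.Prime → ¬ ℓ ∣ M → P ℓ → qCoeff h ℓ = lam ℓ := by
  classical
  have hinj := (eichlerShimura M).1
  obtain ⟨⟨g1, g2⟩, hg⟩ : ∃ pr : CuspForm (Gamma0 M) 2 × CuspForm (Gamma0 M) 2,
      periodHomPair M pr = φ := by
    refine ⟨(periodEquiv M).symm ⟨φ, hφpar⟩, ?_⟩
    have := congrArg Subtype.val ((periodEquiv M).apply_symm_apply ⟨φ, hφpar⟩)
    exact this
  have hne : (g1, g2) ≠ (0 : CuspForm (Gamma0 M) 2 × CuspForm (Gamma0 M) 2) := by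
    intro h0
    apply hφ
    rw [← hg, h0, map_zero]
  have hT : ∀ ℓ (hℓ : ℓ.Prime) (hℓM : ¬ ℓ ∣ M), P ℓ →
      heckeTLin 2 hℓ hℓM g1 = lam ℓ • g1 ∧ heckeTLin 2 hℓ hℓM g2 = lam ℓ • g2 := by
    intro ℓ hℓ hℓM hP
    have h1 : periodHomPair M (heckeTLin 2 hℓ hℓM g1, heckeTLin 2 hℓ hℓM g2) =
        periodHomPair M (lam ℓ • (g1, g2)) := by
      rw [periodHomPair_hecke (dcData M) ℓ hℓ hℓM g1 g2, hg, map_smul, hg]
      exact heig ℓ hℓ hℓM hP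
    have h2 := hinj h1
    rw [Prod.smul_mk] at h2
    exact ⟨congrArg Prod.fst h2, congrArg Prod.snd h2⟩
  let V : Submodule ℂ (CuspForm (Gamma0 M) 2) :=
    ⨅ ℓ : {ℓ : ℕ // ℓ.Prime ∧ ¬ ℓ ∣ M ∧ P ℓ},
      LinearMap.ker (heckeTLin 2 ℓ.2.1 ℓ.2.2.1 - lam ℓ • (1 : Module.End ℂ _))
  have hmemV : ∀ x : CuspForm (Gamma0 M) 2, x ∈ V ↔
      ∀ ℓ (hℓ : ℓ.Prime) (hℓM : ¬ ℓ ∣ M), P ℓ → heckeTLin 2 hℓ hℓM x = lam ℓ • x := by
    intro x
    simp only [V, Submodule.mem_iInf, LinearMap.mem_ker, LinearMap.sub_apply,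
      LinearMap.smul_apply, Module.End.one_apply, sub_eq_zero, Subtype.forall]
    constructor
    · intro h1 ℓ hℓ hℓM hP
      exact h1 ℓ ⟨hℓ, hℓM, hP⟩
    · intro h1 ℓ h
      exact h1 ℓ h.1 h.2.1 h.2.2
  have hg1V : g1 ∈ V := (hmemV g1).2 fun ℓ hℓ hℓM hP => (hT ℓ hℓ hℓM hP).1
  have hg2V : g2 ∈ V := (hmemV g2).2 fun ℓ hℓ hℓM hP => (hT ℓ hℓ hℓM hP).2
  have hVbot : V ≠ ⊥ := by
    intro hb
    apply hne
    rw [hb] at hg1V hg2V
    rw [Submodule.mem_bot] at hg1V hg2V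
    rw [hg1V, hg2V]
    rfl
  have hstabT : ∀ (r : ℕ) (hr : r.Prime) (hrM : ¬ r ∣ M), ∀ x ∈ V, heckeTLin 2 hr hrM x ∈ V := by
    intro r hr hrM x hx
    rw [hmemV] at hx ⊢
    intro ℓ hℓ hℓM hP
    have hc := (heckeTLin_comm 2 hr hrM hℓ hℓM).eq
    have := congrArg (fun A : Module.End ℂ (CuspForm (Gamma0 M) 2) => A x) hc
    simp only [Module.End.mul_apply] at this
    rw [← this, hx ℓ hℓ hℓM hP, map_smul]
  have hstabU : ∀ (r : ℕ) (_ : r.Prime) (hrM : r ∣ M), ∀ x ∈ V, heckeULin 2 hrM x ∈ V := by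
    intro r _ hrM x hx
    rw [hmemV] at hx ⊢
    intro ℓ hℓ hℓM hP
    have hc := (heckeTLin_heckeULin_comm 2 hℓ hℓM hrM).eq
    have := congrArg (fun A : Module.End ℂ (CuspForm (Gamma0 M) 2) => A x) hc
    simp only [Module.End.mul_apply] at this
    rw [this, hx ℓ hℓ hℓM hP, map_smul]
  obtain ⟨h, hhV, hh⟩ :=
    Fermat.Agent.ES.LR.EigenformOfCommon23.exists_normalizedEigenform_mem V hVbot hstabT hstabU
  refine ⟨h, hh, fun ℓ hℓ hℓM hP => ?_⟩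
  exact Fermat.Agent.ES.LR.EigenformOfCommon23.qCoeff_eq_of_heckeTLin_eq_smul hh hℓ hℓM
    ((hmemV h).1 hhV ℓ hℓ hℓM hP)

/-- a character of the anemic Hecke algebra of level `N` with values in `ℂ` is the system of
eigenvalues (at the `T_ℓ`, `ℓ ∉ S`) of a normalised eigenform of level `N`. -/
theorem exists_eigenform_of_character {N : ℕ} [NeZero N] (S : Finset ℕ)
    (hNS : ∀ r : ℕ, r.Prime → r ∣ N → r ∈ S) (ψ : ↥(heckeAlgebra N 2 (↑S : Set ℕ)) →+* ℂ) :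
    ∃ h : CuspForm (Gamma0 N) 2, h.IsNormalizedEigenform ∧
      ∀ i : Idx S, qCoeff h (i : ℕ) = ψ (Tfam N S hNS i) := by
  classical
  have hS : ∀ q : ℕ, q.Prime → q ∣ N → q ∈ (↑S : Set ℕ) := fun q hq hqN =>
    Finset.mem_coe.mpr (hNS q hq hqN)
  obtain ⟨v, hv0, hv⟩ := exists_eigenvector (N := N) (↑S : Set ℕ) hS ψ
  let lam : ℕ → ℂ := fun ℓ => if h : ℓ.Prime ∧ ℓ ∉ S then ψ (Tfam N S hNS ⟨ℓ, h⟩) else 0
  have hlam : ∀ i : Idx S, lam (i : ℕ) = ψ (Tfam N S hNS i) := fun i => by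
    simp only [lam]
    rw [dif_pos i.2]
  obtain ⟨h, hh, hcoef⟩ := exists_eigenform_of_hom_eigenvector (M := N) (fun ℓ => ℓ ∉ S) lam
    (bcPar N v) (bcPar_mem N v) (bcPar_ne_zero N hv0) (by
      intro ℓ hℓ hℓN hℓS
      have hℓS' : ℓ ∉ (↑S : Set ℕ) := fun hm => hℓS (Finset.mem_coe.mp hm)
      rw [← bcPar_dcZ ℓ hℓ hℓN v, ← heckeLam_T' (↑S : Set ℕ) hS ℓ hℓ hℓN hℓS', hv, map_smul]
      congr 1
      exact (hlam ⟨ℓ, hℓ, hℓS⟩).symm)
  refine ⟨h, hh, fun i => ?_⟩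
  rw [hcoef (i : ℕ) i.2.1 (i.not_dvd hNS) i.2.2, hlam]

/-- lifting a ring homomorphism along a surjection killing its kernel. -/
theorem exists_lift_of_ker {A B C : Type*} [CommRing A] [CommRing B] [CommRing C] (Φ : A →+* B)
    (hΦ : Function.Surjective Φ) (ev : A →+* C) (h : ∀ s, Φ s = 0 → ev s = 0) :
    ∃ ψ : B →+* C, ∀ s, ψ (Φ s) = ev s := by
  have hker : RingHom.ker Φ ≤ RingHom.ker ev := by
    intro s hs
    rw [RingHom.mem_ker] at hs ⊢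
    exact h s hs
  exact ⟨RingHom.liftOfRightInverse Φ (Function.surjInv hΦ) (Function.rightInverse_surjInv hΦ)
    ⟨ev, hker⟩, fun s => RingHom.liftOfRightInverse_comp_apply Φ (Function.surjInv hΦ)
      (Function.rightInverse_surjInv hΦ) ⟨ev, hker⟩ s⟩

/-- **the separating polynomial of a newform.** -/
theorem exists_sep {M M' : ℕ} [NeZero M] [NeZero M'] (hdvd : M' ∣ M) (hne : M' ≠ M)
    {g : CuspForm (Gamma0 M) 2} (hg : g.IsNewform) (S : Finset ℕ)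
    (hMS : ∀ r : ℕ, r.Prime → r ∣ M → r ∈ S) :
    ∃ s : MvPolynomial (Idx S) ℤ,
      MvPolynomial.aeval (Tfam M' S (fun r hr h => hMS r hr (h.trans hdvd))) s = 0 ∧
      MvPolynomial.aeval (fun i : Idx S => qCoeff g (i : ℕ)) s ≠ 0 := by
  classical
  have hM'S : ∀ r : ℕ, r.Prime → r ∣ M' → r ∈ S := fun r hr h => hMS r hr (h.trans hdvd)
  by_contra hcon0
  have hcon : ∀ s : MvPolynomial (Idx S) ℤ,
      (MvPolynomial.aeval (R := ℤ) (Tfam M' S hM'S)).toRingHom s = 0 →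
      (MvPolynomial.aeval (R := ℤ) (fun i : Idx S => qCoeff g (i : ℕ))).toRingHom s = 0 := by
    intro s hs
    by_contra h
    exact hcon0 ⟨s, hs, h⟩
  obtain ⟨ψ, hψ⟩ := exists_lift_of_ker (MvPolynomial.aeval (R := ℤ) (Tfam M' S hM'S)).toRingHom
    (aeval_Tfam_surjective M' S hM'S)
    (MvPolynomial.aeval (R := ℤ) (fun i : Idx S => qCoeff g (i : ℕ))).toRingHom hcon
  obtain ⟨h, hh, hcoef⟩ := exists_eigenform_of_character S hM'S ψ
  have hagree : ∀ ℓ : ℕ, ℓ.Prime → ℓ ∉ S → ¬ ℓ ∣ M → qCoeff h ℓ = qCoeff g ℓ := by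
    intro ℓ hℓ hℓS _
    have h1 := hcoef ⟨ℓ, hℓ, hℓS⟩
    have h2 := hψ (MvPolynomial.X ⟨ℓ, hℓ, hℓS⟩)
    have e1 : (MvPolynomial.aeval (R := ℤ) (Tfam M' S hM'S)).toRingHom (MvPolynomial.X ⟨ℓ, hℓ, hℓS⟩) =
        Tfam M' S hM'S ⟨ℓ, hℓ, hℓS⟩ := MvPolynomial.aeval_X _ _
    have e2 : (MvPolynomial.aeval (R := ℤ) (fun i : Idx S => qCoeff g (i : ℕ))).toRingHom
        (MvPolynomial.X ⟨ℓ, hℓ, hℓS⟩) = qCoeff g ℓ := MvPolynomial.aeval_X _ _
    rw [e1, e2] at h2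
    rw [h1, h2]
  have hall := Fermat.Agent.ES.N35.StrongMult2.qCoeff_eq_of_agree hdvd hg.1 hh S hagree
  exact hg.2 M' hdvd hne ⟨h, hh, hall⟩

end Fermat.Agent.ES.N35.SepPoly2
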