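/-
Program O (S35), brick B1b support (helper15): **(C) surjectivity at the `ModelDefs9` data**

  `B_i = φ(B_i^{M'}) + (B_i ∩ π O_j)`   for `(O_j, φ) = (O1, alpha)` and `(O2, beta)`, `i = 0, 1`

(`B_i / 𝔭_j ≅ B_i^{M'} / π`), for all large normal number fields `K` and every uniformiser `π`.
This is the intermediate statement `CompHyp16.surj_of_data` of Program N's (C-prin) proof, which
`CompGauss16.branchPrincipal_gauss` / `PrinItems12` consume internally but do not export.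

* `surj_gauss` : generic Gauss layer, the hypotheses of `CompGauss16.branchPrincipal_gauss`
  ⊢ `∀ y ∈ chart O t, ∃ b : chart O t_M, ∃ c ∈ O_j, y - φ b = π c`;
* `SurjItems n e q M' A K` : the four statements at `K`; `surjItems_at` from the same four per-`K`
  inputs as `PrinItems12.prinItems_at`; `surjItems_four/_nine : Large (SurjItems …)` unconditional.

Consumer: helper21's `FrobNode21` (`σ² ≡ q²`-power on `B / 𝔪` at the two-branch points).
-/
import Mathlib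
import Fermat.Agent.ES.N34.PrinItems12
import Fermat.Agent.ES.N34.ModelEnd4
import Fermat.Agent.ES.N34.ItemsAd6
import Fermat.Agent.ES.N34.CombA26

set_option autoImplicit false
set_option synthInstance.maxHeartbeats 400000
set_option linter.unusedSectionVars false

noncomputable section

open HahnSeries ModularCurve IntermediateField

namespace Fermat.Agent.ES.N35.SurjModel15

/-! ### Generic Gauss layer -/

section Generic

open Fermat.Agent.RED.PUR.GaussGen8 Fermat.Agent.RED.PUR.KtGauss8 Fermat.Agent.RED.PUR.G1Package8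
  Fermat.Agent.RED.PUR.ChartGeneric22 Fermat.Agent.RED.ModelAsm4
  Fermat.Agent.ES.RED.FibreSurj17 Fermat.Agent.ES.N34.CompHyp16 Fermat.Agent.ES.N34.CompGauss16
  Fermat.Agent.ES.N34.GaussEmb22

variable {K : Type*} [Field K] [CharZero K] {O : ValuationSubring K} [IsDiscreteValuationRing ↥O]
  {π : ↥O} {EM : IntermediateField K (LaurentSeries K)}
  {F : Type*} [Field F] [Algebra K F] [Algebra ↥O F] [IsScalarTower ↥O K F]

/-- **(C), surjectivity, Gauss level**: same hypotheses as `CompGauss16.branchPrincipal_gauss`. -/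
theorem surj_gauss (hπ : Irreducible π) (hEM : EM ≤ fracField O)
    (tM : ↥EM) (htM : (tM : LaurentSeries K) ∈ gaussRing O)
    (htrM : Transcendental (Res O) (gaussRed O ⟨(tM : LaurentSeries K), htM⟩))
    {n' : ℕ} (hn' : relfinrank (Kt O ⟨(tM : LaurentSeries K), htM⟩) EM ≠ 0)
    (hdegM : DegLe O EM ⟨(tM : LaurentSeries K), htM⟩ n')
    (hirrM : Irr O EM ⟨(tM : LaurentSeries K), htM⟩ n')
    (hsm : SmoothChart O EM π tM)
    (φ : ↥EM →ₐ[K] F) (t : F) {ι : F →ₐ[K] LaurentSeries K} {Oj : ValuationSubring F}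
    (hOj : IsGaussPullback O ι Oj)
    (leO : ∀ x ∈ chart ↥O t, x ∈ Oj)
    (hφO : ∀ z : ↥EM, φ z ∈ Oj ↔ z ∈ OvE O hπ EM hEM)
    (hy : φ tM ∈ chart ↥O t)
    (htw : ∃ w : ↥(chart ↥O tM), ∃ o ∈ Oj, t - φ (w : ↥EM) = algebraMap ↥O F π * o)
    (hcomb : ∀ x ∈ Oj, ∃ z ∈ OvE O hπ EM hEM, ∃ c ∈ Oj, x - φ z = algebraMap ↥O F π * c) :
    ∀ y ∈ chart ↥O t, ∃ b : ↥(chart ↥O tM), ∃ c ∈ Oj,
      y - φ (b : ↥EM) = algebraMap ↥O F π * c := by
  have : IsScalarTower ↥O K ↥EM := Fermat.Agent.RED.NumInst4.isScalarTower_OE O EM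
  have hpi : (algebraMap ↥O F π)⁻¹ ∉ Oj := by
    rw [algebraMap_O_eq]; exact pi_inv_not_mem hOj hπ
  have hunif : ∀ x ∈ Oj, x⁻¹ ∉ Oj → ∃ c ∈ Oj, x = algebraMap ↥O F π * c := by
    intro x hx hxi
    rw [algebraMap_O_eq]; exact unif hOj hπ x hx hxi
  have hφB : ∀ b : ↥(chart ↥O tM), chartHom (restrictO (O := O) φ) (chart ↥O tM) b ∈ chart ↥O t :=
    hφB_of_chart (restrictO (O := O) φ) (chart ↥O tM) (chart ↥O t) tM t (fun _ hb => hb)
      (fun _ hy => hy) hy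
  have hint := hint_of_chart (chartHom (restrictO (O := O) φ) (chart ↥O tM)) π Oj (chart ↥O t) leO t
    (self_mem_chart t) (fun _ hy => hy) (fun b => leO _ (hφB b))
    (by obtain ⟨w, o, ho, hw⟩ := htw; exact ⟨w, o, ho, hw⟩)
  have hD := isDedekindDomain_quotient hπ hEM tM htM htrM hn' hdegM hirrM hsm
  have hprime := isPrime_span_pi hπ hEM tM htM htrM hdegM hirrM
  have hdom : IsDomain (↥(chart ↥O tM) ⧸
      (Ideal.span {algebraMap ↥O ↥(chart ↥O tM) π} : Ideal ↥(chart ↥O tM))) :=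
    Ideal.Quotient.isDomain _
  have hic : IsIntegrallyClosed (↥(chart ↥O tM) ⧸
      (Ideal.span {algebraMap ↥O ↥(chart ↥O tM) π} : Ideal ↥(chart ↥O tM))) :=
    inferInstance
  exact surj_of_data π (restrictO (O := O) φ) (chart ↥O tM) (OvE O hπ EM hEM)
    (chart ↥O t) Oj leO hpi hunif hφB hint (fun z hz => (hφO z).mp hz)
    (fun z hz => (hφO z).mpr hz) (levelM_le hπ hEM tM htM)
    (levelM_sat hπ hEM tM htM htrM hdegM hirrM) (levelM_loc hπ hEM tM htM htrM hdegM hirrM)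
    hcomb

end Generic

/-! ### The `ModelDefs9` data -/

section Concrete

open Fermat.Agent.RED.Interface4 Fermat.Agent.RED.PUR.GaussGen8 Fermat.Agent.RED.PUR.KtGauss8
  Fermat.Agent.RED.PUR.G1Package8 Fermat.Agent.RED.BASE.EtaQuot12
  Fermat.Agent.RED.PUR.ChartGeneric22
  Fermat.Agent.ES.N34.ModelDefs9 Fermat.Agent.ES.N34.ModelN4 Fermat.Agent.ES.N34.LevelM20
  Fermat.Agent.ES.N34.PrinItems12

variable (n e q M' : ℕ) [NeZero n] [NeZero M'] [NeZero q] (A : ValuationSubring Qbar)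

/-- **(C) surjectivity ×4 at `K`**: `B_i = φ(B_i^{M'}) + (B_i ∩ π O_j)`. -/
def SurjItems (K : IntermediateField ℚ Qbar) : Prop :=
  ∀ (ht : tq (↥K) n e ∈ FK M' K) (hE : FK (M' * q) K ≤ fracField (AK A K))
    (π : ↥(AK A K)) (hπ : IsUnif (AK A K) π),
    (∀ y ∈ B0 A q ht, ∃ b : ↥(B0M A ht), ∃ c ∈ O1 M' q hπ hE,
      y - alpha K M' q (b : ↥(FK M' K)) = algebraMap ↥(AK A K) ↥(FK (M' * q) K) π * c) ∧
    (∀ y ∈ B0 A q ht, ∃ b : ↥(B0M A ht), ∃ c ∈ O2 M' q hπ hE,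
      y - beta K M' q (b : ↥(FK M' K)) = algebraMap ↥(AK A K) ↥(FK (M' * q) K) π * c) ∧
    (∀ y ∈ B1 A q ht, ∃ b : ↥(B1M A ht), ∃ c ∈ O1 M' q hπ hE,
      y - alpha K M' q (b : ↥(FK M' K)) = algebraMap ↥(AK A K) ↥(FK (M' * q) K) π * c) ∧
    (∀ y ∈ B1 A q ht, ∃ b : ↥(B1M A ht), ∃ c ∈ O2 M' q hπ hE,
      y - beta K M' q (b : ↥(FK M' K)) = algebraMap ↥(AK A K) ↥(FK (M' * q) K) π * c)

variable {n e q M' A}

set_option maxHeartbeats 4000000 in
/-- **(C) surjectivity ×4 at one `K`** (same inputs as `PrinItems12.prinItems_at`). -/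
theorem surjItems_at (hq : q.Prime) (hqM : ¬ q ∣ M') (hA : A.LiesOverPrime q)
    (K : IntermediateField ℚ Qbar) [Normal ℚ K] [FiniteDimensional ℚ K]
    (hL : LevelItems n e M' A K) (hG : GlueItems n e q M' A K) (hS2 : ModEqItems n e q M' A K)
    (hC : HcombItems n e q M' A K) : SurjItems n e q M' A K := by
  intro ht hE π hπ
  have hdvr : IsDiscreteValuationRing ↥(AK A K) :=
    Fermat.Agent.RED.DESC.NumberFieldDVR27.isDiscreteValuationRing_AK A K hq.ne_zero hA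
  have hirr : Irreducible π := (IsDiscreteValuationRing.irreducible_iff_uniformizer π).mpr hπ.max_eq
  have : Fact q.Prime := ⟨hq⟩
  have : CharP (Res (AK A K)) q :=
    Fermat.Agent.RED.DESC.NumberFieldDVR27.charP_residueField_AK A K hq hA
  obtain ⟨_, _, hLM⟩ := hL
  obtain ⟨L0, L1⟩ := hLM π hirr
  have L0' : LevelM (AK A K) (FK M' K) π (tM ht) := L0
  have L1' : LevelM (AK A K) (FK M' K) π (tM ht)⁻¹ := L1
  obtain ⟨n0, hd0, hi0⟩ := L0'.deg_irr
  obtain ⟨n1, hd1, hi1⟩ := L1'.deg_irr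
  have glue := hG ht hE π hπ
  obtain ⟨hy0, hy1⟩ := hS2 ht
  -- the isometry
  have hiso : ∀ x : FK M' K, (x : LaurentSeries ↥K) ∈ gaussRing (AK A K) ↔
      ((Fermat.Agent.ES.N34.FrickeFK8.frickeFK M' K x : FK M' K) : LaurentSeries ↥K) ∈
        gaussRing (AK A K) :=
    fun x => Fermat.Agent.ES.N34.IsoM25.isoM A K M' q hirr hqM x
  -- `hφO`
  have haO : ∀ z : ↥(FK M' K), alpha K M' q z ∈ O1 M' q hπ hE ↔
      z ∈ OvE (AK A K) hirr (FK M' K) L0'.hEM := fun z =>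
    (Fermat.Agent.ES.N34.BranchInt5.alpha_mem_O1_iff M' q hπ hE z).trans
      (mem_OvE_iff (AK A K) hirr (FK M' K) L0'.hEM z).symm
  have hbO : ∀ z : ↥(FK M' K), beta K M' q z ∈ O2 M' q hπ hE ↔
      z ∈ OvE (AK A K) hirr (FK M' K) L0'.hEM := fun z =>
    (Fermat.Agent.ES.N34.BranchInt5.beta_mem_O2_iff M' q hπ hE hiso z).trans
      (mem_OvE_iff (AK A K) hirr (FK M' K) L0'.hEM z).symm
  -- `hcomb`
  have hc1' := hC ht hE π hπ
  have hc2' := Fermat.Agent.ES.N34.CombW5.hcomb_O2_of_O1 M' q hπ hE hiso hc1'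
  have hc1 : ∀ x ∈ O1 M' q hπ hE, ∃ z ∈ OvE (AK A K) hirr (FK M' K) L0'.hEM,
      ∃ c ∈ O1 M' q hπ hE,
        x - alpha K M' q z = algebraMap ↥(AK A K) ↥(FK (M' * q) K) π * c := by
    intro x hx
    obtain ⟨z, hz, c, hc, h⟩ := hc1' x hx
    exact ⟨z, (mem_OvE_iff (AK A K) hirr (FK M' K) L0'.hEM z).mpr hz, c, hc, h⟩
  have hc2 : ∀ x ∈ O2 M' q hπ hE, ∃ z ∈ OvE (AK A K) hirr (FK M' K) L0'.hEM,
      ∃ c ∈ O2 M' q hπ hE,
        x - beta K M' q z = algebraMap ↥(AK A K) ↥(FK (M' * q) K) π * c := by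
    intro x hx
    obtain ⟨z, hz, c, hc, h⟩ := hc2' x hx
    exact ⟨z, (mem_OvE_iff (AK A K) hirr (FK M' K) L0'.hEM z).mpr hz, c, hc, h⟩
  -- (K) at the single elements `tM`, `tM⁻¹`
  obtain ⟨ψ, hψO, hψ⟩ := Fermat.Agent.ES.N34.KronChart15.exists_frobInv A K q hq hA
  have hb0 : ((Fermat.Agent.ES.N34.FrickeFK8.frickeFK M' K (tM ht) : FK M' K) : LaurentSeries ↥K) ∈
      gaussRing (AK A K) := (hiso (tM ht)).mp L0'.htM
  have hb1 : ((Fermat.Agent.ES.N34.FrickeFK8.frickeFK M' K (tM ht)⁻¹ : FK M' K) :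
      LaurentSeries ↥K) ∈ gaussRing (AK A K) := (hiso (tM ht)⁻¹).mp L1'.htM
  have k0 := Fermat.Agent.ES.N34.KronChart15.hK0 M' q hπ hE ψ hψO hψ ht hb0
  have k1 := Fermat.Agent.ES.N34.KronChart15.hK1 M' q hπ hE ψ hψO hψ ht hb1
  -- Gauss pull-backs
  have hO1 := Fermat.Agent.ES.N34.ModelGlue22.isGaussPullback_O1 (A := A) (K := K) M' q hπ hE
  have hO2 := Fermat.Agent.ES.N34.ModelGlue22.isGaussPullback_O2 (A := A) (K := K) M' q hπ hE
  have hinv : alpha K M' q (tM ht)⁻¹ = (tN q ht)⁻¹ := by rw [map_inv₀]; rfl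
  refine ⟨?_, ?_, ?_, ?_⟩
  · exact surj_gauss hirr L0'.hEM (tM ht) L0'.htM L0'.htrM L0'.hn' hd0 hi0 L0'.hsm
      (alpha K M' q) (tN q ht) hO1 glue.le_O1_0 haO (self_mem_chart _)
      ⟨⟨tM ht, self_mem_chart _⟩, 0, (O1 M' q hπ hE).zero_mem, by
        show tN q ht - alpha K M' q (tM ht) = _
        rw [tN, sub_self, mul_zero]⟩ hc1
  · exact surj_gauss hirr L0'.hEM (tM ht) L0'.htM L0'.htrM L0'.hn' hd0 hi0 L0'.hsm
      (beta K M' q) (tN q ht) hO2 glue.le_O2_0 hbO hy0 k0 hc2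
  · exact surj_gauss hirr L0'.hEM (tM ht)⁻¹ L1'.htM L1'.htrM L1'.hn' hd1 hi1 L1'.hsm
      (alpha K M' q) (tN q ht)⁻¹ hO1 glue.le_O1_1 haO
      (by rw [hinv]; exact self_mem_chart _)
      ⟨⟨(tM ht)⁻¹, self_mem_chart _⟩, 0, (O1 M' q hπ hE).zero_mem, by
        show (tN q ht)⁻¹ - alpha K M' q (tM ht)⁻¹ = _
        rw [hinv, sub_self, mul_zero]⟩ hc1
  · exact surj_gauss hirr L0'.hEM (tM ht)⁻¹ L1'.htM L1'.htrM L1'.hn' hd1 hi1 L1'.hsm
      (beta K M' q) (tN q ht)⁻¹ hO2 glue.le_O2_1 hbO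
      (by rw [map_inv₀]; exact hy1) k1 hc2

/-- **(C) surjectivity, supplier theorem, abstract form.** -/
theorem surjItems_of (hq : q.Prime) (hqM : ¬ q ∣ M') (hA : A.LiesOverPrime q)
    (hL : Large (LevelItems n e M' A)) (hG : Large (GlueItems n e q M' A))
    (hS2 : Large (ModEqItems n e q M' A)) (hC : Large (HcombItems n e q M' A)) :
    Large (SurjItems n e q M' A) := by
  obtain ⟨K₀, hK₀, h⟩ := ((hL.and hG).and hS2).and hC
  refine ⟨K₀, hK₀, fun K _ hfd hle => ?_⟩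
  obtain ⟨⟨⟨a1, a2⟩, a3⟩, a4⟩ := h K hfd hle
  have := hfd
  exact surjItems_at hq hqM hA K a1 a2 a3 a4

/-- **(C) surjectivity, `q` odd** (`4 ∣ M'`, Hauptmodul `tq · 4 8`): unconditional. -/
theorem surjItems_four (hq : q.Prime) (hqM : ¬ q ∣ M') (hq2 : q ≠ 2) (hM : 4 ∣ M')
    (hA : A.LiesOverPrime q) : Large (SurjItems 4 8 q M' A) := by
  have hG : Large (GlueItems 4 8 q M' A) :=
    Fermat.Agent.ES.N34.ModelEnd4.glueItems hq hqM hA
      (Fermat.Agent.RED.ModelFinal4.jTarget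
        (Fermat.Agent.RED.BASE.MainCusp12.base_four M' hM).1.genBase)
  have hS2 : Large (ModEqItems 4 8 q M' A) :=
    Fermat.Agent.ES.N34.ItemsAd6.modEqItems_four hq hq2 hqM hA
      (Fermat.Agent.ES.N34.ModelTop4.chartItems_four hM hq hA) hG
  exact surjItems_of hq hqM hA (levelItems_four hq hqM hM hA) hG hS2
    (Fermat.Agent.ES.N34.CombA26.hcomb_four hq hqM hM hA)

/-- **(C) surjectivity, `q = 2`** (`9 ∣ M'`, Hauptmodul `tq · 9 3`): unconditional. -/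
theorem surjItems_nine [NeZero 2] (hqM : ¬ 2 ∣ M') (hM : 9 ∣ M') (hA : A.LiesOverPrime 2) :
    Large (SurjItems 9 3 2 M' A) := by
  have hG : Large (GlueItems 9 3 2 M' A) :=
    Fermat.Agent.ES.N34.ModelEnd4.glueItems Nat.prime_two hqM hA
      (Fermat.Agent.RED.ModelFinal4.jTarget
        (Fermat.Agent.RED.BASE.MainCusp12.base_nine M' hM).1.genBase)
  have hS2 : Large (ModEqItems 9 3 2 M' A) :=
    Fermat.Agent.ES.N34.ItemsAd6.modEqItems_nine hqM hA
      (Fermat.Agent.ES.N34.ModelTop4.chartItems_nine hM Nat.prime_two hA) hG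
  exact surjItems_of Nat.prime_two hqM hA (levelItems_nine Nat.prime_two hqM hM hA) hG hS2
    (Fermat.Agent.ES.N34.CombA26.hcomb_nine Nat.prime_two hqM hM hA)

end Concrete

end Fermat.Agent.ES.N35.SurjModel15
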